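import Fermat.Agent.DS.FiniteImage

/-!
# The complex representation attached to a system with bounded mod `ℓ` representations
-/

set_option autoImplicit false

noncomputable section

namespace FLTAgent.DS

open IsLocalRing Polynomial Finset

local notation "Γℚ" => AlgebraicClosure ℚ ≃ₐ[ℚ] AlgebraicClosure ℚ

theorem isIntegral_of_pow_eq_one {z : ℂ} {n : ℕ} (hn : 0 < n) (h : z ^ n = 1) : IsIntegral ℤ z :=
  ⟨(X ^ n - 1 : ℤ[X]), by simpa using monic_X_pow_sub_C (1 : ℤ) hn.ne', by simp [h]⟩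

/-- Roots of unity in the residue field come from roots of unity in `ℂ`. -/
theorem exists_root_lift {n : ℕ} (hn : 0 < n) (A : ValuationSubring ℂ) {z : ResidueField A}
    (hz : z ^ n = 1) : ∃ u : A, (u : ℂ) ^ n = 1 ∧ residue A u = z := by
  set ζ : ℂ := Complex.exp (2 * Real.pi * Complex.I / n) with hζ
  have hprim : IsPrimitiveRoot ζ n := Complex.isPrimitiveRoot_exp n hn.ne'
  have hroot : ∀ x ∈ Polynomial.nthRootsFinset n (1 : ℂ), x ∈ A := fun x hx =>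
    Frobenius.mem_of_isIntegral A
      (isIntegral_of_pow_eq_one hn ((Polynomial.mem_nthRootsFinset hn 1).1 hx))
  have hX : (X ^ n - 1 : A[X]) = ∏ x ∈ (Polynomial.nthRootsFinset n (1 : ℂ)).attach,
      (X - C (⟨x.1, hroot x.1 x.2⟩ : A)) := by
    refine Polynomial.map_injective A.subtype Subtype.coe_injective ?_
    rw [Polynomial.map_prod, Polynomial.map_sub, Polynomial.map_pow, Polynomial.map_X,
      Polynomial.map_one, X_pow_sub_one_eq_prod hn hprim, ← Finset.prod_attach]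
    exact Finset.prod_congr rfl fun x _ => by simp
  have h := congrArg (fun p => (p.map (residue A)).eval z) hX
  simp only [Polynomial.map_sub, Polynomial.map_pow, Polynomial.map_X, Polynomial.map_one,
    Polynomial.map_prod, Polynomial.map_C, eval_sub, eval_pow, eval_X, eval_one, eval_prod,
    eval_C, hz, sub_self] at h
  obtain ⟨x, -, hx⟩ := Finset.prod_eq_zero_iff.1 h.symm
  exact ⟨⟨x.1, hroot x.1 x.2⟩, (Polynomial.mem_nthRootsFinset hn 1).1 x.2, (sub_eq_zero.1 hx).symm⟩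

section

variable {K : IntermediateField ℚ ℂ} [FiniteDimensional ℚ K] {N : ℕ} {a e : ℕ → K}

/-- The conclusion at primes not dividing `N M`. -/
def IsAttached (a e : ℕ → ℂ) (N M : ℕ) (ρ : Γℚ →* GL (Fin 2) ℂ) : Prop :=
  ∀ p : ℕ, p.Prime → ¬ p ∣ N → p ≠ M →
    ∀ P : ValuationSubring (AlgebraicClosure ℚ), P.LiesOverPrime p →
      (∀ σ ∈ P.inertiaSubgroupIn ℚ, ρ σ = 1) ∧
      ∀ σ : Γℚ, P.IsFrobeniusAt σ p →
        (ρ σ : Matrix (Fin 2) (Fin 2) ℂ).trace = a p ∧ (ρ σ : Matrix (Fin 2) (Fin 2) ℂ).det = e p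

/-- A complex representation working outside one auxiliary prime, for every large such prime. -/
theorem SystemData.exists_rep_outside (D : SystemData K N a e) (hd : FrobeniusDensity) :
    ∃ B : ℕ, ∀ B' : ℕ, ∃ ℓ : ℕ, ℓ.Prime ∧ B' < ℓ ∧ ∃ ρ : Γℚ →* GL (Fin 2) ℂ,
      GaloisFactorsThroughFiniteLevel ρ ∧ (∀ g, ρ g ^ B = 1) ∧ 0 < B ∧
        IsAttached (fun p => (a p : ℂ)) (fun p => (e p : ℂ)) N ℓ ρ := by
  classical
  obtain ⟨B₀, B₁, hB₀, hB₀₁, hrep⟩ := D.exists_bounded_rep hd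
  set n := B₀.factorial with hn
  have hn0 : 0 < n := B₀.factorial_pos
  set U := Polynomial.nthRootsFinset n (1 : ℂ) with hU
  have memU : ∀ z, z ∈ U ↔ z ^ n = 1 := fun z => Polynomial.mem_nthRootsFinset hn0 1
  have intU : ∀ z ∈ U, IsIntegral ℤ z := fun z hz => isIntegral_of_pow_eq_one hn0 ((memU z).1 hz)
  set Wa := (U ×ˢ U).image fun u => u.1 + u.2 with hWa
  set We := (U ×ˢ U).image fun u => u.1 * u.2 with hWe
  -- values are exact sums and products of roots of unity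
  have hroots : ∀ ℓ : ℕ, ℓ.Prime → B₁ < ℓ → ∀ A : ValuationSubring ℂ,
      ∀ m : GL (Fin 2) (ResidueField A), (∃ k, 0 < k ∧ k ≤ B₀ ∧ m ^ k = 1) →
      IsAlgClosed (ResidueField A) →
      ∃ u v : A, (u : ℂ) ∈ U ∧ (v : ℂ) ∈ U ∧
        (m : Matrix (Fin 2) (Fin 2) (ResidueField A)).trace = residue A (u + v) ∧
        (m : Matrix (Fin 2) (Fin 2) (ResidueField A)).det = residue A (u * v) := by
    intro ℓ _ _ A m ⟨k, hk0, hk, hmk⟩ _
    have hmn : m ^ n = 1 := by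
      obtain ⟨r, hr⟩ := Nat.dvd_factorial hk0 hk
      rw [hn, hr, pow_mul, hmk, one_pow]
    obtain ⟨x, y, hx, hy, ht, hdt⟩ := exists_roots_of_pow_eq_one hmn
    obtain ⟨u, hu, rfl⟩ := exists_root_lift hn0 A hx
    obtain ⟨v, hv, rfl⟩ := exists_root_lift hn0 A hy
    exact ⟨u, v, (memU _).2 hu, (memU _).2 hv, by rw [ht, map_add], by rw [hdt, map_mul]⟩
  have hval : ∀ p : ℕ, p.Prime → ¬ p ∣ N → (a p : ℂ) ∈ Wa ∧ (e p : ℂ) ∈ We := by
    intro p hp hpN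
    obtain ⟨hia, hie⟩ := D.isIntegral p hp hpN
    obtain ⟨b, hb⟩ := exists_bound_separating
      (Wa.image (fun w => (a p : ℂ) - w) ∪ We.image (fun w => (e p : ℂ) - w)) fun z hz => by
        simp only [hWa, hWe, Finset.mem_union, Finset.mem_image, Finset.mem_product] at hz
        rcases hz with ⟨w, ⟨u, ⟨h1, h2⟩, rfl⟩, rfl⟩ | ⟨w, ⟨u, ⟨h1, h2⟩, rfl⟩, rfl⟩
        · exact hia.sub ((intU _ h1).add (intU _ h2))
        · exact hie.sub ((intU _ h1).mul (intU _ h2))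
    obtain ⟨ℓ, hℓ, hℓb, A, hA, hdeg⟩ := exists_degreeOne_valuation K (max B₁ (max b p))
    simp only [max_lt_iff] at hℓb
    obtain ⟨ρ, -, hexp, hρ⟩ := hrep ℓ hℓ hℓb.1 A hA hdeg
    obtain ⟨P, σ, hP, hσ⟩ := Frobenius.exists_liesOverPrime_isFrobeniusAt hp
    obtain ⟨x, y, hx, hy, htr, hdet⟩ := (hρ p hp hpN hℓb.2.2.ne P hP).2 σ hσ
    obtain ⟨u, v, hu, hv, ht, hdt⟩ := hroots ℓ hℓ hℓb.1 A (ρ σ) (hexp σ) (isAlgClosed_residue A)
    have h1 : (a p : ℂ) - ((u : ℂ) + v) = 0 := by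
      refine hb ℓ hℓ hℓb.2.1 A hA _ (Finset.mem_union_left _ (Finset.mem_image.2 ⟨_,
        Finset.mem_image.2 ⟨((u : ℂ), (v : ℂ)), Finset.mem_product.2 ⟨hu, hv⟩, rfl⟩, rfl⟩)) ?_
      have := (residue_eq_iff x (u + v)).1 (htr.symm.trans ht)
      simpa [hx] using this
    have h2 : (e p : ℂ) - ((u : ℂ) * v) = 0 := by
      refine hb ℓ hℓ hℓb.2.1 A hA _ (Finset.mem_union_right _ (Finset.mem_image.2 ⟨_,
        Finset.mem_image.2 ⟨((u : ℂ), (v : ℂ)), Finset.mem_product.2 ⟨hu, hv⟩, rfl⟩, rfl⟩)) ?_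
      have := (residue_eq_iff y (u * v)).1 (hdet.symm.trans hdt)
      simpa [hy] using this
    rw [sub_eq_zero] at h1 h2
    exact ⟨Finset.mem_image.2 ⟨((u : ℂ), (v : ℂ)), Finset.mem_product.2 ⟨hu, hv⟩, h1.symm⟩,
      Finset.mem_image.2 ⟨((u : ℂ), (v : ℂ)), Finset.mem_product.2 ⟨hu, hv⟩, h2.symm⟩⟩
  -- one large prime
  obtain ⟨b, hb⟩ := exists_bound_separating
    ((Wa ×ˢ Wa).image (fun w => w.1 - w.2) ∪ (We ×ˢ We).image (fun w => w.1 - w.2)) fun z hz => by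
      simp only [hWa, hWe, Finset.mem_union, Finset.mem_image, Finset.mem_product] at hz
      rcases hz with ⟨w, ⟨⟨u, ⟨h1, h2⟩, h⟩, ⟨v, ⟨h3, h4⟩, h'⟩⟩, rfl⟩ |
        ⟨w, ⟨⟨u, ⟨h1, h2⟩, h⟩, ⟨v, ⟨h3, h4⟩, h'⟩⟩, rfl⟩ <;> rw [← h, ← h']
      · exact ((intU _ h1).add (intU _ h2)).sub ((intU _ h3).add (intU _ h4))
      · exact ((intU _ h1).mul (intU _ h2)).sub ((intU _ h3).mul (intU _ h4))
  refine ⟨n, fun B' => ?_⟩
  obtain ⟨ℓ, hℓ, hℓb, A, hA, hdeg⟩ := exists_degreeOne_valuation K (max (max B₁ b) (max B' 2))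
  simp only [max_lt_iff] at hℓb
  obtain ⟨ρb, hfin, hexp, hρb⟩ := hrep ℓ hℓ hℓb.1.1 A hA hdeg
  refine ⟨ℓ, hℓ, hℓb.2.1, ?_⟩
  haveI := charP_residue hℓ hA
  haveI := finite_range_of_factors hfin
  let G := ρb.range
  letI : Fintype G := Fintype.ofFinite G
  have hGn : ∀ x : G, x ^ n = 1 := by
    rintro ⟨_, σ, rfl⟩
    obtain ⟨k, hk0, hk, hσk⟩ := hexp σ
    obtain ⟨r, hr⟩ := Nat.dvd_factorial hk0 hk
    exact Subtype.ext (by simp only [SubmonoidClass.coe_pow, hn, hr, pow_mul, hσk, one_pow,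
      OneMemClass.coe_one])
  have hcard : (Fintype.card G : ResidueField A) ≠ 0 := by
    rw [Ne, CharP.cast_eq_zero_iff _ ℓ]
    intro hdvd
    haveI := Fact.mk hℓ
    obtain ⟨x, hx⟩ := exists_prime_orderOf_dvd_card ℓ hdvd
    have h1 := hx ▸ orderOf_dvd_of_pow_eq_one (hGn x)
    have h2 := (Nat.Prime.dvd_factorial hℓ).1 h1
    omega
  have h2k : (2 : ResidueField A) ≠ 0 := by
    rw [← Nat.cast_ofNat, Ne, CharP.cast_eq_zero_iff _ ℓ]
    intro h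
    have := Nat.le_of_dvd two_pos h
    omega
  obtain ⟨ρ, hρ⟩ := exists_lift A hcard h2k G.subtype
  refine ⟨ρ.comp ρb.rangeRestrict, ?_, fun g => ?_, hn0, fun p hp hpN hpl P hP => ?_⟩
  · obtain ⟨L, hL, h⟩ := hfin
    exact ⟨L, hL, fun σ hσ => by
      rw [MonoidHom.comp_apply, show ρb.rangeRestrict σ = 1 from Subtype.ext (h σ hσ), map_one]⟩
  · rw [MonoidHom.comp_apply, ← map_pow, hGn, map_one]
  obtain ⟨hin, hfr⟩ := hρb p hp hpN hpl P hP
  refine ⟨fun σ hσ => by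
    rw [MonoidHom.comp_apply, show ρb.rangeRestrict σ = 1 from Subtype.ext (hin σ hσ), map_one],
    fun σ hσ => ?_⟩
  obtain ⟨x, y, hx, hy, htr, hdet⟩ := hfr σ hσ
  obtain ⟨⟨x', hx', hx'r⟩, y', hy', hy'r⟩ := hρ (ρb.rangeRestrict σ)
  -- the lifted values are sums and products of roots of unity
  obtain ⟨u, v, hu, hv, hut, hud⟩ := exists_roots_of_pow_eq_one
    (m := ρ (ρb.rangeRestrict σ)) (M := n) (by rw [← map_pow, hGn, map_one])
  obtain ⟨hap, hep⟩ := hval p hp hpN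
  have ht0 : (x' : ℂ) - (a p : ℂ) = 0 := by
    refine hb ℓ hℓ hℓb.1.2 A hA _ (Finset.mem_union_left _ (Finset.mem_image.2
      ⟨((x' : ℂ), (a p : ℂ)), Finset.mem_product.2 ⟨?_, hap⟩, rfl⟩)) ?_
    · exact Finset.mem_image.2 ⟨(u, v), Finset.mem_product.2 ⟨(memU _).2 hu, (memU _).2 hv⟩,
        (hx'.trans hut).symm⟩
    · rw [← hx]; exact (residue_eq_iff _ _).1 (hx'r.trans htr)
  have hd0 : (y' : ℂ) - (e p : ℂ) = 0 := by
    refine hb ℓ hℓ hℓb.1.2 A hA _ (Finset.mem_union_right _ (Finset.mem_image.2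
      ⟨((y' : ℂ), (e p : ℂ)), Finset.mem_product.2 ⟨?_, hep⟩, rfl⟩)) ?_
    · exact Finset.mem_image.2 ⟨(u, v), Finset.mem_product.2 ⟨(memU _).2 hu, (memU _).2 hv⟩,
        (hy'.trans hud).symm⟩
    · rw [← hy]; exact (residue_eq_iff _ _).1 (hy'r.trans hdet)
  rw [sub_eq_zero] at ht0 hd0
  exact ⟨hx'.symm.trans ht0, hy'.symm.trans hd0⟩

/-- The Deligne–Serre representation. -/
theorem SystemData.exists_galoisRep (D : SystemData K N a e) (hd : FrobeniusDensity) :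
    ∃ ρ : Γℚ →* GL (Fin 2) ℂ, GaloisFactorsThroughFiniteLevel ρ ∧
      ∀ p : ℕ, p.Prime → ¬ p ∣ N → ∀ P : ValuationSubring (AlgebraicClosure ℚ), P.LiesOverPrime p →
        (∀ σ ∈ P.inertiaSubgroupIn ℚ, ρ σ = 1) ∧
        ∀ σ : Γℚ, P.IsFrobeniusAt σ p →
          (ρ σ : Matrix (Fin 2) (Fin 2) ℂ).trace = a p ∧
          (ρ σ : Matrix (Fin 2) (Fin 2) ℂ).det = e p := by
  classical
  obtain ⟨B, hB⟩ := D.exists_rep_outside hd
  obtain ⟨ℓ₀, hℓ₀, -, ρ, hfin, hexp, hB0, hatt⟩ := hB 0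
  obtain ⟨ℓ₁, hℓ₁, hlt, ρ', hfin', -, -, hatt'⟩ := hB ℓ₀
  set J : Γℚ →* GL (Fin 2) ℂ × GL (Fin 2) ℂ := ρ.prod ρ' with hJ
  have hJf : GaloisFactorsThroughFiniteLevel J := by
    obtain ⟨L, hL, h⟩ := hfin
    obtain ⟨L', hL', h'⟩ := hfin'
    haveI := hL; haveI := hL'
    exact ⟨L ⊔ L', inferInstance, fun σ hσ => Prod.ext (h σ fun x hx => hσ x (le_sup_left (b := L') hx))
      (h' σ fun x hx => hσ x (le_sup_right (a := L) hx))⟩
  haveI := finite_range_of_factors hJf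
  letI : Fintype J.range := Fintype.ofFinite _
  have key : ∀ g, (ρ g : Matrix (Fin 2) (Fin 2) ℂ).trace = (ρ' g : Matrix (Fin 2) (Fin 2) ℂ).trace ∧
      (ρ g : Matrix (Fin 2) (Fin 2) ℂ).det = (ρ' g : Matrix (Fin 2) (Fin 2) ℂ).det := by
    intro g
    have hJf' : GaloisFactorsThroughFiniteLevel J.rangeRestrict := by
      obtain ⟨L, hL, h⟩ := hJf
      exact ⟨L, hL, fun σ hσ => Subtype.ext (h σ hσ)⟩
    obtain ⟨p, hp, hp0, P, hP, σ, hσ, hconj⟩ := hd.exists_isConj J.rangeRestrict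
      (MonoidHom.rangeRestrict_surjective J) hJf' (J.rangeRestrict g)
      (insert ℓ₀ (insert ℓ₁ N.divisors))
    simp only [Finset.mem_insert, Nat.mem_divisors, not_or, not_and, not_not] at hp0
    have hpN : ¬ p ∣ N := fun h => D.ne_zero (hp0.2.2 h)
    obtain ⟨c, hc⟩ := isConj_iff.1 hconj
    have h1 : (c.1.1 * ρ g * c.1.1⁻¹ = ρ σ) ∧ (c.1.2 * ρ' g * c.1.2⁻¹ = ρ' σ) :=
      ⟨congrArg (fun z : J.range => z.1.1) hc, congrArg (fun z : J.range => z.1.2) hc⟩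
    have e1 := ((hatt p hp hpN hp0.1 P hP).2 σ hσ)
    have e2 := ((hatt' p hp hpN hp0.2.1 P hP).2 σ hσ)
    rw [← h1.1, Units.val_mul, Units.val_mul, Matrix.trace_units_conj, Matrix.det_units_conj] at e1
    rw [← h1.2, Units.val_mul, Units.val_mul, Matrix.trace_units_conj, Matrix.det_units_conj] at e2
    exact ⟨e1.1.trans e2.1.symm, e1.2.trans e2.2.symm⟩
  refine ⟨ρ, hfin, fun p hp hpN P hP => ?_⟩
  by_cases hpl : p = ℓ₀
  · obtain ⟨hin, hfr⟩ := hatt' p hp hpN (by omega) P hP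
    refine ⟨fun σ hσ => ?_, fun σ hσ => ?_⟩
    · refine eq_one_of_trace_det (isOfFinOrder_iff_pow_eq_one.2 ⟨B, hB0, hexp σ⟩) ?_ ?_
      · rw [(key σ).1, hin σ hσ]; simp
      · rw [(key σ).2, hin σ hσ]; simp
    · rw [(key σ).1, (key σ).2]; exact hfr σ hσ
  · exact hatt p hp hpN hpl P hP

end

end FLTAgent.DS
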