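import Fermat.Agent.DS.FiniteImage
import Fermat.Agent.Chebotarev.Main

/-!
# The density hypothesis from Chebotarev's theorem
-/

set_option autoImplicit false

noncomputable section

namespace FLTAgent.DS

local notation "Qbar" => AlgebraicClosure ℚ
local notation "Γℚ" => AlgebraicClosure ℚ ≃ₐ[ℚ] AlgebraicClosure ℚ

theorem card_preimage_of_surjective {A B : Type} [Group A] [Group B] [Finite A] [Finite B]
    (f : A →* B) (hf : Function.Surjective f) (C : Set B) :
    (f ⁻¹' C).ncard = C.ncard * Nat.card f.ker := by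
  classical
  have := Fintype.ofFinite A
  have := Fintype.ofFinite B
  have hfib : ∀ c ∈ C.toFinset,
      (Finset.univ.filter fun a => f a = c).card = Nat.card f.ker := by
    intro c _
    obtain ⟨a₀, rfl⟩ := hf c
    rw [← Fintype.card_subtype, ← Nat.card_eq_fintype_card]
    refine Nat.card_congr ((Equiv.mulRight a₀⁻¹).subtypeEquiv fun a ↦ ?_)
    rw [MonoidHom.mem_ker]
    simp [mul_inv_eq_one]
  rw [Set.ncard_eq_toFinset_card', Set.ncard_eq_toFinset_card',
    Finset.card_eq_sum_card_fiberwise (f := f) (t := C.toFinset) fun a ha => by simpa using ha,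
    Finset.sum_congr rfl (g := fun _ => Nat.card f.ker) fun c hc => ?_, Finset.sum_const, smul_eq_mul]
  rw [← hfib c hc]
  congr 1
  ext a
  simp only [Finset.mem_filter, Set.mem_toFinset, Set.mem_preimage, Finset.mem_univ, true_and]
  exact ⟨fun h => h.2, fun h => ⟨h.symm ▸ Set.mem_toFinset.1 hc, h⟩⟩

/-- The density hypothesis holds. -/
theorem frobeniusDensity : FrobeniusDensity := by
  intro H _ _ φ hs hf C hC S₀ δ hδ
  classical
  have : Normal ℚ Qbar := Chebotarev.normal_qbar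
  obtain ⟨L, hL, hfix⟩ := hf
  haveI := hL
  let F := IntermediateField.normalClosure ℚ L Qbar
  have : Normal ℚ F := normalClosure.normal ℚ L Qbar
  have : FiniteDimensional ℚ F := normalClosure.is_finiteDimensional ℚ L Qbar
  let r := AlgEquiv.restrictNormalHom (F := ℚ) (K₁ := Qbar) F
  have hr : Function.Surjective r := AlgEquiv.restrictNormalHom_surjective (F := ℚ) (E := Qbar)
  have hker : r.ker ≤ φ.ker := by
    intro σ hσ
    refine hfix σ fun x hx => ?_
    have h1 : σ ∈ F.fixingSubgroup := by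
      rw [← IntermediateField.restrictNormalHom_ker (K := ℚ) (L := Qbar) F]; exact hσ
    exact (IntermediateField.mem_fixingSubgroup_iff F σ).1 h1 x (L.le_normalClosure hx)
  let ψ : (F ≃ₐ[ℚ] F) →* H := MonoidHom.liftOfSurjective r hr ⟨φ, hker⟩
  have hψ : ∀ σ, ψ (r σ) = φ σ := MonoidHom.liftOfRightInverse_comp_apply _ _ _ _
  have hψs : Function.Surjective ψ := fun h => by
    obtain ⟨σ, rfl⟩ := hs h
    exact ⟨r σ, hψ σ⟩
  obtain ⟨B, hB⟩ := Chebotarev.exists_frobSet_density F (ψ ⁻¹' (C : Set H))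
    (fun c hc g => by
      simp only [Set.mem_preimage, Finset.mem_coe, map_mul, map_inv] at hc ⊢
      exact hC _ _ hc) S₀ hδ
  have hratio : ((ψ ⁻¹' (C : Set H)).ncard : ℝ) / Nat.card (F ≃ₐ[ℚ] F)
      = (C.card : ℝ) / Fintype.card H := by
    have h1 : Nat.card (F ≃ₐ[ℚ] F) = Fintype.card H * Nat.card ψ.ker := by
      rw [← Subgroup.index_mul_card ψ.ker, Subgroup.index_ker,
        MonoidHom.range_eq_top_of_surjective ψ hψs, Subgroup.card_top, Nat.card_eq_fintype_card]
    rw [card_preimage_of_surjective ψ hψs, h1, Set.ncard_coe_finset, Nat.cast_mul, Nat.cast_mul,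
      mul_div_mul_right]
    exact_mod_cast Nat.card_pos.ne'
  refine ⟨B + 1, fun s hs1 hs2 => ?_⟩
  have hB' := hB s ⟨hs1, hs2⟩
  rw [hratio, ← Real.log_inv, ← one_div] at hB'
  set FS := Chebotarev.frobSet F {σ | AlgEquiv.restrictNormalHom F σ ∈ ψ ⁻¹' (C : Set H)} S₀
  obtain ⟨T, hT⟩ : ∃ T : Finset FS, (∑' p : FS, ((p.1 : ℕ) : ℝ) ^ (-s)) - 1
      ≤ ∑ p ∈ T, ((p.1 : ℕ) : ℝ) ^ (-s) := by
    by_cases hsum : Summable fun p : FS => ((p.1 : ℕ) : ℝ) ^ (-s)
    · obtain ⟨T, hT⟩ := Filter.eventually_atTop.1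
        (hsum.hasSum.eventually (eventually_gt_nhds (sub_one_lt _)))
      exact ⟨T, (hT T le_rfl).le⟩
    · exact ⟨∅, by rw [tsum_eq_zero_of_not_summable hsum]; simp⟩
  refine ⟨T.image fun p => (p.1 : ℕ), fun q hq => ?_, ?_⟩
  · obtain ⟨p, -, rfl⟩ := Finset.mem_image.1 hq
    obtain ⟨hpS, A, hA, -, σ, hσ, hσC⟩ := p.2
    refine ⟨p.1.2, hpS, A, hA, σ, hσ, ?_⟩
    have h2 : ψ (r σ) ∈ (C : Set H) := hσC
    rwa [hψ] at h2
  · rw [Finset.sum_image (g := fun p : FS => ((p.1 : Nat.Primes) : ℕ))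
      (fun a _ b _ h => Subtype.coe_injective (Nat.Primes.coe_nat_injective h))]
    linarith

end FLTAgent.DS
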