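import Fermat.Agent.DS.EisOne

/-!
# The difference `E_{1,φ}(τ) - E_{1,φ}(2τ)`

It is the Eisenstein series of level `2N` of the odd function `diffFun φ`; it starts with `φ 1 * q`.
-/

set_option autoImplicit false

noncomputable section

namespace FLTAgent.DS

open CongruenceSubgroup
open UpperHalfPlane hiding I
open scoped MatrixGroups ModularForm

variable {N : ℕ} [NeZero N]

/-- `j ↦ φ j - [2 ∣ j] φ (j / 2)`. -/
def diffFun (φ : ZMod N → ℂ) (j : ZMod (2 * N)) : ℂ :=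
  φ (j.val : ZMod N) - if 2 ∣ j.val then φ ((j.val / 2 : ℕ) : ZMod N) else 0

theorem diffFun_intCast (φ : ZMod N → ℂ) (r : ℤ) :
    diffFun φ (r : ZMod (2 * N)) = φ r - if (2 : ℤ) ∣ r then φ ((r / 2 : ℤ) : ZMod N) else 0 := by
  obtain ⟨t, hr⟩ : ∃ t : ℤ, (((r : ZMod (2 * N)).val : ℕ) : ℤ) + 2 * ((N : ℤ) * t) = r := by
    refine ⟨r / ((2 * N : ℕ) : ℤ), ?_⟩
    rw [ZMod.val_intCast, ← mul_assoc]
    exact_mod_cast Int.emod_add_mul_ediv r _
  rw [diffFun]
  generalize (r : ZMod (2 * N)).val = j at hr ⊢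
  subst hr
  have h2 : (2 : ℤ) ∣ (j : ℤ) + 2 * ((N : ℤ) * t) ↔ 2 ∣ j := by omega
  have h3 : ((j : ℤ) + 2 * ((N : ℤ) * t)) / 2 = ((j / 2 : ℕ) : ℤ) + (N : ℤ) * t := by omega
  simp only [h2, h3, Int.cast_add, Int.cast_mul, Int.cast_natCast, ZMod.natCast_self, zero_mul,
    mul_zero, add_zero]

theorem diffFun_natCast (φ : ZMod N → ℂ) (k : ℕ) :
    diffFun φ (k : ZMod (2 * N)) = φ k - if 2 ∣ k then φ ((k / 2 : ℕ) : ZMod N) else 0 := by
  have h := diffFun_intCast φ (k : ℤ)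
  have e : ((k : ℤ) / 2) = ((k / 2 : ℕ) : ℤ) := by omega
  simpa only [Int.cast_natCast, e, show ((2 : ℤ) ∣ (k : ℤ)) ↔ 2 ∣ k by omega] using h

theorem diffFun_odd {φ : ZMod N → ℂ} (hφ : φ.Odd) : (diffFun φ).Odd := by
  intro x
  obtain ⟨r, rfl⟩ := ZMod.intCast_surjective x
  rw [← Int.cast_neg, diffFun_intCast, diffFun_intCast, Int.cast_neg, hφ]
  by_cases h : (2 : ℤ) ∣ r
  · rw [if_pos h, if_pos (dvd_neg.2 h), Int.neg_ediv_of_dvd h, Int.cast_neg, hφ]; ring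
  · rw [if_neg h, if_neg fun e => h (dvd_neg.1 e)]; ring

theorem diffFun_unit_mul (χ : DirichletCharacter ℂ N) (u : (ZMod (2 * N))ˣ) (x : ZMod (2 * N)) :
    diffFun χ (u * x) = χ ((u : ZMod (2 * N)).cast : ZMod N) * diffFun χ x := by
  obtain ⟨a, ha⟩ := ZMod.intCast_surjective (u : ZMod (2 * N))
  obtain ⟨b, rfl⟩ := ZMod.intCast_surjective x
  have hodd : ¬(2 : ℤ) ∣ a := by
    intro h2
    have hu : IsUnit ((a : ZMod (2 * N)).cast : ZMod 2) := by
      rw [ha]; exact u.isUnit.map (ZMod.castHom (dvd_mul_right 2 N) (ZMod 2))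
    rw [ZMod.cast_intCast (dvd_mul_right 2 N), (ZMod.intCast_zmod_eq_zero_iff_dvd a 2).2 h2] at hu
    exact not_isUnit_zero hu
  rw [← ha, ← Int.cast_mul, diffFun_intCast, diffFun_intCast,
    ZMod.cast_intCast (dvd_mul_left N 2), Int.cast_mul, map_mul]
  by_cases h : (2 : ℤ) ∣ b
  · rw [if_pos h, if_pos (dvd_mul_of_dvd_right h a), Int.mul_ediv_assoc a h, Int.cast_mul, map_mul]
    ring
  · rw [if_neg h, if_neg fun e => h ((Int.prime_two.dvd_mul.1 e).resolve_left hodd)]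
    ring

/-- `E_{1,φ}(τ) - E_{1,φ}(2τ)`. -/
def eisDiff (φ : ZMod N → ℂ) : ModularForm (Gamma1 (2 * N) : Subgroup (GL (Fin 2) ℝ)) 1 :=
  eisOne (diffFun φ)

theorem qCoeff_eisDiff {φ : ZMod N → ℂ} (hφ : φ.Odd) {n : ℕ} (hn : n ≠ 0) :
    ModularFormClass.qCoeff (eisDiff φ) n = ∑ d ∈ n.divisors, φ d -
      if 2 ∣ n then ∑ d ∈ (n / 2).divisors, φ d else 0 := by
  rw [eisDiff, qCoeff_eisOne (diffFun_odd hφ) hn]
  simp only [diffFun_natCast, Finset.sum_sub_distrib]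
  congr 1
  rw [← Finset.sum_filter]
  by_cases h : 2 ∣ n
  · rw [if_pos h]
    refine Finset.sum_nbij' (fun d => d / 2) (fun d => 2 * d) ?_ ?_ ?_ ?_ ?_
    · intro d hd
      simp only [Finset.mem_filter, Nat.mem_divisors] at hd
      obtain ⟨⟨hd1, -⟩, k, rfl⟩ := hd
      simp only [Nat.mem_divisors, Nat.mul_div_cancel_left _ two_pos]
      exact ⟨(Nat.dvd_div_iff_mul_dvd h).2 hd1, by omega⟩
    · intro d hd
      simp only [Nat.mem_divisors] at hd
      simp only [Finset.mem_filter, Nat.mem_divisors]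
      exact ⟨⟨(Nat.dvd_div_iff_mul_dvd h).1 hd.1, hn⟩, dvd_mul_right 2 d⟩
    · intro d hd
      simp only [Finset.mem_filter] at hd
      exact Nat.mul_div_cancel' hd.2
    · intro d _
      exact Nat.mul_div_cancel_left _ two_pos
    · intro d _; rfl
  · rw [if_neg h, Finset.filter_eq_empty_iff.2 fun d hd e =>
      h (e.trans (Nat.dvd_of_mem_divisors hd)), Finset.sum_empty]

theorem qCoeff_eisDiff_one {φ : ZMod N → ℂ} (hφ : φ.Odd) :
    ModularFormClass.qCoeff (eisDiff φ) 1 = φ 1 := by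
  rw [qCoeff_eisDiff hφ one_ne_zero]; simp

theorem qCoeff_eisDiff_zero {φ : ZMod N → ℂ} (hφ : φ.Odd) :
    ModularFormClass.qCoeff (eisDiff φ) 0 = 0 := by
  rw [eisDiff, qCoeff_eisOne_zero (diffFun_odd hφ)]
  have hs : ∑ k ∈ Finset.range N, φ k = 0 := by
    have e : ∑ k ∈ Finset.range N, φ k = ∑ j : ZMod N, φ j :=
      Finset.sum_nbij' (fun k => (k : ZMod N)) ZMod.val (by simp) (by simp [ZMod.val_lt])
        (fun k hk => ZMod.val_cast_of_lt (Finset.mem_range.1 hk)) (fun j _ => ZMod.natCast_zmod_val j)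
        (fun _ _ => rfl)
    have : ∑ j, φ j = -∑ j, φ j := by
      rw [← Finset.sum_neg_distrib]
      exact Fintype.sum_equiv (Equiv.neg _) _ _ fun j => by simp [hφ j]
    rw [e]; linear_combination this / 2
  have key : ∑ k ∈ Finset.range (2 * N), (k : ℂ) * diffFun φ k = 0 := by
    simp only [diffFun_natCast, mul_sub, Finset.sum_sub_distrib, mul_ite, mul_zero]
    rw [← Finset.sum_filter]
    have e2 : ∑ k ∈ (Finset.range (2 * N)).filter (2 ∣ ·), (k : ℂ) * φ ((k / 2 : ℕ) : ZMod N) =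
        ∑ k ∈ Finset.range N, (2 * k : ℂ) * φ k := by
      refine Finset.sum_nbij' (fun k => k / 2) (fun k => 2 * k) ?_ ?_ ?_ ?_ ?_
      · intro k hk; simp at hk ⊢; omega
      · intro k hk; simp at hk ⊢; omega
      · intro k hk; simp at hk; exact Nat.mul_div_cancel' hk.2
      · intro k _; exact Nat.mul_div_cancel_left _ two_pos
      · intro k hk
        simp at hk
        obtain ⟨-, j, rfl⟩ := hk
        rw [Nat.mul_div_cancel_left _ two_pos]; push_cast; rfl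
    rw [e2, two_mul N, Finset.sum_range_add]
    simp only [Nat.cast_add, ZMod.natCast_self, zero_add, add_mul, Finset.sum_add_distrib,
      ← Finset.mul_sum, hs, mul_zero, mul_assoc]
    ring
  rw [key]; simp

theorem eisDiff_slash (χ : DirichletCharacter ℂ N) {γ : SL(2, ℤ)} (hγ : γ ∈ Gamma0 (2 * N)) :
    (eisDiff χ : ℍ → ℂ) ∣[(1 : ℤ)] γ = χ (γ 1 1 : ZMod N) • (eisDiff χ : ℍ → ℂ) := by
  have h := eisOne_slash (φ := diffFun χ)
    (χ := fun j : ZMod (2 * N) => χ (j.cast : ZMod N)) (diffFun_unit_mul χ) hγ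
  rwa [show ((γ 1 1 : ZMod (2 * N)).cast : ZMod N) = (γ 1 1 : ZMod N) from
    ZMod.cast_intCast (dvd_mul_left N 2) _] at h

end FLTAgent.DS
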