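import Fermat.Agent.DS.Nebentypus
import Fermat.Agent.DS.EisDiff
import Fermat.Agent.IntegralStructure.Main

/-!
# Conjugates of a weight-one eigenvector

For `σ ∈ Aut ℂ` the series `∑ σ (a n) qⁿ` is again a cusp form of weight one, of level `2 N`.
It is obtained as the quotient of the conjugate of `f * E'` by the conjugate of `E'`, which is
holomorphic because its `M`-th power is the conjugate of `f ^ M`.
-/

set_option autoImplicit false

noncomputable section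

namespace FLTAgent.DS

open UpperHalfPlane ModularForm MatrixGroups CongruenceSubgroup Matrix
open FLTAgent.IntegralStructure
open scoped Manifold

/-- A cusp form on a subgroup of `SL₂(ℤ)` of finite index from a function. -/
def cuspOfFun (Γ : Subgroup SL(2, ℤ)) [Γ.FiniteIndex] (k : ℤ) (F : ℍ → ℂ)
    (hinv : ∀ γ ∈ Γ, F ∣[k] γ = F) (hF : MDiff F)
    (hz : ∀ a : SL(2, ℤ), IsZeroAtImInfty (F ∣[k] a)) :
    CuspForm (Γ : Subgroup (GL (Fin 2) ℝ)) k where
  toFun := F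
  slash_action_eq' := by rintro _ ⟨γ, hγ, rfl⟩; exact hinv γ hγ
  holo' := hF
  zero_at_cusps' := fun {x} hx => by
    rw [OnePoint.isZeroAt_iff_forall_SL2Z ((Subgroup.IsArithmetic.isCusp_iff_isCusp_SL2Z _).1 hx)]
    intro a _
    exact hz a

@[simp] theorem coe_cuspOfFun (Γ : Subgroup SL(2, ℤ)) [Γ.FiniteIndex] (k : ℤ) (F : ℍ → ℂ)
    (hinv : ∀ γ ∈ Γ, F ∣[k] γ = F) (hF : MDiff F)
    (hz : ∀ a : SL(2, ℤ), IsZeroAtImInfty (F ∣[k] a)) :
    (cuspOfFun Γ k F hinv hF hz : ℍ → ℂ) = F := rfl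

theorem pow_slash (F : ℍ → ℂ) (a : SL(2, ℤ)) (m : ℕ) :
    (F ^ m) ∣[(m : ℤ)] a = (F ∣[(1 : ℤ)] a) ^ m := by
  funext τ
  simp only [Pi.pow_apply, ModularForm.SL_slash_apply, mul_pow]
  rw [← zpow_natCast (_ ^ (-1 : ℤ)) m, ← _root_.zpow_mul, neg_one_mul]

theorem isZeroAtImInfty_of_pow {F : ℍ → ℂ} {m : ℕ} (hm : m ≠ 0) (h : IsZeroAtImInfty (F ^ m)) :
    IsZeroAtImInfty F := by
  rw [IsZeroAtImInfty, Filter.ZeroAtFilter, Metric.tendsto_nhds] at h ⊢
  intro ε hε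
  filter_upwards [h (ε ^ m) (pow_pos hε m)] with τ hτ
  rw [dist_zero_right, Pi.pow_apply, norm_pow] at hτ
  rw [dist_zero_right]
  exact lt_of_pow_lt_pow_left₀ m hε.le hτ

theorem gamma0_mono {M N : ℕ} (h : N ∣ M) : Gamma0 M ≤ Gamma0 N := by
  intro γ hγ
  rw [Gamma0_mem] at hγ ⊢
  rw [ZMod.intCast_zmod_eq_zero_iff_dvd] at hγ ⊢
  exact (Int.natCast_dvd_natCast.2 h).trans hγ

theorem isUnit_lowerRight {N : ℕ} {γ : SL(2, ℤ)} (hγ : γ ∈ Gamma0 N) :
    IsUnit ((γ 1 1 : ℤ) : ZMod N) := by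
  refine IsUnit.of_mul_eq_one ((γ 0 0 : ℤ) : ZMod N) ?_
  have := congrArg (fun x : ℤ => (x : ZMod N)) ((Matrix.det_fin_two γ.1).symm.trans γ.2)
  rw [Gamma0_mem] at hγ
  simpa [hγ, mul_comm] using this

variable {N : ℕ} [NeZero N] {ε : DirichletCharacter ℂ N} {f : CuspForm (Gamma1 N) 1}

/-- An even exponent killing every character mod `N`. -/
def charExp (N : ℕ) : ℕ := 2 * N.totient

theorem charExp_ne_zero : charExp N ≠ 0 :=
  Nat.mul_ne_zero two_ne_zero (Nat.totient_pos.2 (NeZero.pos N)).ne'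

theorem char_pow_charExp (χ : DirichletCharacter ℂ N) {x : ZMod N} (hx : IsUnit x) :
    χ x ^ charExp N = 1 := by
  obtain ⟨u, rfl⟩ := hx
  rw [← map_pow, ← Units.val_pow_eq_pow_val, charExp, mul_comm 2, pow_mul, ZMod.pow_totient,
    one_pow, Units.val_one, map_one]

theorem inv_odd {χ : DirichletCharacter ℂ N} (hχ : χ.Odd) : (χ⁻¹).Odd := by
  show χ⁻¹ (-1) = -1
  rw [MulChar.inv_apply_eq_inv', show χ (-1) = -1 from hχ, inv_neg, inv_one]

theorem ringHomComp_odd {χ : DirichletCharacter ℂ N} (hχ : χ.Odd) (σ : ℂ →+* ℂ) :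
    DirichletCharacter.Odd (χ.ringHomComp σ) := by
  show (χ.ringHomComp σ) (-1) = -1
  rw [MulChar.ringHomComp_apply, show χ (-1) = -1 from hχ, map_neg, map_one]

theorem qCoeff_eisDiff_map {χ : DirichletCharacter ℂ N} (hχ : χ.Odd) (σ : ℂ →+* ℂ) (n : ℕ) :
    ModularFormClass.qCoeff (eisDiff (χ.ringHomComp σ : ZMod N → ℂ)) n
      = σ (ModularFormClass.qCoeff (eisDiff (χ : ZMod N → ℂ)) n) := by
  have hf' : Function.Odd (χ : ZMod N → ℂ) := hχ.eval_neg
  have hf'' : Function.Odd ((χ.ringHomComp σ : DirichletCharacter ℂ N) : ZMod N → ℂ) :=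
    (ringHomComp_odd hχ σ).eval_neg
  rcases eq_or_ne n 0 with rfl | hn
  · rw [qCoeff_eisDiff_zero hf'', qCoeff_eisDiff_zero hf', map_zero]
  · rw [qCoeff_eisDiff hf'' hn, qCoeff_eisDiff hf' hn, map_sub, map_sum]
    congr 1
    split_ifs
    · rw [map_sum]; rfl
    · rw [map_zero]

/-- The `q`-series of a form on `Γ₁(M)`. -/
def qG {M : ℕ} {k : ℤ} {F : Type*} [FunLike F ℍ ℂ]
    [ModularFormClass F (Gamma1 M : Subgroup (GL (Fin 2) ℝ)) k] (f : F) : qFn :=
  ⟨f, modularForm_mem_qFn f (one_mem_strictPeriods_gamma1 M)⟩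

@[simp] theorem coe_qG {M : ℕ} {k : ℤ} {F : Type*} [FunLike F ℍ ℂ]
    [ModularFormClass F (Gamma1 M : Subgroup (GL (Fin 2) ℝ)) k] (f : F) :
    ((qG (M := M) (k := k) f : qFn) : ℍ → ℂ) = f := rfl

/-- The product of `f` with the Eisenstein series of the inverse character. -/
theorem exists_prod_form (hne : ∀ γ ∈ Gamma0 N,
      (f : ℍ → ℂ) ∣[(1 : ℤ)] γ = ε ((γ 1 1 : ℤ) : ZMod N) • (f : ℍ → ℂ)) :
    ∃ G : CuspForm (Gamma0 (2 * N)) 2,
      (G : ℍ → ℂ) = (f : ℍ → ℂ) * (eisDiff ((ε⁻¹ : DirichletCharacter ℂ N) : ZMod N → ℂ) : ℍ → ℂ) := by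
  set E : ℍ → ℂ := (eisDiff ((ε⁻¹ : DirichletCharacter ℂ N) : ZMod N → ℂ) : ℍ → ℂ) with hE
  refine ⟨cuspOfFun (Gamma0 (2 * N)) 2 ((f : ℍ → ℂ) * E) (fun γ hγ => ?_)
    ((CuspFormClass.holo f).mul (ModularFormClass.holo _)) (fun a => ?_), rfl⟩
  · rw [show (2 : ℤ) = 1 + 1 by norm_num, ModularForm.mul_slash_SL2, hne γ (gamma0_mono ⟨2, mul_comm 2 N⟩ hγ),
      hE, eisDiff_slash ε⁻¹ hγ, smul_mul_smul_comm, ← MulChar.mul_apply, mul_inv_cancel,
      MulChar.one_apply (isUnit_lowerRight (gamma0_mono ⟨2, mul_comm 2 N⟩ hγ)), one_smul]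
  · rw [show (2 : ℤ) = 1 + 1 by norm_num, ModularForm.mul_slash_SL2]
    refine Filter.ZeroAtFilter.mul_boundedAtFilter ?_ ?_
    · exact isZeroAtImInfty_slash f a
    · exact ModularFormClass.bdd_at_infty_slash (eisDiff _) a

/-- The power `f ^ charExp N`. -/
theorem exists_pow_form (hne : ∀ γ ∈ Gamma0 N,
      (f : ℍ → ℂ) ∣[(1 : ℤ)] γ = ε ((γ 1 1 : ℤ) : ZMod N) • (f : ℍ → ℂ)) :
    ∃ H : CuspForm (Gamma0 (2 * N)) (charExp N : ℤ), (H : ℍ → ℂ) = (f : ℍ → ℂ) ^ charExp N := by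
  refine ⟨cuspOfFun (Gamma0 (2 * N)) _ ((f : ℍ → ℂ) ^ charExp N) (fun γ hγ => ?_) ?_ (fun a => ?_), rfl⟩
  · have hγ' := gamma0_mono (M := 2 * N) ⟨2, mul_comm 2 N⟩ hγ
    rw [pow_slash, hne γ hγ', smul_pow, char_pow_charExp ε (isUnit_lowerRight hγ'), one_smul]
  · exact (modularForm_mem_qFn (f : CuspForm (Gamma1 N) 1) (one_mem_strictPeriods_gamma1 N)
      |> fun h => (qFn.pow_mem h _).2.1)
  · rw [pow_slash]
    have h := isZeroAtImInfty_slash f a
    rw [IsZeroAtImInfty, Filter.ZeroAtFilter] at h ⊢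
    have h2 := h.pow (charExp N)
    rw [zero_pow (charExp_ne_zero (N := N))] at h2
    exact h2

/-- Conjugation of a weight-one eigenvector. -/
theorem exists_conjugate (hodd : ε.Odd) (hne : ∀ γ ∈ Gamma0 N,
      (f : ℍ → ℂ) ∣[(1 : ℤ)] γ = ε ((γ 1 1 : ℤ) : ZMod N) • (f : ℍ → ℂ)) (σ : ℂ ≃+* ℂ) :
    ∃ F : CuspForm (Gamma1 (2 * N)) 1, ∃ G' : CuspForm (Gamma0 (2 * N)) 2,
      (∀ n, ModularFormClass.qCoeff F n = σ (ModularFormClass.qCoeff f n)) ∧
      qHom (qG (M := 2 * N) (k := 1) F) *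
        qHom (qG (M := 2 * N) (k := 1)
          (eisDiff ((ε⁻¹).ringHomComp (σ : ℂ →+* ℂ) : ZMod N → ℂ))) = qHom (qC G') := by
  obtain ⟨G, hG⟩ := exists_prod_form hne
  obtain ⟨H, hH⟩ := exists_pow_form hne
  obtain ⟨G', hG'⟩ := exists_conjForm σ G
  obtain ⟨H', hH'⟩ := exists_conjForm σ H
  set E := eisDiff ((ε⁻¹ : DirichletCharacter ℂ N) : ZMod N → ℂ)
  set E' := eisDiff ((ε⁻¹).ringHomComp (σ : ℂ →+* ℂ) : ZMod N → ℂ)
  set qE : qFn := qG (M := 2 * N) (k := 1) E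
  set qE' : qFn := qG (M := 2 * N) (k := 1) E'
  set qf : qFn := qG (M := N) (k := 1) f
  have hEσ : qHom qE' = PowerSeries.map (σ : ℂ →+* ℂ) (qHom qE) := by
    refine PowerSeries.ext fun n => ?_
    rw [PowerSeries.coeff_map, qHom_apply, qHom_apply]
    exact qCoeff_eisDiff_map (inv_odd hodd) _ n
  have hGfE : qC G = qf * qE := Subtype.ext hG
  have hHf : qC H = qf ^ (charExp N) := Subtype.ext (by simpa [qf] using hH)
  have hrel : qC G' ^ (charExp N) = qC H' * qE' ^ (charExp N) := by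
    refine qHom_injective ?_
    rw [map_pow, map_mul, map_pow, hG', hH', hEσ, hGfE, hHf]
    simp only [map_mul, map_pow]
    ring
  have hE1 : PowerSeries.coeff 1 (qHom qE') = 1 := by
    rw [qHom_apply]
    show ModularFormClass.qCoeff E' 1 = 1
    rw [qCoeff_eisDiff_one (ringHomComp_odd (inv_odd hodd) _).eval_neg]
    exact map_one _
  have hE0 : qE' ≠ 0 := fun h => by simp [h] at hE1
  obtain ⟨F, hF, hFB, hFid⟩ := exists_extension (A := (G' : ℍ → ℂ)) (B := (E' : ℍ → ℂ))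
    (CuspFormClass.holo G') (ModularFormClass.holo E') (fun h => hE0 (Subtype.ext h))
    (c := fun i => if i = 0 then 1 else if i = (charExp N) then -(H' : ℍ → ℂ) else 0) (n := (charExp N))
    (fun i => by
      split_ifs
      · exact continuous_const
      · exact (CuspFormClass.holo H').continuous.neg
      · exact continuous_const)
    (by simp) (fun τ => by
      have h := congrFun (congrArg Subtype.val hrel) τ
      simp only [MulMemClass.coe_mul, SubmonoidClass.coe_pow, Pi.mul_apply, Pi.pow_apply, coe_qC] at h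
      rw [Finset.sum_range_succ, Finset.sum_eq_single 0]
      · simp only [if_true, Pi.one_apply, if_neg (charExp_ne_zero (N := N)), Nat.sub_self,
          pow_zero, mul_one, Nat.sub_zero, Pi.neg_apply, one_mul]
        rw [h]
        simp [qE']
      · intro i hi hi0
        simp [hi0, (Finset.mem_range.1 hi).ne]
      · intro h0
        simp [charExp_ne_zero (N := N)] at h0)
  have hpow : F ^ (charExp N) = (H' : ℍ → ℂ) := by
    funext τ
    have h := hFid τ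
    rw [Finset.sum_range_succ, Finset.sum_eq_single 0 (fun i hi hi0 => by
      simp [hi0, (Finset.mem_range.1 hi).ne]) (fun h0 => by simp [charExp_ne_zero (N := N)] at h0)] at h
    simp [charExp_ne_zero (N := N)] at h
    rw [Pi.pow_apply]
    linear_combination h
  have hinv : ∀ γ ∈ Gamma1 (2 * N), F ∣[(1 : ℤ)] γ = F := by
    intro γ hγ
    have hFB' : F * (E' : ℍ → ℂ) = G' := funext hFB
    have h := congrArg (fun x : ℍ → ℂ => x ∣[(1 + 1 : ℤ)] γ) hFB'
    rw [ModularForm.mul_slash_SL2, show (1 + 1 : ℤ) = 2 by norm_num,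
      cusp_slash_eq G' γ (Gamma1_in_Gamma0 _ hγ),
      show (E' : ℍ → ℂ) ∣[(1 : ℤ)] γ = E' from SlashInvariantFormClass.slash_action_eq E' _ ⟨γ, hγ, rfl⟩] at h
    have h0 : (F ∣[(1 : ℤ)] γ - F) * (E' : ℍ → ℂ) = 0 := by rw [sub_mul, h, hFB', sub_self]
    rcases (UpperHalfPlane.mul_eq_zero_iff ((hF.slash _ _).sub hF) (ModularFormClass.holo E')).1 h0
      with h1 | h1
    · exact sub_eq_zero.1 h1
    · exact absurd (Subtype.ext h1) hE0
  have hz : ∀ a : SL(2, ℤ), IsZeroAtImInfty (F ∣[(1 : ℤ)] a) := fun a => by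
    refine isZeroAtImInfty_of_pow (charExp_ne_zero (N := N)) ?_
    rw [← pow_slash, hpow]
    exact cusp_slash_zero H' a
  refine ⟨cuspOfFun (Gamma1 (2 * N)) 1 F hinv hF hz, G', ?_, ?_⟩
  all_goals
    have hqF : qG (M := 2 * N) (k := 1) (cuspOfFun (Gamma1 (2 * N)) 1 F hinv hF hz) * qE' = qC G' :=
      Subtype.ext (funext hFB)
  · intro n
    have h := congrArg qHom hqF
    rw [map_mul, hG', hGfE, map_mul, map_mul, ← hEσ] at h
    have h2 := mul_right_cancel₀ (fun h0 => hE0 (qHom_injective (h0.trans (map_zero qHom).symm))) h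
    simpa [qHom_apply, ModularFormClass.qCoeff, qf] using congrArg (fun p => PowerSeries.coeff n p) h2
  · exact (map_mul qHom _ _).symm.trans (congrArg qHom hqF)

end FLTAgent.DS
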