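import Fermat.Agent.DS.Nebentypus
import Fermat.Agent.DS.Conjugates

/-!
# Removing the coefficients at the bad primes

For `q ∣ N` the series `∑_{q ∤ n} a n qⁿ` is a cusp form of level `N * q²`.
-/

set_option autoImplicit false

noncomputable section

namespace FLTAgent.DS

open UpperHalfPlane ModularForm MatrixGroups CongruenceSubgroup Matrix Pointwise
open FLTAgent.IntegralStructure
open scoped Manifold

/-- The rational upper unipotent. -/
def unipQ (t : ℚ) : GL (Fin 2) ℚ :=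
  Matrix.GeneralLinearGroup.mkOfDetNeZero !![1, t; 0, 1] (by simp [Matrix.det_fin_two_of])

theorem map_unipQ (t : ℚ) : (unipQ t).map (Rat.castHom ℝ) = unip (t : ℝ) := by
  refine Units.ext ?_
  ext i j
  fin_cases i <;> fin_cases j <;> simp [unipQ, val_unip]

theorem inv_unip (t : ℝ) : (unip t)⁻¹ = unip (-t) := by
  refine inv_eq_of_mul_eq_one_right (Units.ext ?_)
  rw [Units.val_mul, val_unip, val_unip]
  ext i j
  fin_cases i <;> fin_cases j <;> simp [Matrix.mul_apply, Fin.sum_univ_two]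

variable {M : ℕ} [NeZero M] {k : ℤ}

theorem isZeroAtImInfty_unip_slash (f : CuspForm (Gamma1 M) k) (t : ℚ) (a : SL(2, ℤ)) :
    IsZeroAtImInfty (((f : ℍ → ℂ) ∣[k] unip (t : ℝ)) ∣[k] a) := by
  let Φ := CuspForm.translate f (unip (t : ℝ))
  haveI : (ConjAct.toConjAct (unip (t : ℝ))⁻¹ • (Gamma1 M : Subgroup (GL (Fin 2) ℝ))).IsArithmetic := by
    rw [inv_unip, ← Rat.cast_neg, ← map_unipQ]
    exact Subgroup.IsArithmetic.conj _ _
  refine Φ.zero_at_cusps' ?_ (Matrix.SpecialLinearGroup.mapGL ℝ a) rfl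
  exact (Subgroup.IsArithmetic.isCusp_iff_isCusp_SL2Z _).2 (isCusp_SL2Z_iff'.2 ⟨a, rfl⟩)

/-- Translations by `j / q` preserve invariance under `Γ₁(M * q²)`. -/
theorem unip_slash_invariant (f : CuspForm (Gamma1 M) k) {q : ℕ} (hq : 0 < q) (j : ℕ)
    {γ : SL(2, ℤ)} (hγ : γ ∈ Gamma1 (M * q ^ 2)) :
    ((f : ℍ → ℂ) ∣[k] unip ((j : ℝ) / q)) ∣[k] γ = (f : ℍ → ℂ) ∣[k] unip ((j : ℝ) / q) := by
  rw [Gamma1_mem] at hγ
  obtain ⟨h00, h11, h10⟩ := hγ
  obtain ⟨a, ha⟩ : ((M * q ^ 2 : ℕ) : ℤ) ∣ γ 0 0 - 1 := by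
    rw [← ZMod.intCast_zmod_eq_zero_iff_dvd]; push_cast at h00 ⊢; rw [h00, sub_self]
  obtain ⟨d, hd⟩ : ((M * q ^ 2 : ℕ) : ℤ) ∣ γ 1 1 - 1 := by
    rw [← ZMod.intCast_zmod_eq_zero_iff_dvd]; push_cast at h11 ⊢; rw [h11, sub_self]
  obtain ⟨c, hc⟩ : ((M * q ^ 2 : ℕ) : ℤ) ∣ γ 1 0 := (ZMod.intCast_zmod_eq_zero_iff_dvd _ _).1 h10
  push_cast at ha hd hc
  have hdet : γ 0 0 * γ 1 1 - γ 0 1 * γ 1 0 = 1 := (Matrix.det_fin_two γ.1).symm.trans γ.2
  set δ := slOf (γ 0 0 + M * q * c * j) (γ 0 1 + M * q * (d - a) * j - M * c * (j * j)) (γ 1 0)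
    (γ 1 1 - M * q * c * j) (by
      have h1 : γ 1 1 - γ 0 0 = M * q ^ 2 * (d - a) := by linear_combination hd - ha
      have h2 := hc
      linear_combination hdet + (M * q * c * j) * h1
        + (-(M : ℤ) * q * (d - a) * j + M * c * (j * j)) * h2) with hδ
  have hmem : δ ∈ Gamma1 M := by
    have e1 := congrArg (fun x : ℤ => (x : ZMod M)) ha
    have e2 := congrArg (fun x : ℤ => (x : ZMod M)) hd
    have e3 := congrArg (fun x : ℤ => (x : ZMod M)) hc
    simp [sub_eq_zero] at e1 e2 e3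
    simp [Gamma1_mem, hδ, e1, e2, e3]
  have key : unip ((j : ℝ) / q) * ((γ : SL(2, ℤ)) : GL (Fin 2) ℝ)
      = ((δ : SL(2, ℤ)) : GL (Fin 2) ℝ) * unip ((j : ℝ) / q) := by
    refine Units.ext ?_
    have hq' : (q : ℝ) ≠ 0 := Nat.cast_ne_zero.2 hq.ne'
    have a' : ((γ 0 0 : ℤ) : ℝ) - 1 = M * q ^ 2 * a := by exact_mod_cast ha
    have d' : ((γ 1 1 : ℤ) : ℝ) - 1 = M * q ^ 2 * d := by exact_mod_cast hd
    have c' : ((γ 1 0 : ℤ) : ℝ) = M * q ^ 2 * c := by exact_mod_cast hc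
    rw [Units.val_mul, Units.val_mul, val_unip, hδ, val_slOf_gl]
    ext i l
    fin_cases i <;> fin_cases l <;>
      simp [Matrix.mul_apply, Fin.sum_univ_two] <;> field_simp <;> push_cast
    all_goals first
      | linear_combination (j : ℝ) * c'
      | linear_combination -((j : ℝ) * c')
      | linear_combination (j : ℝ) * (d' - a')
      | skip
  rw [ModularForm.SL_slash, ← SlashAction.slash_mul, key, SlashAction.slash_mul]
  exact congrArg (fun G : ℍ → ℂ => G ∣[k] unip ((j : ℝ) / q)) (cuspForm_slash_gamma1 f δ hmem)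

/-- One step of depletion. -/
theorem exists_deplete_step (f : CuspForm (Gamma1 M) k) {q : ℕ} (hq : 0 < q) :
    ∃ g : CuspForm (Gamma1 (M * q ^ 2)) k, ∀ n, ModularFormClass.qCoeff g n
      = if q ∣ n then 0 else ModularFormClass.qCoeff f n := by
  haveI : NeZero (M * q ^ 2) := ⟨Nat.mul_ne_zero (NeZero.ne M) (pow_ne_zero _ hq.ne')⟩
  set G : ℍ → ℂ := (f : ℍ → ℂ) -
    (q : ℂ)⁻¹ • ∑ j ∈ Finset.range q, (f : ℍ → ℂ) ∣[k] unip ((j : ℝ) / q) with hG
  have hle : Gamma1 (M * q ^ 2) ≤ Gamma1 M := by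
    intro γ hγ
    rw [Gamma1_mem] at hγ ⊢
    have hdvd : M ∣ M * q ^ 2 := dvd_mul_right _ _
    obtain ⟨h1, h2, h3⟩ := hγ
    exact ⟨by simpa using congrArg (ZMod.castHom hdvd (ZMod M)) h1,
      by simpa using congrArg (ZMod.castHom hdvd (ZMod M)) h2,
      by simpa using congrArg (ZMod.castHom hdvd (ZMod M)) h3⟩
  have hinv : ∀ γ ∈ Gamma1 (M * q ^ 2), G ∣[k] γ = G := by
    intro γ hγ
    rw [hG, slash_sub, ModularForm.SL_smul_slash, SlashAction.sum_slash,
      cuspForm_slash_gamma1 f γ (hle hγ),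
      Finset.sum_congr rfl fun j _ => unip_slash_invariant f hq j hγ]
  have hhol : MDiff G := by
    have hfun : ∀ j : ℕ, MDiff ((f : ℍ → ℂ) ∣[k] unip ((j : ℝ) / q)) := fun j =>
      (CuspFormClass.holo f).slash _ _
    rw [hG]
    refine (CuspFormClass.holo f).sub (MDifferentiable.const_smul _ ?_)
    exact MDifferentiable.sum fun j _ => hfun j
  have hz : ∀ a : SL(2, ℤ), IsZeroAtImInfty (G ∣[k] a) := by
    intro a
    rw [hG, slash_sub, ModularForm.SL_smul_slash, SlashAction.sum_slash]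
    have h1 : Filter.Tendsto ((f : ℍ → ℂ) ∣[k] a) atImInfty (nhds 0) := isZeroAtImInfty_slash f a
    have h2 : Filter.Tendsto (fun τ => ∑ j ∈ Finset.range q,
        (((f : ℍ → ℂ) ∣[k] unip ((j : ℝ) / q)) ∣[k] a) τ) atImInfty
        (nhds (∑ j ∈ Finset.range q, (0 : ℂ))) := by
      refine tendsto_finsetSum _ fun j _ => ?_
      have := isZeroAtImInfty_unip_slash f ((j : ℚ) / q) a
      push_cast at this
      exact this
    rw [Finset.sum_const_zero] at h2
    have h3 := h1.sub (h2.const_mul (q : ℂ)⁻¹)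
    rw [mul_zero, sub_zero] at h3
    show Filter.Tendsto _ atImInfty (nhds 0)
    refine h3.congr fun τ => ?_
    simp [Finset.sum_apply]
  refine ⟨cuspOfFun (Gamma1 (M * q ^ 2)) k G hinv hhol hz, fun n => ?_⟩
  have hf := modularForm_mem_qFn f (one_mem_strictPeriods_gamma1 M)
  have hg := modularForm_mem_qFn (cuspOfFun (Gamma1 (M * q ^ 2)) k G hinv hhol hz)
    (one_mem_strictPeriods_gamma1 (M * q ^ 2))
  refine (UpperHalfPlane.qExpansion_coeff_unique
    (c := fun n => if q ∣ n then 0 else ModularFormClass.qCoeff f n)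
    (cuspOfFun (Gamma1 (M * q ^ 2)) k G hinv hhol hz) one_pos (analyticAt_of_mem_qFn hg)
    (fun τ => ?_) n).symm
  have hper : Function.Periodic ((f : ℍ → ℂ) ∘ ofComplex) ((1 : ℝ) : ℂ) := by exact_mod_cast hf.1
  set c := fun m => (qExpansion 1 (f : ℍ → ℂ)).coeff m with hc
  set Q := Function.Periodic.qParam 1 (τ : ℂ) with hQ
  set z := Complex.exp (2 * Real.pi * Complex.I / q) with hz'
  have hprim : IsPrimitiveRoot z q := Complex.isPrimitiveRoot_exp q hq.ne'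
  have hterm : ∀ j : ℕ, HasSum (fun m => c m * Q ^ m * (z ^ m) ^ j)
      (((f : ℍ → ℂ) ∣[k] unip ((j : ℝ) / q)) τ) := by
    intro j
    rw [slash_unip_apply]
    have h := UpperHalfPlane.hasSum_qExpansion one_pos hper hf.2.1 hf.2.2 (((j : ℝ) / q) +ᵥ τ)
    convert! h using 1
    funext m
    have hshift : Function.Periodic.qParam 1 ((((j : ℝ) / q) +ᵥ τ : ℍ) : ℂ) = z ^ j * Q := by
      rw [hz', hQ, coe_vadd, Function.Periodic.qParam, Function.Periodic.qParam,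
        ← Complex.exp_nat_mul, ← Complex.exp_add]
      congr 1
      push_cast
      ring
    simp only [smul_eq_mul, hshift, mul_pow, ← pow_mul, hc, mul_comm m j]
    ring
  have hS := hasSum_sum (s := Finset.range q) fun j _ => hterm j
  have hgeom : ∀ m, ∑ j ∈ Finset.range q, (z ^ m) ^ j = if q ∣ m then (q : ℂ) else 0 := by
    intro m
    split_ifs with h
    · rw [(hprim.pow_eq_one_iff_dvd m).2 h]; simp
    · have h1 : z ^ m ≠ 1 := fun e => h ((hprim.pow_eq_one_iff_dvd m).1 e)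
      rw [geom_sum_eq h1, ← pow_mul, mul_comm, pow_mul, hprim.pow_eq_one, one_pow]
      simp
  have hf0 := UpperHalfPlane.hasSum_qExpansion one_pos hper hf.2.1 hf.2.2 τ
  have htot := hf0.sub (hS.mul_left (q : ℂ)⁻¹)
  have hval : (cuspOfFun (Gamma1 (M * q ^ 2)) k G hinv hhol hz : ℍ → ℂ) τ
      = f τ - (q : ℂ)⁻¹ * ∑ j ∈ Finset.range q, ((f : ℍ → ℂ) ∣[k] unip ((j : ℝ) / q)) τ := by
    simp [hG, Finset.sum_apply]
  rw [hval]
  convert! htot using 1
  funext m
  simp only [smul_eq_mul, ← Finset.mul_sum, hgeom, hc, ModularFormClass.qCoeff, ← hQ]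
  split_ifs with h
  · field_simp [Nat.cast_ne_zero.2 hq.ne']
    ring
  · ring

variable {N : ℕ} [NeZero N]

/-- The form with the coefficients at the primes of `N` removed, and its level. -/
theorem exists_depleted (f : CuspForm (Gamma1 N) k) :
    ∃ (N' : ℕ) (g : CuspForm (Gamma1 N') k), N' ≠ 0 ∧ N ∣ N' ∧
      (∀ p : ℕ, p.Prime → (p ∣ N' ↔ p ∣ N)) ∧
      ∀ n, ModularFormClass.qCoeff g n
        = if ∃ q ∈ N.primeFactors, q ∣ n then 0 else ModularFormClass.qCoeff f n := by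
  classical
  suffices h : ∀ T : Finset ℕ, T ⊆ N.primeFactors →
      ∃ (N' : ℕ) (g : CuspForm (Gamma1 N') k), N' ≠ 0 ∧ N ∣ N' ∧
        (∀ p : ℕ, p.Prime → (p ∣ N' ↔ p ∣ N)) ∧
        ∀ n, ModularFormClass.qCoeff g n
          = if ∃ q ∈ T, q ∣ n then 0 else ModularFormClass.qCoeff f n from h _ subset_rfl
  intro T
  induction T using Finset.induction_on with
  | empty => exact fun _ => ⟨N, f, NeZero.ne N, dvd_rfl, fun _ _ => Iff.rfl, fun n => by simp⟩
  | insert q T hq ih =>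
    intro hT
    obtain ⟨hqm, hTs⟩ := Finset.insert_subset_iff.1 hT
    obtain ⟨N', g, hN', hdvd, hpr, hg⟩ := ih hTs
    haveI : NeZero N' := ⟨hN'⟩
    have hqp := Nat.prime_of_mem_primeFactors hqm
    obtain ⟨g', hg'⟩ := exists_deplete_step g hqp.pos
    refine ⟨N' * q ^ 2, g', Nat.mul_ne_zero hN' (pow_ne_zero _ hqp.ne_zero),
      hdvd.trans (dvd_mul_right _ _), fun p hp => ⟨fun h => ?_, fun h => ?_⟩, fun n => ?_⟩
    · rcases (Nat.Prime.dvd_mul hp).1 h with h' | h'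
      · exact (hpr p hp).1 h'
      · rw [(Nat.prime_dvd_prime_iff_eq hp hqp).1 (hp.dvd_of_dvd_pow h')]
        exact Nat.dvd_of_mem_primeFactors hqm
    · exact ((hpr p hp).2 h).trans (dvd_mul_right _ _)
    · rw [hg', hg]
      by_cases h : q ∣ n
      · rw [if_pos h, if_pos ⟨q, Finset.mem_insert_self _ _, h⟩]
      · simp [h]

/-- The depleted form is again an eigenvector at the good primes. -/
theorem exists_depleted_eigen (ε : DirichletCharacter ℂ N) (f : CuspForm (Gamma1 N) 1)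
    (hf₁ : ModularFormClass.qCoeff f 1 = 1)
    (hT : ∀ p : ℕ, p.Prime → ¬ p ∣ N → ∀ n : ℕ,
        ModularFormClass.qCoeff f (p * n) +
            ε (p : ZMod N) * (if p ∣ n then ModularFormClass.qCoeff f (n / p) else 0) =
          ModularFormClass.qCoeff f p * ModularFormClass.qCoeff f n) :
    ∃ (N' : ℕ) (ε' : DirichletCharacter ℂ N') (g : CuspForm (Gamma1 N') 1),
      N' ≠ 0 ∧ (∀ p : ℕ, p.Prime → (p ∣ N' ↔ p ∣ N)) ∧
      ModularFormClass.qCoeff g 1 = 1 ∧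
      (∀ p : ℕ, p.Prime → ¬ p ∣ N → ε' (p : ZMod N') = ε (p : ZMod N) ∧
        ModularFormClass.qCoeff g p = ModularFormClass.qCoeff f p) ∧
      (∀ n, (∃ q, q.Prime ∧ q ∣ N' ∧ q ∣ n) → ModularFormClass.qCoeff g n = 0) ∧
      ∀ p : ℕ, p.Prime → ¬ p ∣ N' → ∀ n : ℕ,
        ModularFormClass.qCoeff g (p * n) +
            ε' (p : ZMod N') * (if p ∣ n then ModularFormClass.qCoeff g (n / p) else 0) =
          ModularFormClass.qCoeff g p * ModularFormClass.qCoeff g n := by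
  classical
  obtain ⟨N', g, hN', hdvd, hpr, hg⟩ := exists_depleted f
  set ε' := DirichletCharacter.changeLevel hdvd ε with hε'
  have hcop : ∀ {p q : ℕ}, p.Prime → ¬ p ∣ N → q ∈ N.primeFactors → ¬ q ∣ p := by
    intro p q hp hpN hq hd
    exact hpN ((Nat.prime_dvd_prime_iff_eq (Nat.prime_of_mem_primeFactors hq) hp).1 hd ▸
      Nat.dvd_of_mem_primeFactors hq)
  have hgood : ∀ p : ℕ, p.Prime → ¬ p ∣ N → ε' (p : ZMod N') = ε (p : ZMod N) ∧
      ModularFormClass.qCoeff g p = ModularFormClass.qCoeff f p := by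
    intro p hp hpN
    constructor
    · have hc : IsCoprime (p : ℤ) N' :=
        Nat.isCoprime_iff_coprime.2 (hp.coprime_iff_not_dvd.2 fun h => hpN ((hpr p hp).1 h))
      simpa using DirichletCharacter.changeLevel_eq_cast_of_dvd' ε hdvd hc
    · rw [hg, if_neg]
      rintro ⟨q, hq, hd⟩
      exact hcop hp hpN hq hd
  refine ⟨N', ε', g, hN', hpr, ?_, hgood, ?_, ?_⟩
  · rw [hg, if_neg, hf₁]
    rintro ⟨q, hq, hd⟩
    exact (Nat.prime_of_mem_primeFactors hq).ne_one (Nat.dvd_one.1 hd)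
  · rintro n ⟨q, hq, hqN, hqn⟩
    rw [hg, if_pos ⟨q, Nat.mem_primeFactors.2 ⟨hq, (hpr q hq).1 hqN, NeZero.ne N⟩, hqn⟩]
  · intro p hp hpN' n
    have hpN : ¬ p ∣ N := fun h => hpN' ((hpr p hp).2 h)
    rw [(hgood p hp hpN).1, (hgood p hp hpN).2, hg, hg, hg]
    by_cases hn : ∃ q ∈ N.primeFactors, q ∣ n
    · obtain ⟨q, hq, hd⟩ := hn
      have h0 : ∃ q ∈ N.primeFactors, q ∣ n := ⟨q, hq, hd⟩
      have h0' : ∃ q ∈ N.primeFactors, q ∣ p * n := ⟨q, hq, hd.mul_left p⟩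
      rw [if_pos h0, if_pos h0']
      by_cases h2 : p ∣ n
      · obtain ⟨m, rfl⟩ := h2
        rw [Nat.mul_div_cancel_left _ hp.pos, if_pos (dvd_mul_right p m), if_pos]
        · simp
        · exact ⟨q, hq, (((Nat.prime_of_mem_primeFactors hq).dvd_mul).1 hd).resolve_left (hcop hp hpN hq)⟩
      · rw [if_neg h2]; simp
    · have h1 : ¬ ∃ q ∈ N.primeFactors, q ∣ p * n := by
        rintro ⟨q, hq, hd⟩
        exact hn ⟨q, hq, (((Nat.prime_of_mem_primeFactors hq).dvd_mul).1 hd).resolve_left (hcop hp hpN hq)⟩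
      rw [if_neg h1, if_neg hn, ← hT p hp hpN n]
      by_cases h2 : p ∣ n
      · rw [if_pos h2, if_pos h2, if_neg]
        rintro ⟨q, hq, hd⟩
        exact hn ⟨q, hq, hd.trans (Nat.div_dvd_of_dvd h2)⟩
      · rw [if_neg h2, if_neg h2]

end FLTAgent.DS
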