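import Fermat.Agent.DS.FiniteImage
import Fermat.Prelude.Def_Deformations_MatrixRepresentation

/-!
# Irreducibility from the average bound
-/

set_option autoImplicit false

noncomputable section

namespace FLTAgent.DS

open Matrix Finset
open scoped ComplexConjugate

local notation "Γℚ" => AlgebraicClosure ℚ ≃ₐ[ℚ] AlgebraicClosure ℚ

/-- A finite group with a common eigenline in `ℂ²` has mean `|tr|²` at least `2`. -/
theorem two_mul_card_le_sum_norm_trace {G : Type*} [Group G] [Fintype G]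
    (ρ : G →* GL (Fin 2) ℂ) (h : ∀ g, (ρ g : Matrix (Fin 2) (Fin 2) ℂ) 1 0 = 0) :
    2 * (Fintype.card G : ℝ) ≤ ∑ g, ‖(ρ g : Matrix (Fin 2) (Fin 2) ℂ).trace‖ ^ 2 := by
  classical
  have hone : ∀ (g : G) (i : Fin 2), ‖(ρ g : Matrix (Fin 2) (Fin 2) ℂ) i i‖ = 1 := by
    intro g i
    have hn : (ρ g : Matrix (Fin 2) (Fin 2) ℂ) i i ^ Fintype.card G = 1 := by
      have h1 : ∀ n : ℕ, (ρ (g ^ n) : Matrix (Fin 2) (Fin 2) ℂ) i i
          = (ρ g : Matrix (Fin 2) (Fin 2) ℂ) i i ^ n := by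
        intro n
        induction n with
        | zero => simp
        | succ n ih => rw [pow_succ, (apply_eq_of_triangular h i).2, ih, pow_succ]
      rw [← h1, pow_card_eq_one]
      exact (apply_eq_of_triangular h i).1
    exact Complex.norm_eq_one_of_pow_eq_one hn Fintype.card_ne_zero
  let χ : G →* ℂ :=
    { toFun := fun g => (ρ g : Matrix (Fin 2) (Fin 2) ℂ) 0 0
        * conj ((ρ g : Matrix (Fin 2) (Fin 2) ℂ) 1 1)
      map_one' := by simp
      map_mul' := fun a b => by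
        rw [(apply_eq_of_triangular h 0).2, (apply_eq_of_triangular h 1).2, map_mul]; ring }
  have hterm : ∀ g : G, ‖(ρ g : Matrix (Fin 2) (Fin 2) ℂ).trace‖ ^ 2 = 2 + 2 * (χ g).re := by
    intro g
    rw [Matrix.trace_fin_two, Complex.sq_norm, Complex.normSq_add, ← Complex.sq_norm,
      ← Complex.sq_norm, hone g 0, hone g 1]
    show _ = _ + 2 * ((ρ g : Matrix (Fin 2) (Fin 2) ℂ) 0 0
        * conj ((ρ g : Matrix (Fin 2) (Fin 2) ℂ) 1 1)).re
    ring
  have hsum : 0 ≤ (∑ g, χ g).re := by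
    rw [sum_hom_units χ]
    split_ifs <;> simp
  simp only [hterm, Finset.sum_add_distrib, ← Finset.mul_sum, Finset.sum_const, Finset.card_univ,
    nsmul_eq_mul, ← Complex.re_sum]
  linarith

theorem matrixRepresentation_isIrreducible {G : Type} [Group G] (ρ : G →* GL (Fin 2) ℂ)
    (h : ¬ ∃ P : GL (Fin 2) ℂ, ∀ g, (conjRep P ρ g : Matrix (Fin 2) (Fin 2) ℂ) 1 0 = 0) :
    (Deformation.matrixRepresentation ρ).IsIrreducible := by
  haveI : Nontrivial (Subrepresentation (Deformation.matrixRepresentation ρ)) := by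
    refine nontrivial_of_ne ⟨⊥, fun g v hv => ?_⟩ ⟨⊤, fun g v hv => Submodule.mem_top⟩ fun he => ?_
    · rw [Submodule.mem_bot] at hv ⊢; rw [hv, map_zero]
    · exact bot_ne_top (α := Submodule ℂ (Fin 2 → ℂ))
        (congrArg Subrepresentation.toSubmodule he)
  refine ⟨fun W => ?_⟩
  by_contra hW
  push Not at hW
  have hb : W.toSubmodule ≠ ⊥ := fun hh => hW.1 (Subrepresentation.ext hh)
  have ht : W.toSubmodule ≠ ⊤ := fun hh => hW.2 (Subrepresentation.ext hh)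
  obtain ⟨v, hv, hv0⟩ := (Submodule.ne_bot_iff _).1 hb
  -- `v` is an eigenvector of every element
  have hfr : Module.finrank ℂ W.toSubmodule = 1 := by
    have h1 := Submodule.finrank_lt ht
    rw [Module.finrank_fin_fun] at h1
    have h2 := Submodule.one_le_finrank_iff.2 hb
    omega
  have hev : ∀ g, ∃ t : ℂ, (ρ g : Matrix (Fin 2) (Fin 2) ℂ) *ᵥ v = t • v := by
    intro g
    have hgv := W.apply_mem_toSubmodule g hv
    obtain ⟨t, ht'⟩ := exists_smul_eq_of_finrank_eq_one hfr (x := ⟨v, hv⟩)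
      (fun h0 => hv0 (congrArg Subtype.val h0)) ⟨_, hgv⟩
    exact ⟨t, by simpa using (congrArg Subtype.val ht').symm⟩
  obtain ⟨w, hw⟩ : ∃ w : Fin 2 → ℂ, v 0 * w 1 - w 0 * v 1 ≠ 0 := by
    by_cases h0 : v 0 = 0
    · refine ⟨![1, 0], ?_⟩
      have : v 1 ≠ 0 := fun h1 => hv0 (by ext i; fin_cases i <;> simp [h0, h1])
      simpa [h0] using this
    · exact ⟨![0, 1], by simpa using h0⟩
  refine h ⟨(glOf (v 0) (w 0) (v 1) (w 1) hw)⁻¹, fun g => ?_⟩
  set Q : GL (Fin 2) ℂ := glOf (v 0) (w 0) (v 1) (w 1) hw with hQ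
  obtain ⟨t, ht'⟩ := hev g
  show (Q⁻¹ * ρ g * Q⁻¹⁻¹ : GL (Fin 2) ℂ).1 1 0 = 0
  rw [inv_inv, Units.val_mul, Units.val_mul, mul_assoc]
  have hcol : ∀ i, ((ρ g : Matrix (Fin 2) (Fin 2) ℂ) * (Q : Matrix (Fin 2) (Fin 2) ℂ)) i 0
      = t * (Q : Matrix (Fin 2) (Fin 2) ℂ) i 0 := by
    intro i
    have hi := congrFun ht' i
    simp [Matrix.mulVec, dotProduct, Fin.sum_univ_two] at hi
    fin_cases i <;> simpa [hQ, Matrix.mul_apply, Fin.sum_univ_two] using hi
  rw [Matrix.mul_apply, Fin.sum_univ_two, hcol, hcol, mul_left_comm, mul_left_comm (_ : ℂ) t,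
    ← mul_add]
  have hinv := congrFun (congrFun (Units.inv_mul Q) 1) 0
  rw [Matrix.mul_apply, Fin.sum_univ_two] at hinv
  rw [hinv]
  simp

variable {N : ℕ}

/-- The attached representation is irreducible. -/
theorem isIrreducible_of_rankin (hN : N ≠ 0) (hd : FrobeniusDensity) (a : ℕ → ℂ)
    (ρ : Γℚ →* GL (Fin 2) ℂ) (hfin : GaloisFactorsThroughFiniteLevel ρ)
    (hatt : ∀ p : ℕ, p.Prime → ¬ p ∣ N →
      ∀ P : ValuationSubring (AlgebraicClosure ℚ), P.LiesOverPrime p →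
        ∀ σ : Γℚ, P.IsFrobeniusAt σ p → (ρ σ : Matrix (Fin 2) (Fin 2) ℂ).trace = a p)
    (hR : ∃ C : ℝ, ∀ s : ℝ, 1 < s → s ≤ 2 → ∀ S : Finset ℕ, (∀ p ∈ S, p.Prime ∧ ¬ p ∣ N) →
      ∑ p ∈ S, ‖a p‖ ^ 2 * (p : ℝ) ^ (-s) ≤ Real.log (1 / (s - 1)) + C) :
    (Deformation.matrixRepresentation ρ).IsIrreducible := by
  classical
  refine matrixRepresentation_isIrreducible ρ ?_
  rintro ⟨P, hP⟩
  obtain ⟨C, hC⟩ := hR
  haveI := finite_range_of_factors hfin
  letI : Fintype ρ.range := Fintype.ofFinite _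
  set φ := ρ.rangeRestrict with hφ
  have hφs : Function.Surjective φ := MonoidHom.rangeRestrict_surjective ρ
  have hφf : GaloisFactorsThroughFiniteLevel φ := by
    obtain ⟨L, hL, h⟩ := hfin
    exact ⟨L, hL, fun σ hσ => Subtype.ext (h σ hσ)⟩
  set tr : ρ.range → ℂ := fun x => ((x : GL (Fin 2) ℂ) : Matrix (Fin 2) (Fin 2) ℂ).trace with htr
  set T := (univ : Finset ρ.range).image tr with hT
  set Cl : ℂ → Finset ρ.range := fun t => univ.filter fun x => tr x = t with hCl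
  have hclconj : ∀ t, ∀ g, ∀ c ∈ Cl t, g * c * g⁻¹ ∈ Cl t := by
    intro t g c hc
    simp only [hCl, Finset.mem_filter, Finset.mem_univ, true_and] at hc ⊢
    rw [← hc]
    simp only [htr, Subgroup.coe_mul, Subgroup.coe_inv, Units.val_mul, Matrix.trace_units_conj]
  set sq2 := ∑ t ∈ T, ‖t‖ ^ 2 with hsq
  set δ : ℝ := 1 / (2 * (sq2 + 1)) with hδ
  have hsq0 : 0 ≤ sq2 := Finset.sum_nonneg fun _ _ => sq_nonneg _
  have hδ0 : 0 < δ := by positivity
  choose K₀ hK₀ using fun t : ℂ => hd ρ.range φ hφs hφf (Cl t) (hclconj t) N.divisors δ hδ0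
  have hG : (0 : ℝ) < Fintype.card ρ.range := by exact_mod_cast Fintype.card_pos
  set m : ℝ := ∑ t ∈ T, ‖t‖ ^ 2 * ((Cl t).card / Fintype.card ρ.range) with hm
  have hm2 : 2 ≤ m := by
    have hconj : ∀ x : ρ.range,
        (((conjRep P ρ.range.subtype) x : GL (Fin 2) ℂ) : Matrix (Fin 2) (Fin 2) ℂ) 1 0 = 0 := by
      rintro ⟨_, σ, rfl⟩; exact hP σ
    have h2 := two_mul_card_le_sum_norm_trace _ hconj
    simp only [trace_conjRep] at h2
    have h3 : ∑ x : ρ.range, ‖tr x‖ ^ 2 = ∑ t ∈ T, (Cl t).card * ‖t‖ ^ 2 := by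
      rw [← Finset.sum_fiberwise_of_maps_to (t := T) (g := tr)
        fun x _ => Finset.mem_image_of_mem _ (Finset.mem_univ x)]
      refine Finset.sum_congr rfl fun t _ => ?_
      rw [Finset.sum_congr rfl (g := fun _ => ‖t‖ ^ 2) fun x hx => by rw [(Finset.mem_filter.1 hx).2],
        Finset.sum_const, nsmul_eq_mul]
    have h4 : m = (∑ x : ρ.range, ‖tr x‖ ^ 2) / Fintype.card ρ.range := by
      rw [h3, hm, Finset.sum_div]
      exact Finset.sum_congr rfl fun t _ => by ring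
    rw [h4, le_div_iff₀ hG]
    exact h2
  have key := nonpos_of_mul_le (x := m - δ * sq2 - 1) (D := C + ∑ t ∈ T, ‖t‖ ^ 2 * |K₀ t|) fun L hL => by
    obtain ⟨s, hs1, hs2, hsL⟩ := exists_log_eq hL
    choose S hS hle using fun t : ℂ => hK₀ t s hs1 hs2
    have hval : ∀ t, ∀ p ∈ S t, p.Prime ∧ ¬ p ∣ N ∧ a p = t := by
      intro t p hp
      obtain ⟨hpp, hp0, A, hA, σ, hσ, hσC⟩ := hS t p hp
      have hpN : ¬ p ∣ N := fun h => hp0 (Nat.mem_divisors.2 ⟨h, hN⟩)
      refine ⟨hpp, hpN, ?_⟩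
      simp only [hCl, Finset.mem_filter, Finset.mem_univ, true_and] at hσC
      rw [← hatt p hpp hpN A hA σ hσ]
      exact hσC
    have hdisj : (T : Set ℂ).PairwiseDisjoint S := by
      intro t _ t' _ hne
      rw [Function.onFun, Finset.disjoint_left]
      exact fun p h1 h2 => hne ((hval t p h1).2.2.symm.trans (hval t' p h2).2.2)
    have hbound := hC s hs1 hs2 (T.biUnion S) fun p hp => by
      obtain ⟨t, _, hpt⟩ := Finset.mem_biUnion.1 hp
      exact ⟨(hval t p hpt).1, (hval t p hpt).2.1⟩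
    rw [Finset.sum_biUnion hdisj, hsL] at hbound
    have hlow : ∑ t ∈ T, (‖t‖ ^ 2 * (((Cl t).card / Fintype.card ρ.range - δ) * L) - ‖t‖ ^ 2 * |K₀ t|)
        ≤ ∑ t ∈ T, ∑ p ∈ S t, ‖a p‖ ^ 2 * (p : ℝ) ^ (-s) := by
      refine Finset.sum_le_sum fun t _ => ?_
      rw [Finset.sum_congr rfl (g := fun p : ℕ => ‖t‖ ^ 2 * (p : ℝ) ^ (-s))
        fun p hp => by rw [(hval t p hp).2.2], ← Finset.mul_sum]
      have := hle t
      rw [hsL] at this
      have h5 := le_abs_self (K₀ t)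
      nlinarith [sq_nonneg ‖t‖]
    have hexp : ∑ t ∈ T, (‖t‖ ^ 2 * (((Cl t).card / Fintype.card ρ.range - δ) * L) - ‖t‖ ^ 2 * |K₀ t|)
        = (m - δ * sq2) * L - ∑ t ∈ T, ‖t‖ ^ 2 * |K₀ t| := by
      rw [hm, hsq, sub_mul, Finset.sum_mul, mul_assoc, Finset.sum_mul, Finset.mul_sum,
        ← Finset.sum_sub_distrib, ← Finset.sum_sub_distrib]
      exact Finset.sum_congr rfl fun t _ => by ring
    have := hexp ▸ hlow
    linarith
  have hδsq : δ * sq2 < 1 := by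
    rw [hδ, div_mul_eq_mul_div, div_lt_one (by positivity)]
    linarith
  linarith

end FLTAgent.DS
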