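import Mathlib.Analysis.Complex.Polynomial.Basic
import Mathlib.FieldTheory.PrimitiveElement
import Mathlib.LinearAlgebra.FiniteDimensional.Basic
import Mathlib.NumberTheory.NumberField.Basic
import Mathlib.Algebra.Algebra.Hom.Rat
import Fermat.Agent.IntegralStructure.FixedField

/-!
# Finite orbits under `Aut ℂ` and finitely many eigensystems
-/

set_option autoImplicit false

noncomputable section

namespace FLTAgent.DS

open Polynomial Finset

/-- Only finitely many eigensystems occur in a finite-dimensional space. -/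
theorem finite_eigensystems {F W P : Type*} [Field F] [AddCommGroup W] [Module F W]
    (L : P → Module.End F W) (V : Submodule F W) [FiniteDimensional F V] :
    {lam : P → F | ∃ v ∈ V, v ≠ 0 ∧ ∀ p, L p v = lam p • v}.Finite := by
  classical
  by_contra hinf
  obtain ⟨S, hS, hcard⟩ := Set.Infinite.exists_subset_card_eq hinf (Module.finrank F V + 1)
  choose! v hvV hv0 hLv using fun lam (h : lam ∈ S) => hS h
  have hsep : ∀ i, ∀ T : Finset (P → F), i ∉ T → ∃ (Q : Module.End F W) (s : (P → F) → F),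
      (∀ k ∈ S, Q (v k) = s k • v k) ∧ s i ≠ 0 ∧ ∀ j ∈ T, s j = 0 := by
    intro i T
    induction T using Finset.induction_on with
    | empty => exact fun _ => ⟨1, fun _ => 1, fun k _ => by simp, one_ne_zero, by simp⟩
    | insert j T hj ih =>
      intro hi
      simp only [Finset.mem_insert, not_or] at hi
      obtain ⟨Q, s, hQ, hsi, hsT⟩ := ih hi.2
      obtain ⟨p, hp⟩ := Function.ne_iff.1 hi.1
      refine ⟨(L p - j p • 1) * Q, fun k => (k p - j p) * s k, fun k hk => ?_, ?_, ?_⟩
      · rw [Module.End.mul_apply, hQ k hk, map_smul, LinearMap.sub_apply, hLv k hk p,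
          LinearMap.smul_apply, Module.End.one_apply, ← sub_smul, smul_smul, mul_comm]
      · exact mul_ne_zero (sub_ne_zero.2 hp) hsi
      · intro x hx
        rcases Finset.mem_insert.1 hx with rfl | hx
        · simp
        · simp [hsT x hx]
  have hind : LinearIndependent F fun lam : S => (⟨v lam, hvV lam lam.2⟩ : V) := by
    rw [Fintype.linearIndependent_iff]
    intro c hc i
    obtain ⟨Q, s, hQ, hsi, hsT⟩ := hsep i.1 (S.erase i.1) (Finset.notMem_erase _ _)
    have hc' := congrArg (fun x : V => Q (x : W)) hc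
    simp only [Submodule.coe_sum, Submodule.coe_smul, ZeroMemClass.coe_zero, map_zero, map_sum,
      map_smul] at hc'
    rw [Finset.sum_eq_single i] at hc'
    · rw [hQ i.1 i.2, smul_smul, smul_eq_zero, mul_eq_zero] at hc'
      rcases hc' with (h | h) | h
      · exact h
      · exact absurd h hsi
      · exact absurd h (hv0 i.1 i.2)
    · intro j _ hji
      rw [hQ j.1 j.2, hsT j.1 (Finset.mem_erase.2 ⟨fun h => hji (Subtype.ext h), j.2⟩)]
      simp
    · simp
  have := hind.fintype_card_le_finrank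
  rw [Fintype.card_coe, hcard] at this
  omega

variable {x : ℂ} {O : Finset ℂ}

/-- The monic rational polynomial of a finite `Aut ℂ`-stable set. -/
theorem exists_poly_of_stable (hO : ∀ σ : ℂ ≃+* ℂ, ∀ y ∈ O, σ y ∈ O) :
    ∃ Q : ℚ[X], Q.Monic ∧ Q.natDegree = O.card ∧
      ∀ z : ℂ, aeval z Q = 0 ↔ z ∈ O := by
  classical
  set P : ℂ[X] := ∏ y ∈ O, (X - C y) with hP
  have hfix : ∀ σ : ℂ ≃+* ℂ, P.map (σ : ℂ →+* ℂ) = P := by
    intro σ
    rw [hP, Polynomial.map_prod]
    simp only [Polynomial.map_sub, map_X, map_C]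
    exact Finset.prod_bij (fun y _ => σ y) (fun y hy => hO σ y hy)
      (fun a _ b _ h => σ.injective h)
      (fun b hb => ⟨σ.symm b, hO σ.symm b hb, σ.apply_symm_apply b⟩) (fun y _ => rfl)
  have hlift : P ∈ Polynomial.lifts (algebraMap ℚ ℂ) := by
    rw [Polynomial.lifts_iff_coeff_lifts]
    intro n
    obtain ⟨r, hr⟩ := IntegralStructure.eq_ratCast_of_forall_ringEquiv (x := P.coeff n) fun σ => by
      conv_rhs => rw [← hfix σ, Polynomial.coeff_map]
      rfl
    exact ⟨r, by simpa using hr⟩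
  have hPm : P.Monic := monic_prod_of_monic _ _ fun y _ => monic_X_sub_C y
  obtain ⟨Q, hQ, hdeg, hmon⟩ := Polynomial.lifts_and_natDegree_eq_and_monic hlift hPm
  refine ⟨Q, hmon, ?_, fun z => ?_⟩
  · rw [hdeg, hP, natDegree_prod _ _ fun y _ => X_sub_C_ne_zero y]
    simp
  · rw [aeval_def, ← eval_map, hQ, hP, eval_prod, Finset.prod_eq_zero_iff]
    simp [sub_eq_zero]

/-- Bundled orbit of a number with finite orbit. -/
theorem orbit_stable (h : (Set.range fun σ : ℂ ≃+* ℂ => σ x).Finite) :
    (∀ σ : ℂ ≃+* ℂ, ∀ y ∈ h.toFinset, σ y ∈ h.toFinset) ∧ x ∈ h.toFinset := by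
  refine ⟨fun σ y hy => ?_, ?_⟩
  · simp only [Set.Finite.mem_toFinset, Set.mem_range] at hy ⊢
    obtain ⟨τ, rfl⟩ := hy
    exact ⟨τ.trans σ, rfl⟩
  · simp only [Set.Finite.mem_toFinset, Set.mem_range]
    exact ⟨RingEquiv.refl ℂ, rfl⟩

theorem isIntegral_of_orbit (h : (Set.range fun σ : ℂ ≃+* ℂ => σ x).Finite) : IsIntegral ℚ x := by
  obtain ⟨Q, hm, -, hQ⟩ := exists_poly_of_stable (orbit_stable h).1
  exact ⟨Q, hm, by rw [← aeval_def]; exact (hQ x).2 (orbit_stable h).2⟩

/-- Two automorphisms which agree on the generators agree on the field generated. -/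
theorem eqOn_adjoin {G : Set ℂ} {σ τ : ℂ ≃+* ℂ} (h : ∀ z ∈ G, σ z = τ z) {y : ℂ}
    (hy : y ∈ IntermediateField.adjoin ℚ G) : σ y = τ y := by
  induction hy using IntermediateField.adjoin_induction with
  | mem z hz => exact h z hz
  | algebraMap r => simp
  | add a b _ _ ha hb => rw [map_add, map_add, ha, hb]
  | inv a _ ha => rw [map_inv₀, map_inv₀, ha]
  | mul a b _ _ ha hb => rw [map_mul, map_mul, ha, hb]

/-- If only finitely many functions on `G` arise from `Aut ℂ`, then `G` generates a number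
field, and every embedding of that field comes from an automorphism of `ℂ`. -/
theorem exists_numberField (G : Set ℂ)
    (hG : (Set.range fun σ : ℂ ≃+* ℂ => fun z : G => σ z).Finite) :
    ∃ K : IntermediateField ℚ ℂ, FiniteDimensional ℚ K ∧ (∀ z ∈ G, z ∈ K) ∧
      ∀ ι : K →+* ℂ, ∃ σ : ℂ ≃+* ℂ, ∀ y : K, ι y = σ (y : ℂ) := by
  classical
  set s := hG.toFinset.card
  set K₀ := IntermediateField.adjoin ℚ G with hK₀
  have horb : ∀ y ∈ K₀, ∃ h : (Set.range fun σ : ℂ ≃+* ℂ => σ y).Finite, h.toFinset.card ≤ s := by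
    intro y hy
    let rep : (G → ℂ) → ℂ := fun φ =>
      if hφ : ∃ σ : ℂ ≃+* ℂ, (fun z : G => σ z) = φ then hφ.choose y else 0
    have hsub : (Set.range fun σ : ℂ ≃+* ℂ => σ y) ⊆ rep '' (hG.toFinset : Set (G → ℂ)) := by
      rintro _ ⟨σ, rfl⟩
      refine ⟨fun z : G => σ z, by simp, ?_⟩
      have hφ : ∃ τ : ℂ ≃+* ℂ, (fun z : G => τ z) = fun z : G => σ z := ⟨σ, rfl⟩
      simp only [rep, dif_pos hφ]
      exact eqOn_adjoin (fun z hz => congrFun hφ.choose_spec ⟨z, hz⟩) hy
    have hfin := (hG.toFinset.finite_toSet.image rep).subset hsub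
    refine ⟨hfin, le_trans ?_ (Finset.card_image_le (f := rep))⟩
    exact Finset.card_le_card fun z hz => by
      have := hsub (hfin.mem_toFinset.1 hz)
      simpa using this
  have hint : ∀ y ∈ K₀, IsIntegral ℚ y := fun y hy => isIntegral_of_orbit (horb y hy).1
  have hfd : ∀ T : Finset ℂ, ↑T ⊆ G →
      FiniteDimensional ℚ (IntermediateField.adjoin ℚ (T : Set ℂ)) := fun T hT =>
    IntermediateField.finiteDimensional_adjoin fun z hz =>
      hint z (IntermediateField.subset_adjoin ℚ G (hT hz))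
  have hbound : ∀ T : Finset ℂ, ↑T ⊆ G →
      Module.finrank ℚ (IntermediateField.adjoin ℚ (T : Set ℂ)) ≤ s := by
    intro T hT
    haveI := hfd T hT
    set L := IntermediateField.adjoin ℚ (T : Set ℂ)
    obtain ⟨α, hα⟩ := Field.exists_primitive_element ℚ L
    have hαK : (α : ℂ) ∈ K₀ := IntermediateField.adjoin.mono ℚ _ _ hT α.2
    obtain ⟨hf, hc⟩ := horb _ hαK
    obtain ⟨Q, hm, hd, hQ⟩ := exists_poly_of_stable (orbit_stable hf).1
    have hQ0 : aeval α Q = 0 := by
      apply Subtype.coe_injective (p := fun z => z ∈ L)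
      show ((aeval α Q : L) : ℂ) = ((0 : L) : ℂ)
      rw [show ((aeval α Q : L) : ℂ) = aeval (α : ℂ) Q from (Polynomial.aeval_algHom_apply L.val α Q).symm]
      simpa using (hQ _).2 (orbit_stable hf).2
    have hdvd := minpoly.dvd ℚ α hQ0
    calc Module.finrank ℚ L = Module.finrank ℚ (⊤ : IntermediateField ℚ L) :=
          IntermediateField.finrank_top'.symm
      _ = (minpoly ℚ α).natDegree := by
          rw [← hα, IntermediateField.adjoin.finrank (IsIntegral.of_finite ℚ α)]
      _ ≤ Q.natDegree := natDegree_le_of_dvd hdvd hm.ne_zero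
      _ ≤ s := hd ▸ hc
  set P : ℕ → Prop := fun d => ∃ T : Finset ℂ, ↑T ⊆ G ∧
    Module.finrank ℚ (IntermediateField.adjoin ℚ (T : Set ℂ)) = d
  have hP0 : P (Nat.findGreatest P s) :=
    Nat.findGreatest_spec (m := Module.finrank ℚ (IntermediateField.adjoin ℚ ((∅ : Finset ℂ) : Set ℂ)))
      (hbound ∅ (by simp)) ⟨∅, by simp, rfl⟩
  obtain ⟨T, hT, hTd⟩ := hP0
  set K := IntermediateField.adjoin ℚ (T : Set ℂ) with hK
  haveI := hfd T hT
  have hmem : ∀ z ∈ G, z ∈ K := by
    intro z hz
    have hT' : ↑(insert z T) ⊆ G := by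
      rw [Finset.coe_insert]; exact Set.insert_subset hz hT
    haveI := hfd _ hT'
    have hle : Module.finrank ℚ (IntermediateField.adjoin ℚ ((insert z T : Finset ℂ) : Set ℂ))
        ≤ Module.finrank ℚ K := hTd ▸ Nat.le_findGreatest (hbound _ hT') ⟨_, hT', rfl⟩
    have heq := IntermediateField.eq_of_le_of_finrank_le (F := K)
      (E := IntermediateField.adjoin ℚ ((insert z T : Finset ℂ) : Set ℂ))
      (IntermediateField.adjoin.mono ℚ _ _ (by simp)) hle
    rw [heq]
    exact IntermediateField.subset_adjoin ℚ _ (by simp)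
  refine ⟨K, inferInstance, hmem, fun ι => ?_⟩
  obtain ⟨α, hα⟩ := Field.exists_primitive_element ℚ K
  have hαK : (α : ℂ) ∈ K₀ := IntermediateField.adjoin.mono ℚ _ _ hT α.2
  obtain ⟨hf, -⟩ := horb _ hαK
  obtain ⟨Q, hm, -, hQ⟩ := exists_poly_of_stable (orbit_stable hf).1
  have hQα : aeval α Q = 0 := by
    apply Subtype.coe_injective (p := fun z => z ∈ K)
    show ((aeval α Q : K) : ℂ) = ((0 : K) : ℂ)
    rw [show ((aeval α Q : K) : ℂ) = aeval (α : ℂ) Q from (Polynomial.aeval_algHom_apply K.val α Q).symm]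
    simpa using (hQ _).2 (orbit_stable hf).2
  let ι' : K →ₐ[ℚ] ℂ := ι.toRatAlgHom
  have hιmem : ι α ∈ hf.toFinset := (hQ _).1 (by
    show aeval (ι' α) Q = 0
    rw [Polynomial.aeval_algHom_apply, hQα, map_zero])
  obtain ⟨σ, hσ⟩ := hf.mem_toFinset.1 hιmem
  refine ⟨σ, fun y => ?_⟩
  have hy : y ∈ IntermediateField.adjoin ℚ {α} := by rw [hα]; trivial
  induction hy using IntermediateField.adjoin_induction with
  | mem z hz =>
    rw [Set.mem_singleton_iff] at hz
    rw [hz]; exact hσ.symm
  | algebraMap r => simp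
  | add a b _ _ ha hb => simp [ha, hb]
  | inv a _ ha => simp [ha]
  | mul a b _ _ ha hb => simp [ha, hb]

/-- A number field element all of whose powers have a common denominator is integral. -/
theorem isIntegral_of_bounded_powers {K : Type*} [Field K] [NumberField K] {y : K} {D : ℕ}
    (hD : D ≠ 0) (h : ∀ k : ℕ, IsIntegral ℤ ((D : K) * y ^ k)) : IsIntegral ℤ y := by
  let φ : NumberField.RingOfIntegers K →ₗ[ℤ] K :=
    { toFun := fun z => (z : K) / D
      map_add' := fun a b => by push_cast; ring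
      map_smul' := fun c a => by simp [mul_div_assoc] }
  have hfg : (LinearMap.range φ).FG := Module.Finite.iff_fg.1 inferInstance
  refine IsIntegral.of_mem_of_fg (Algebra.adjoin ℤ {y}) (Submodule.FG.of_le hfg ?_) y
    (Algebra.self_mem_adjoin_singleton ℤ y)
  intro z hz
  rw [Subalgebra.mem_toSubmodule, Algebra.adjoin_singleton_eq_range_aeval] at hz
  obtain ⟨q, rfl⟩ := hz
  show aeval y q ∈ LinearMap.range φ
  induction q using Polynomial.induction_on' with
  | add p r hp hr => rw [map_add]; exact add_mem hp hr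
  | monomial n c =>
    let w : NumberField.RingOfIntegers K := ⟨(D : K) * y ^ n, h n⟩
    refine ⟨c • w, ?_⟩
    rw [map_smul, aeval_monomial, show φ w = (w : K) / D from rfl,
      show (w : K) = (D : K) * y ^ n from rfl]
    simp [φ, mul_div_cancel_left₀ _ (Nat.cast_ne_zero.2 hD : (D : K) ≠ 0)]

end FLTAgent.DS
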