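import Fermat.Agent.DS.RankinSeries
import Mathlib.NumberTheory.ModularForms.Bounds
import Mathlib.NumberTheory.ModularForms.QExpansion
import Mathlib.Analysis.Fourier.AddCircle
import Mathlib.Analysis.Convex.SpecificFunctions.Basic

/-!
# Second moment of the coefficients of a cusp form of weight one
-/

set_option autoImplicit false

noncomputable section

namespace FLTAgent.DS

open Finset Real UpperHalfPlane MeasureTheory

variable {Γ : Subgroup (GL (Fin 2) ℝ)} [Γ.IsArithmetic] {F : Type*} [FunLike F ℍ ℂ]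

local notation "𝕢" => Function.Periodic.qParam

/-- The horizontal restriction of a function on `ℍ` to height `y`. -/
def horiz (f : F) (y : ℝ) (u : ℝ) : ℂ :=
  if hy : 0 < y then f ⟨(u : ℂ) + y * Complex.I, by simpa using hy⟩ else 0

omit [Γ.IsArithmetic] in
theorem continuous_horiz [CuspFormClass F Γ 1] (f : F) {y : ℝ} (hy : 0 < y) :
    Continuous (horiz f y) := by
  have he : horiz f y = fun u : ℝ => f ⟨(u : ℂ) + y * Complex.I, by simpa using hy⟩ := by
    funext u; simp [horiz, hy]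
  rw [he]
  refine (CuspFormClass.holo (F := F) (Γ := Γ) (k := 1) f).continuous.comp ?_
  exact UpperHalfPlane.isEmbedding_coe.continuous_iff.2 (by fun_prop)

omit [Γ.IsArithmetic] in
theorem fourierCoeffOn_horiz [CuspFormClass F Γ 1] (f : F) (h1 : (1 : ℝ) ∈ Γ.strictPeriods)
    {y : ℝ} (hy : 0 < y) (n : ℕ) :
    fourierCoeffOn zero_lt_one (horiz f y) (n : ℤ)
      = (qExpansion 1 f).coeff n * (𝕢 1 (y * Complex.I)) ^ n := by
  rw [fourierCoeffOn_eq_integral, ModularFormClass.qExpansion_coeff_eq_intervalIntegral f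
    one_pos h1 n hy]
  simp only [sub_zero, div_one, one_smul, Complex.ofReal_one, one_mul]
  rw [← intervalIntegral.integral_mul_const]
  refine intervalIntegral.integral_congr fun u _ => ?_
  simp only [horiz, dif_pos hy, fourier_coe_apply, smul_eq_mul]
  conv_rhs => rw [mul_right_comm]
  refine congrArg (fun z : ℂ => z * f ⟨(u : ℂ) + y * Complex.I, by simpa using hy⟩) ?_
  simp only [Function.Periodic.qParam, ← Complex.exp_nat_mul, one_div, ← Complex.exp_neg,
    ← Complex.exp_add]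
  congr 1
  push_cast
  ring

/-- Bessel's inequality: `∑ ‖a n‖² e^{-4π n y} ≤ C / y`. -/
theorem exists_sum_sq_coeff_le [CuspFormClass F Γ 1] (f : F)
    (h1 : (1 : ℝ) ∈ Γ.strictPeriods) :
    ∃ C : ℝ, ∀ (s : Finset ℕ) (y : ℝ), 0 < y →
      ∑ n ∈ s, ‖(qExpansion 1 f).coeff n‖ ^ 2 * Real.exp (-4 * π * y * n) ≤ C / y := by
  obtain ⟨C, hC⟩ := CuspFormClass.exists_bound (k := 1) (Γ := Γ) f
  refine ⟨C ^ 2, fun s y hy => ?_⟩
  have hcont := continuous_horiz (Γ := Γ) f hy
  have hL2 : MemLp (horiz f y) 2 (volume.restrict (Set.Ioc 0 1)) := by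
    obtain ⟨M, hM⟩ := isCompact_Icc.exists_bound_of_continuousOn (s := Set.Icc (0 : ℝ) 1)
      hcont.continuousOn
    refine MemLp.of_bound hcont.aestronglyMeasurable M ?_
    filter_upwards [ae_restrict_mem measurableSet_Ioc] with x hx
    exact hM x (Set.Ioc_subset_Icc_self hx)
  have hsum := hasSum_sq_fourierCoeffOn zero_lt_one hL2
  have hle : ∑ m ∈ s.image (fun n : ℕ => (n : ℤ)),
      ‖fourierCoeffOn zero_lt_one (horiz f y) m‖ ^ 2
        ≤ ((1 : ℝ) - 0)⁻¹ • ∫ x in (0 : ℝ)..1, ‖horiz f y x‖ ^ 2 :=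
    sum_le_hasSum _ (fun _ _ => sq_nonneg _) hsum
  rw [Finset.sum_image (fun a _ b _ h => Int.ofNat_inj.1 h), sub_zero, inv_one, one_smul] at hle
  have heq : ∀ n : ℕ, ‖fourierCoeffOn zero_lt_one (horiz f y) (n : ℤ)‖ ^ 2
      = ‖(qExpansion 1 f).coeff n‖ ^ 2 * Real.exp (-4 * π * y * n) := fun n => by
    rw [fourierCoeffOn_horiz f h1 hy n, norm_mul, norm_pow, Function.Periodic.norm_qParam,
      mul_pow, ← pow_mul, ← Real.exp_nat_mul]
    congr 2
    simp
    ring
  rw [Finset.sum_congr rfl fun n _ => heq n] at hle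
  refine hle.trans ?_
  calc ∫ x in (0 : ℝ)..1, ‖horiz f y x‖ ^ 2 ≤ ∫ _x in (0 : ℝ)..1, C ^ 2 / y := by
        refine intervalIntegral.integral_mono_on zero_le_one
          ((hcont.norm.pow 2).intervalIntegrable _ _) intervalIntegrable_const fun x _ => ?_
        simp only [horiz, dif_pos hy]
        refine (pow_le_pow_left₀ (norm_nonneg _) (hC _) 2).trans (le_of_eq ?_)
        rw [div_pow, ← UpperHalfPlane.coe_im]
        simp only [Int.cast_one, Complex.add_im, Complex.ofReal_im, Complex.mul_im,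
          Complex.ofReal_re, Complex.I_im, mul_one, Complex.I_re, mul_zero, add_zero, zero_add]
        rw [← Real.rpow_mul_natCast hy.le]
        norm_num
    _ = C ^ 2 / y := by simp

/-- Dyadic summation. -/
theorem sum_rpow_le_of_sum_le {b : ℕ → ℝ} (hb : ∀ n, 0 ≤ b n) {A : ℝ}
    (hA : ∀ X : ℕ, 0 < X → ∑ n ∈ Finset.Icc 1 X, b n ≤ A * X) {s : ℝ} (hs : 1 < s) (hs2 : s ≤ 2)
    (F : Finset ℕ) (hF : ∀ n ∈ F, 0 < n) :
    ∑ n ∈ F, b n * (n : ℝ) ^ (-s) ≤ 4 * A / (s - 1) := by
  have hA0 : 0 ≤ A := by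
    have := hA 1 one_pos
    simp only [Finset.Icc_self, Finset.sum_singleton, Nat.cast_one, mul_one] at this
    exact (hb 1).trans this
  set r : ℝ := (2 : ℝ) ^ (-(s - 1)) with hr
  have hr0 : 0 < r := Real.rpow_pos_of_pos two_pos _
  have hr1 : r ≤ 1 - (s - 1) / 2 := by
    rw [hr, Real.rpow_neg two_pos.le, ← Real.inv_rpow two_pos.le]
    have := rpow_one_add_le_one_add_mul_self (s := (-(1 / 2) : ℝ)) (by norm_num)
      (p := s - 1) (by linarith) (by linarith)
    norm_num at this ⊢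
    linarith
  set K := F.sup id + 1
  have hblock : ∀ k : ℕ, ∑ n ∈ F.filter (fun n => Nat.log 2 n = k), b n * (n : ℝ) ^ (-s)
      ≤ 2 * A * r ^ k := by
    intro k
    calc ∑ n ∈ F.filter (fun n => Nat.log 2 n = k), b n * (n : ℝ) ^ (-s)
        ≤ ∑ n ∈ F.filter (fun n => Nat.log 2 n = k), b n * ((2 : ℝ) ^ k) ^ (-s) := by
          refine Finset.sum_le_sum fun n hn => mul_le_mul_of_nonneg_left ?_ (hb n)
          simp only [Finset.mem_filter] at hn
          have : 2 ^ k ≤ n := hn.2 ▸ Nat.pow_log_le_self 2 (hF n hn.1).ne'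
          exact Real.rpow_le_rpow_of_nonpos (by positivity) (by exact_mod_cast this) (by linarith)
      _ ≤ (A * (2 : ℝ) ^ (k + 1)) * ((2 : ℝ) ^ k) ^ (-s) := by
          rw [← Finset.sum_mul]
          refine mul_le_mul_of_nonneg_right ?_ (by positivity)
          refine le_trans ?_ ((hA (2 ^ (k + 1)) (by positivity)).trans (le_of_eq (by push_cast; ring)))
          refine Finset.sum_le_sum_of_subset_of_nonneg (fun n hn => ?_) fun n _ _ => hb n
          simp only [Finset.mem_filter] at hn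
          simp only [Finset.mem_Icc]
          exact ⟨hF n hn.1, hn.2 ▸ (Nat.lt_pow_succ_log_self one_lt_two n).le⟩
      _ = 2 * A * r ^ k := by
          rw [hr, ← Real.rpow_natCast (2 : ℝ) k, ← Real.rpow_natCast (2 : ℝ) (k + 1),
            ← Real.rpow_natCast ((2 : ℝ) ^ (-(s - 1))) k, ← Real.rpow_mul two_pos.le,
            ← Real.rpow_mul two_pos.le, mul_assoc, ← Real.rpow_add two_pos, mul_comm 2 A, mul_assoc]
          congr 1
          have he : ((k + 1 : ℕ) : ℝ) + (k : ℝ) * -s = 1 + -(s - 1) * k := by push_cast; ring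
          rw [he, Real.rpow_add two_pos, Real.rpow_one]
  rw [← Finset.sum_fiberwise_of_maps_to (t := Finset.range K) (g := Nat.log 2) (fun n hn => by
    simp only [Finset.mem_range]
    exact lt_of_le_of_lt ((Nat.log_le_self 2 n).trans (Finset.le_sup (f := id) hn)) (by omega))]
  calc _ ≤ ∑ k ∈ Finset.range K, 2 * A * r ^ k := Finset.sum_le_sum fun k _ => hblock k
    _ ≤ 2 * A * (1 - r)⁻¹ := by
        rw [← Finset.mul_sum]
        exact mul_le_mul_of_nonneg_left (sum_le_hasSum _ (fun _ _ => by positivity)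
          (hasSum_geometric_of_lt_one hr0.le (by linarith))) (by linarith)
    _ ≤ 2 * A * ((s - 1) / 2)⁻¹ :=
        mul_le_mul_of_nonneg_left (inv_anti₀ (by linarith) (by linarith)) (by linarith)
    _ = 4 * A / (s - 1) := by rw [inv_div]; ring

/-- `∑ ‖a n‖² n^{-s} ≤ B / (s - 1)` for a cusp form of weight one. -/
theorem exists_dirichlet_sq_le [CuspFormClass F Γ 1] (f : F)
    (h1 : (1 : ℝ) ∈ Γ.strictPeriods) :
    ∃ B : ℝ, ∀ s : ℝ, 1 < s → s ≤ 2 → ∀ T : Finset ℕ, (∀ n ∈ T, 0 < n) →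
      ∑ n ∈ T, ‖(qExpansion 1 f).coeff n‖ ^ 2 * (n : ℝ) ^ (-s) ≤ B / (s - 1) := by
  obtain ⟨C, hC⟩ := exists_sum_sq_coeff_le (Γ := Γ) f h1
  refine ⟨4 * (C * Real.exp (4 * π)), fun s hs hs2 T hT => ?_⟩
  refine sum_rpow_le_of_sum_le (fun n => sq_nonneg _) (fun X hX => ?_) hs hs2 T hT
  have hX' : (0 : ℝ) < X := by exact_mod_cast hX
  have := hC (Finset.Icc 1 X) (1 / (X : ℝ)) (by positivity)
  rw [div_div_eq_mul_div, div_one] at this
  calc ∑ n ∈ Finset.Icc 1 X, ‖(qExpansion 1 f).coeff n‖ ^ 2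
      ≤ ∑ n ∈ Finset.Icc 1 X, Real.exp (4 * π) *
          (‖(qExpansion 1 f).coeff n‖ ^ 2 * Real.exp (-4 * π * (1 / (X : ℝ)) * n)) := by
        refine Finset.sum_le_sum fun n hn => ?_
        rw [mul_left_comm, ← Real.exp_add]
        refine le_mul_of_one_le_right (sq_nonneg _) (Real.one_le_exp ?_)
        have : (n : ℝ) ≤ X := by exact_mod_cast (Finset.mem_Icc.1 hn).2
        have h4 : (n : ℝ) / X ≤ 1 := (div_le_one hX').2 this
        have : -4 * π * (1 / (X : ℝ)) * n = -(4 * π) * ((n : ℝ) / X) := by ring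
        rw [this]
        nlinarith [Real.pi_pos]
    _ ≤ Real.exp (4 * π) * (C * X) := by
        rw [← Finset.mul_sum]; exact mul_le_mul_of_nonneg_left this (Real.exp_pos _).le
    _ = C * Real.exp (4 * π) * X := by ring

/-- The Rankin-type bound for a cusp form of weight one with a Hecke recursion. -/
theorem exists_rankin_bound [CuspFormClass F Γ 1] (f : F)
    (h1 : (1 : ℝ) ∈ Γ.strictPeriods) {w : ℕ → ℂ} {P : Set ℕ}
    (H : HeckeRecursion (fun n => (qExpansion 1 f).coeff n) w P) :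
    ∃ C : ℝ, ∀ s : ℝ, 1 < s → s ≤ 2 → ∀ S : Finset ℕ, (∀ p ∈ S, p ∈ P) →
      ∑ p ∈ S, ‖(qExpansion 1 f).coeff p‖ ^ 2 * (p : ℝ) ^ (-s)
        ≤ Real.log (1 / (s - 1)) + C := by
  obtain ⟨B, hB⟩ := exists_dirichlet_sq_le (Γ := Γ) f h1
  refine ⟨Real.log (max B 1) + eulerConst, fun s hs hs2 S hS => ?_⟩
  have hpos : (0 : ℝ) < s - 1 := by linarith
  have := H.sum_le hs (B := max B 1 / (s - 1)) (fun T hT => (hB s hs hs2 T hT).trans
    (div_le_div_of_nonneg_right (le_max_left _ _) hpos.le)) S hS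
  rw [div_eq_mul_one_div, Real.log_mul (by positivity) (by positivity)] at this
  linarith

end FLTAgent.DS
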