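import Fermat.Agent.DS.Conjugates
import Fermat.Agent.DS.FinOrbit
import Fermat.Agent.DS.SecondMoment
import Mathlib.RingTheory.Localization.Integral

/-!
# The number field and integrality of a depleted weight-one eigensystem
-/

set_option autoImplicit false

noncomputable section

namespace FLTAgent.DS

open UpperHalfPlane ModularForm MatrixGroups CongruenceSubgroup
open FLTAgent.IntegralStructure

variable {N : ℕ}

/-- The Hecke recursion, together with the vanishing at indices not prime to `N`. -/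
structure DepletedEigen (N : ℕ) (w : ℕ → ℂ) (b : ℕ → ℂ) : Prop where
  zero : b 0 = 0
  one : b 1 = 1
  bad : ∀ n, (∃ q, q.Prime ∧ q ∣ N ∧ q ∣ n) → b n = 0
  mul : ∀ p : ℕ, p.Prime → ¬ p ∣ N → ∀ n,
    b (p * n) + w p * (if p ∣ n then b (n / p) else 0) = b p * b n

/-- A depleted eigen sequence is determined by its values at the good primes. -/
theorem DepletedEigen.induction_mem {w b : ℕ → ℂ} (h : DepletedEigen N w b) {P : ℕ → ℂ → Prop}
    (h0 : P 0 0) (h1 : P 1 1) (hbad : ∀ n, (∃ q, q.Prime ∧ q ∣ N ∧ q ∣ n) → P n 0)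
    (hstep : ∀ p m : ℕ, p.Prime → ¬ p ∣ N → 0 < m → P m (b m) → (p ∣ m → P (m / p) (b (m / p))) →
      P (p * m) (b p * b m - w p * (if p ∣ m then b (m / p) else 0))) :
    ∀ n, P n (b n) := by
  intro n
  induction n using Nat.strong_induction_on with
  | _ n ih =>
    rcases Nat.lt_trichotomy n 1 with hn | hn | hn
    · obtain rfl : n = 0 := by omega
      rwa [h.zero]
    · subst hn; rwa [h.one]
    by_cases hbd : ∃ q, q.Prime ∧ q ∣ N ∧ q ∣ n
    · rw [h.bad n hbd]; exact hbad n hbd
    obtain ⟨m, hm⟩ := Nat.minFac_dvd n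
    set p := n.minFac
    have hp : p.Prime := Nat.minFac_prime (by omega)
    have hpN : ¬ p ∣ N := fun hd => hbd ⟨p, hp, hd, ⟨m, hm⟩⟩
    have hm0 : 0 < m := by
      rcases Nat.eq_zero_or_pos m with rfl | h0'
      · simp at hm; omega
      · exact h0'
    have hmn : m < n := by
      have := hp.two_le
      nlinarith
    have := hstep p m hp hpN hm0 (ih m hmn) fun hd => ih _ (lt_of_le_of_lt (Nat.div_le_self m p) hmn)
    rw [← h.mul p hp hpN m, add_sub_cancel_right, ← hm] at this
    exact this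

theorem DepletedEigen.ext {w b b' : ℕ → ℂ} (h : DepletedEigen N w b) (h' : DepletedEigen N w b')
    (hp : ∀ p : ℕ, p.Prime → ¬ p ∣ N → b p = b' p) : b = b' := by
  funext n
  refine h.induction_mem (P := fun n x => x = b' n) h'.zero.symm h'.one.symm
    (fun n hn => (h'.bad n hn).symm) (fun p m hp' hpN _ hm hd => ?_) n
  rw [hp p hp' hpN, hm, ← h'.mul p hp' hpN m]
  split_ifs with hdv
  · rw [hd hdv, add_sub_cancel_right]
  · ring

variable [NeZero N] {ε : DirichletCharacter ℂ N} {f : CuspForm (Gamma1 N) 1}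

/-- The space of series which become forms of weight two after multiplication by `E`. -/
def divSpace (χ : DirichletCharacter ℂ N) : Submodule ℂ (PowerSeries ℂ) :=
  (LinearMap.range
    ({ toFun := fun G => qHom (qC G)
       map_add' := fun G G' => by rw [show qC (G + G') = qC G + qC G' from Subtype.ext rfl, map_add]
       map_smul' := fun c G => by rw [show qC (c • G) = c • qC G from Subtype.ext rfl, map_smul]; rfl } :
      CuspForm (Gamma0 (2 * N)) 2 →ₗ[ℂ] PowerSeries ℂ)).comap
    (LinearMap.mulRight ℂ (qHom (qG (M := 2 * N) (k := 1) (eisDiff (χ : ZMod N → ℂ)))))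

theorem finiteDimensional_divSpace (χ : DirichletCharacter ℂ N) (hχ : χ.Odd) :
    FiniteDimensional ℂ (divSpace χ) := by
  haveI : Module.Finite ℂ (CuspForm (Gamma0 (2 * N)) 2) :=
    Module.Finite.of_injective _ (coeffMap_injective (2 * N) 2)
  have hne : qHom (qG (M := 2 * N) (k := 1) (eisDiff (χ : ZMod N → ℂ))) ≠ 0 := by
    intro h
    have h1 := congrArg (PowerSeries.coeff 1) h
    rw [qHom_apply, map_zero] at h1
    change ModularFormClass.qCoeff (eisDiff (χ : ZMod N → ℂ)) 1 = 0 at h1
    rw [qCoeff_eisDiff_one hχ.eval_neg, map_one] at h1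
    exact one_ne_zero h1
  refine Module.Finite.of_injective
    ((LinearMap.mulRight ℂ _).restrict (p := divSpace χ) (q := LinearMap.range _) fun x hx => hx) ?_
  intro x y hxy
  exact Subtype.ext (mul_right_cancel₀ hne (congrArg Subtype.val hxy))

variable (f)

/-- The Galois translates of a depleted eigenform's series. -/
theorem finite_translates (hodd : ε.Odd) (hne : ∀ γ ∈ Gamma0 N,
      (f : ℍ → ℂ) ∣[(1 : ℤ)] γ = ε ((γ 1 1 : ℤ) : ZMod N) • (f : ℍ → ℂ))
    (hb : DepletedEigen N (fun p => ε (p : ZMod N)) (ModularFormClass.qCoeff f)) :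
    (Set.range fun σ : ℂ ≃+* ℂ => ((fun n => σ (ModularFormClass.qCoeff f n)),
      (ε⁻¹).ringHomComp (σ : ℂ →+* ℂ))).Finite := by
  classical
  set Good := {p : ℕ // p.Prime ∧ ¬ p ∣ N}
  have hconj : ∀ σ : ℂ ≃+* ℂ,
      DepletedEigen N (fun p => ((ε⁻¹).ringHomComp (σ : ℂ →+* ℂ) (p : ZMod N))⁻¹)
        (fun n => σ (ModularFormClass.qCoeff f n)) := by
    intro σ
    refine ⟨by simp [hb.zero], by simp [hb.one], fun n hn => by simp [hb.bad n hn], fun p hp hpN n => ?_⟩
    have := congrArg σ (hb.mul p hp hpN n)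
    rw [map_add, map_mul, map_mul, apply_ite σ, map_zero] at this
    rw [MulChar.ringHomComp_apply, MulChar.inv_apply_eq_inv', map_inv₀, inv_inv]
    exact this
  let T : DirichletCharacter ℂ N → Set (ℕ → ℂ) := fun χ =>
    {b | DepletedEigen N (fun p => (χ (p : ZMod N))⁻¹) b ∧ PowerSeries.mk b ∈ divSpace χ}
  have hT : ∀ χ : DirichletCharacter ℂ N, χ.Odd → (T χ).Finite := by
    intro χ hχ
    haveI := finiteDimensional_divSpace χ hχ
    let L : Good → Module.End ℂ (PowerSeries ℂ) := fun p =>
      { toFun := fun s => PowerSeries.mk fun n => PowerSeries.coeff (p.1 * n) s +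
          (χ (p.1 : ZMod N))⁻¹ * (if p.1 ∣ n then PowerSeries.coeff (n / p.1) s else 0)
        map_add' := fun s t => by
          ext n
          simp only [PowerSeries.coeff_mk, map_add]
          split_ifs <;> ring
        map_smul' := fun c s => by
          ext n
          simp only [PowerSeries.coeff_mk, map_smul, smul_eq_mul, RingHom.id_apply]
          split_ifs <;> ring }
    refine Set.Finite.of_finite_image (f := fun b : ℕ → ℂ => fun p : Good => b p.1)
      ((finite_eigensystems L (divSpace χ)).subset ?_) ?_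
    · rintro _ ⟨b, ⟨hb1, hb2⟩, rfl⟩
      refine ⟨PowerSeries.mk b, hb2, fun h => ?_, fun p => ?_⟩
      · have := congrArg (PowerSeries.coeff 1) h
        simp [hb1.one] at this
      · ext n
        simp only [L, LinearMap.coe_mk, AddHom.coe_mk, PowerSeries.coeff_mk, map_smul, smul_eq_mul]
        exact hb1.mul p.1 p.2.1 p.2.2 n
    · intro b hb1 b' hb2 h
      exact hb1.1.ext hb2.1 fun p hp hpN => congrFun h ⟨p, hp, hpN⟩
  refine Set.Finite.subset (Set.Finite.biUnion (s := {χ : DirichletCharacter ℂ N | χ.Odd})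
    (t := fun χ => (fun b => (b, χ)) '' T χ) (Set.toFinite _) fun χ hχ => (hT χ hχ).image _) ?_
  rintro _ ⟨σ, rfl⟩
  refine Set.mem_biUnion (x := (ε⁻¹).ringHomComp (σ : ℂ →+* ℂ)) (ringHomComp_odd (inv_odd hodd) _)
    ⟨_, ⟨hconj σ, ?_⟩, rfl⟩
  obtain ⟨F, G', hF, hFG⟩ := exists_conjugate hodd hne σ
  refine ⟨G', ?_⟩
  show qHom (qC G') = PowerSeries.mk _ * _
  rw [← hFG]
  congr 1
  ext n
  rw [PowerSeries.coeff_mk, qHom_apply]
  exact hF n

/-- The number field of a depleted eigenform. -/
theorem exists_eigenField (hodd : ε.Odd) (hne : ∀ γ ∈ Gamma0 N,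
      (f : ℍ → ℂ) ∣[(1 : ℤ)] γ = ε ((γ 1 1 : ℤ) : ZMod N) • (f : ℍ → ℂ))
    (hb : DepletedEigen N (fun p => ε (p : ZMod N)) (ModularFormClass.qCoeff f)) :
    ∃ K : IntermediateField ℚ ℂ, FiniteDimensional ℚ K ∧
      (∀ n, ModularFormClass.qCoeff f n ∈ K) ∧ (∀ x, ε x ∈ K) ∧
      ∀ ι : K →+* ℂ, ∃ σ : ℂ ≃+* ℂ, ∀ y : K, ι y = σ (y : ℂ) := by
  classical
  set S : Set ℂ := Set.range (ModularFormClass.qCoeff f) ∪ Set.range (fun x => (ε x))
  have hS : (Set.range fun σ : ℂ ≃+* ℂ => fun z : S => σ z).Finite := by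
    have hfin := finite_translates f hodd hne hb
    let rep : (ℕ → ℂ) × DirichletCharacter ℂ N → (S → ℂ) := fun t z =>
      if h : ∃ n, ModularFormClass.qCoeff f n = z then t.1 h.choose
      else if h' : ∃ x, ε x = z then (t.2 h'.choose)⁻¹ else 0
    refine (hfin.image rep).subset ?_
    rintro _ ⟨σ, rfl⟩
    refine ⟨_, ⟨σ, rfl⟩, ?_⟩
    funext z
    simp only [rep]
    split_ifs with h h'
    · rw [h.choose_spec]
    · rw [MulChar.ringHomComp_apply, MulChar.inv_apply_eq_inv', map_inv₀, inv_inv, h'.choose_spec]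
      rfl
    · exfalso
      rcases z.2 with ⟨n, hn⟩ | ⟨x, hx⟩
      · exact h ⟨n, hn⟩
      · exact h' ⟨x, hx⟩
  obtain ⟨K, hfd, hmem, hι⟩ := exists_numberField S hS
  exact ⟨K, hfd, fun n => hmem _ (Or.inl ⟨n, rfl⟩), fun x => hmem _ (Or.inr ⟨x, rfl⟩), hι⟩

theorem isIntegral_char (χ : DirichletCharacter ℂ N) (x : ZMod N) : IsIntegral ℤ (χ x) := by
  by_cases hx : IsUnit x
  · exact IsIntegral.of_pow (Nat.pos_of_ne_zero (charExp_ne_zero (N := N)))
      (by rw [char_pow_charExp χ hx]; exact isIntegral_one)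
  · rw [MulChar.map_nonunit _ hx]; exact isIntegral_zero

theorem isIntegral_eisDiff {χ : DirichletCharacter ℂ N} (hχ : χ.Odd) (n : ℕ) :
    IsIntegral ℤ (ModularFormClass.qCoeff (eisDiff (χ : ZMod N → ℂ)) n) := by
  rcases eq_or_ne n 0 with rfl | hn
  · rw [qCoeff_eisDiff_zero hχ.eval_neg]; exact isIntegral_zero
  · rw [qCoeff_eisDiff hχ.eval_neg hn]
    refine IsIntegral.sub (IsIntegral.sum _ fun d _ => isIntegral_char χ _) ?_
    split_ifs
    · exact IsIntegral.sum _ fun d _ => isIntegral_char χ _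
    · exact isIntegral_zero

/-- The coefficients of a depleted eigenform are algebraic integers. -/
theorem isIntegral_qCoeff (hodd : ε.Odd) (hne : ∀ γ ∈ Gamma0 N,
      (f : ℍ → ℂ) ∣[(1 : ℤ)] γ = ε ((γ 1 1 : ℤ) : ZMod N) • (f : ℍ → ℂ))
    (hb : DepletedEigen N (fun p => ε (p : ZMod N)) (ModularFormClass.qCoeff f))
    (n : ℕ) : IsIntegral ℤ (ModularFormClass.qCoeff f n) := by
  classical
  obtain ⟨K, hfd, hKa, hKe, -⟩ := exists_eigenField f hodd hne hb
  haveI := hfd
  haveI : NumberField K := { to_charZero := inferInstance, to_finiteDimensional := hfd }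
  set a := ModularFormClass.qCoeff f
  set E := eisDiff ((ε⁻¹ : DirichletCharacter ℂ N) : ZMod N → ℂ)
  have hoddi := inv_odd hodd
  set e := ModularFormClass.qCoeff E with he
  have heK : ∀ n, e n ∈ K := by
    intro n
    have hK' : ∀ x, (ε⁻¹ : DirichletCharacter ℂ N) x ∈ K := fun x => by
      rw [MulChar.inv_apply_eq_inv']; exact K.inv_mem (hKe x)
    rcases eq_or_ne n 0 with rfl | hn
    · rw [he, qCoeff_eisDiff_zero hoddi.eval_neg]; exact K.zero_mem
    · rw [he, qCoeff_eisDiff hoddi.eval_neg hn]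
      refine K.sub_mem (K.sum_mem fun d _ => hK' _) ?_
      split_ifs
      · exact K.sum_mem fun d _ => hK' _
      · exact K.zero_mem
  obtain ⟨G, hG⟩ := exists_prod_form hne
  set g := ModularFormClass.qCoeff G with hg
  have hconv : ∀ n, g n = ∑ i ∈ Finset.range (n + 1), a i * e (n - i) := by
    intro n
    have hq : qC G = qG (M := N) (k := 1) f * qG (M := 2 * N) (k := 1) E := Subtype.ext hG
    have h := congrArg (fun s => PowerSeries.coeff n (qHom s)) hq
    simp only [map_mul, PowerSeries.coeff_mul] at h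
    rw [Finset.Nat.sum_antidiagonal_eq_sum_range_succ_mk] at h
    exact h
  have hgK : ∀ n, g n ∈ K := fun n => by
    rw [hconv]; exact K.sum_mem fun i _ => K.mul_mem (hKa i) (heK _)
  -- bounded denominators of `G`
  obtain ⟨π, hπ⟩ := LinearMap.exists_leftInverse_of_injective (Algebra.linearMap K ℂ)
    (LinearMap.ker_eq_bot.2 (algebraMap K ℂ).injective)
  have hπK : ∀ x ∈ K, ((π x : K) : ℂ) = x := fun x hx => by
    have := LinearMap.congr_fun hπ ⟨x, hx⟩
    exact congrArg Subtype.val this
  have hden : ∀ (H : CuspForm (Gamma0 (2 * N)) 2) (c : ℂ), ∃ D : ℕ, D ≠ 0 ∧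
      ∀ n, IsIntegral ℤ ((D : K) * π (c * ModularFormClass.qCoeff H n)) := by
    intro H
    have hmem : H ∈ Submodule.span ℂ
        ((CuspForm.intLattice (2 * N) 2 : Submodule ℤ _) : Set (CuspForm (Gamma0 (2 * N)) 2)) := by
      rw [hasIntegralStructure (N := 2 * N) (k := 2)]; trivial
    induction hmem using Submodule.span_induction with
    | mem H hH =>
      intro c
      have hint : ∀ n, ∃ m : ℤ, ModularFormClass.qCoeff H n = (m : ℂ) := by
        induction hH using Submodule.span_induction with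
        | mem H hH => exact hH
        | zero => exact fun n => ⟨0, by simp [ModularFormClass.qCoeff, qExpansion_zero]⟩
        | add H H' _ _ h h' =>
          intro n
          obtain ⟨m, hm⟩ := h n
          obtain ⟨m', hm'⟩ := h' n
          refine ⟨m + m', ?_⟩
          have : qC (H + H') = qC H + qC H' := Subtype.ext rfl
          have h2 := congrArg (fun s => PowerSeries.coeff n (qHom s)) this
          simp only [map_add] at h2
          push_cast; rw [← hm, ← hm']; exact h2
        | smul c H _ h =>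
          intro n
          obtain ⟨m, hm⟩ := h n
          refine ⟨c * m, ?_⟩
          have : qC (c • H) = (c : ℂ) • qC H := Subtype.ext (funext fun τ => by
            show c • H τ = (c : ℂ) * H τ
            rw [zsmul_eq_mul])
          have h2 := congrArg (fun s => PowerSeries.coeff n (qHom s)) this
          simp only [map_smul, smul_eq_mul] at h2
          push_cast
          rw [← hm]
          exact h2
      obtain ⟨d, hd, hint'⟩ : ∃ d : ℤ, d ≠ 0 ∧ IsIntegral ℤ ((d : K) * π c) := by
        have halg : IsAlgebraic ℤ (π c) :=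
          (IsFractionRing.isAlgebraic_iff ℤ ℚ K).2 (Algebra.IsAlgebraic.isAlgebraic (π c))
        obtain ⟨d, hd, hI⟩ := halg.exists_integral_multiple
        exact ⟨d, hd, by simpa [zsmul_eq_mul] using hI⟩
      refine ⟨d.natAbs, Int.natAbs_ne_zero.2 hd, fun n => ?_⟩
      obtain ⟨m, hm⟩ := hint n
      rw [hm, mul_comm c, ← zsmul_eq_mul, map_zsmul, zsmul_eq_mul, mul_left_comm]
      refine (isIntegral_algebraMap (R := ℤ) (A := K) (x := m)).mul ?_
      rcases Int.natAbs_eq d with hs | hs
      · rwa [hs, Int.cast_natCast] at hint'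
      · rw [hs, Int.cast_neg, Int.cast_natCast, neg_mul] at hint'
        simpa using hint'.neg
    | zero =>
      exact fun c => ⟨1, one_ne_zero, fun n => by
        simp [ModularFormClass.qCoeff, qExpansion_zero, isIntegral_zero]⟩
    | add H H' _ _ h h' =>
      intro c
      obtain ⟨D, hD, hh⟩ := h c
      obtain ⟨D', hD', hh'⟩ := h' c
      refine ⟨D * D', Nat.mul_ne_zero hD hD', fun n => ?_⟩
      have : qC (H + H') = qC H + qC H' := Subtype.ext rfl
      have h2 := congrArg (fun s => PowerSeries.coeff n (qHom s)) this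
      simp only [map_add] at h2
      change ModularFormClass.qCoeff (H + H' : CuspForm _ 2) n
        = ModularFormClass.qCoeff H n + ModularFormClass.qCoeff H' n at h2
      rw [h2, mul_add, map_add, Nat.cast_mul, mul_add]
      refine IsIntegral.add ?_ ?_
      · rw [mul_comm (D : K), mul_assoc]; exact (isIntegral_natCast D').mul (hh n)
      · rw [mul_assoc]; exact (isIntegral_natCast D).mul (hh' n)
    | smul c' H _ h =>
      intro c
      obtain ⟨D, hD, hh⟩ := h (c * c')
      refine ⟨D, hD, fun n => ?_⟩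
      have : qC (c' • H) = c' • qC H := Subtype.ext rfl
      have h2 := congrArg (fun s => PowerSeries.coeff n (qHom s)) this
      simp only [map_smul, smul_eq_mul] at h2
      change ModularFormClass.qCoeff (c' • H : CuspForm _ 2) n
        = c' * ModularFormClass.qCoeff H n at h2
      rw [h2, ← mul_assoc]
      exact hh n
  obtain ⟨D, hD, hDG⟩ := hden G 1
  have hDg : ∀ n, IsIntegral ℤ ((D : ℂ) * g n) := fun n => by
    have h := (hDG n).map (K.val.restrictScalars ℤ)
    have e : ((π (ModularFormClass.qCoeff G n) : K) : ℂ) = g n := hπK _ (hgK n)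
    simpa [e] using h
  -- division by `E = q + ⋯`
  have hDa : ∀ n, IsIntegral ℤ ((D : ℂ) * a n) := by
    intro n
    induction n using Nat.strong_induction_on with
    | _ n ih =>
      have h := hconv (n + 1)
      rw [Finset.sum_range_succ, Finset.sum_range_succ, Nat.sub_self, Nat.add_sub_cancel_left] at h
      rw [show e 0 = 0 from qCoeff_eisDiff_zero hoddi.eval_neg, mul_zero, add_zero,
        show e 1 = 1 by rw [he, qCoeff_eisDiff_one hoddi.eval_neg, map_one], mul_one] at h
      have : (D : ℂ) * a n = (D : ℂ) * g (n + 1)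
          - ∑ i ∈ Finset.range n, ((D : ℂ) * a i) * e (n + 1 - i) := by
        rw [h, mul_add, Finset.mul_sum]
        simp only [mul_assoc]
        ring
      rw [this]
      exact (hDg _).sub (IsIntegral.sum _ fun i hi =>
        (ih i (Finset.mem_range.1 hi)).mul (isIntegral_eisDiff hoddi _))
  -- integrality at good primes
  have hprime : ∀ p : ℕ, p.Prime → ¬ p ∣ N → IsIntegral ℤ (a p) := by
    intro p hp hpN
    have hrec : ∀ k, a (p ^ (k + 2)) + ε (p : ZMod N) * a (p ^ k) = a p * a (p ^ (k + 1)) := by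
      intro k
      rw [← hb.mul p hp hpN (p ^ (k + 1)), if_pos (dvd_pow_self p (by omega)),
        show p ^ (k + 1) / p = p ^ k by rw [pow_succ, Nat.mul_div_cancel _ hp.pos]]
      congr 2
      rw [← pow_succ']
    have hpow : ∀ k, IsIntegral ℤ ((D : ℂ) * a p ^ k) := by
      intro k
      rw [pow_eq_sum_ballot (h := fun k => a (p ^ k)) (w := ε (p : ZMod N))
        (by rw [pow_zero]; exact hb.one) (by rw [pow_one]) hrec k, Finset.mul_sum]
      refine IsIntegral.sum _ fun j _ => ?_
      rw [mul_left_comm]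
      exact ((isIntegral_natCast _).mul ((isIntegral_char ε _).pow _)).mul (hDa _)
    have hy := isIntegral_of_bounded_powers (K := K) (y := ⟨a p, hKa p⟩) hD fun k => by
      refine (isIntegral_algHom_iff (K.val.restrictScalars ℤ) Subtype.coe_injective).1 ?_
      simpa using hpow k
    exact hy.map (K.val.restrictScalars ℤ)
  refine hb.induction_mem (P := fun _ x => IsIntegral ℤ x) isIntegral_zero isIntegral_one
    (fun _ _ => isIntegral_zero) (fun p m hp hpN _ hm hd => ?_) n
  refine ((hprime p hp hpN).mul hm).sub ((isIntegral_char ε _).mul ?_)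
  split_ifs with h
  · exact hd h
  · exact isIntegral_zero

/-- The average bound in every embedding. -/
theorem exists_rankin_embedding (hodd : ε.Odd) (hne : ∀ γ ∈ Gamma0 N,
      (f : ℍ → ℂ) ∣[(1 : ℤ)] γ = ε ((γ 1 1 : ℤ) : ZMod N) • (f : ℍ → ℂ))
    (hb : DepletedEigen N (fun p => ε (p : ZMod N)) (ModularFormClass.qCoeff f)) (σ : ℂ ≃+* ℂ) :
    ∃ C : ℝ, ∀ s : ℝ, 1 < s → s ≤ 2 → ∀ S : Finset ℕ, (∀ p ∈ S, p.Prime ∧ ¬ p ∣ N) →
      ∑ p ∈ S, ‖σ (ModularFormClass.qCoeff f p)‖ ^ 2 * (p : ℝ) ^ (-s)
        ≤ Real.log (1 / (s - 1)) + C := by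
  obtain ⟨F, -, hF, -⟩ := exists_conjugate hodd hne σ
  have H : HeckeRecursion (fun n => (qExpansion 1 F).coeff n) (fun p => σ (ε (p : ZMod N)))
      {p | p.Prime ∧ ¬ p ∣ N} := by
    refine ⟨?_, fun p hp => hp.1, fun p hp => ?_, fun p hp n => ?_⟩
    · exact (hF 1).trans (by rw [hb.one, map_one])
    · refine Complex.norm_eq_one_of_pow_eq_one (n := charExp N) ?_ (charExp_ne_zero (N := N))
      rw [← map_pow, char_pow_charExp ε
        ((ZMod.isUnit_iff_coprime p N).2 (hp.1.coprime_iff_not_dvd.2 hp.2)), map_one]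
    · show ModularFormClass.qCoeff F (p * n) + σ (ε (p : ZMod N)) *
          (if p ∣ n then ModularFormClass.qCoeff F (n / p) else 0)
        = ModularFormClass.qCoeff F p * ModularFormClass.qCoeff F n
      rw [hF, hF, hF, hF, ← map_zero σ, ← apply_ite σ, ← map_mul, ← map_mul, ← map_add]
      exact congrArg σ (hb.mul p hp.1 hp.2 n)
  obtain ⟨C, hC⟩ := exists_rankin_bound
    (Γ := (Gamma1 (2 * N) : Subgroup (GL (Fin 2) ℝ))) F (one_mem_strictPeriods_gamma1 (2 * N)) H
  refine ⟨C, fun s h1 h2 S hS => ?_⟩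
  refine le_trans (le_of_eq (Finset.sum_congr rfl fun p _ => ?_)) (hC s h1 h2 S hS)
  rw [← hF p]
  rfl

end FLTAgent.DS
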