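import Fermat.Agent.DS.SystemField
import Fermat.Agent.DS.Depletion
import Fermat.Agent.DS.ComplexRep
import Fermat.Agent.DS.Irreducible
import Fermat.Agent.DS.Density
import Fermat.Agent.DS.ModRep.Congruence

/-!
# The theorem of Deligne and Serre from its mod `ℓ` input
-/

set_option autoImplicit false

noncomputable section

namespace FLTAgent.DS

open CongruenceSubgroup
open scoped MatrixGroups ModularForm

local notation "Γℚ" => AlgebraicClosure ℚ ≃ₐ[ℚ] AlgebraicClosure ℚ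

/-- Mod `ℓ` representations exist for every depleted weight-one eigenform of level divisible by
`2` or `3`. -/
def ModRepsExist : Prop :=
  ∀ (N : ℕ) [NeZero N], 2 ∣ N ∨ 3 ∣ N → ∀ (ε : DirichletCharacter ℂ N) (f : CuspForm (Gamma1 N) 1), ε.Odd →
    (∀ γ ∈ Gamma0 N,
      (f : UpperHalfPlane → ℂ) ∣[(1 : ℤ)] γ = ε ((γ 1 1 : ℤ) : ZMod N) • (f : UpperHalfPlane → ℂ)) →
    DepletedEigen N (fun p => ε (p : ZMod N)) (ModularFormClass.qCoeff f) →
    (∀ n, IsIntegral ℤ (ModularFormClass.qCoeff f n)) →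
    HasModReps N (ModularFormClass.qCoeff f) (fun p => ε (p : ZMod N))

theorem exists_galoisRep_weightOne_aux (hmod : ModRepsExist)
    (N : ℕ) [NeZero N] (h23 : 2 ∣ N ∨ 3 ∣ N) (ε : DirichletCharacter ℂ N) (f : CuspForm (Gamma1 N) 1)
    (hf₁ : ModularFormClass.qCoeff f 1 = 1)
    (hT : ∀ p : ℕ, p.Prime → ¬ p ∣ N → ∀ n : ℕ,
        ModularFormClass.qCoeff f (p * n) +
            ε (p : ZMod N) * (if p ∣ n then ModularFormClass.qCoeff f (n / p) else 0) =
          ModularFormClass.qCoeff f p * ModularFormClass.qCoeff f n) :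
    ∃ ρ : Γℚ →* GL (Fin 2) ℂ, GaloisFactorsThroughFiniteLevel ρ ∧
      (Deformation.matrixRepresentation ρ).IsIrreducible ∧
      ∀ p : ℕ, p.Prime → ¬ p ∣ N →
        ∀ A : ValuationSubring (AlgebraicClosure ℚ), A.LiesOverPrime p →
          (∀ σ ∈ A.inertiaSubgroupIn ℚ, ρ σ = 1) ∧
          ∀ σ : Γℚ, A.IsFrobeniusAt σ p →
            ((ρ σ : GL (Fin 2) ℂ) : Matrix (Fin 2) (Fin 2) ℂ).trace = ModularFormClass.qCoeff f p ∧
            ((ρ σ : GL (Fin 2) ℂ) : Matrix (Fin 2) (Fin 2) ℂ).det = ε (p : ZMod N) := by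
  classical
  obtain ⟨M, χ, g, hM, hpr, hg1, hgood, hbad, hgT⟩ := exists_depleted_eigen ε f hf₁ hT
  haveI : NeZero M := ⟨hM⟩
  have hne := slash_eq_of_hecke χ g hgT
  have hodd := odd_of_hecke χ g hg1 hgT
  have hb : DepletedEigen M (fun p => χ (p : ZMod M)) (ModularFormClass.qCoeff g) :=
    ⟨CuspFormClass.qExpansion_coeff_zero g one_pos (one_mem_strictPeriods_gamma1 M), hg1, hbad, hgT⟩
  obtain ⟨K, hfd, hKa, hKe, hι⟩ := exists_eigenField g hodd hne hb
  haveI := hfd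
  have hint := isIntegral_qCoeff g hodd hne hb
  let a : ℕ → K := fun p => ⟨_, hKa p⟩
  let e : ℕ → K := fun p => ⟨_, hKe (p : ZMod M)⟩
  have D : SystemData K M a e :=
    { ne_zero := hM
      isIntegral := fun p _ _ => ⟨hint p, isIntegral_char χ _⟩
      finite_e := by
        refine (Set.finite_range fun x : ZMod M => (⟨χ x, hKe x⟩ : K)).subset ?_
        rintro _ ⟨p, -, rfl⟩
        exact ⟨(p : ZMod M), rfl⟩
      rankin := fun ι => by
        obtain ⟨σ, hσ⟩ := hι ι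
        obtain ⟨C, hC⟩ := exists_rankin_embedding g hodd hne hb σ
        refine ⟨C, fun s h1 h2 S hS => ?_⟩
        simp only [hσ]
        exact hC s h1 h2 S hS
      modReps := hmod M (h23.imp (hpr 2 Nat.prime_two).2 (hpr 3 Nat.prime_three).2) χ g hodd hne hb hint }
  obtain ⟨ρ, hfin, hρ⟩ := D.exists_galoisRep frobeniusDensity
  have hN' : ∀ p : ℕ, p.Prime → ¬ p ∣ N → ¬ p ∣ M := fun p hp h h' => h ((hpr p hp).1 h')
  refine ⟨ρ, hfin, ?_, fun p hp hpN A hA => ?_⟩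
  · refine isIrreducible_of_rankin hM frobeniusDensity (fun p => (a p : ℂ)) ρ hfin
      (fun p hp hpM P hP σ hσ => ((hρ p hp hpM P hP).2 σ hσ).1) ?_
    obtain ⟨C, hC⟩ := exists_rankin_embedding g hodd hne hb (RingEquiv.refl ℂ)
    exact ⟨C, hC⟩
  · obtain ⟨h1, h2⟩ := hρ p hp (hN' p hp hpN) A hA
    exact ⟨h1, fun σ hσ => ⟨(h2 σ hσ).1.trans (hgood p hp hpN).2, (h2 σ hσ).2.trans (hgood p hp hpN).1⟩⟩

theorem exists_galoisRep_weightOne (hmod : ModRepsExist)
    (N : ℕ) [NeZero N] (ε : DirichletCharacter ℂ N) (f : CuspForm (Gamma1 N) 1)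
    (hf₁ : ModularFormClass.qCoeff f 1 = 1)
    (hT : ∀ p : ℕ, p.Prime → ¬ p ∣ N → ∀ n : ℕ,
        ModularFormClass.qCoeff f (p * n) +
            ε (p : ZMod N) * (if p ∣ n then ModularFormClass.qCoeff f (n / p) else 0) =
          ModularFormClass.qCoeff f p * ModularFormClass.qCoeff f n) :
    ∃ ρ : Γℚ →* GL (Fin 2) ℂ, GaloisFactorsThroughFiniteLevel ρ ∧
      (Deformation.matrixRepresentation ρ).IsIrreducible ∧
      ∀ p : ℕ, p.Prime → ¬ p ∣ N →
        ∀ A : ValuationSubring (AlgebraicClosure ℚ), A.LiesOverPrime p →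
          (∀ σ ∈ A.inertiaSubgroupIn ℚ, ρ σ = 1) ∧
          ∀ σ : Γℚ, A.IsFrobeniusAt σ p →
            ((ρ σ : GL (Fin 2) ℂ) : Matrix (Fin 2) (Fin 2) ℂ).trace = ModularFormClass.qCoeff f p ∧
            ((ρ σ : GL (Fin 2) ℂ) : Matrix (Fin 2) (Fin 2) ℂ).det = ε (p : ZMod N) := by
  classical
  by_cases h23 : 2 ∣ N ∨ 3 ∣ N
  · exact exists_galoisRep_weightOne_aux hmod N h23 ε f hf₁ hT
  push Not at h23
  -- at a multiple of the level
  have raise : ∀ k : ℕ, k.Prime → (k = 2 ∨ k = 3) →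
      ∃ ρ : Γℚ →* GL (Fin 2) ℂ, GaloisFactorsThroughFiniteLevel ρ ∧
        (Deformation.matrixRepresentation ρ).IsIrreducible ∧
        ∀ p : ℕ, p.Prime → ¬ p ∣ N → p ≠ k →
          ∀ A : ValuationSubring (AlgebraicClosure ℚ), A.LiesOverPrime p →
            (∀ σ ∈ A.inertiaSubgroupIn ℚ, ρ σ = 1) ∧
            ∀ σ : Γℚ, A.IsFrobeniusAt σ p →
              ((ρ σ : GL (Fin 2) ℂ) : Matrix (Fin 2) (Fin 2) ℂ).trace = ModularFormClass.qCoeff f p ∧
              ((ρ σ : GL (Fin 2) ℂ) : Matrix (Fin 2) (Fin 2) ℂ).det = ε (p : ZMod N) := by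
    intro k hk hk23
    haveI : NeZero (N * k) := ⟨Nat.mul_ne_zero (NeZero.ne N) hk.ne_zero⟩
    have hd : N ∣ N * k := dvd_mul_right N k
    obtain ⟨f', hf'⟩ := exists_restrict hd f
    set ε' := DirichletCharacter.changeLevel hd ε
    have hq : ∀ n, ModularFormClass.qCoeff f' n = ModularFormClass.qCoeff f n := fun n => by rw [hf']
    have hε' : ∀ p : ℕ, p.Prime → ¬ p ∣ N * k → ε' (p : ZMod (N * k)) = ε (p : ZMod N) :=
      fun p hp hpN => by
        have hc : IsCoprime (p : ℤ) (N * k : ℕ) :=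
          Nat.isCoprime_iff_coprime.2 (hp.coprime_iff_not_dvd.2 hpN)
        simpa using DirichletCharacter.changeLevel_eq_cast_of_dvd' ε hd hc
    obtain ⟨ρ, hfin, hirr, hρ⟩ := exists_galoisRep_weightOne_aux hmod (N * k)
      (by rcases hk23 with rfl | rfl
          · exact Or.inl (dvd_mul_left 2 N)
          · exact Or.inr (dvd_mul_left 3 N)) ε' f'
      (by rw [hq, hf₁]) (fun p hp hpN n => by
        rw [hq, hq, hq, hq, hε' p hp hpN]
        exact hT p hp (fun h => hpN (h.trans hd)) n)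
    refine ⟨ρ, hfin, hirr, fun p hp hpN hpk A hA => ?_⟩
    have hpNk : ¬ p ∣ N * k := fun h => ((Nat.Prime.dvd_mul hp).1 h).elim hpN fun h' =>
      hpk ((Nat.prime_dvd_prime_iff_eq hp hk).1 h')
    obtain ⟨h1, h2⟩ := hρ p hp hpNk A hA
    exact ⟨h1, fun σ hσ => by rw [← hq, ← hε' p hp hpNk]; exact h2 σ hσ⟩
  obtain ⟨ρ, hfin, hirr, hρ⟩ := raise 2 Nat.prime_two (Or.inl rfl)
  obtain ⟨ρ', hfin', -, hρ'⟩ := raise 3 Nat.prime_three (Or.inr rfl)
  -- the two representations have the same traces and determinants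
  set J : Γℚ →* GL (Fin 2) ℂ × GL (Fin 2) ℂ := ρ.prod ρ'
  have hJf : GaloisFactorsThroughFiniteLevel J := by
    obtain ⟨L, hL, h⟩ := hfin
    obtain ⟨L', hL', h'⟩ := hfin'
    exact ⟨L ⊔ L', inferInstance, fun σ hσ => Prod.ext (h σ fun x hx => hσ x (le_sup_left (b := L') hx))
      (h' σ fun x hx => hσ x (le_sup_right (a := L) hx))⟩
  haveI := finite_range_of_factors hJf
  letI : Fintype J.range := Fintype.ofFinite _
  have key : ∀ g, (ρ g : Matrix (Fin 2) (Fin 2) ℂ).trace = (ρ' g : Matrix (Fin 2) (Fin 2) ℂ).trace ∧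
      (ρ g : Matrix (Fin 2) (Fin 2) ℂ).det = (ρ' g : Matrix (Fin 2) (Fin 2) ℂ).det := by
    intro g
    have hJf' : GaloisFactorsThroughFiniteLevel J.rangeRestrict := by
      obtain ⟨L, hL, h⟩ := hJf
      exact ⟨L, hL, fun σ hσ => Subtype.ext (h σ hσ)⟩
    obtain ⟨p, hp, hp0, P, hP, σ, hσ, hconj⟩ := frobeniusDensity.exists_isConj J.rangeRestrict
      (MonoidHom.rangeRestrict_surjective J) hJf' (J.rangeRestrict g)
      (insert 2 (insert 3 N.divisors))
    simp only [Finset.mem_insert, Nat.mem_divisors, not_or, not_and, not_not] at hp0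
    have hpN : ¬ p ∣ N := fun h => NeZero.ne N (hp0.2.2 h)
    obtain ⟨c, hc⟩ := isConj_iff.1 hconj
    have h1 : (c.1.1 * ρ g * c.1.1⁻¹ = ρ σ) ∧ (c.1.2 * ρ' g * c.1.2⁻¹ = ρ' σ) :=
      ⟨congrArg (fun z : J.range => z.1.1) hc, congrArg (fun z : J.range => z.1.2) hc⟩
    have e1 := ((hρ p hp hpN hp0.1 P hP).2 σ hσ)
    have e2 := ((hρ' p hp hpN hp0.2.1 P hP).2 σ hσ)
    rw [← h1.1, Units.val_mul, Units.val_mul, Matrix.trace_units_conj, Matrix.det_units_conj] at e1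
    rw [← h1.2, Units.val_mul, Units.val_mul, Matrix.trace_units_conj, Matrix.det_units_conj] at e2
    exact ⟨e1.1.trans e2.1.symm, e1.2.trans e2.2.symm⟩
  refine ⟨ρ, hfin, hirr, fun p hp hpN A hA => ?_⟩
  by_cases hp2 : p = 2
  · obtain ⟨hin, hfr⟩ := hρ' p hp hpN (by omega) A hA
    refine ⟨fun σ hσ => eq_one_of_trace_det ?_ ?_ ?_, fun σ hσ => by
      rw [(key σ).1, (key σ).2]; exact hfr σ hσ⟩
    · haveI := finite_range_of_factors hfin
      exact ρ.range.subtype.isOfFinOrder (isOfFinOrder_of_finite (⟨ρ σ, σ, rfl⟩ : ρ.range))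
    · rw [(key σ).1, hin σ hσ]; simp
    · rw [(key σ).2, hin σ hσ]; simp
  · exact hρ p hp hpN hp2 A hA

end FLTAgent.DS
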