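import Fermat.Agent.DS.HeckeOne
import Mathlib.RingTheory.LocalRing.Module
import Mathlib.RingTheory.LocalRing.ResidueField.Ideal
import Mathlib.RingTheory.Spectrum.Prime.Module
import Mathlib.GroupTheory.Schreier

/-!
# A parabolic class with the eigenvalues of an eigenform mod `λ`

The operators `T p` and the nebentypus scalars generate a commutative ring `H` acting faithfully
on the group `Q` of period functionals. The eigenform gives `θ : H →+* k`, and Nakayama gives a
nonzero `θ`-semilinear map `Q → k`.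
-/

set_option autoImplicit false

noncomputable section

namespace FLTAgent.DS

open scoped MatrixGroups ModularForm TensorProduct IsMulCommutative
open UpperHalfPlane hiding I
open CongruenceSubgroup ModularFormClass

/-! ### Residues -/

section Residue

variable (A : ValuationSubring ℂ)

open scoped Classical in
/-- The residue of a number in `A`, and `0` outside `A`. -/
def resC (x : ℂ) : IsLocalRing.ResidueField A :=
  if hx : x ∈ A then IsLocalRing.residue A ⟨x, hx⟩ else 0

theorem resC_of_mem {x : ℂ} (hx : x ∈ A) : resC A x = IsLocalRing.residue A ⟨x, hx⟩ := dif_pos hx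

theorem resC_coe (x : A) : resC A x = IsLocalRing.residue A x := resC_of_mem A x.2

theorem resC_add {x y : ℂ} (hx : x ∈ A) (hy : y ∈ A) : resC A (x + y) = resC A x + resC A y := by
  rw [resC_of_mem A hx, resC_of_mem A hy, resC_of_mem A (add_mem hx hy), ← map_add]
  rfl

theorem resC_sub {x y : ℂ} (hx : x ∈ A) (hy : y ∈ A) : resC A (x - y) = resC A x - resC A y := by
  rw [resC_of_mem A hx, resC_of_mem A hy, resC_of_mem A (sub_mem hx hy), ← map_sub]
  rfl

theorem resC_mul {x y : ℂ} (hx : x ∈ A) (hy : y ∈ A) : resC A (x * y) = resC A x * resC A y := by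
  rw [resC_of_mem A hx, resC_of_mem A hy, resC_of_mem A (mul_mem hx hy), ← map_mul]
  rfl

theorem resC_eq_zero_iff {x : ℂ} (hx : x ∈ A) : resC A x = 0 ↔ x ∈ A.nonunits := by
  rw [resC_of_mem A hx, IsLocalRing.residue_eq_zero_iff]
  exact ValuationSubring.coe_mem_nonunits_iff.symm

theorem mem_of_pow_eq_one {x : ℂ} {n : ℕ} (hn : n ≠ 0) (hx : x ^ n = 1) : x ∈ A := by
  rcases A.mem_or_inv_mem x with h | h
  · exact h
  · have h1 : x ^ (n - 1) * x = 1 := by
      rw [← pow_succ, Nat.sub_add_cancel (Nat.one_le_iff_ne_zero.2 hn), hx]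
    have : x = x⁻¹ ^ (n - 1) := by rw [inv_pow, inv_eq_of_mul_eq_one_right h1]
    rw [this]; exact pow_mem h _

end Residue

theorem char_apply_mem {M : ℕ} [NeZero M] (ψ : DirichletCharacter ℂ M) (A : ValuationSubring ℂ)
    (x : ZMod M) : ψ x ∈ A := by
  by_cases hx : IsUnit x
  · obtain ⟨u, rfl⟩ := hx
    refine mem_of_pow_eq_one A (Fintype.card_ne_zero (α := (ZMod M)ˣ)) ?_
    rw [← map_pow, ← Units.val_pow_eq_pow_val, pow_card_eq_one, Units.val_one, map_one]
  · rw [MulChar.map_nonunit ψ hx]; exact zero_mem A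

set_option maxHeartbeats 400000 in
/-- A nonzero semilinear functional on a faithful finite module. -/
theorem exists_semilinear_functional {H Q k : Type*} [CommRing H] [AddCommGroup Q] [Module H Q]
    [Module.Finite H Q] [Field k] (hfaith : ∀ r : H, (∀ q : Q, r • q = 0) → r = 0)
    (θ : H →+* k) :
    ∃ c : Q →+ k, (∃ q, c q ≠ 0) ∧ ∀ (r : H) (q : Q), c (r • q) = θ r * c q := by
  obtain ⟨P, hP⟩ : ∃ P : PrimeSpectrum H, P.asIdeal = RingHom.ker θ :=
    ⟨⟨RingHom.ker θ, RingHom.ker_isPrime θ⟩, rfl⟩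
  have hmem : P ∈ Module.support H Q := by
    rw [Module.support_eq_zeroLocus, PrimeSpectrum.mem_zeroLocus]
    intro r hr
    rw [hfaith r (Module.mem_annihilator.1 hr)]
    exact zero_mem _
  have hnt : Nontrivial (P.asIdeal.ResidueField ⊗[H] Q) :=
    (Module.mem_support_iff_nontrivial_residueField_tensorProduct P).1 hmem
  obtain ⟨v, hv⟩ := exists_ne (0 : P.asIdeal.ResidueField ⊗[H] Q)
  obtain ⟨φ, hφ⟩ := not_forall.1
    ((Module.forall_dual_apply_eq_zero_iff P.asIdeal.ResidueField v).not.2 hv)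
  set g : H ⧸ P.asIdeal →+* k := Ideal.Quotient.lift P.asIdeal θ fun x hx => by rwa [hP] at hx
  have hg : Function.Injective g := RingHom.lift_injective_of_ker_le_ideal _ _ hP.ge
  set ι : P.asIdeal.ResidueField →+* k := IsFractionRing.lift hg
  have hι : ∀ r : H, ι (algebraMap H P.asIdeal.ResidueField r) = θ r := fun r => by
    rw [← Ideal.algebraMap_quotient_residueField_mk P.asIdeal r, IsFractionRing.lift_algebraMap]
    rfl
  set c : Q →+ k := ι.toAddMonoidHom.comp
    (φ.toAddMonoidHom.comp ((TensorProduct.mk H P.asIdeal.ResidueField Q 1).toAddMonoidHom))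
  have hc : ∀ q, c q = ι (φ (1 ⊗ₜ q)) := fun _ => rfl
  refine ⟨c, ?_, fun r q => ?_⟩
  · by_contra h
    push_neg at h
    have all0 : ∀ w, φ w = 0 := by
      intro w
      induction w using TensorProduct.induction_on with
      | zero => simp
      | tmul x q =>
        have e := h q
        rw [hc, map_eq_zero] at e
        rw [show x ⊗ₜ[H] q = x • ((1 : P.asIdeal.ResidueField) ⊗ₜ[H] q) by
          rw [TensorProduct.smul_tmul', smul_eq_mul, mul_one], map_smul, e, smul_zero]
      | add x y hx hy => rw [map_add, hx, hy, add_zero]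
    exact hφ (all0 v)
  · rw [hc, hc, TensorProduct.tmul_smul, ← IsScalarTower.algebraMap_smul P.asIdeal.ResidueField r,
      map_smul, smul_eq_mul, map_mul, hι]

variable {M : ℕ} [NeZero M]

/-- Periods on `nebSpace M ψ`. -/
def perNeb (ψ : DirichletCharacter ℂ M) :
    Additive (Gamma1 M) →+ (nebSpace M ψ →ₗ[ℂ] ℂ) :=
  AddMonoidHom.mk' (fun γ => (perOne M γ).comp (nebSpace M ψ).subtype) fun γ δ => by
    rw [map_add, LinearMap.add_comp]

theorem perNeb_apply (ψ : DirichletCharacter ℂ M) (γ : Gamma1 M) (h : nebSpace M ψ) :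
    perNeb ψ (Additive.ofMul γ) h = perFun (h : SOne M) (γ : SL(2, ℤ)) := rfl

omit [NeZero M] in
theorem conj_mem_Gamma1 {γ x : SL(2, ℤ)} (hγ : γ ∈ Gamma0 M) (hx : x ∈ Gamma1 M) :
    γ * x * γ⁻¹ ∈ Gamma1 M := by
  obtain ⟨-, hx1, hx0⟩ := (Gamma1_mem M x).1 hx
  have hmem : γ * x * γ⁻¹ ∈ Gamma0 M := mul_mem (mul_mem hγ (Gamma0_mem.2 hx0)) (inv_mem hγ)
  refine mem_Gamma1_of_lowerRight hmem ?_
  have e := lowerRight_mul hmem γ
  rw [inv_mul_cancel_right, lowerRight_mul hγ, hx1, mul_one] at e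
  exact (lowerRight_isUnit hγ).mul_eq_right.1 e.symm

set_option maxHeartbeats 800000 in
theorem eigenClassExists : EigenClassExists := by
  intro M _ ψ g A hneb hgA hgunit P a hP
  let S := nebSpace M ψ
  let gS : S := ⟨g, hneb⟩
  let rc : S → ℕ → IsLocalRing.ResidueField A := fun h n => resC A (qCoeff (h : SOne M) n)
  let Int' : S → Prop := fun h => ∀ n, qCoeff (h : SOne M) n ∈ A
  let Good : Module.End ℂ S → IsLocalRing.ResidueField A → Prop := fun X l =>
    (∀ h, Int' h → Int' (X h) ∧ ((∀ n, rc h n = 0) → ∀ n, rc (X h) n = 0)) ∧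
      ∀ n, rc (X gS) n = l * rc gS n
  obtain ⟨n₀, hn₀⟩ := hgunit
  have hrc0 : rc gS n₀ ≠ 0 := fun e => hn₀ ((resC_eq_zero_iff A (hgA n₀)).1 e)
  have huniq : ∀ {X l l'}, Good X l → Good X l' → l = l' := fun h h' =>
    mul_right_cancel₀ hrc0 ((h.2 n₀).symm.trans (h'.2 n₀))
  have coef_add : ∀ (x y : S) n,
      qCoeff ((x + y : S) : SOne M) n = qCoeff (x : SOne M) n + qCoeff (y : SOne M) n :=
    fun x y n => (coefOne n).map_add _ _
  have coef_smul : ∀ (r : ℂ) (x : S) n,
      qCoeff ((r • x : S) : SOne M) n = r * qCoeff (x : SOne M) n :=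
    fun r x n => (coefOne n).map_smul _ _
  have coef_sub : ∀ (x y : S) n,
      qCoeff ((x - y : S) : SOne M) n = qCoeff (x : SOne M) n - qCoeff (y : SOne M) n :=
    fun x y n => (coefOne n).map_sub _ _
  have good_scalar : ∀ z : A, Good ((z : ℂ) • (1 : Module.End ℂ S)) (IsLocalRing.residue A z) := by
    intro z
    refine ⟨fun h hh => ?_, fun n => ?_⟩
    · have hm : Int' (((z : ℂ) • (1 : Module.End ℂ S)) h) := fun n => by
        rw [LinearMap.smul_apply, Module.End.one_apply, coef_smul]; exact mul_mem z.2 (hh n)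
      refine ⟨hm, fun h0 n => ?_⟩
      show resC A _ = 0
      have e0 : resC A (qCoeff (h : SOne M) n) = 0 := h0 n
      rw [LinearMap.smul_apply, Module.End.one_apply, coef_smul, resC_mul A z.2 (hh n), e0,
        mul_zero]
    · show resC A _ = _ * resC A _
      rw [LinearMap.smul_apply, Module.End.one_apply, coef_smul, resC_mul A z.2 (hgA n), resC_coe]
  have hp_mem : ∀ p : ℕ, ψ (p : ZMod M) * (p : ℂ) ∈ A := fun p =>
    mul_mem (char_apply_mem ψ A _) (natCast_mem A p)
  have good_T : ∀ p (hp : p ∈ P),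
      Good (TOne ψ (hP p hp).1 (hP p hp).2.1) (IsLocalRing.residue A (a p)) := by
    intro p hp
    have hmem : ∀ (h : S), Int' h → ∀ n,
        (if p ∣ n then qCoeff (h : SOne M) (n / p) else 0) ∈ A := fun h hh n => by
      split_ifs
      exacts [hh _, zero_mem A]
    refine ⟨fun h hh => ?_, fun n => ?_⟩
    · have hm : Int' (TOne ψ (hP p hp).1 (hP p hp).2.1 h) := fun n => by
        rw [qCoeff_TOne]; exact add_mem (hh _) (mul_mem (hp_mem p) (hmem h hh n))
      refine ⟨hm, fun h0 n => ?_⟩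
      show resC A _ = 0
      rw [qCoeff_TOne, resC_add A (hh _) (mul_mem (hp_mem p) (hmem h hh n)),
        resC_mul A (hp_mem p) (hmem h hh n)]
      have h1 : resC A (qCoeff (h : SOne M) (p * n)) = 0 := h0 _
      have h2 : resC A (if p ∣ n then qCoeff (h : SOne M) (n / p) else 0) = 0 := by
        split_ifs
        exacts [h0 _, (resC_eq_zero_iff A (zero_mem A)).2 (zero_mem _)]
      rw [h1, h2, mul_zero, add_zero]
    · show resC A _ = _ * resC A _
      rw [qCoeff_TOne, ← resC_coe, ← resC_mul A (a p).2 (hgA n)]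
      have hl : qCoeff g (p * n) + ψ (p : ZMod M) * (p : ℂ) *
          (if p ∣ n then qCoeff g (n / p) else 0) ∈ A :=
        add_mem (hgA _) (mul_mem (hp_mem p) (hmem gS hgA n))
      have hr : (a p : ℂ) * qCoeff g n ∈ A := mul_mem (a p).2 (hgA n)
      rw [← sub_eq_zero, ← resC_sub A hl hr, resC_eq_zero_iff A (sub_mem hl hr)]
      exact (hP p hp).2.2 n
  have good_add : ∀ {x y : Module.End ℂ S} {l m}, Good x l → Good y m → Good (x + y) (l + m) := by
    intro x y l m hl hm
    refine ⟨fun h hh => ?_, fun n => ?_⟩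
    · have i1 := (hl.1 h hh).1
      have i2 := (hm.1 h hh).1
      refine ⟨fun n => ?_, fun h0 n => ?_⟩
      · rw [LinearMap.add_apply, coef_add]; exact add_mem (i1 n) (i2 n)
      · show resC A _ = 0
        rw [LinearMap.add_apply, coef_add, resC_add A (i1 n) (i2 n)]
        show rc (x h) n + rc (y h) n = 0
        rw [(hl.1 h hh).2 h0 n, (hm.1 h hh).2 h0 n, add_zero]
    · show resC A _ = _
      rw [LinearMap.add_apply, coef_add,
        resC_add A ((hl.1 gS hgA).1 n) ((hm.1 gS hgA).1 n), add_mul]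
      exact congrArg₂ (· + ·) (hl.2 n) (hm.2 n)
  have good_mul : ∀ {x y : Module.End ℂ S} {l m}, Good x l → Good y m → Good (x * y) (l * m) := by
    intro x y l m hl hm
    obtain ⟨μ, rfl⟩ := IsLocalRing.residue_surjective m
    refine ⟨fun h hh => ?_, fun n => ?_⟩
    · obtain ⟨i1, j1⟩ := hm.1 h hh
      exact ⟨(hl.1 _ i1).1, fun h0 => (hl.1 _ i1).2 (j1 h0)⟩
    · set d : S := y gS - (μ : ℂ) • gS with hd
      have i1 := (hm.1 gS hgA).1
      have id1 : Int' d := fun n => by
        rw [hd, coef_sub, coef_smul]; exact sub_mem (i1 n) (mul_mem μ.2 (hgA n))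
      have d0 : ∀ n, rc d n = 0 := fun n => by
        show resC A _ = 0
        rw [hd, coef_sub, coef_smul, resC_sub A (i1 n) (mul_mem μ.2 (hgA n)),
          resC_mul A μ.2 (hgA n), resC_coe, sub_eq_zero]
        exact hm.2 n
      have e : qCoeff (((x * y) gS : S) : SOne M) n
          = qCoeff ((x d : S) : SOne M) n + (μ : ℂ) * qCoeff ((x gS : S) : SOne M) n := by
        rw [← coef_smul, ← coef_add, ← map_smul, ← map_add, hd, sub_add_cancel]
        rfl
      show resC A _ = _
      rw [e, resC_add A ((hl.1 d id1).1 n) (mul_mem μ.2 ((hl.1 gS hgA).1 n)),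
        resC_mul A μ.2 ((hl.1 gS hgA).1 n), resC_coe]
      show rc (x d) n + _ * rc (x gS) n = _
      rw [(hl.1 d id1).2 d0 n, hl.2 n]
      ring
  let gens : Set (Module.End ℂ S) :=
    {X | ∃ p, ∃ hp : p ∈ P, X = TOne ψ (hP p hp).1 (hP p hp).2.1} ∪
      {X | ∃ γ : SL(2, ℤ), γ ∈ Gamma0 M ∧ X = ψ ((γ 1 1 : ℤ) : ZMod M) • 1}
  have hcomm : ∀ x ∈ gens, ∀ y ∈ gens, x * y = y * x := by
    rintro x (⟨p, hp, rfl⟩ | ⟨γ, -, rfl⟩) y (⟨q, hq, rfl⟩ | ⟨δ, -, rfl⟩)
    · exact TOne_comm _ _ _ _
    all_goals simp only [smul_mul_assoc, mul_smul_comm, one_mul, mul_one, smul_comm (ψ _) (ψ _)]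
  let H := Algebra.adjoin ℤ gens
  have : IsMulCommutative H := Algebra.isMulCommutative_adjoin ℤ hcomm
  let Q := (perNeb ψ).range
  have hstab : ∀ X ∈ H, ∀ q ∈ Q, q.comp X ∈ Q := by
    intro X hX
    induction hX using Algebra.adjoin_induction with
    | mem x hx =>
      rintro _ ⟨γ, rfl⟩
      obtain ⟨γ, rfl⟩ := Additive.ofMul.surjective γ
      rcases hx with ⟨p, hp, rfl⟩ | ⟨δ, hδ, rfl⟩
      · have : NeZero p := ⟨(hP p hp).1.ne_zero⟩
        obtain ⟨γp, h0, h1⟩ := exists_lowerRight_eq (M := M) (hP p hp).1 (hP p hp).2.1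
        obtain ⟨σ, d, -, hd⟩ := perFun_TOne (ψ := ψ) (hP p hp).1 (hP p hp).2.1 h0 h1 γ
        have e : (perNeb ψ (Additive.ofMul γ)).comp (TOne ψ (hP p hp).1 (hP p hp).2.1)
            = ∑ x, perNeb ψ (Additive.ofMul (d x)) := LinearMap.ext fun h => by
          rw [LinearMap.sum_apply]
          exact hd h
        rw [e]
        exact sum_mem fun x _ => ⟨_, rfl⟩
      · refine ⟨Additive.ofMul ⟨δ * γ * δ⁻¹, conj_mem_Gamma1 hδ γ.2⟩, LinearMap.ext fun h => ?_⟩
        rw [LinearMap.comp_apply, perNeb_apply, LinearMap.smul_apply, Module.End.one_apply,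
          map_smul, smul_eq_mul, perNeb_apply]
        exact perFun_conj (h.2 δ hδ) γ.2 (conj_mem_Gamma1 hδ γ.2) rfl
    | algebraMap r =>
      intro q hq
      rw [show q.comp (algebraMap ℤ (Module.End ℂ S) r) = r • q from LinearMap.ext fun h => by
        rw [LinearMap.comp_apply, Algebra.algebraMap_eq_smul_one, LinearMap.smul_apply,
          LinearMap.smul_apply, Module.End.one_apply, map_zsmul]]
      exact zsmul_mem hq r
    | add x y _ _ hx hy =>
      intro q hq
      rw [LinearMap.comp_add]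
      exact add_mem (hx q hq) (hy q hq)
    | mul x y _ _ hx hy =>
      intro q hq
      exact hy _ (hx q hq)
  let act : H → AddMonoid.End Q := fun X =>
    { toFun := fun q => ⟨(q : S →ₗ[ℂ] ℂ).comp (X : Module.End ℂ S), hstab _ X.2 _ q.2⟩
      map_zero' := Subtype.ext (LinearMap.zero_comp _)
      map_add' := fun q q' => Subtype.ext (LinearMap.add_comp _ _ _) }
  let actHom : H →+* AddMonoid.End Q :=
    { toFun := act
      map_one' := AddMonoidHom.ext fun q => Subtype.ext rfl
      map_mul' := fun X Y => by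
        rw [mul_comm X Y]
        exact AddMonoidHom.ext fun q => Subtype.ext rfl
      map_zero' := AddMonoidHom.ext fun q => Subtype.ext (LinearMap.comp_zero _)
      map_add' := fun X Y => AddMonoidHom.ext fun q => Subtype.ext (LinearMap.comp_add _ _ _) }
  letI : Module H Q := Module.compHom Q actHom
  have smul_coe : ∀ (X : H) (q : Q),
      ((X • q : Q) : S →ₗ[ℂ] ℂ) = (q : S →ₗ[ℂ] ℂ).comp (X : Module.End ℂ S) := fun _ _ => rfl
  have hfaith : ∀ X : H, (∀ q : Q, X • q = 0) → X = 0 := by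
    refine fun X hX => Subtype.ext (LinearMap.ext fun h => Subtype.ext ?_)
    refine eq_zero_of_perFun _ fun γ hγ => ?_
    have e := congrArg Subtype.val (hX ⟨_, ⟨Additive.ofMul ⟨γ, hγ⟩, rfl⟩⟩)
    rw [smul_coe] at e
    exact LinearMap.congr_fun e h
  have : Module.Finite H Q := by
    have := Periods.sl2z_fg
    have : Group.FG (Gamma1 M) := Subgroup.fg_of_index_ne_zero (Gamma1 M)
    obtain ⟨⟨s, hs⟩⟩ : AddGroup.FG Q :=
      AddGroup.fg_of_surjective (f := (perNeb ψ).rangeRestrict)
        (perNeb ψ).rangeRestrict_surjective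
    refine ⟨⟨s, Submodule.eq_top_iff'.2 fun q => ?_⟩⟩
    have hq : q ∈ AddSubgroup.closure (s : Set Q) := hs ▸ AddSubgroup.mem_top q
    induction hq using AddSubgroup.closure_induction with
    | mem x hx => exact Submodule.subset_span hx
    | zero => exact zero_mem _
    | add x y _ _ hx hy => exact add_mem hx hy
    | neg x _ hx =>
      have e : -x = (-1 : H) • x := Subtype.ext (LinearMap.ext fun h => by rw [smul_coe]; simp)
      rw [e]; exact Submodule.smul_mem _ _ hx
  have hgood : ∀ X ∈ H, ∃ l, Good X l := by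
    intro X hX
    induction hX using Algebra.adjoin_induction with
    | mem x hx =>
      rcases hx with ⟨p, hp, rfl⟩ | ⟨γ, -, rfl⟩
      · exact ⟨_, good_T p hp⟩
      · exact ⟨_, good_scalar ⟨_, char_apply_mem ψ A _⟩⟩
    | algebraMap r =>
      refine ⟨_, (?_ : algebraMap ℤ (Module.End ℂ S) r
        = (((r : A) : ℂ) • (1 : Module.End ℂ S))) ▸ good_scalar (r : A)⟩
      rw [Algebra.algebraMap_eq_smul_one, ← Int.cast_smul_eq_zsmul ℂ]
      simp
    | add x y _ _ hx hy => exact ⟨_, good_add hx.choose_spec hy.choose_spec⟩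
    | mul x y _ _ hx hy => exact ⟨_, good_mul hx.choose_spec hy.choose_spec⟩
  choose lam hlam using fun X : H => hgood X X.2
  let θ : H →+* IsLocalRing.ResidueField A :=
    { toFun := lam
      map_one' := huniq (hlam 1) (by simpa using good_scalar 1)
      map_mul' := fun X Y => huniq (hlam (X * Y)) (good_mul (hlam X) (hlam Y))
      map_zero' := huniq (hlam 0) (by simpa using good_scalar 0)
      map_add' := fun X Y => huniq (hlam (X + Y)) (good_add (hlam X) (hlam Y)) }
  obtain ⟨cQ, ⟨q₁, hq₁⟩, hcQ⟩ := exists_semilinear_functional (H := H) (Q := Q) hfaith θ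
  set c : Additive (Gamma1 M) →+ IsLocalRing.ResidueField A :=
    cQ.comp (perNeb ψ).rangeRestrict with hc
  refine ⟨c, ?_, ?_, ?_, ?_⟩
  · intro e
    obtain ⟨γ, rfl⟩ := (perNeb ψ).rangeRestrict_surjective q₁
    exact hq₁ (DFunLike.congr_fun e γ)
  · intro γ hγ
    have e : (perNeb ψ).rangeRestrict (Additive.ofMul γ) = 0 :=
      Subtype.ext (LinearMap.ext fun h => perFun_eq_zero_of_parabolic _ γ.2 hγ)
    rw [hc, AddMonoidHom.comp_apply, e, map_zero]
  · intro γ hγ z hz x y hxy
    set X : H := ⟨ψ ((γ 1 1 : ℤ) : ZMod M) • 1, Algebra.subset_adjoin (Or.inr ⟨γ, hγ, rfl⟩)⟩ with hX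
    have hθ : θ X = IsLocalRing.residue A z := huniq (hlam X)
      (show Good (ψ ((γ 1 1 : ℤ) : ZMod M) • 1) _ from hz ▸ good_scalar z)
    have e : (perNeb ψ).rangeRestrict (Additive.ofMul y)
        = X • (perNeb ψ).rangeRestrict (Additive.ofMul x) := by
      refine Subtype.ext (LinearMap.ext fun h => ?_)
      rw [smul_coe]
      show perFun _ _ = perNeb ψ (Additive.ofMul x) (ψ _ • h)
      rw [map_smul, smul_eq_mul, perNeb_apply]
      exact perFun_conj (h.2 γ hγ) x.2 y.2 hxy
    rw [hc, AddMonoidHom.comp_apply, AddMonoidHom.comp_apply, e, hcQ, hθ]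
  · intro p hp hpp
    have : NeZero p := ⟨hpp.ne_zero⟩
    intro γp h0 h1 γ
    obtain ⟨σ, d, hrel, hd⟩ := perFun_TOne (ψ := ψ) (hP p hp).1 (hP p hp).2.1 h0 h1 γ
    refine ⟨σ, d, hrel, ?_⟩
    set X : H := ⟨TOne ψ (hP p hp).1 (hP p hp).2.1, Algebra.subset_adjoin (Or.inl ⟨p, hp, rfl⟩)⟩
      with hX
    have hθ : θ X = IsLocalRing.residue A (a p) := huniq (hlam X) (good_T p hp)
    have e : X • (perNeb ψ).rangeRestrict (Additive.ofMul γ)
        = ∑ x, (perNeb ψ).rangeRestrict (Additive.ofMul (d x)) := by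
      refine Subtype.ext (LinearMap.ext fun h => ?_)
      rw [smul_coe, AddSubgroup.val_finsetSum, LinearMap.sum_apply]
      exact hd h
    show IsLocalRing.residue A (a p) * c (Additive.ofMul γ) = ∑ x, c (Additive.ofMul (d x))
    simp only [hc, AddMonoidHom.comp_apply]
    rw [← map_sum cQ, ← e, hcQ, hθ]

end FLTAgent.DS
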