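import Fermat.Prelude.Def_FLTPrelim_Modularity
import Fermat.Prelude.Def_ModularCurve_PeriodMap
import Fermat.Prelude.Def_ModularForm_HeckeOperator
import Mathlib.NumberTheory.DirichletCharacter.Basic
import Mathlib.NumberTheory.ModularForms.CongruenceSubgroups
import Mathlib.RingTheory.Valuation.ValuationSubring
import Mathlib.Analysis.Complex.Basic

/-!
# Interfaces between the parts of the Deligne–Serre theorem
-/

set_option autoImplicit false

noncomputable section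

namespace FLTAgent.DS

open CongruenceSubgroup UpperHalfPlane
open scoped MatrixGroups ModularForm

/-- The weight-one Eisenstein series `L(0, χ) / 2 + ∑ (∑_{d ∣ n} χ d) q^n` of an odd character
exists as a modular form on `Γ₁(M)` with nebentypus `χ`. -/
def Eis1Exists : Prop :=
  ∀ (M : ℕ) [NeZero M] (χ : DirichletCharacter ℂ M), χ.Odd →
    ∃ E : ModularForm (Gamma1 M) 1,
      ModularFormClass.qCoeff E 0
        = -(1 / (2 * (M : ℂ))) * ∑ a ∈ Finset.range M, χ (a : ZMod M) * (a : ℂ) ∧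
      (∀ n : ℕ, 0 < n →
        ModularFormClass.qCoeff E n = ∑ d ∈ n.divisors, χ (d : ZMod M)) ∧
      ∀ γ : SL(2, ℤ), γ ∈ Gamma0 M →
        ⇑E ∣[(1 : ℤ)] γ = χ ((γ 1 1 : ℤ) : ZMod M) • ⇑E

/-- Representatives of `T p` on `Γ₁(M)`: `γp ∈ Γ₀(M)` must have lower right entry `≡ p`. -/
def tRepOne (p : ℕ) (γp : SL(2, ℤ)) : Option (ZMod p) → GL (Fin 2) ℝ
  | none => (γp : GL (Fin 2) ℝ) * ModularForm.heckeDiagMatrix p
  | some x => ModularForm.heckeMatrix p x.val

/-- `σ` and `δ` describe how right multiplication by `γ` permutes the representatives `β`. -/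
def IsTransferOne {M : ℕ} {ι : Type*} (β : ι → GL (Fin 2) ℝ) (γ : Gamma1 M) (σ : ι → ι)
    (δ : ι → Gamma1 M) : Prop :=
  ∀ i, β i * ((γ : SL(2, ℤ)) : GL (Fin 2) ℝ) = ((δ i : SL(2, ℤ)) : GL (Fin 2) ℝ) * β (σ i)

/-- `c'` is the image of `c` under the operator `T p` (transfer along `tRepOne`). -/
def IsHeckeImageOne {M : ℕ} {R : Type*} [AddCommGroup R] (p : ℕ) [NeZero p]
    (c c' : Additive (Gamma1 M) →+ R) : Prop :=
  ∀ γp : SL(2, ℤ), γp ∈ Gamma0 M → ((γp 1 1 : ℤ) : ZMod M) = (p : ZMod M) →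
    ∀ γ : Gamma1 M, ∃ (σ : Equiv.Perm (Option (ZMod p))) (δ : Option (ZMod p) → Gamma1 M),
      IsTransferOne (tRepOne p γp) γ σ δ ∧
        c' (Additive.ofMul γ) = ∑ i, c (Additive.ofMul (δ i))

/-- A mod `λ` eigenform of weight two on `Γ₁(M)` with nebentypus gives a nonzero parabolic
homomorphism to the residue field with the same eigenvalues. -/
def EigenClassExists : Prop :=
  ∀ (M : ℕ) [NeZero M] (ψ : DirichletCharacter ℂ M) (g : CuspForm (Gamma1 M) 2)
    (A : ValuationSubring ℂ),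
    (∀ γ : SL(2, ℤ), γ ∈ Gamma0 M → ⇑g ∣[(2 : ℤ)] γ = ψ ((γ 1 1 : ℤ) : ZMod M) • ⇑g) →
    (∀ n, ModularFormClass.qCoeff g n ∈ A) →
    (∃ n, ModularFormClass.qCoeff g n ∉ A.nonunits) →
    ∀ (P : Set ℕ) (a : ℕ → A),
      (∀ p ∈ P, p.Prime ∧ ¬ p ∣ M ∧ ∀ n : ℕ,
        ModularFormClass.qCoeff g (p * n)
            + ψ (p : ZMod M) * (p : ℂ) * (if p ∣ n then ModularFormClass.qCoeff g (n / p) else 0)
            - (a p : ℂ) * ModularFormClass.qCoeff g n ∈ A.nonunits) →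
      ∃ c : Additive (Gamma1 M) →+ IsLocalRing.ResidueField A,
        c ≠ 0 ∧ ModularCurve.Period.IsParabolicHom (Gamma1 M) c ∧
        (∀ γ : SL(2, ℤ), γ ∈ Gamma0 M → ∀ z : A, (z : ℂ) = ψ ((γ 1 1 : ℤ) : ZMod M) →
          ∀ x y : Gamma1 M, (y : SL(2, ℤ)) = γ * (x : SL(2, ℤ)) * γ⁻¹ →
            c (Additive.ofMul y) = IsLocalRing.residue A z * c (Additive.ofMul x)) ∧
        ∀ p ∈ P, ∀ hp : p.Prime,
          haveI : NeZero p := ⟨hp.ne_zero⟩
          IsHeckeImageOne p c ((AddMonoidHom.mulLeft (IsLocalRing.residue A (a p))).comp c)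

end FLTAgent.DS
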