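import Fermat.Agent.DS.EisOne
import Fermat.Agent.DS.Interfaces

/-!
# `Eis1Exists`
-/

set_option autoImplicit false

noncomputable section

namespace FLTAgent.DS

open CongruenceSubgroup UpperHalfPlane
open scoped MatrixGroups ModularForm

theorem eis1Exists : Eis1Exists := by
  intro M _ χ hχ
  refine ⟨eisOne χ, ?_, fun n hn => qCoeff_eisOne hχ.to_fun hn.ne',
    fun γ hγ => eisOne_char_slash χ hγ⟩
  rw [qCoeff_eisOne_zero hχ.to_fun]
  simp_rw [mul_comm ((_ : ℕ) : ℂ) (χ _)]
  ring

end FLTAgent.DS
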