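import Fermat.Agent.DS.EisZeta
import Mathlib.Analysis.Fourier.ZMod
import Mathlib.NumberTheory.ModularForms.Cusps
import Mathlib.NumberTheory.ModularForms.CongruenceSubgroups
import Mathlib.NumberTheory.ModularForms.QExpansion
import Mathlib.NumberTheory.DirichletCharacter.Basic
import Fermat.Prelude.Def_FLTPrelim_Modularity

/-!
# Eisenstein series of weight one

`eisMF M w` is the modular form `∑ v, w v • eZ τ (v / M)` on `Γ₁(M)`. For an odd function `φ` on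
`ZMod M`, `eisOne φ` has coefficients `∑ d ∣ n, φ d` and constant term
`-(2M)⁻¹ ∑ k < M, k φ k`; if `φ (u x) = χ u * φ x` it has character `χ`.
-/

set_option autoImplicit false

noncomputable section

namespace FLTAgent.DS

open Complex Filter FLTAgent.EllParam CongruenceSubgroup
open UpperHalfPlane hiding I
open scoped Real MatrixGroups Topology Manifold ModularForm

variable {M : ℕ} [NeZero M]

theorem eZ_zero (τ : ℍ) : eZ τ 0 = 0 := by
  simp [eZ, eH, eRow, qe_zero]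

/-- The value at an `M`-division point of `ℤ + τℤ` in `ℝ`. -/
def eM (M : ℕ) (v : ZMod M) (τ : ℍ) : ℂ := eZ τ ((((v.val : ℝ) / M : ℝ)) : ℂ)

omit [NeZero M] in
theorem eM_def (v : ZMod M) (τ : ℍ) : eM M v τ = eZ τ ((v.val : ℂ) / M) := by
  rw [eM]; push_cast; rfl

theorem eM_zero (τ : ℍ) : eM M 0 τ = 0 := by simp [eM_def, eZ_zero]

theorem eM_intCast (r : ℤ) (τ : ℍ) : eM M (r : ZMod M) τ = eZ τ ((r : ℂ) / M) := by
  have hM : (M : ℂ) ≠ 0 := by exact_mod_cast NeZero.ne M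
  have hval : (((r : ZMod M).val : ℕ) : ℂ) = ((r % M : ℤ) : ℂ) := by
    rw [← ZMod.val_intCast, Int.cast_natCast]
  have h : (r : ℂ) / M = ((r % M : ℤ) : ℂ) / M + ((r / M : ℤ) : ℂ) := by
    rw [div_add' _ _ _ hM]
    congr 1
    exact_mod_cast (Int.emod_add_mul_ediv r M).symm.trans (by ring)
  rw [eM_def, hval, h, eZ_add_intCast]

/-- The division point `x (c τ + d)` is off the lattice. -/
theorem cusp_mem_offLat (γ : SL(2, ℤ)) {v : ZMod M} (hv : v ≠ 0) (τ : ℍ) :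
    (v.val : ℂ) / M * ((γ 1 0 : ℂ) * τ + γ 1 1) ∈ offLat τ := by
  intro m n e
  have hM : (M : ℂ) ≠ 0 := by exact_mod_cast NeZero.ne M
  rw [div_mul_eq_mul_div, div_eq_iff hM] at e
  have h1 := congrArg Complex.im e
  simp [mul_im, add_mul, -ZMod.natCast_val] at h1
  have h10 : (v.val : ℝ) * (γ 1 0 : ℝ) = m * M := by
    rcases eq_or_ne (τ.im) 0 with h | h
    · exact absurd h τ.im_ne_zero
    · apply mul_right_cancel₀ h; linear_combination h1
  have h2 := congrArg Complex.re e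
  simp [mul_re, add_mul, -ZMod.natCast_val] at h2
  have h11 : (v.val : ℝ) * (γ 1 1 : ℝ) = n * M := by
    linear_combination h2 - τ.re * h10
  have i10 : (v.val : ℤ) * γ 1 0 = m * M := by exact_mod_cast h10
  have i11 : (v.val : ℤ) * γ 1 1 = n * M := by exact_mod_cast h11
  have hdet : γ 0 0 * γ 1 1 - γ 0 1 * γ 1 0 = 1 := by
    have h := γ.det_coe; rwa [Matrix.det_fin_two] at h
  have hdvd : (M : ℤ) ∣ (v.val : ℤ) :=
    ⟨γ 0 0 * n - γ 0 1 * m, by linear_combination γ 0 0 * i11 - γ 0 1 * i10 - (v.val : ℤ) * hdet⟩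
  exact hv ((ZMod.val_eq_zero v).1 (Nat.eq_zero_of_dvd_of_lt (by exact_mod_cast hdvd) v.val_lt))

theorem eM_smul (γ : SL(2, ℤ)) {v : ZMod M} (hv : v ≠ 0) (τ : ℍ) :
    eM M v (γ • τ) = ((γ 1 0 : ℂ) * τ + γ 1 1) *
      (eZ τ ((v.val : ℂ) / M * ((γ 1 0 : ℂ) * τ + γ 1 1)) + (γ 1 0 : ℂ) * ((v.val : ℂ) / M)) := by
  have h := eZ_smul γ (cusp_mem_offLat γ hv τ)
  rw [mul_div_cancel_right₀ _ (denom_ne γ τ)] at h
  rw [eM_def, h]; ring

theorem eM_smul_Gamma0 {γ : SL(2, ℤ)} (hγ : γ ∈ Gamma0 M) (v : ZMod M) (τ : ℍ) :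
    eM M v (γ • τ) = ((γ 1 0 : ℂ) * τ + γ 1 1) * eM M ((γ 1 1 : ZMod M) * v) τ := by
  rcases eq_or_ne v 0 with rfl | hv
  · simp [eM_zero]
  have hM : (M : ℂ) ≠ 0 := by exact_mod_cast NeZero.ne M
  obtain ⟨c, hc⟩ := (ZMod.intCast_zmod_eq_zero_iff_dvd _ _).1 (Gamma0_mem.1 hγ)
  set x := (v.val : ℤ) * γ 1 1 with hx
  have hcast : (γ 1 1 : ZMod M) * v = ((x : ℤ) : ZMod M) := by
    rw [hx]; push_cast; rw [ZMod.natCast_zmod_val]; ring
  have hz : (v.val : ℂ) / M * ((γ 1 0 : ℂ) * τ + γ 1 1) =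
      (x : ℂ) / M + ((((c * v.val : ℤ)) : ℂ) * τ + ((0 : ℤ) : ℂ)) := by
    rw [hx, hc]; push_cast; field_simp; ring
  have hmem : (x : ℂ) / M ∈ offLat τ := by
    have := add_mem_offLat (cusp_mem_offLat γ hv τ) (-(c * v.val)) 0
    rw [hz] at this; push_cast at this
    convert this using 1; ring
  rw [eM_smul γ hv, hz, eZ_add_lattice hmem, hcast, eM_intCast, hc]
  push_cast; field_simp; ring

/-! ### Analytic properties -/

/-- The sum of the expansion of `eM`. -/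
def eFun (u q : ℂ) : ℂ := ∑' N : ℕ, eCoef u N * q ^ N

theorem hasSum_eFun {u q : ℂ} (hu : ‖u‖ = 1) (hq : ‖q‖ < 1) :
    HasSum (fun N : ℕ => eCoef u N * q ^ N) (eFun u q) :=
  (hasSum_eRow hu hq).summable.hasSum

theorem hasFPowerSeriesOnBall_eFun {u : ℂ} (hu : ‖u‖ = 1) :
    HasFPowerSeriesOnBall (eFun u) (.ofScalars ℂ (eCoef u)) 0 1 where
  r_le := by
    refine ENNReal.le_of_forall_nnreal_lt fun r hr => ?_
    refine FormalMultilinearSeries.le_radius_of_summable _ ?_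
    have hr' : ‖((r : ℝ) : ℂ)‖ < 1 := by
      simpa [abs_of_nonneg r.coe_nonneg] using (show (r : ℝ) < 1 by exact_mod_cast hr)
    refine ((hasSum_eFun hu hr').summable.norm).congr fun n => ?_
    rw [FormalMultilinearSeries.ofScalars_norm, norm_mul, norm_pow, Complex.norm_real,
      Real.norm_eq_abs, abs_of_nonneg r.coe_nonneg]
  r_pos := one_pos
  hasSum {q} hq := by
    rw [← ENNReal.ofReal_one, Metric.eball_ofReal, mem_ball_zero_iff] at hq
    simpa [FormalMultilinearSeries.ofScalars_apply_eq, smul_eq_mul, mul_comm] using hasSum_eFun hu hq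

omit [NeZero M] in
theorem hasSum_eM (v : ZMod M) (τ : ℍ) :
    HasSum (fun N : ℕ => eCoef (qe ((((v.val : ℝ) / M : ℝ)) : ℂ)) N * qe τ ^ N) (eM M v τ) :=
  hasSum_eZ τ _

omit [NeZero M] in
theorem mdiff_eM (v : ZMod M) : MDiff (eM M v) := by
  rw [UpperHalfPlane.mdifferentiable_iff]
  set u := qe ((((v.val : ℝ) / M : ℝ)) : ℂ)
  have hu : ‖u‖ = 1 := norm_qe_real _
  have h := (hasFPowerSeriesOnBall_eFun hu).analyticOnNhd
  refine DifferentiableOn.congr (f := fun z => eFun u (qe z)) ?_ fun z hz => ?_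
  · intro z hz
    have hmem : qe z ∈ Metric.eball (0 : ℂ) 1 := by
      rw [← ENNReal.ofReal_one, Metric.eball_ofReal]
      simpa using norm_qe_tau_lt ⟨z, hz⟩
    refine ((h _ hmem).differentiableAt.comp z ?_).differentiableWithinAt
    unfold qe
    fun_prop
  · simp only [Function.comp_apply, ofComplex_apply_of_im_pos hz]
    exact (hasSum_eZ ⟨z, hz⟩ _).unique (hasSum_eFun hu (norm_qe_tau_lt ⟨z, hz⟩))

theorem qe_eq_qParam (τ : ℍ) : qe τ = Function.Periodic.qParam 1 τ := by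
  simp [qe, Function.Periodic.qParam]

theorem isBoundedAtImInfty_eZ_real (y : ℝ) : IsBoundedAtImInfty fun τ : ℍ => eZ τ y :=
  isBoundedAtImInfty_of_hasSum_qExpansion one_pos (c := eCoef (qe y)) fun τ => by
    rw [← qe_eq_qParam]; exact hasSum_eZ τ y

theorem isBoundedAtImInfty_eZ_strip {x : ℝ} (hx0 : 0 < x) (hx1 : x < 1) (y : ℝ) :
    IsBoundedAtImInfty fun τ : ℍ => eZ τ ((x : ℂ) * τ + y) := by
  set δ := min x (1 - x) with hδ
  have hδ0 : 0 < δ := lt_min hx0 (by linarith)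
  have hδx : δ ≤ x := min_le_left _ _
  have hδ1x : δ ≤ 1 - x := min_le_right _ _
  rw [isBoundedAtImInfty_iff]
  refine ⟨2 + 4, 1 / (2 * π * δ), fun τ hτ => ?_⟩
  set t := 2 * π * δ * τ.im with ht
  have ht1 : 1 ≤ t := by
    rw [div_le_iff₀ (by positivity)] at hτ; linarith
  set ρ := Real.exp (-t) with hρ
  have hρ2 : ρ ≤ 1 / 2 := by
    rw [hρ, Real.exp_neg, inv_le_comm₀ (Real.exp_pos _) (by norm_num)]
    linarith [Real.add_one_le_exp t]
  set z : ℂ := (x : ℂ) * τ + y with hz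
  have him : z.im = x * τ.im := by simp [hz]
  have hτ0 := τ.im_pos
  have hqz : ‖qe z‖ ≤ ρ := by
    rw [norm_qe, hρ, Real.exp_le_exp, him, ht]
    nlinarith [mul_le_mul_of_nonneg_right hδx hτ0.le, Real.pi_pos]
  have hne : qe z ≠ 1 := fun e => by
    rw [e, norm_one] at hqz; linarith
  have hH : ‖eH (qe z)‖ ≤ 2 := by
    rw [eH_eq _ hne]
    refine (norm_sub_le _ _).trans ?_
    have := norm_eR_le (hqz.trans hρ2)
    norm_num; linarith
  have key : ∀ (m : ℕ) (w : ℂ), w = z ∨ w = -z →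
      ‖qe τ ^ (m + 1) * qe w‖ ≤ ρ ^ (m + 1) := by
    intro m w hw
    have hwim : -(x * τ.im) ≤ w.im := by
      rcases hw with rfl | rfl
      · rw [him]; nlinarith
      · rw [neg_im, him]
    rw [norm_mul, norm_pow, norm_qe, norm_qe, hρ, ← Real.exp_nat_mul, ← Real.exp_nat_mul,
      ← Real.exp_add, Real.exp_le_exp, ht]
    push_cast
    have hm : δ * (m + 1 : ℝ) ≤ (m + 1 : ℝ) - x := by
      nlinarith [(m.cast_nonneg : (0 : ℝ) ≤ m)]
    have := mul_le_mul_of_nonneg_right hm (mul_nonneg Real.pi_pos.le hτ0.le)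
    simp only [UpperHalfPlane.coe_im]
    nlinarith [mul_le_mul_of_nonneg_left hwim Real.pi_pos.le]
  have hrow : ∀ m : ℕ, ‖eRow τ z m‖ ≤ 4 * ρ ^ (m + 1) := by
    intro m
    have hpow : ρ ^ (m + 1) ≤ 1 / 2 :=
      (pow_le_of_le_one (Real.exp_pos _).le (by linarith) (by omega)).trans hρ2
    have a := key m (-z) (Or.inr rfl)
    have b := key m z (Or.inl rfl)
    refine (norm_sub_le _ _).trans ?_
    have a' := norm_eR_le (a.trans hpow)
    have b' := norm_eR_le (b.trans hpow)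
    linarith
  have hsum : Summable fun m : ℕ => 4 * ρ ^ (m + 1) :=
    (((summable_geometric_of_lt_one (Real.exp_pos _).le (by linarith)).comp_injective
      (add_left_injective 1))).mul_left 4
  refine (norm_add_le _ _).trans (add_le_add hH ?_)
  refine (tsum_of_norm_bounded hsum.hasSum hrow).trans ?_
  rw [tsum_mul_left]
  simp only [pow_succ]
  rw [tsum_mul_right, tsum_geometric_of_lt_one (Real.exp_pos _).le (by linarith)]
  have : (1 - ρ)⁻¹ ≤ 2 := by
    rw [inv_le_comm₀ (by linarith) (by norm_num)]; linarith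
  nlinarith [(Real.exp_pos (-t) : 0 < ρ)]

theorem isBoundedAtImInfty_eM_slash (γ : SL(2, ℤ)) (v : ZMod M) :
    IsBoundedAtImInfty (eM M v ∣[(1 : ℤ)] γ) := by
  rcases eq_or_ne v 0 with rfl | hv
  · have : eM M (0 : ZMod M) = 0 := funext eM_zero
    rw [this, SlashAction.zero_slash]
    exact zero_form_isBoundedAtImInfty
  have hM : (0 : ℝ) < M := by exact_mod_cast Nat.pos_of_ne_zero (NeZero.ne M)
  have hMC : (M : ℂ) ≠ 0 := by exact_mod_cast NeZero.ne M
  set c := γ 1 0 with hc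
  set q := (c * v.val) / (M : ℤ) with hq
  set r := (c * v.val) % (M : ℤ) with hr
  have hqr : r + M * q = c * v.val := Int.emod_add_mul_ediv _ _
  have hr0 : 0 ≤ r := Int.emod_nonneg _ (by exact_mod_cast NeZero.ne M)
  have hr1 : r < M := Int.emod_lt_of_pos _ (by exact_mod_cast Nat.pos_of_ne_zero (NeZero.ne M))
  have heq : (eM M v ∣[(1 : ℤ)] γ) =
      fun τ : ℍ => eZ τ ((((r : ℝ) / M : ℝ)) * τ + (((γ 1 1 : ℝ) * v.val / M : ℝ) : ℂ))
        + (((r : ℝ) / M : ℝ) : ℂ) := by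
    funext τ
    have hqrC : (r : ℂ) + M * q = (γ 1 0 : ℂ) * v.val := by exact_mod_cast hqr
    rw [ModularForm.SL_slash_apply, eM_smul γ hv, ModularGroup.denom_apply, zpow_neg_one,
      mul_right_comm, mul_inv_cancel₀ (denom_ne γ τ), one_mul]
    set z : ℂ := ((((r : ℝ) / M : ℝ)) : ℂ) * τ + (((γ 1 1 : ℝ) * v.val / M : ℝ) : ℂ) with hz
    have hzz : (v.val : ℂ) / M * ((γ 1 0 : ℂ) * τ + γ 1 1) = z + ((q : ℂ) * τ + ((0 : ℤ) : ℂ)) := by
      rw [hz]; push_cast; field_simp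
      linear_combination -(τ : ℂ) * hqrC
    have hmem : z ∈ offLat τ := by
      have := add_mem_offLat (cusp_mem_offLat γ hv τ) (-q) 0
      rw [hzz] at this; push_cast at this
      convert this using 1; ring
    rw [hzz, eZ_add_lattice hmem]
    push_cast; field_simp
    linear_combination -hqrC
  rw [heq]
  refine Asymptotics.IsBigO.add ?_ (const_boundedAtFilter _ _)
  rcases eq_or_lt_of_le hr0 with hr' | hr'
  · simp only [← hr', Int.cast_zero, zero_div, Complex.ofReal_zero, zero_mul, zero_add]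
    exact isBoundedAtImInfty_eZ_real _
  · exact isBoundedAtImInfty_eZ_strip (div_pos (by exact_mod_cast hr') hM)
      (by rw [div_lt_one hM]; exact_mod_cast hr1) _

/-! ### The modular forms -/

/-- A combination of the functions `eM`. -/
def eS (M : ℕ) [NeZero M] (w : ZMod M → ℂ) : ℍ → ℂ := fun τ => ∑ v, w v * eM M v τ

theorem eS_eq (w : ZMod M → ℂ) : eS M w = ∑ v, w v • eM M v := by
  funext τ; simp [eS, Finset.sum_apply]

omit [NeZero M] in
theorem mul_inv_Gamma0 {γ : SL(2, ℤ)} (hγ : γ ∈ Gamma0 M) :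
    (γ 0 0 : ZMod M) * (γ 1 1 : ZMod M) = 1 := by
  have h := γ.det_coe
  rw [Matrix.det_fin_two] at h
  have h' := congrArg (Int.cast : ℤ → ZMod M) h
  push_cast at h'
  rw [Gamma0_mem.1 hγ, mul_zero, sub_zero] at h'
  exact h'

/-- The unit given by the lower right entry. -/
def lowerUnit {γ : SL(2, ℤ)} (hγ : γ ∈ Gamma0 M) : (ZMod M)ˣ :=
  ⟨γ 1 1, γ 0 0, by rw [mul_comm, mul_inv_Gamma0 hγ], mul_inv_Gamma0 hγ⟩

theorem eS_slash_Gamma0 {γ : SL(2, ℤ)} (hγ : γ ∈ Gamma0 M) (w : ZMod M → ℂ) :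
    eS M w ∣[(1 : ℤ)] γ = eS M (fun v => w ((γ 0 0 : ZMod M) * v)) := by
  funext τ
  rw [ModularForm.SL_slash_apply, ModularGroup.denom_apply, zpow_neg_one, eS, eS, Finset.sum_mul]
  refine Fintype.sum_equiv (lowerUnit hγ).mulLeft _ _ fun v => ?_
  rw [Units.mulLeft_apply, lowerUnit, Units.val_mk, ← mul_assoc, mul_inv_Gamma0 hγ, one_mul,
    eM_smul_Gamma0 hγ]
  field_simp [denom_ne γ τ]

theorem eS_slash_Gamma1 {γ : SL(2, ℤ)} (hγ : γ ∈ Gamma1 M) (w : ZMod M → ℂ) :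
    eS M w ∣[(1 : ℤ)] γ = eS M w := by
  obtain ⟨ha, -, hc⟩ := (Gamma1_mem M γ).1 hγ
  rw [eS_slash_Gamma0 (Gamma0_mem.2 hc)]
  simp [ha]

theorem isBoundedAtImInfty_eS_slash (γ : SL(2, ℤ)) (w : ZMod M → ℂ) :
    IsBoundedAtImInfty (eS M w ∣[(1 : ℤ)] γ) := by
  have h : eS M w ∣[(1 : ℤ)] γ = fun τ => ∑ v, w v * (eM M v ∣[(1 : ℤ)] γ) τ := by
    funext τ
    simp [ModularForm.SL_slash_apply, eS, Finset.sum_mul, mul_assoc]
  rw [h]
  rw [show (fun τ => ∑ v, w v * (eM M v ∣[(1 : ℤ)] γ) τ) =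
    ∑ v, fun τ => w v * (eM M v ∣[(1 : ℤ)] γ) τ from (Finset.sum_fn _ _).symm]
  exact Asymptotics.IsBigO.sum fun v _ =>
    Asymptotics.IsBigO.const_mul_left (isBoundedAtImInfty_eM_slash γ v) _

/-- Weight one Eisenstein series on `Γ₁(M)`. -/
def eisMF (M : ℕ) [NeZero M] (w : ZMod M → ℂ) :
    ModularForm (Gamma1 M : Subgroup (GL (Fin 2) ℝ)) 1 where
  toFun := eS M w
  slash_action_eq' A hA := by
    obtain ⟨g, hg, rfl⟩ := hA
    exact eS_slash_Gamma1 hg w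
  holo' := by
    show MDiff (eS M w)
    rw [eS_eq]
    exact MDifferentiable.sum fun v _ => (mdiff_eM v).const_smul _
  bdd_at_cusps' {c} hc := by
    rw [Subgroup.IsArithmetic.isCusp_iff_isCusp_SL2Z] at hc
    rw [OnePoint.isBoundedAt_iff_forall_SL2Z hc]
    exact fun γ _ => isBoundedAtImInfty_eS_slash γ w

theorem eisMF_apply (w : ZMod M → ℂ) (τ : ℍ) : eisMF M w τ = ∑ v, w v * eM M v τ := rfl

theorem eisMF_slash_Gamma0 {γ : SL(2, ℤ)} (hγ : γ ∈ Gamma0 M) (w : ZMod M → ℂ) :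
    (eisMF M w : ℍ → ℂ) ∣[(1 : ℤ)] γ = eisMF M (fun v => w ((γ 0 0 : ZMod M) * v)) :=
  eS_slash_Gamma0 hγ w

theorem qe_val_div (v : ZMod M) :
    qe ((((v.val : ℝ) / M : ℝ)) : ℂ) = ZMod.stdAddChar v := by
  conv_rhs => rw [← ZMod.natCast_zmod_val v, ← Int.cast_natCast (R := ZMod M)]
  rw [ZMod.stdAddChar_coe, qe]
  push_cast
  ring_nf

/-- The coefficients of `eisMF`. -/
def eisCoef (M : ℕ) [NeZero M] (w : ZMod M → ℂ) (n : ℕ) : ℂ :=
  ∑ v, w v * eCoef (ZMod.stdAddChar v) n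

theorem hasSum_eisMF (w : ZMod M → ℂ) (τ : ℍ) :
    HasSum (fun n : ℕ => eisCoef M w n * qe τ ^ n) (eisMF M w τ) := by
  refine (hasSum_sum fun v _ => (hasSum_eM v τ).mul_left (w v)).congr_fun fun n => ?_
  rw [eisCoef, Finset.sum_mul]
  exact Finset.sum_congr rfl fun v _ => by rw [qe_val_div, mul_assoc]

theorem qCoeff_eisMF (w : ZMod M → ℂ) (n : ℕ) :
    ModularFormClass.qCoeff (eisMF M w) n = eisCoef M w n := by
  refine (ModularFormClass.qExpansion_coeff_unique (f := eisMF M w) one_pos ?_ (fun τ => ?_) n).symm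
  · simp
  · rw [← qe_eq_qParam]; exact hasSum_eisMF w τ

theorem eisCoef_pos (w : ZMod M → ℂ) {n : ℕ} (hn : n ≠ 0) :
    eisCoef M w n = ∑ d ∈ n.divisors, (ZMod.dft w (d : ZMod M) - ZMod.dft w (-(d : ZMod M))) := by
  simp only [eisCoef, eCoef, if_neg hn, Finset.mul_sum]
  rw [Finset.sum_comm]
  refine Finset.sum_congr rfl fun d _ => ?_
  rw [ZMod.dft_apply, ZMod.dft_apply, ← Finset.sum_sub_distrib]
  refine Finset.sum_congr rfl fun v _ => ?_
  rw [← AddChar.map_neg_eq_inv, ← AddChar.map_nsmul_eq_pow, ← AddChar.map_nsmul_eq_pow,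
    nsmul_eq_mul, nsmul_eq_mul, smul_eq_mul, smul_eq_mul]
  ring_nf

/-! ### Odd functions -/

/-- The weights of `eisOne`. -/
def oneW (φ : ZMod M → ℂ) (v : ZMod M) : ℂ := -(1 / (2 * M)) * ZMod.dft φ v

theorem dft_oneW (φ : ZMod M → ℂ) (x : ZMod M) : ZMod.dft (oneW φ) x = -φ (-x) / 2 := by
  have h : oneW φ = (-(1 / (2 * M)) : ℂ) • ZMod.dft φ := by
    funext v; simp [oneW]
  have hM : (M : ℂ) ≠ 0 := by exact_mod_cast NeZero.ne M
  rw [h, map_smul, ZMod.dft_dft, Pi.smul_apply, smul_eq_mul, smul_eq_mul]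
  field_simp

theorem eH_stdAddChar {v : ZMod M} (hv : v ≠ 0) : eH (ZMod.stdAddChar v) =
    1 / 2 + (∑ k ∈ Finset.range M, (k : ℂ) * ZMod.stdAddChar v ^ k) / M := by
  set x : ℂ := ZMod.stdAddChar v with hx
  have h1 : x ≠ 1 := fun e => hv (ZMod.injective_stdAddChar (by rw [← hx, e, AddChar.map_zero_eq_one]))
  have hMx : x ^ M = 1 := by
    rw [hx, ← AddChar.map_nsmul_eq_pow, nsmul_eq_mul, ZMod.natCast_self, zero_mul,
      AddChar.map_zero_eq_one]
  have key : ∀ n : ℕ, (∑ k ∈ Finset.range n, (k : ℂ) * x ^ k) * (x - 1) ^ 2 =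
      x + (n : ℂ) * x ^ n * (x - 1) - x ^ n * x := by
    intro n
    induction n with
    | zero => simp
    | succ n ih =>
      rw [Finset.sum_range_succ, add_mul, ih]
      push_cast; ring
  have hM : (M : ℂ) ≠ 0 := by exact_mod_cast NeZero.ne M
  have h2 : x - 1 ≠ 0 := sub_ne_zero.2 h1
  have := key M
  rw [hMx] at this
  have hs : ∑ k ∈ Finset.range M, (k : ℂ) * x ^ k = M / (x - 1) := by
    rw [eq_div_iff h2]
    apply mul_right_cancel₀ h2
    linear_combination this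
  rw [hs, eH]; field_simp; ring

/-- `E_{1,φ}` for an odd function `φ`. -/
def eisOne (φ : ZMod M → ℂ) : ModularForm (Gamma1 M : Subgroup (GL (Fin 2) ℝ)) 1 :=
  eisMF M (oneW φ)

theorem qCoeff_eisOne {φ : ZMod M → ℂ} (hφ : φ.Odd) {n : ℕ} (hn : n ≠ 0) :
    ModularFormClass.qCoeff (eisOne φ) n = ∑ d ∈ n.divisors, φ d := by
  rw [eisOne, qCoeff_eisMF, eisCoef_pos _ hn]
  refine Finset.sum_congr rfl fun d _ => ?_
  rw [dft_oneW, dft_oneW, neg_neg, hφ]; ring

theorem qCoeff_eisOne_zero {φ : ZMod M → ℂ} (hφ : φ.Odd) :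
    ModularFormClass.qCoeff (eisOne φ) 0 =
      -(∑ k ∈ Finset.range M, (k : ℂ) * φ k) / (2 * M) := by
  have hM : (M : ℂ) ≠ 0 := by exact_mod_cast NeZero.ne M
  have h0 : φ 0 = 0 := by
    have := hφ 0; rw [neg_zero] at this; linear_combination this / 2
  have hw0 : oneW φ 0 = 0 := by
    have hs : ∑ j, φ j = 0 := by
      have : ∑ j, φ j = -∑ j, φ j := by
        rw [← Finset.sum_neg_distrib]
        exact Fintype.sum_equiv (Equiv.neg _) _ _ fun j => by simp [hφ j]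
      linear_combination this / 2
    rw [oneW, ZMod.dft_apply_zero, hs, mul_zero]
  rw [eisOne, qCoeff_eisMF, eisCoef]
  simp only [eCoef, if_true]
  have e : ∀ v : ZMod M, oneW φ v * eH (ZMod.stdAddChar v) = oneW φ v * (1 / 2) +
      (∑ k ∈ Finset.range M, (k : ℂ) * (ZMod.stdAddChar v ^ k * oneW φ v)) / M := by
    intro v
    rcases eq_or_ne v 0 with rfl | hv
    · simp [hw0]
    · rw [eH_stdAddChar hv, mul_add, Finset.sum_div, Finset.sum_div, Finset.mul_sum]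
      exact congrArg _ (Finset.sum_congr rfl fun k _ => by ring)
  simp only [e, Finset.sum_add_distrib, ← Finset.sum_mul, ← Finset.sum_div]
  rw [Finset.sum_comm]
  have h1 : ∑ v, oneW φ v = 0 := by
    rw [← ZMod.dft_apply_zero, dft_oneW, neg_zero, h0]; simp
  have h2 : ∀ k : ℕ, ∑ v : ZMod M, (k : ℂ) * (ZMod.stdAddChar v ^ k * oneW φ v) =
      (k : ℂ) * φ k * (-1 / 2) := by
    intro k
    have := dft_oneW φ (-(k : ZMod M))
    rw [ZMod.dft_apply, neg_neg] at this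
    rw [← Finset.mul_sum, mul_assoc]
    congr 1
    rw [show φ (k : ZMod M) * (-1 / 2) = -φ (k : ZMod M) / 2 by ring, ← this]
    refine Finset.sum_congr rfl fun v _ => ?_
    rw [← AddChar.map_nsmul_eq_pow, nsmul_eq_mul, smul_eq_mul]
    ring_nf
  rw [h1, zero_mul, zero_add, Finset.sum_congr rfl fun k _ => h2 k, ← Finset.sum_mul]
  field_simp

theorem eisOne_slash {φ : ZMod M → ℂ} {χ : ZMod M → ℂ}
    (h : ∀ (u : (ZMod M)ˣ) (x : ZMod M), φ (u * x) = χ u * φ x)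
    {γ : SL(2, ℤ)} (hγ : γ ∈ Gamma0 M) :
    (eisOne φ : ℍ → ℂ) ∣[(1 : ℤ)] γ = χ (γ 1 1 : ZMod M) • (eisOne φ : ℍ → ℂ) := by
  rw [eisOne, eisMF_slash_Gamma0 hγ]
  funext τ
  simp only [Pi.smul_apply, smul_eq_mul, eisMF_apply, Finset.mul_sum]
  refine Finset.sum_congr rfl fun v _ => ?_
  have e : ZMod.dft φ ((γ 0 0 : ZMod M) * v) = χ (γ 1 1 : ZMod M) * ZMod.dft φ v := by
    have := ZMod.dft_comp_unitMul φ (lowerUnit hγ) v
    have hinv : ((lowerUnit hγ)⁻¹ : (ZMod M)ˣ).val = (γ 0 0 : ZMod M) := rfl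
    rw [hinv] at this
    rw [← this, show (fun j => φ ((lowerUnit hγ).val * j)) = χ (γ 1 1 : ZMod M) • φ from
      funext fun j => h _ j, map_smul, Pi.smul_apply, smul_eq_mul]
  rw [oneW, oneW, e]; ring

theorem eisOne_char_slash (χ : DirichletCharacter ℂ M) {γ : SL(2, ℤ)} (hγ : γ ∈ Gamma0 M) :
    (eisOne χ : ℍ → ℂ) ∣[(1 : ℤ)] γ = χ (γ 1 1 : ZMod M) • (eisOne χ : ℍ → ℂ) :=
  eisOne_slash (fun u x => map_mul χ _ x) hγ

end FLTAgent.DS
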