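import Fermat.Agent.EllParam.RowSum
import Fermat.Agent.EllParam.Expansion
import Fermat.Agent.EllParam.Addition
import Mathlib.Analysis.Calculus.SmoothSeries

/-!
# The periodic zeta function of the lattice `τℤ + ℤ`

`eZ τ z` is `(2πi)⁻¹ (ζ(z) - η z)`, summed row by row. Its derivative is `℘` up to a constant
and `z ↦ z + τ` shifts it by `-1`; this gives its transformation under `SL(2, ℤ)`.
-/

set_option autoImplicit false

noncomputable section

namespace FLTAgent.DS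

open Complex Filter FLTAgent.EllParam
open UpperHalfPlane hiding I
open scoped Real MatrixGroups Topology

/-- `e/(1-e)`. -/
def eR (e : ℂ) : ℂ := e / (1 - e)

/-- `(e+1)/(e-1)/2`. -/
def eH (e : ℂ) : ℂ := (e + 1) / (e - 1) / 2

/-- One pair of rows. -/
def eRow (τ : ℍ) (z : ℂ) (m : ℕ) : ℂ :=
  eR (qe τ ^ (m + 1) * qe (-z)) - eR (qe τ ^ (m + 1) * qe z)

/-- The periodic zeta function. -/
def eZ (τ : ℍ) (z : ℂ) : ℂ := eH (qe z) + ∑' m : ℕ, eRow τ z m

/-- Points outside the lattice. -/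
def offLat (τ : ℍ) : Set ℂ := {z | ∀ m n : ℤ, z ≠ m * τ + n}

theorem offLat_eq (τ : ℍ) : offLat τ = ((stdPair τ).lattice : Set ℂ)ᶜ := by
  ext z
  simp only [offLat, Set.mem_setOf_eq, Set.mem_compl_iff, SetLike.mem_coe, mem_stdPair,
    not_exists]
  exact forall₂_congr fun m n => ne_comm

theorem isOpen_offLat (τ : ℍ) : IsOpen (offLat τ) := by
  rw [offLat_eq]; exact (stdPair τ).isClosed_lattice.isOpen_compl

theorem isPreconnected_offLat (τ : ℍ) : IsPreconnected (offLat τ) := by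
  rw [offLat_eq]; exact (isConnected_compl (countable_lattice (stdPair τ))).isPreconnected

theorem neg_mem_offLat {τ : ℍ} {z : ℂ} (h : z ∈ offLat τ) : -z ∈ offLat τ := fun m n e =>
  h (-m) (-n) (by push_cast; linear_combination -e)

theorem add_mem_offLat {τ : ℍ} {z : ℂ} (h : z ∈ offLat τ) (m n : ℤ) :
    z + (m * τ + n) ∈ offLat τ := fun a b e =>
  h (a - m) (b - n) (by push_cast; linear_combination e)

theorem qe_ne_one {τ : ℍ} {z : ℂ} (h : z ∈ offLat τ) : qe z ≠ 1 := fun e => by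
  obtain ⟨n, hn⟩ := qe_eq_one_iff.1 e
  exact h 0 n (by simp [hn])

theorem pow_mul_qe_ne_one {τ : ℍ} {z : ℂ} (h : z ∈ offLat τ) (k : ℕ) : qe τ ^ k * qe z ≠ 1 := by
  intro e
  rw [← qe_nat_mul, ← qe_add] at e
  obtain ⟨n, hn⟩ := qe_eq_one_iff.1 e
  exact h (-k) n (by push_cast; linear_combination hn)

theorem norm_eR_le {e : ℂ} (he : ‖e‖ ≤ 1 / 2) : ‖eR e‖ ≤ 2 * ‖e‖ := by
  have h1 : (1 : ℝ) / 2 ≤ ‖1 - e‖ := by
    have := norm_sub_norm_le (1 : ℂ) e
    rw [norm_one] at this; linarith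
  rw [eR, norm_div, div_le_iff₀ (by linarith)]
  nlinarith [norm_nonneg e]

theorem norm_Su_le_of_half {e : ℂ} (he : ‖e‖ ≤ 1 / 2) : ‖Su e‖ ≤ 4 * ‖e‖ := by
  have h1 : (1 : ℝ) / 2 ≤ ‖1 - e‖ := by
    have := norm_sub_norm_le (1 : ℂ) e
    rw [norm_one] at this; linarith
  rw [Su, norm_div, norm_pow, div_le_iff₀ (by positivity)]
  nlinarith [norm_nonneg e, pow_le_pow_left₀ (by norm_num) h1 2]

theorem eventually_small (τ : ℍ) (B : ℝ) :
    ∀ᶠ m : ℕ in atTop, ‖qe τ‖ ^ (m + 1) * B ≤ 1 / 2 := by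
  have h := ((tendsto_pow_atTop_nhds_zero_of_lt_one (norm_nonneg (qe τ))
    (norm_qe_tau_lt τ)).comp (tendsto_add_atTop_nat 1)).mul_const B
  rw [zero_mul] at h
  exact h.eventually (ge_mem_nhds (by norm_num))

theorem summable_geom (τ : ℍ) (B : ℝ) : Summable fun m : ℕ => ‖qe τ‖ ^ (m + 1) * B :=
  (((summable_geometric_of_lt_one (norm_nonneg _) (norm_qe_tau_lt τ)).comp_injective
    (add_left_injective 1))).mul_right B

theorem summable_eR (τ : ℍ) (w : ℂ) : Summable fun m : ℕ => eR (qe τ ^ (m + 1) * qe w) := by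
  refine Summable.of_norm_bounded_eventually_nat ((summable_geom τ ‖qe w‖).mul_left 2) ?_
  filter_upwards [eventually_small τ ‖qe w‖] with m hm
  have e : ‖qe τ ^ (m + 1) * qe w‖ = ‖qe τ‖ ^ (m + 1) * ‖qe w‖ := by simp
  exact (norm_eR_le (by rwa [e])).trans (by rw [e])

theorem summable_Su (τ : ℍ) (w : ℂ) : Summable fun m : ℕ => Su (qe τ ^ (m + 1) * qe w) := by
  refine Summable.of_norm_bounded_eventually_nat ((summable_geom τ ‖qe w‖).mul_left 4) ?_
  filter_upwards [eventually_small τ ‖qe w‖] with m hm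
  have e : ‖qe τ ^ (m + 1) * qe w‖ = ‖qe τ‖ ^ (m + 1) * ‖qe w‖ := by simp
  exact (norm_Su_le_of_half (by rwa [e])).trans (by rw [e])

theorem summable_eRow (τ : ℍ) (z : ℂ) : Summable (eRow τ z) :=
  (summable_eR τ (-z)).sub (summable_eR τ z)

/-! ### Symmetries -/

theorem eH_inv {u : ℂ} (hu : u ≠ 0) : eH u⁻¹ = -eH u := by
  rw [eH, eH, show u⁻¹ + 1 = (u + 1) / u by field_simp; ring,
    show u⁻¹ - 1 = -((u - 1) / u) by field_simp; ring, div_neg, div_div_div_cancel_right₀ hu,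
    neg_div]

theorem eH_eq (e : ℂ) (he : e ≠ 1) : eH e = -1 / 2 - eR e := by
  have h1 : e - 1 ≠ 0 := sub_ne_zero.2 he
  have h2 : (1 : ℂ) - e ≠ 0 := sub_ne_zero.2 he.symm
  rw [eH, eR]; field_simp; ring

theorem eZ_neg (τ : ℍ) (z : ℂ) : eZ τ (-z) = -eZ τ z := by
  rw [eZ, eZ, qe_neg, eH_inv (qe_ne_zero z), neg_add, ← tsum_neg]
  congr 1
  refine tsum_congr fun m => ?_
  simp only [eRow, neg_neg, neg_sub]

theorem eZ_add_one (τ : ℍ) (z : ℂ) : eZ τ (z + 1) = eZ τ z := by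
  have h1 : qe (z + 1) = qe z := by
    rw [qe_add, show (1 : ℂ) = ((1 : ℤ) : ℂ) by simp, qe_intCast]; simp
  have h2 : qe (-(z + 1)) = qe (-z) := by rw [qe_neg, qe_neg, h1]
  simp only [eZ, eRow, h1, h2]

theorem eZ_add_tau {τ : ℍ} {z : ℂ} (h : z ∈ offLat τ) : eZ τ (z + τ) = eZ τ z - 1 := by
  have hq : qe (τ : ℂ) ≠ 0 := qe_ne_zero _
  have e1 : ∀ m : ℕ, qe τ ^ (m + 1) * qe (-(z + τ)) = qe τ ^ m * qe (-z) := fun m => by
    rw [qe_neg, qe_add, qe_neg]
    field_simp [qe_ne_zero z]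
    ring
  have e2 : ∀ m : ℕ, qe τ ^ (m + 1) * qe (z + τ) = qe τ ^ (m + 1 + 1) * qe z := fun m => by
    rw [qe_add]; ring
  have s1 : Summable fun m : ℕ => eR (qe τ ^ m * qe (-z)) :=
    (summable_nat_add_iff (f := fun m : ℕ => eR (qe τ ^ m * qe (-z))) 1).1 (summable_eR τ (-z))
  have s2 : Summable fun m : ℕ => eR (qe τ ^ (m + 1) * qe z) := summable_eR τ z
  have s3 : Summable fun m : ℕ => eR (qe τ ^ (m + 1 + 1) * qe z) :=
    (summable_nat_add_iff (f := fun m : ℕ => eR (qe τ ^ (m + 1) * qe z)) 1).2 s2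
  have hL : ∑' m, eRow τ (z + τ) m =
      (∑' m : ℕ, eR (qe τ ^ m * qe (-z))) - ∑' m : ℕ, eR (qe τ ^ (m + 1 + 1) * qe z) := by
    rw [← s1.tsum_sub s3]
    exact tsum_congr fun m => by rw [eRow, e1, e2]
  have hR : ∑' m, eRow τ z m =
      (∑' m : ℕ, eR (qe τ ^ (m + 1) * qe (-z))) - ∑' m : ℕ, eR (qe τ ^ (m + 1) * qe z) :=
    (summable_eR τ (-z)).tsum_sub s2
  rw [eZ, eZ, hL, hR, s1.tsum_eq_zero_add, s2.tsum_eq_zero_add, pow_zero, one_mul, zero_add,
    pow_one]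
  have hw : qe (τ : ℂ) * qe z ≠ 1 := by simpa using pow_mul_qe_ne_one h 1
  have hw' : qe (-z) ≠ 1 := qe_ne_one (neg_mem_offLat h)
  have f1 : eH (qe (z + τ)) = -1 / 2 - eR (qe τ * qe z) := by
    rw [qe_add, mul_comm, eH_eq _ hw]
  have f2 : eH (qe z) = 1 / 2 + eR (qe (-z)) := by
    have := eH_eq _ hw'
    rw [qe_neg, eH_inv (qe_ne_zero z)] at this
    rw [qe_neg]; linear_combination -this
  rw [f1, f2]; ring

theorem eZ_add_natMul {τ : ℍ} {z : ℂ} (h : z ∈ offLat τ) (m : ℕ) :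
    eZ τ (z + m * τ) = eZ τ z - m := by
  induction m with
  | zero => simp
  | succ k ih =>
    have hk : z + (k : ℂ) * τ ∈ offLat τ := by simpa using add_mem_offLat h k 0
    rw [Nat.cast_succ, show z + ((k : ℂ) + 1) * τ = z + k * τ + τ by ring, eZ_add_tau hk, ih]
    ring

theorem eZ_add_intCast (τ : ℍ) (z : ℂ) (n : ℤ) : eZ τ (z + n) = eZ τ z := by
  induction n using Int.induction_on with
  | zero => simp
  | succ k ih => rw [Int.cast_add, Int.cast_one, ← add_assoc, eZ_add_one, ih]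
  | pred k ih => rw [← ih, ← eZ_add_one τ (z + ((-(k : ℤ) - 1 : ℤ) : ℂ))]; push_cast; ring_nf

theorem eZ_add_lattice {τ : ℍ} {z : ℂ} (h : z ∈ offLat τ) (m n : ℤ) :
    eZ τ (z + (m * τ + n)) = eZ τ z - m := by
  rw [← add_assoc, eZ_add_intCast]
  obtain ⟨k, rfl | rfl⟩ := m.eq_nat_or_neg
  · simpa using eZ_add_natMul h k
  · have hk : z + ((-(k : ℤ) : ℤ) : ℂ) * τ ∈ offLat τ := by simpa using add_mem_offLat h (-k) 0
    have := eZ_add_natMul hk k
    push_cast at this ⊢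
    rw [show z + -(k : ℂ) * τ + k * τ = z by ring] at this
    linear_combination -this

/-! ### The derivative -/

theorem hasDerivAt_qe (z : ℂ) : HasDerivAt qe (2 * π * I * qe z) z := by
  have h := ((hasDerivAt_id z).const_mul (2 * π * I)).cexp
  show HasDerivAt (fun w => Complex.exp (2 * π * I * w)) (2 * π * I * Complex.exp (2 * π * I * z)) z
  simpa [mul_comm] using h

theorem hasDerivAt_eR (Q : ℂ) {z : ℂ} (h : Q * qe z ≠ 1) :
    HasDerivAt (fun w => eR (Q * qe w)) (2 * π * I * Su (Q * qe z)) z := by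
  have h1 : (1 : ℂ) - Q * qe z ≠ 0 := sub_ne_zero.2 h.symm
  have hd := (hasDerivAt_qe z).const_mul Q
  refine (hd.div (hd.const_sub 1) h1).congr_deriv ?_
  rw [Su]; field_simp; ring

theorem hasDerivAt_eR_neg (Q : ℂ) {z : ℂ} (h : Q * qe (-z) ≠ 1) :
    HasDerivAt (fun w => eR (Q * qe (-w))) (-(2 * π * I * Su (Q * qe (-z)))) z := by
  have := (hasDerivAt_eR Q h).comp z (hasDerivAt_neg z)
  simpa [Function.comp_def] using this

theorem hasDerivAt_eH {z : ℂ} (h : qe z ≠ 1) :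
    HasDerivAt (fun w => eH (qe w)) (-(2 * π * I * Su (qe z))) z := by
  have h1 : qe z - 1 ≠ 0 := sub_ne_zero.2 h
  have h2 : (1 : ℂ) - qe z ≠ 0 := sub_ne_zero.2 h.symm
  have hd := hasDerivAt_qe z
  refine (((hd.add_const 1).div (hd.sub_const 1) h1).div_const 2).congr_deriv ?_
  rw [Su]; field_simp; ring

theorem hasDerivAt_eRow {τ : ℍ} {z : ℂ} {m : ℕ} (h₁ : qe τ ^ (m + 1) * qe (-z) ≠ 1)
    (h₂ : qe τ ^ (m + 1) * qe z ≠ 1) :
    HasDerivAt (fun w => eRow τ w m)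
      (-(2 * π * I) * (Su (qe τ ^ (m + 1) * qe (-z)) + Su (qe τ ^ (m + 1) * qe z))) z := by
  refine ((hasDerivAt_eR_neg _ h₁).sub (hasDerivAt_eR _ h₂)).congr_deriv ?_
  ring

theorem norm_qe_le {w : ℂ} {B : ℝ} (h : -B ≤ w.im) : ‖qe w‖ ≤ Real.exp (2 * π * B) := by
  rw [norm_qe, Real.exp_le_exp]
  nlinarith [Real.pi_pos]

theorem hasDerivAt_eZ {τ : ℍ} {z : ℂ} (hz : z ∈ offLat τ) :
    HasDerivAt (eZ τ) (-(2 * π * I) * (Su (qe z) +
      ∑' m : ℕ, (Su (qe τ ^ (m + 1) * qe (-z)) + Su (qe τ ^ (m + 1) * qe z)))) z := by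
  set B := |z.im| + 1
  set b := Real.exp (2 * π * B)
  set g' : ℕ → ℂ → ℂ := fun m w =>
    -(2 * π * I) * (Su (qe τ ^ (m + 1) * qe (-w)) + Su (qe τ ^ (m + 1) * qe w)) with hg'
  obtain ⟨N, hN⟩ := eventually_atTop.1 (eventually_small τ b)
  set S : Set ℂ := {w | w.im ∈ Set.Ioo (-B) B}
  have hSo : IsOpen S := isOpen_Ioo.preimage Complex.continuous_im
  have hSc : IsPreconnected S :=
    ((convex_Ioo (-B) B).linear_preimage imLm).isPreconnected
  have hzS : z ∈ S := ⟨by have := neg_abs_le z.im; linarith, by have := le_abs_self z.im; linarith⟩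
  have hsmall : ∀ m : ℕ, ∀ w ∈ S, ∀ v : ℂ, v = w ∨ v = -w →
      ‖qe τ ^ (m + N + 1) * qe v‖ ≤ ‖qe τ‖ ^ (m + N + 1) * b := by
    intro m w hw v hv
    rw [norm_mul, norm_pow]
    refine mul_le_mul_of_nonneg_left (norm_qe_le ?_) (by positivity)
    rcases hv with rfl | rfl
    · exact hw.1.le
    · rw [neg_im]; linarith [hw.2]
  have hne : ∀ m : ℕ, ∀ w ∈ S, ∀ v : ℂ, v = w ∨ v = -w → qe τ ^ (m + N + 1) * qe v ≠ 1 := by
    intro m w hw v hv e
    have := (hsmall m w hw v hv).trans (hN (m + N) (by omega))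
    rw [e, norm_one] at this; norm_num at this
  have hbound : ∀ m : ℕ, ∀ w ∈ S, ‖g' (m + N) w‖ ≤ 16 * π * (‖qe τ‖ ^ (m + N + 1) * b) := by
    intro m w hw
    have key : ∀ v : ℂ, v = w ∨ v = -w →
        ‖Su (qe τ ^ (m + N + 1) * qe v)‖ ≤ 4 * (‖qe τ‖ ^ (m + N + 1) * b) := fun v hv =>
      (norm_Su_le_of_half ((hsmall m w hw v hv).trans (hN (m + N) (by omega)))).trans
        (mul_le_mul_of_nonneg_left (hsmall m w hw v hv) (by norm_num))
    simp only [hg', norm_mul, norm_neg, Complex.norm_ofNat, Complex.norm_real, Complex.norm_I,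
      mul_one, Real.norm_eq_abs, abs_of_pos Real.pi_pos]
    nlinarith [Real.pi_pos, norm_add_le (Su (qe τ ^ (m + N + 1) * qe (-w)))
      (Su (qe τ ^ (m + N + 1) * qe w)), key (-w) (Or.inr rfl), key w (Or.inl rfl)]
  have hu : Summable fun m : ℕ => 16 * π * (‖qe τ‖ ^ (m + N + 1) * b) :=
    (((summable_nat_add_iff N).2 (summable_geom τ b)).mul_left (16 * π))
  have htail : HasDerivAt (fun w => ∑' m : ℕ, eRow τ w (m + N)) (∑' m : ℕ, g' (m + N) z) z :=
    hasDerivAt_tsum_of_isPreconnected hu hSo hSc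
      (fun m w hw => hasDerivAt_eRow (hne m w hw _ (Or.inr rfl)) (hne m w hw _ (Or.inl rfl)))
      hbound hzS ((summable_nat_add_iff N).2 (summable_eRow τ z)) hzS
  have hhead : HasDerivAt (fun w => ∑ m ∈ Finset.range N, eRow τ w m)
      (∑ m ∈ Finset.range N, g' m z) z :=
    HasDerivAt.fun_sum fun m _ =>
      hasDerivAt_eRow (pow_mul_qe_ne_one (neg_mem_offLat hz) _) (pow_mul_qe_ne_one hz _)
  have hfun : eZ τ = fun w => eH (qe w) + ((∑ m ∈ Finset.range N, eRow τ w m) +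
      ∑' m : ℕ, eRow τ w (m + N)) := by
    funext w
    rw [eZ, (summable_eRow τ w).sum_add_tsum_nat_add N]
  rw [hfun]
  refine ((hasDerivAt_eH (qe_ne_one hz)).add (hhead.add htail)).congr_deriv ?_
  have hs : Summable fun m => g' m z :=
    ((summable_Su τ (-z)).add (summable_Su τ z)).mul_left _
  rw [hs.sum_add_tsum_nat_add N, mul_add, ← tsum_mul_left]
  simp only [hg', neg_mul]

theorem exists_hasDerivAt_eZ (τ : ℍ) :
    ∃ C : ℂ, ∀ z ∈ offLat τ, HasDerivAt (eZ τ) (-(2 * π * I) * nP τ z + C) z := by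
  refine ⟨-(2 * π * I) * (-1 / 12 + 2 * ∑' m : ℕ, Su (qe τ ^ (m + 1))), fun z hz => ?_⟩
  refine (hasDerivAt_eZ hz).congr_deriv ?_
  have hs0 : Summable fun m : ℕ => Su (qe τ ^ (m + 1)) := by simpa [qe_zero] using summable_Su τ 0
  rw [nP_eq_tsum τ hz,
    tsum_pnat_eq_tsum_succ (f := fun m : ℕ =>
      Su (qe τ ^ m * qe z) + Su (qe τ ^ m * (qe z)⁻¹) - 2 * Su (qe τ ^ m))]
  simp only [← qe_neg]
  rw [((summable_Su τ z).add (summable_Su τ (-z))).tsum_sub (hs0.mul_left 2), tsum_mul_left,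
    (summable_Su τ z).tsum_add (summable_Su τ (-z)), (summable_Su τ (-z)).tsum_add (summable_Su τ z)]
  ring

/-! ### The transformation law -/

theorem sl_det (γ : SL(2, ℤ)) : (γ 0 0 : ℂ) * γ 1 1 - (γ 0 1 : ℂ) * γ 1 0 = 1 := by
  have h := γ.det_coe
  rw [Matrix.det_fin_two] at h
  exact_mod_cast h

theorem denom_ne (γ : SL(2, ℤ)) (τ : ℍ) : (γ 1 0 : ℂ) * τ + γ 1 1 ≠ 0 := by
  have := UpperHalfPlane.denom_ne_zero (γ : GL (Fin 2) ℝ) τ
  simpa [ModularGroup.denom_apply] using this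

theorem one_div_denom (γ : SL(2, ℤ)) (τ : ℍ) :
    1 / ((γ 1 0 : ℂ) * τ + γ 1 1) = -(γ 1 0 : ℂ) * ((γ • τ : ℍ) : ℂ) + γ 0 0 := by
  rw [UpperHalfPlane.coe_specialLinearGroup_apply]
  simp only [algebraMap_int_eq, eq_intCast, Complex.ofReal_intCast]
  field_simp [denom_ne γ τ]
  linear_combination -(sl_det γ)

theorem div_mem_offLat (γ : SL(2, ℤ)) {τ : ℍ} {z : ℂ} (hz : z ∈ offLat τ) :
    z / ((γ 1 0 : ℂ) * τ + γ 1 1) ∈ offLat (γ • τ) := by
  rw [offLat_eq, Set.mem_compl_iff, SetLike.mem_coe] at hz ⊢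
  rw [stdPair_smul, mul_div_cancel₀ _ (denom_ne γ τ)]
  exact hz

theorem exists_mem_offLat (τ : ℍ) : ∃ z, z ∈ offLat τ := by
  rw [offLat_eq]; exact (isConnected_compl (countable_lattice (stdPair τ))).nonempty

/-- The transformation law. -/
theorem eZ_smul (γ : SL(2, ℤ)) {τ : ℍ} {z : ℂ} (hz : z ∈ offLat τ) :
    eZ (γ • τ) (z / ((γ 1 0 : ℂ) * τ + γ 1 1)) =
      ((γ 1 0 : ℂ) * τ + γ 1 1) * eZ τ z + (γ 1 0 : ℂ) * z := by
  set j := (γ 1 0 : ℂ) * τ + γ 1 1 with hj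
  have hj0 : j ≠ 0 := denom_ne γ τ
  obtain ⟨C, hC⟩ := exists_hasDerivAt_eZ τ
  obtain ⟨C', hC'⟩ := exists_hasDerivAt_eZ (γ • τ)
  set D : ℂ → ℂ := fun w => eZ (γ • τ) (w / j) - (j * eZ τ w + (γ 1 0 : ℂ) * w) with hD
  set l := C' / j - j * C - (γ 1 0 : ℂ) with hl
  have hderiv : ∀ w ∈ offLat τ, HasDerivAt (fun v => D v - l * v) 0 w := by
    intro w hw
    have h1 := (hC' _ (div_mem_offLat γ hw)).comp w ((hasDerivAt_id w).div_const j)
    have h2 := ((hC w hw).const_mul j).add ((hasDerivAt_id w).const_mul (γ 1 0 : ℂ))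
    refine ((h1.sub h2).sub ((hasDerivAt_id w).const_mul l)).congr_deriv ?_
    rw [nP_smul, mul_div_cancel₀ _ hj0, hl]
    field_simp
    ring
  obtain ⟨c, hc⟩ := (isOpen_offLat τ).exists_is_const_of_deriv_eq_zero (isPreconnected_offLat τ)
    (fun w hw => (hderiv w hw).differentiableAt.differentiableWithinAt)
    (fun w hw => (hderiv w hw).deriv)
  have hodd : ∀ w, D (-w) = -D w := fun w => by
    simp only [hD, neg_div, eZ_neg]; ring
  have hc0 : c = 0 := by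
    obtain ⟨w, hw⟩ := exists_mem_offLat τ
    have a := hc w hw
    have b := hc (-w) (neg_mem_offLat hw)
    simp only [hodd] at b
    linear_combination -(a + b) / 2
  have hl0 : l = 0 := by
    obtain ⟨w, hw⟩ := exists_mem_offLat τ
    have hw1 : w + 1 ∈ offLat τ := by simpa using add_mem_offLat hw 0 1
    have a := hc w hw
    have b := hc (w + 1) hw1
    have e : D (w + 1) = D w := by
      simp only [hD, eZ_add_one]
      have := eZ_add_lattice (div_mem_offLat γ hw) (-(γ 1 0)) (γ 0 0)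
      push_cast at this
      rw [add_div, show (1 : ℂ) / j = _ from one_div_denom γ τ, this]
      ring
    linear_combination a - b + e
  have := hc z hz
  simp only [hD, hc0, hl0, zero_mul, sub_zero] at this
  exact sub_eq_zero.1 this

/-! ### The expansion at a real point -/

/-- Coefficients of the expansion of `eZ τ y`, `u = qe y`. -/
def eCoef (u : ℂ) (N : ℕ) : ℂ :=
  if N = 0 then eH u else ∑ d ∈ N.divisors, (u⁻¹ ^ d - u ^ d)

theorem hasSum_eR {v : ℂ} (hv : ‖v‖ < 1) : HasSum (fun d : ℕ+ => v ^ (d : ℕ)) (eR v) := by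
  have h := (hasSum_geometric_of_norm_lt_one hv).mul_left v
  refine (Equiv.pnatEquivNat.symm.hasSum_iff).1 ?_
  refine (h.congr_fun fun d => ?_)
  simp [Function.comp_def, pow_succ, mul_comm]

theorem hasSum_eRow {u q : ℂ} (hu : ‖u‖ = 1) (hq : ‖q‖ < 1) :
    HasSum (fun N : ℕ => eCoef u N * q ^ N)
      (eH u + ∑' m : ℕ, (eR (q ^ (m + 1) * u⁻¹) - eR (q ^ (m + 1) * u))) := by
  set F : ℕ+ × ℕ+ → ℂ := fun c =>
    (u⁻¹ ^ (c.2 : ℕ) - u ^ (c.2 : ℕ)) * q ^ ((c.1 : ℕ) * c.2) with hF_def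
  have hF : Summable F := by
    refine Summable.of_norm_bounded ((summable_prod_mul_pow 0 hq).norm.mul_left 2) fun c => ?_
    simp only [F, pow_zero, one_mul, norm_mul]
    refine mul_le_mul_of_nonneg_right ((norm_sub_le _ _).trans (le_of_eq ?_)) (norm_nonneg _)
    simp [hu]; norm_num
  have hrow : ∀ m : ℕ+, ∑' d : ℕ+, F (m, d) =
      eR (q ^ (m : ℕ) * u⁻¹) - eR (q ^ (m : ℕ) * u) := by
    intro m
    have hv : ‖q ^ (m : ℕ)‖ < 1 := by
      rw [norm_pow]; exact pow_lt_one₀ (norm_nonneg _) hq m.ne_zero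
    refine HasSum.tsum_eq (((hasSum_eR (v := q ^ (m : ℕ) * u⁻¹) (by simpa [hu] using hv)).sub
      (hasSum_eR (v := q ^ (m : ℕ) * u) (by simpa [hu] using hv))).congr_fun fun d => ?_)
    simp only [F, mul_pow, ← pow_mul]
    ring
  have hsig := sigmaAntidiagonalEquivProd.hasSum_iff.mpr hF.hasSum
  have hN : HasSum (fun N : ℕ+ => eCoef u N * q ^ (N : ℕ)) (∑' c, F c) := by
    refine hsig.sigma fun N => ?_
    have h := hasSum_fintype (fun x : (N : ℕ).divisorsAntidiagonal =>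
      (F ∘ sigmaAntidiagonalEquivProd) ⟨N, x⟩)
    refine (?_ : eCoef u N * q ^ (N : ℕ) = _) ▸ h
    simp only [Function.comp_apply, sigmaAntidiagonalEquivProd, Equiv.coe_fn_mk,
      divisorsAntidiagonalFactors, PNat.mk_coe, F]
    rw [Finset.univ_eq_attach, (N : ℕ).divisorsAntidiagonal.sum_attach
      (fun x : ℕ × ℕ => (u⁻¹ ^ x.2 - u ^ x.2) * q ^ (x.1 * x.2)),
      eCoef, if_neg N.ne_zero, Finset.sum_mul,
      Nat.sum_divisorsAntidiagonal' fun a b => (u⁻¹ ^ b - u ^ b) * q ^ (a * b)]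
    refine Finset.sum_congr rfl fun d hd => ?_
    rw [Nat.div_mul_cancel (Nat.dvd_of_mem_divisors hd)]
  rw [hF.tsum_prod, tsum_congr hrow,
    tsum_pnat_eq_tsum_succ (f := fun m : ℕ => eR (q ^ m * u⁻¹) - eR (q ^ m * u))] at hN
  have h0 : HasSum (fun N : ℕ => if N = 0 then 0 else eCoef u N * q ^ N)
      (∑' m : ℕ, (eR (q ^ (m + 1) * u⁻¹) - eR (q ^ (m + 1) * u))) := by
    refine (PNat.coe_injective.hasSum_iff fun n hn => ?_).mp (hN.congr_fun fun N => by simp)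
    rcases Nat.eq_zero_or_pos n with rfl | h0
    · simp
    · exact absurd ⟨⟨n, h0⟩, rfl⟩ hn
  refine ((hasSum_ite_eq 0 (eH u)).add h0).congr_fun fun N => ?_
  rcases eq_or_ne N 0 with rfl | hN0
  · simp [eCoef]
  · simp [hN0]

theorem hasSum_eZ (τ : ℍ) (y : ℝ) :
    HasSum (fun N : ℕ => eCoef (qe y) N * qe τ ^ N) (eZ τ y) := by
  have h := hasSum_eRow (norm_qe_real y) (norm_qe_tau_lt τ)
  simp only [← qe_neg] at h
  exact h

end FLTAgent.DS
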