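import Mathlib.FieldTheory.PrimitiveElement
import Mathlib.FieldTheory.Minpoly.IsIntegrallyClosed
import Mathlib.RingTheory.Discriminant
import Mathlib.RingTheory.Valuation.LocalSubring
import Mathlib.RingTheory.IntegralClosure.IntegralRestrict
import Mathlib.Analysis.Complex.Basic
import Mathlib.Algebra.Polynomial.Eval.SMul
import Mathlib.Data.Nat.Prime.Factorial

/-!
# Primes with a place of degree one

For a number field `K ⊆ ℂ` there are arbitrarily large primes `ℓ` with a valuation ring of `ℂ`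
over `ℓ` at which every integer of `K` is congruent to a rational integer.
-/

set_option autoImplicit false

noncomputable section

namespace FLTAgent.DS

open Polynomial

/-- A nonconstant integer polynomial has roots modulo arbitrarily large primes. -/
theorem exists_prime_dvd_eval (m : ℤ[X]) (hm : 0 < m.natDegree) (B : ℕ) :
    ∃ ℓ : ℕ, ℓ.Prime ∧ B < ℓ ∧ ∃ a : ℤ, (ℓ : ℤ) ∣ m.eval a := by
  by_cases h0 : m.eval 0 = 0
  · obtain ⟨ℓ, hle, hℓ⟩ := Nat.exists_infinite_primes (B + 1)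
    exact ⟨ℓ, hℓ, hle, 0, by rw [h0]; exact dvd_zero _⟩
  set c := m.eval 0 with hc
  set k : ℤ := c * ((B.factorial : ℕ) : ℤ) with hk
  have hk0 : k ≠ 0 := mul_ne_zero h0 (by exact_mod_cast B.factorial_ne_zero)
  -- some value `m (k t)` is neither `c` nor `-c`
  obtain ⟨t, ht1, ht2⟩ : ∃ t : ℤ, m.eval (k * t) ≠ c ∧ m.eval (k * t) ≠ -c := by
    by_contra hcon
    push Not at hcon
    have hz : ((m - C c) * (m + C c) : ℤ[X]) ≠ 0 := mul_ne_zero
      (fun h => by rw [sub_eq_zero.1 h, natDegree_C] at hm; omega)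
      (fun h => by rw [eq_neg_of_add_eq_zero_left h, natDegree_neg, natDegree_C] at hm; omega)
    refine hz (Polynomial.eq_zero_of_infinite_isRoot _ ?_)
    refine Set.Infinite.mono ?_ (Set.infinite_range_of_injective (mul_right_injective₀ hk0))
    rintro _ ⟨t, rfl⟩
    simp only [Set.mem_ofPred_eq, IsRoot, eval_mul, eval_sub, eval_add, eval_C]
    by_cases h : m.eval (k * t) = c
    · rw [h]; ring
    · rw [hcon t h]; ring
  have hdvd : k * t ∣ m.eval (k * t) - c := by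
    simpa [hc] using Polynomial.sub_dvd_eval_sub (k * t) 0 m
  obtain ⟨u, hu⟩ : c ∣ m.eval (k * t) := by
    have h1 : c ∣ m.eval (k * t) - c := (Dvd.intro _ (mul_assoc _ _ _).symm).trans hdvd
    simpa using dvd_add h1 (dvd_refl c)
  have hu1 : u.natAbs ≠ 1 := by
    intro h
    rcases Int.natAbs_eq u with e | e <;> rw [h] at e
    · exact ht1 (by rw [hu, e]; simp)
    · exact ht2 (by rw [hu, e]; simp)
  obtain ⟨ℓ, hℓ, hℓu⟩ := Nat.exists_prime_and_dvd hu1
  have hℓu' : (ℓ : ℤ) ∣ u := Int.natCast_dvd.2 hℓu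
  refine ⟨ℓ, hℓ, ?_, k * t, by rw [hu]; exact hℓu'.mul_left c⟩
  by_contra hle
  push Not at hle
  have h2 : (ℓ : ℤ) ∣ ((B.factorial : ℕ) : ℤ) := by
    exact_mod_cast (Nat.Prime.dvd_factorial hℓ).2 hle
  obtain ⟨w, hw⟩ := hdvd
  rw [hu, hk] at hw
  have h3 : u - 1 = ((B.factorial : ℕ) : ℤ) * t * w :=
    mul_left_cancel₀ h0 (by linear_combination hw)
  have h4 : (ℓ : ℤ) ∣ u - 1 := h3 ▸ (h2.mul_right t).mul_right w
  have h5 : (ℓ : ℤ) ∣ 1 := by simpa using dvd_sub hℓu' h4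
  exact hℓ.ne_one (by exact_mod_cast Int.eq_one_of_dvd_one (by positivity) h5)

/-- Good places for a number field inside `ℂ`. -/
theorem exists_degreeOne_valuation (K : IntermediateField ℚ ℂ) [FiniteDimensional ℚ K] (B : ℕ) :
    ∃ ℓ : ℕ, ℓ.Prime ∧ B < ℓ ∧ ∃ A : ValuationSubring ℂ, (ℓ : ℂ) ∈ A.nonunits ∧
      ∀ x ∈ K, IsIntegral ℤ x → ∃ n : ℤ, x - n ∈ A.nonunits := by
  classical
  obtain ⟨α, hα⟩ := Field.exists_primitive_element ℚ K
  obtain ⟨d, hd, hint⟩ := exists_integral_multiples ℤ ℚ ({α} : Finset K)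
  set β : K := d • α with hβ
  have hβint : IsIntegral ℤ β := hint α (Finset.mem_singleton_self α)
  have hβtop : IntermediateField.adjoin ℚ {β} = ⊤ := by
    refine le_antisymm le_top (hα ▸ ?_)
    rw [IntermediateField.adjoin_simple_le_iff]
    have : α = (d : ℚ)⁻¹ • β := by
      rw [hβ, ← Int.cast_smul_eq_zsmul ℚ d α, inv_smul_smul₀ (by exact_mod_cast hd)]
    rw [this]
    exact IntermediateField.smul_mem _ (IntermediateField.mem_adjoin_simple_self ℚ β)
  set pb : PowerBasis ℚ K := (IntermediateField.adjoin.powerBasis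
    (Algebra.IsIntegral.isIntegral (R := ℚ) β)).map
      ((IntermediateField.equivOfEq hβtop).trans IntermediateField.topEquiv)
  have hgen : pb.gen = β := rfl
  obtain ⟨D, hD⟩ : ∃ D : ℤ, (D : ℚ) = Algebra.discr ℚ pb.basis := by
    obtain ⟨D, hD⟩ := IsIntegrallyClosed.isIntegral_iff.1
      (Algebra.discr_isIntegral (R := ℤ) ℚ (b := pb.basis) fun i => by
        rw [PowerBasis.coe_basis]; exact (hgen ▸ hβint).pow _)
    exact ⟨D, hD⟩
  have hD0 : D ≠ 0 := fun h => Algebra.discr_not_zero_of_basis ℚ pb.basis (by rw [← hD, h]; simp)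
  set θ : ℂ := (β : ℂ) with hθ
  have hθint : IsIntegral ℤ θ := hβint.map (K.val.restrictScalars ℤ)
  set m := minpoly ℤ θ with hm
  obtain ⟨ℓ, hℓ, hℓB, a, ha⟩ :=
    exists_prime_dvd_eval m (minpoly.natDegree_pos hθint) (max B D.natAbs)
  refine ⟨ℓ, hℓ, lt_of_le_of_lt (le_max_left _ _) hℓB, ?_⟩
  set S : Subring ℂ := (Algebra.adjoin ℤ {θ}).toSubring
  have hθS : θ ∈ S := Algebra.self_mem_adjoin_singleton ℤ θ
  set I : Ideal S := Ideal.span {(ℓ : S), ⟨θ, hθS⟩ - (a : S)} with hI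
  have hItop : I ≠ ⊤ := by
    intro htop
    have h1 : (1 : S) ∈ I := htop ▸ Submodule.mem_top
    rw [hI, Ideal.mem_span_pair] at h1
    obtain ⟨⟨u, hu⟩, ⟨v, hv⟩, huv⟩ := h1
    have hu' : u ∈ Algebra.adjoin ℤ {θ} := hu
    have hv' : v ∈ Algebra.adjoin ℤ {θ} := hv
    rw [Algebra.adjoin_singleton_eq_range_aeval] at hu' hv'
    obtain ⟨pu, rfl⟩ := hu'
    obtain ⟨pv, rfl⟩ := hv' 
    have huv' := congrArg Subtype.val huv
    push_cast at huv'
    have hroot : aeval θ (pu * C (ℓ : ℤ) + pv * (X - C a) - 1) = 0 := by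
      simp only [map_sub, map_add, map_mul, aeval_X, aeval_C, map_one, eq_intCast,
        map_intCast, map_natCast]
      exact sub_eq_zero.2 huv'
    obtain ⟨q, hq⟩ := minpoly.isIntegrallyClosed_dvd hθint hroot
    have := congrArg (Polynomial.eval a) hq
    simp only [eval_sub, eval_add, eval_mul, eval_C, eval_X, eval_one, sub_self, mul_zero,
      add_zero] at this
    have h5 : (ℓ : ℤ) ∣ 1 := by
      have h6 : (1 : ℤ) = pu.eval a * ℓ - m.eval a * q.eval a := by linear_combination -this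
      rw [h6]
      exact dvd_sub (dvd_mul_left _ _) (ha.mul_right _)
    exact hℓ.ne_one (by exact_mod_cast Int.eq_one_of_dvd_one (by positivity) h5)
  obtain ⟨A, hSA, hA⟩ := I.image_subset_nonunits_valuationSubring hItop
  have hℓA : (ℓ : ℂ) ∈ A.nonunits :=
    hA ⟨(ℓ : S), Ideal.subset_span (by simp), by simp⟩
  refine ⟨A, hℓA, fun x hxK hx => ?_⟩
  -- a multiple of `x` is a polynomial in `θ`
  set y : K := ⟨x, hxK⟩
  have hy : IsIntegral ℤ y :=
    (isIntegral_algHom_iff (K.val.restrictScalars ℤ) Subtype.coe_injective).1 hx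
  have hmem := Algebra.discr_mul_isIntegral_mem_adjoin ℚ (B := pb) (hgen ▸ hβint) hy
  rw [hgen, Algebra.adjoin_singleton_eq_range_aeval] at hmem
  obtain ⟨p, hp⟩ := hmem
  rw [← hD, Int.cast_smul_eq_zsmul] at hp
  have hp' : aeval θ p = (D : ℂ) * x := by
    have := congrArg (K.val.restrictScalars ℤ) hp
    change (K.val.restrictScalars ℤ) (aeval β p) = _ at this
    rw [← Polynomial.aeval_algHom_apply] at this
    refine this.trans ?_
    rw [map_zsmul, zsmul_eq_mul]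
    rfl
  -- `D` is invertible modulo `ℓ`
  obtain ⟨D', e, hDe⟩ : ∃ D' e : ℤ, D' * D = 1 + e * ℓ := by
    have hcop : IsCoprime D (ℓ : ℤ) := by
      rw [Int.isCoprime_iff_gcd_eq_one, ← Int.natAbs_natCast ℓ]
      refine (hℓ.coprime_iff_not_dvd.2 fun hdvd => ?_).symm
      have := Nat.le_of_dvd (Int.natAbs_pos.2 hD0) hdvd
      have := le_max_right B D.natAbs
      omega
    obtain ⟨u, v, huv⟩ := hcop
    exact ⟨u, -v, by linear_combination huv⟩
  refine ⟨D' * p.eval a, ?_⟩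
  have hxA : x ∈ A := by
    have hxi : IsIntegral A x := hx.tower_top
    obtain ⟨z, rfl⟩ := IsIntegrallyClosed.isIntegral_iff.mp hxi
    exact z.2
  have hdiv : aeval θ p - (p.eval a : ℤ) ∈ A.nonunits := by
    obtain ⟨q, hq⟩ := (Polynomial.X_sub_C_dvd_sub_C_eval (p := p) (a := a))
    have h := congrArg (aeval θ) hq
    simp only [map_sub, map_mul, aeval_X, aeval_C, algebraMap_int_eq, eq_intCast, map_intCast] at h
    rw [h]
    have hq' : aeval θ q ∈ S := by
      show aeval θ q ∈ Algebra.adjoin ℤ {θ}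
      rw [Algebra.adjoin_singleton_eq_range_aeval]
      exact ⟨q, rfl⟩
    refine hA ⟨(⟨θ, hθS⟩ - (a : S)) * ⟨aeval θ q, hq'⟩, ?_, by simp⟩
    exact I.mul_mem_right _ (Ideal.subset_span (by simp))
  rw [← SetLike.mem_coe, ← A.image_maximalIdeal] at hdiv hℓA ⊢
  obtain ⟨z1, hz1, hz1e⟩ := hdiv
  obtain ⟨z2, hz2, hz2e⟩ := hℓA
  have hDx : (D : A) * ⟨x, hxA⟩ = z1 + ((p.eval a : ℤ) : A) := by
    apply Subtype.ext
    push_cast
    have h1 : (z1 : ℂ) = aeval θ p - ((p.eval a : ℤ) : ℂ) := hz1e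
    rw [← hp', h1]; ring
  refine ⟨(D' : A) * z1 - (e : A) * z2 * ⟨x, hxA⟩, sub_mem (Ideal.mul_mem_left _ _ hz1)
    (Ideal.mul_mem_right _ _ (Ideal.mul_mem_left _ _ hz2)), ?_⟩
  have hD' := congrArg (fun z : A => (z : ℂ)) hDx
  push_cast at hD' hz1e hz2e ⊢
  have hDe' : (D' : ℂ) * D = 1 + e * ℓ := by exact_mod_cast hDe
  have h2 : (z2 : ℂ) = (ℓ : ℂ) := hz2e
  linear_combination (x : ℂ) * hDe' - (D' : ℂ) * hD' - (e : ℂ) * x * h2

end FLTAgent.DS
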