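import Mathlib.LinearAlgebra.Matrix.GeneralLinearGroup.Defs
import Mathlib.LinearAlgebra.Matrix.Charpoly.Coeff
import Mathlib.LinearAlgebra.Matrix.ToLin
import Mathlib.LinearAlgebra.FreeModule.Finite.Basic
import Mathlib.Algebra.Polynomial.Splits
import Mathlib.FieldTheory.IsAlgClosed.Basic
import Mathlib.RingTheory.Valuation.LocalSubring
import Mathlib.RingTheory.Nakayama
import Mathlib.RingTheory.AdjoinRoot
import Mathlib.Data.Fintype.Prod

/-!
# Lifting two-dimensional representations of groups of order prime to the residue characteristic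

The representation is realised as a summand of two copies of the regular representation and the
projection onto it is lifted to an idempotent.
-/

set_option autoImplicit false

noncomputable section

namespace FLTAgent.DS

open Matrix Polynomial Finset IsLocalRing

/-- A factorisation of an idempotent matrix. -/
theorem exists_factor_idempotent {L : Type*} [Field L] {n : Type*} [Fintype n] [DecidableEq n]
    (E : Matrix n n L) (hE : E * E = E) :
    ∃ (r : ℕ) (U : Matrix n (Fin r) L) (V : Matrix (Fin r) n L), U * V = E ∧ V * U = 1 := by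
  set φ := Matrix.toLin' E
  set W := LinearMap.range φ
  set b := Module.finBasis L W
  refine ⟨Module.finrank L W, LinearMap.toMatrix' (W.subtype ∘ₗ b.equivFun.symm.toLinearMap),
    LinearMap.toMatrix' (b.equivFun.toLinearMap ∘ₗ φ.rangeRestrict), ?_, ?_⟩
  · rw [← LinearMap.toMatrix'_comp]
    conv_rhs => rw [← LinearMap.toMatrix'_toLin' E]
    congr 1
    refine LinearMap.ext fun v => ?_
    simp [φ]
  · rw [← LinearMap.toMatrix'_comp, ← LinearMap.toMatrix'_id]
    congr 1
    refine LinearMap.ext fun v => ?_
    have hfix : ∀ w : W, φ.rangeRestrict (w : n → L) = w := fun w => by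
      obtain ⟨x, hx⟩ := LinearMap.mem_range.1 w.2
      refine Subtype.ext ?_
      show φ (w : n → L) = w
      rw [← hx]
      simp only [φ, Matrix.toLin'_apply, Matrix.mulVec_mulVec, hE]
    rw [LinearMap.comp_apply, LinearMap.comp_apply, LinearMap.comp_apply, LinearEquiv.coe_coe,
      LinearEquiv.coe_coe, Submodule.subtype_apply, hfix, LinearEquiv.apply_symm_apply,
      LinearMap.id_apply]

theorem charpoly_idempotent {R : Type*} [CommRing R] {n : Type*} [Fintype n] [DecidableEq n]
    {r : ℕ} (U : Matrix n (Fin r) R) (V : Matrix (Fin r) n R) (h : V * U = 1) :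
    X ^ r * (U * V).charpoly = X ^ Fintype.card n * (X - C 1) ^ r := by
  have := Matrix.charpoly_mul_comm' U V
  rw [Fintype.card_fin] at this
  rw [this, h, Matrix.charpoly_one, Fintype.card_fin, map_one]

/-- Idempotent lifting: a matrix over a valuation ring of an algebraically closed field whose
reduction is an idempotent of rank `b` has an idempotent polynomial reducing to that. -/
theorem exists_idempotent_lift {L : Type*} [Field L] [IsAlgClosed L] (A : ValuationSubring L)
    {n : Type*} [Fintype n] [DecidableEq n] (e : Matrix n n A) {a b : ℕ} (ha : 0 < a) (hb : 0 < b)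
    (hP : e.map (residue A) * e.map (residue A) = e.map (residue A))
    (hcp : (e.map (residue A)).charpoly = X ^ a * (X - C 1) ^ b) :
    ∃ p : A[X], (aeval e p) * (aeval e p) = aeval e p ∧
      (aeval e p).map (residue A) = e.map (residue A) := by
  classical
  -- split the characteristic polynomial over `A`
  set χ := e.charpoly
  have hsplit : (χ.map A.subtype).Splits := IsAlgClosed.splits _
  obtain ⟨roots, hroots⟩ : ∃ m : Multiset A, χ = (m.map fun r => X - C r).prod := by
    have hmem : ∀ r ∈ (χ.map A.subtype).roots, r ∈ A := by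
      intro r hr
      have hint : IsIntegral A r := ⟨χ, Matrix.charpoly_monic e, by
        rw [Polynomial.mem_roots', Polynomial.IsRoot, Polynomial.eval_map] at hr
        exact hr.2⟩
      obtain ⟨y, rfl⟩ := IsIntegrallyClosed.isIntegral_iff.mp hint
      exact y.2
    refine ⟨(χ.map A.subtype).roots.attach.map fun r => ⟨r.1, hmem r.1 r.2⟩, ?_⟩
    refine Polynomial.map_injective A.subtype Subtype.coe_injective ?_
    rw [Polynomial.map_multiset_prod, Multiset.map_map, Multiset.map_map]
    conv_lhs => rw [hsplit.eq_prod_roots_of_monic ((Matrix.charpoly_monic e).map _)]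
    congr 1
    conv_lhs => rw [← Multiset.attach_map_val (χ.map A.subtype).roots, Multiset.map_map]
    refine Multiset.map_congr rfl fun r _ => ?_
    simp
  have hred : χ.map (residue A) = X ^ a * (X - C 1) ^ b := by
    rw [← Matrix.charpoly_map]; exact hcp
  set R := ((roots.filter fun r => residue A r = 1).map fun r => X - C r).prod with hR
  set Q := ((roots.filter fun r => ¬ residue A r = 1).map fun r => X - C r).prod with hQ
  have hQR : χ = R * Q := by
    rw [hroots, hR, hQ, ← Multiset.prod_add, ← Multiset.map_add, Multiset.filter_add_not]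
  have hRm : R.Monic := Polynomial.monic_multiset_prod_of_monic _ _ fun r _ => monic_X_sub_C r
  have hR' : R.map (residue A)
      = (X - C 1) ^ (Multiset.card (roots.filter fun r => residue A r = 1)) := by
    rw [hR, Polynomial.map_multiset_prod, Multiset.map_map]
    rw [Multiset.map_congr rfl (g := fun _ => X - C 1) fun r hr => by
      simp [(Multiset.mem_filter.1 hr).2]]
    rw [Multiset.map_const', Multiset.prod_replicate]
  have hQ' : ¬ (Q.map (residue A)).IsRoot 1 := by
    rw [Polynomial.IsRoot, hQ, Polynomial.map_multiset_prod, Multiset.map_map,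
      Polynomial.eval_multiset_prod, Multiset.map_map, Multiset.prod_eq_zero_iff]
    simp only [Multiset.mem_map, Function.comp_apply, Polynomial.map_sub, Polynomial.map_X,
      Polynomial.map_C, Polynomial.eval_sub, Polynomial.eval_X, Polynomial.eval_C, not_exists,
      not_and, Multiset.mem_filter]
    intro r hr hzero
    exact hr.2 (sub_eq_zero.1 hzero).symm
  set b' := Multiset.card (roots.filter fun r => residue A r = 1)
  have hne : (X ^ a * (X - C 1) ^ b : (ResidueField A)[X]) ≠ 0 :=
    mul_ne_zero (pow_ne_zero _ X_ne_zero) (pow_ne_zero _ (X_sub_C_ne_zero 1))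
  have heq : (X - C 1) ^ b' * Q.map (residue A) = X ^ a * (X - C 1) ^ b := by
    rw [← hR', ← Polynomial.map_mul, ← hQR, hred]
  have hbb : b' = b := by
    have h1 := congrArg (Polynomial.rootMultiplicity 1) heq
    rw [Polynomial.rootMultiplicity_mul (heq ▸ hne), Polynomial.rootMultiplicity_mul hne,
      Polynomial.rootMultiplicity_X_sub_C_pow, Polynomial.rootMultiplicity_X_sub_C_pow,
      Polynomial.rootMultiplicity_eq_zero hQ',
      Polynomial.rootMultiplicity_eq_zero (p := (X : (ResidueField A)[X]) ^ a) (by simp)] at h1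
    simpa using h1
  have hQa : Q.map (residue A) = X ^ a := by
    rw [hbb] at heq
    exact mul_left_cancel₀ (pow_ne_zero _ (X_sub_C_ne_zero 1)) (heq.trans (mul_comm _ _))
  have hcop : IsCoprime Q R := by
    rw [hR]
    have hall : ∀ r ∈ roots.filter (fun r => residue A r = 1), residue A r = 1 :=
      fun r hr => (Multiset.mem_filter.1 hr).2
    revert hall
    generalize roots.filter (fun r => residue A r = 1) = S
    intro hall
    induction S using Multiset.induction_on with
    | empty => simpa using isCoprime_one_right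
    | cons r S ih =>
      rw [Multiset.map_cons, Multiset.prod_cons]
      refine IsCoprime.mul_right ?_ (ih fun x hx => hall x (Multiset.mem_cons_of_mem hx))
      have hu : IsUnit (Q.eval r) := by
        rw [← residue_ne_zero_iff_isUnit, ← Polynomial.eval₂_at_apply, ← Polynomial.eval_map,
          hall r (Multiset.mem_cons_self r S)]
        exact hQ'
      obtain ⟨d, hd⟩ := Polynomial.X_sub_C_dvd_sub_C_eval (p := Q) (a := r)
      refine ⟨C (↑hu.unit⁻¹ : A), -(C (↑hu.unit⁻¹ : A) * d), ?_⟩
      have h1 : C (↑hu.unit⁻¹ : A) * C (Q.eval r) = 1 := by rw [← C_mul, IsUnit.val_inv_mul, C_1]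
      linear_combination (C (↑hu.unit⁻¹ : A)) * hd + h1
  obtain ⟨s, t, hst⟩ := hcop
  refine ⟨s * Q, ?_, ?_⟩
  · have h0 : aeval e χ = 0 := Matrix.aeval_self_charpoly e
    have h1 : (s * Q) * (s * Q) = s * Q - s * t * χ := by
      rw [hQR]; linear_combination (s * Q) * hst
    rw [← map_mul, h1, map_sub, map_mul (aeval e) (s * t) χ, h0, mul_zero, sub_zero]
  · set P := e.map (residue A)
    have hmap : (aeval e (s * Q)).map (residue A)
        = aeval P ((s * Q).map (residue A)) := by
      rw [aeval_def, aeval_def, Polynomial.eval₂_map]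
      show (residue A).mapMatrix (eval₂ _ e (s * Q)) = _
      rw [Polynomial.hom_eval₂]
      congr 1
      ext r
      simp only [RingHom.coe_comp, Function.comp_apply, RingHom.mapMatrix_apply, Matrix.map_apply,
        Matrix.algebraMap_matrix_apply, Algebra.algebraMap_self, RingHom.id_apply]
      split_ifs <;> simp
    rw [hmap]
    set f := (s * Q).map (residue A) with hf
    have hev : ∀ g : (ResidueField A)[X],
        aeval P g = g.eval 0 • (1 - P) + g.eval 1 • P := by
      intro g
      induction g using Polynomial.induction_on' with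
      | add p q hp hq => rw [map_add, hp, hq, eval_add, eval_add, add_smul, add_smul]; abel
      | monomial m c =>
        rcases m with _ | m
        · simp [Algebra.algebraMap_eq_smul_one, smul_sub]
        · have hpow : ∀ m : ℕ, P ^ (m + 1) = P := fun m => by
            induction m with
            | zero => rw [pow_one]
            | succ m ih => rw [pow_succ, ih, hP]
          simp [aeval_monomial, hpow, Algebra.smul_def]
    have hf0 : f.eval 0 = 0 := by
      rw [hf, Polynomial.map_mul, hQa]; simp [ha.ne']
    have hf1 : f.eval 1 = 1 := by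
      have h2 := congrArg (fun p => (p.map (residue A)).eval 1) hst
      simp only [Polynomial.map_add, Polynomial.map_mul, hR', Polynomial.map_one, eval_add,
        eval_mul, eval_pow, eval_sub, eval_X, eval_C, sub_self, eval_one] at h2
      rw [zero_pow (by omega), mul_zero, add_zero] at h2
      simpa [hf, Polynomial.map_mul] using h2
    rw [hev, hf0, hf1, zero_smul, one_smul, zero_add]

/-- The permutation matrix of right translation by `h` on `G × Fin 2`. -/
def transMat {R : Type*} [CommRing R] {G : Type*} [Group G] [DecidableEq G] (h : G) :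
    Matrix (G × Fin 2) (G × Fin 2) R :=
  Matrix.of fun x y => if y.1 = x.1 * h ∧ x.2 = y.2 then 1 else 0

theorem transMat_mul_apply {R : Type*} [CommRing R] {G : Type*} [Group G] [Fintype G]
    [DecidableEq G] (h : G) (M : Matrix (G × Fin 2) (G × Fin 2) R) (x y : G × Fin 2) :
    (transMat h * M : Matrix (G × Fin 2) (G × Fin 2) R) x y = M (x.1 * h, x.2) y := by
  rw [Matrix.mul_apply, Finset.sum_eq_single (x.1 * h, x.2)]
  · simp [transMat]
  · intro z _ hz
    rw [transMat, Matrix.of_apply, if_neg, zero_mul]
    rintro ⟨h1, h2⟩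
    exact hz (Prod.ext h1 h2.symm)
  · simp

theorem mul_transMat_apply {R : Type*} [CommRing R] {G : Type*} [Group G] [Fintype G]
    [DecidableEq G] (h : G) (M : Matrix (G × Fin 2) (G × Fin 2) R) (x y : G × Fin 2) :
    (M * transMat h : Matrix (G × Fin 2) (G × Fin 2) R) x y = M x (y.1 * h⁻¹, y.2) := by
  rw [Matrix.mul_apply, Finset.sum_eq_single (y.1 * h⁻¹, y.2)]
  · simp [transMat]
  · intro z _ hz
    rw [transMat, Matrix.of_apply, if_neg, mul_zero]
    rintro ⟨h1, h2⟩
    exact hz (Prod.ext (by rw [h1, mul_inv_cancel_right]) h2)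
  · simp

theorem transMat_map {R S : Type*} [CommRing R] [CommRing S] (f : R →+* S) {G : Type*} [Group G]
    [DecidableEq G] (h : G) : (transMat h : Matrix (G × Fin 2) _ R).map f = transMat h := by
  ext x y
  simp only [transMat, Matrix.map_apply, Matrix.of_apply]
  split_ifs <;> simp

theorem transMat_mul {R : Type*} [CommRing R] {G : Type*} [Group G] [Fintype G] [DecidableEq G]
    (h h' : G) : (transMat (h * h') : Matrix (G × Fin 2) _ R) = transMat h * transMat h' := by
  ext x y
  rw [transMat_mul_apply]
  simp [transMat, mul_assoc]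

theorem transMat_one {R : Type*} [CommRing R] {G : Type*} [Group G] [DecidableEq G] :
    (transMat 1 : Matrix (G × Fin 2) (G × Fin 2) R) = 1 := by
  ext x y
  rw [transMat, Matrix.of_apply, mul_one, Matrix.one_apply]
  exact if_congr ⟨fun hh => Prod.ext hh.1.symm hh.2, fun hh => ⟨by rw [hh], by rw [hh]⟩⟩ rfl rfl

/-- `2 det = (tr)² - tr (square)`. -/
theorem two_mul_det {R : Type*} [CommRing R] (M : Matrix (Fin 2) (Fin 2) R) :
    2 * M.det = M.trace ^ 2 - (M * M).trace := by
  simp [Matrix.trace_fin_two, Matrix.det_fin_two, Matrix.mul_apply, Fin.sum_univ_two]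
  ring

/-- Lifting of a two-dimensional representation of a group of order prime to the residue
characteristic to the fraction field of a valuation ring. -/
theorem exists_lift {L : Type*} [Field L] [IsAlgClosed L] (A : ValuationSubring L)
    {G : Type*} [Group G] [Fintype G] (hG : (Fintype.card G : ResidueField A) ≠ 0)
    (h2 : (2 : ResidueField A) ≠ 0) (ρb : G →* GL (Fin 2) (ResidueField A)) :
    ∃ ρ : G →* GL (Fin 2) L, ∀ g,
      (∃ x : A, (x : L) = (ρ g : Matrix (Fin 2) (Fin 2) L).trace ∧
        residue A x = (ρb g : Matrix (Fin 2) (Fin 2) (ResidueField A)).trace) ∧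
      (∃ x : A, (x : L) = (ρ g : Matrix (Fin 2) (Fin 2) L).det ∧
        residue A x = (ρb g : Matrix (Fin 2) (Fin 2) (ResidueField A)).det) := by
  classical
  rcases subsingleton_or_nontrivial G with hsub | hnt
  · refine ⟨1, fun g => ⟨⟨2, ?_, ?_⟩, 1, ?_, ?_⟩⟩ <;> simp [Subsingleton.elim g 1] <;>
      first | exact map_ofNat A.subtype 2 | exact map_ofNat (residue A) 2
  set k := ResidueField A
  set J : Matrix (G × Fin 2) (Fin 2) k :=
    Matrix.of fun x j => (ρb x.1 : Matrix (Fin 2) (Fin 2) k) x.2 j with hJ
  set Rm : Matrix (Fin 2) (G × Fin 2) k :=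
    Matrix.of fun i y => (Fintype.card G : k)⁻¹ * (ρb y.1⁻¹ : Matrix (Fin 2) (Fin 2) k) i y.2
    with hRm
  have hJR : Rm * J = 1 := by
    ext i j
    rw [Matrix.mul_apply, Fintype.sum_prod_type]
    simp only [hJ, hRm, Matrix.of_apply, mul_assoc, ← Finset.mul_sum]
    have : ∀ g : G, ∑ y : Fin 2, (ρb g⁻¹ : Matrix (Fin 2) (Fin 2) k) i y
        * (ρb g : Matrix (Fin 2) (Fin 2) k) y j = (1 : Matrix (Fin 2) (Fin 2) k) i j := fun g => by
      rw [← Matrix.mul_apply, ← Units.val_mul, ← map_mul, inv_mul_cancel, map_one, Units.val_one]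
    rw [Finset.sum_congr rfl fun g _ => this g, Finset.sum_const, Finset.card_univ, nsmul_eq_mul,
      ← mul_assoc, inv_mul_cancel₀ hG, one_mul]
  set Pm := J * Rm with hPm
  have hPP : Pm * Pm = Pm := by
    rw [hPm, Matrix.mul_assoc, ← Matrix.mul_assoc Rm, hJR, Matrix.one_mul]
  have hPmap : ∀ x y : G × Fin 2, Pm x y = (Fintype.card G : k)⁻¹ *
      (ρb (x.1 * y.1⁻¹) : Matrix (Fin 2) (Fin 2) k) x.2 y.2 := fun x y => by
    rw [hPm, Matrix.mul_apply, map_mul, Units.val_mul, Matrix.mul_apply, Finset.mul_sum]
    exact Finset.sum_congr rfl fun j _ => by simp only [hJ, hRm, Matrix.of_apply]; ring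
  choose c hc using fun (g : G) (i j : Fin 2) => residue_surjective
    ((Fintype.card G : k)⁻¹ * (ρb g : Matrix (Fin 2) (Fin 2) k) i j)
  set e : Matrix (G × Fin 2) (G × Fin 2) A :=
    Matrix.of fun x y => c (x.1 * y.1⁻¹) x.2 y.2 with he
  have hered : e.map (residue A) = Pm := by
    ext x y; simp [he, hc, hPmap]
  have hcomm : ∀ h : G, Commute (transMat h) e := fun h => by
    show transMat h * e = e * transMat h
    ext x y
    rw [transMat_mul_apply, mul_transMat_apply]
    simp [he, mul_assoc]
  have hcard : 2 < Fintype.card (G × Fin 2) := by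
    have := Fintype.one_lt_card (α := G)
    simp only [Fintype.card_prod, Fintype.card_fin]
    omega
  have hcp : (e.map (residue A)).charpoly
      = X ^ (Fintype.card (G × Fin 2) - 2) * (X - C 1) ^ 2 := by
    rw [hered, hPm]
    refine mul_left_cancel₀ (pow_ne_zero 2 (X_ne_zero (R := k))) ?_
    rw [charpoly_idempotent J Rm hJR, ← mul_assoc, ← pow_add]
    congr 2
    omega
  obtain ⟨p, hidem, hred⟩ := exists_idempotent_lift A e (a := Fintype.card (G × Fin 2) - 2)
    (b := 2) (by omega) two_pos (by rw [hered, hPP]) hcp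
  rw [hered] at hred
  set EA := aeval e p with hEA
  set E := EA.map A.subtype with hE
  have hEE : E * E = E := by rw [hE, ← Matrix.map_mul, hidem]
  obtain ⟨r, U, V, hUV, hVU⟩ := exists_factor_idempotent E hEE
  -- the rank is two
  have hr : r = 2 := by
    have h1 : X ^ r * EA.charpoly = X ^ Fintype.card (G × Fin 2) * (X - C 1) ^ r := by
      refine Polynomial.map_injective A.subtype Subtype.coe_injective ?_
      rw [Polynomial.map_mul, Polynomial.map_mul, Polynomial.map_pow, Polynomial.map_pow,
        Polynomial.map_pow, Polynomial.map_sub, Polynomial.map_X, Polynomial.map_C, map_one,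
        ← Matrix.charpoly_map, ← hE, ← hUV, charpoly_idempotent U V hVU]
    have h2' := congrArg (fun q => q.map (residue A)) h1
    simp only [Polynomial.map_mul, Polynomial.map_pow, Polynomial.map_sub, Polynomial.map_X,
      Polynomial.map_C, map_one, Polynomial.map_one, ← Matrix.charpoly_map] at h2'
    rw [hred] at h2'
    have hcp' := charpoly_idempotent J Rm hJR
    rw [← hPm] at hcp'
    have h3 : X ^ r * ((X : k[X]) ^ Fintype.card (G × Fin 2) * (X - C 1) ^ 2)
        = X ^ 2 * (X ^ Fintype.card (G × Fin 2) * (X - C 1) ^ r) := by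
      rw [map_one] at hcp' ⊢
      rw [← h2', ← hcp']; ring
    have h4 := congrArg (Polynomial.rootMultiplicity 1) h3
    have hne : ∀ m m' : ℕ, ((X : k[X]) ^ m * (X - C 1) ^ m') ≠ 0 := fun m m' =>
      mul_ne_zero (pow_ne_zero _ X_ne_zero) (pow_ne_zero _ (X_sub_C_ne_zero 1))
    rw [Polynomial.rootMultiplicity_mul (mul_ne_zero (pow_ne_zero _ X_ne_zero) (hne _ _)),
      Polynomial.rootMultiplicity_mul (hne _ _),
      Polynomial.rootMultiplicity_mul (mul_ne_zero (pow_ne_zero _ X_ne_zero) (hne _ _)),
      Polynomial.rootMultiplicity_mul (hne _ _), Polynomial.rootMultiplicity_X_sub_C_pow,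
      Polynomial.rootMultiplicity_X_sub_C_pow] at h4
    have hz : ∀ m : ℕ, Polynomial.rootMultiplicity 1 ((X : k[X]) ^ m) = 0 := fun m =>
      Polynomial.rootMultiplicity_eq_zero (by simp)
    rw [hz, hz, hz] at h4
    omega
  subst hr
  have hcommL : ∀ h : G, (transMat h : Matrix (G × Fin 2) _ L) * E = E * transMat h := fun h => by
    have : Commute (transMat h) EA :=
      Algebra.commute_of_mem_adjoin_singleton_of_commute
        (Polynomial.aeval_mem_adjoin_singleton A e) (hcomm h)
    rw [hE, ← transMat_map A.subtype h, ← Matrix.map_mul, ← Matrix.map_mul, this.eq]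
  have hEU : E * U = U := by rw [← hUV, Matrix.mul_assoc, hVU, Matrix.mul_one]
  set φ : G → Matrix (Fin 2) (Fin 2) L := fun h => V * transMat h * U with hφ
  have hmul : ∀ h h', φ (h * h') = φ h * φ h' := fun h h' => by
    have key : transMat h' * U = U * (V * transMat h' * U) := by
      rw [← Matrix.mul_assoc, ← Matrix.mul_assoc, hUV, ← hcommL, Matrix.mul_assoc, hEU]
    simp only [hφ, transMat_mul]
    rw [Matrix.mul_assoc V (transMat h * transMat h'), Matrix.mul_assoc (transMat h) (transMat h'),
      key]
    simp only [Matrix.mul_assoc]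
  have hone : φ 1 = 1 := by rw [hφ]; simp [transMat_one, hVU]
  let ρ : G →* GL (Fin 2) L := MonoidHom.toHomUnits { toFun := φ, map_one' := hone, map_mul' := hmul }
  have htr : ∀ g, ∃ x : A, (x : L) = (φ g).trace ∧
      residue A x = (ρb g : Matrix (Fin 2) (Fin 2) k).trace := fun g => by
    refine ⟨(transMat g * EA).trace, ?_, ?_⟩
    · rw [hφ]
      show A.subtype _ = (V * transMat g * U).trace
      rw [Matrix.mul_assoc, Matrix.trace_mul_comm V, Matrix.mul_assoc, hUV, hE,
        ← transMat_map A.subtype g, ← Matrix.map_mul]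
      exact AddMonoidHom.map_trace A.subtype.toAddMonoidHom _
    · have e1 : residue A (transMat g * EA).trace
          = ((transMat g * EA).map (residue A)).trace :=
        AddMonoidHom.map_trace (residue A).toAddMonoidHom _
      rw [e1, Matrix.map_mul, transMat_map, hred, hPm, ← Matrix.mul_assoc, Matrix.trace_mul_comm]
      congr 1
      have hJg : transMat g * J = J * (ρb g : Matrix (Fin 2) (Fin 2) k) := by
        ext x j
        rw [Matrix.mul_apply, Finset.sum_eq_single (x.1 * g, x.2)]
        · simp [transMat, hJ, Matrix.mul_apply]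
        · intro z _ hz
          rw [transMat, Matrix.of_apply, if_neg, zero_mul]
          rintro ⟨h1, h2⟩
          exact hz (Prod.ext h1 h2.symm)
        · simp
      rw [hJg, ← Matrix.mul_assoc, hJR, Matrix.one_mul]
  refine ⟨ρ, fun g => ⟨htr g, ?_⟩⟩
  obtain ⟨x, hx, hxr⟩ := htr g
  obtain ⟨y, hy, hyr⟩ := htr (g * g)
  have hu : IsUnit (2 : A) := by
    rw [← residue_ne_zero_iff_isUnit, map_ofNat]; exact h2
  refine ⟨↑hu.unit⁻¹ * (x ^ 2 - y), ?_, ?_⟩
  · show ((↑hu.unit⁻¹ * (x ^ 2 - y) : A) : L) = (φ g).det
    have h3 : (2 : A) * (↑hu.unit⁻¹ * (x ^ 2 - y)) = x ^ 2 - y := by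
      rw [← mul_assoc, IsUnit.mul_val_inv, one_mul]
    have h4 := congrArg (fun z : A => (z : L)) h3
    push_cast at h4
    have h2L : (2 : L) ≠ 0 := fun h0 => h2 (by
      have : (2 : A) = 0 := Subtype.coe_injective (by push_cast; exact h0)
      rw [← map_ofNat (residue A) 2, this, map_zero])
    refine mul_left_cancel₀ h2L (h4.trans ?_)
    rw [two_mul_det, ← hmul, hx, hy]
  · refine mul_left_cancel₀ h2 ?_
    rw [two_mul_det, ← Units.val_mul, ← map_mul, ← hxr, ← hyr, ← map_pow, ← map_sub,
      ← map_ofNat (residue A) 2, ← map_mul, ← mul_assoc, IsUnit.mul_val_inv, one_mul]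

end FLTAgent.DS
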