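import Fermat.Agent.DS.Semisimple
import Fermat.Agent.DS.GoodPrimes
import Fermat.Agent.DS.Lift
import Fermat.Agent.Frobenius.Places
import Fermat.Prelude.Def_GaloisRep_Residual
import Mathlib.Algebra.Algebra.Rat
import Mathlib.NumberTheory.NumberField.InfinitePlace.Embeddings
import Mathlib.Analysis.SpecialFunctions.Log.Basic
import Mathlib.Analysis.SpecialFunctions.Pow.Real
import Mathlib.RingTheory.Polynomial.Cyclotomic.Basic
import Mathlib.RingTheory.RootsOfUnity.Complex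
import Mathlib.GroupTheory.Perm.Cycle.Type
import Mathlib.Analysis.Complex.Polynomial.Basic

/-!
# The geometry-free part of the Deligne–Serre theorem

From mod `ℓ` representations, an average bound for `|a_p|²` in every embedding, and the density
form of Chebotarev's theorem, we construct the complex representation with finite image.
-/

set_option autoImplicit false

noncomputable section

namespace FLTAgent.DS

open IsLocalRing Polynomial Finset

local notation "Γℚ" => AlgebraicClosure ℚ ≃ₐ[ℚ] AlgebraicClosure ℚ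

/-- Chebotarev's density theorem, lower bound in logarithmic form. -/
def FrobeniusDensity : Prop :=
  ∀ (H : Type) [Group H] [Fintype H] (φ : Γℚ →* H), Function.Surjective φ →
    GaloisFactorsThroughFiniteLevel φ → ∀ C : Finset H, (∀ h, ∀ c ∈ C, h * c * h⁻¹ ∈ C) →
    ∀ (S₀ : Finset ℕ) (δ : ℝ), 0 < δ → ∃ K₀ : ℝ, ∀ s : ℝ, 1 < s → s ≤ 2 → ∃ S : Finset ℕ,
      (∀ p ∈ S, p.Prime ∧ p ∉ S₀ ∧ ∃ A : ValuationSubring (AlgebraicClosure ℚ),
        A.LiesOverPrime p ∧ ∃ σ : Γℚ, A.IsFrobeniusAt σ p ∧ φ σ ∈ C) ∧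
      ((C.card : ℝ) / Fintype.card H - δ) * Real.log (1 / (s - 1))
        ≤ (∑ p ∈ S, (p : ℝ) ^ (-s)) + K₀

theorem exists_log_eq {T : ℝ} (hT : 0 ≤ T) : ∃ s : ℝ, 1 < s ∧ s ≤ 2 ∧ Real.log (1 / (s - 1)) = T := by
  refine ⟨1 + Real.exp (-T), by linarith [Real.exp_pos (-T)], ?_, ?_⟩
  · have : Real.exp (-T) ≤ 1 := Real.exp_le_one_iff.2 (by linarith)
    linarith
  · rw [add_sub_cancel_left, one_div, ← Real.exp_neg, neg_neg, Real.log_exp]

/-- A coefficient which is bounded for all `T ≥ 0` is nonpositive. -/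
theorem nonpos_of_mul_le {x D : ℝ} (h : ∀ T : ℝ, 0 ≤ T → x * T ≤ D) : x ≤ 0 := by
  by_contra hx
  push Not at hx
  have := h ((|D| + 1) / x) (by positivity)
  rw [mul_div_cancel₀ _ hx.ne'] at this
  linarith [le_abs_self D]

theorem FrobeniusDensity.exists_isConj (hd : FrobeniusDensity) {H : Type} [Group H] [Fintype H]
    (φ : Γℚ →* H) (hs : Function.Surjective φ) (hf : GaloisFactorsThroughFiniteLevel φ) (h : H)
    (S₀ : Finset ℕ) : ∃ p : ℕ, p.Prime ∧ p ∉ S₀ ∧
      ∃ A : ValuationSubring (AlgebraicClosure ℚ), A.LiesOverPrime p ∧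
        ∃ σ : Γℚ, A.IsFrobeniusAt σ p ∧ IsConj h (φ σ) := by
  classical
  set C := (univ : Finset H).filter fun c => IsConj h c with hC
  have hpos : (0 : ℝ) < C.card / Fintype.card H := by
    have : 0 < C.card := Finset.card_pos.2 ⟨h, by simp only [hC, Finset.mem_filter, Finset.mem_univ, true_and]; exact IsConj.refl h⟩
    have : 0 < Fintype.card H := Fintype.card_pos
    positivity
  obtain ⟨K₀, hK⟩ := hd H φ hs hf C (fun g c hc => by
    simp only [hC, Finset.mem_filter, Finset.mem_univ, true_and] at hc ⊢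
    exact hc.trans (isConj_iff.2 ⟨g, rfl⟩)) S₀ _ (half_pos hpos)
  by_contra hcon
  push Not at hcon
  have := nonpos_of_mul_le (x := (C.card : ℝ) / Fintype.card H - C.card / Fintype.card H / 2)
    (D := K₀) fun T hT => by
      obtain ⟨s, h1, h2, h3⟩ := exists_log_eq hT
      obtain ⟨S, hS, hle⟩ := hK s h1 h2
      rw [h3] at hle
      have : S = ∅ := Finset.eq_empty_of_forall_notMem fun p hp => by
        obtain ⟨hpp, hp0, A, hA, σ, hσ, hσC⟩ := hS p hp
        simp only [hC, Finset.mem_filter, Finset.mem_univ, true_and] at hσC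
        exact hcon p hpp hp0 A hA σ hσ hσC
      simpa [this] using hle
  linarith

/-- A homomorphism of finite level has finite range. -/
theorem finite_range_of_factors {H : Type} [Group H] {φ : Γℚ →* H}
    (h : GaloisFactorsThroughFiniteLevel φ) : Finite φ.range := by
  obtain ⟨L, hL, hfix⟩ := h
  let r : Γℚ → (L →ₐ[ℚ] AlgebraicClosure ℚ) := fun σ => σ.toAlgHom.comp L.val
  have hr : ∀ σ τ, r σ = r τ → φ σ = φ τ := fun σ τ hστ => by
    have : φ (σ⁻¹ * τ) = 1 := hfix _ fun x hx => by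
      have e : σ x = τ x := DFunLike.congr_fun hστ ⟨x, hx⟩
      rw [AlgEquiv.mul_apply, ← e]
      exact σ.symm_apply_apply x
    rw [map_mul, map_inv, inv_mul_eq_one] at this
    exact this
  have : Finite (Set.range r) := inferInstance
  refine Finite.of_surjective
    (fun t : Set.range r => (⟨φ t.2.choose, t.2.choose, rfl⟩ : φ.range)) ?_
  rintro ⟨_, σ, rfl⟩
  refine ⟨⟨r σ, σ, rfl⟩, Subtype.ext ?_⟩
  exact hr _ _ (Set.mem_range_self (f := r) σ).choose_spec

/-- Mod `ℓ` representations attached to the systems `(a, e)` for all large `ℓ`. -/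
def HasModReps (N : ℕ) (a e : ℕ → ℂ) : Prop :=
  ∃ B₀ : ℕ, ∀ ℓ : ℕ, ℓ.Prime → B₀ < ℓ → ∀ A : ValuationSubring ℂ, (ℓ : ℂ) ∈ A.nonunits →
    ∃ ρ : Γℚ →* GL (Fin 2) (ResidueField A), GaloisFactorsThroughFiniteLevel ρ ∧
      ∀ p : ℕ, p.Prime → ¬ p ∣ N → p ≠ ℓ →
        ∀ P : ValuationSubring (AlgebraicClosure ℚ), P.LiesOverPrime p →
          (∀ σ ∈ P.inertiaSubgroupIn ℚ, ρ σ = 1) ∧
          ∀ σ : Γℚ, P.IsFrobeniusAt σ p → ∃ x y : A, (x : ℂ) = a p ∧ (y : ℂ) = e p ∧
            (ρ σ : Matrix (Fin 2) (Fin 2) (ResidueField A)).trace = residue A x ∧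
            (ρ σ : Matrix (Fin 2) (Fin 2) (ResidueField A)).det = residue A y

theorem isAlgClosed_residue {L : Type*} [Field L] [IsAlgClosed L] (A : ValuationSubring L) :
    IsAlgClosed (ResidueField A) := by
  refine IsAlgClosed.of_exists_root _ fun p hp hirr => ?_
  obtain ⟨q, hq, hdeg, hmon⟩ := Polynomial.lifts_and_degree_eq_and_monic
    (f := residue A) (show p ∈ Polynomial.lifts (residue A) from
      (Polynomial.map_surjective _ residue_surjective) p) hp
  obtain ⟨z, hz⟩ := IsAlgClosed.exists_root (q.map A.subtype) (by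
    rw [Polynomial.degree_map_eq_of_injective Subtype.coe_injective, hdeg]
    exact (Polynomial.degree_pos_of_irreducible hirr).ne')
  rw [Polynomial.IsRoot, Polynomial.eval_map] at hz
  have hint : IsIntegral A z := ⟨q, hmon, hz⟩
  obtain ⟨a, rfl⟩ := IsIntegrallyClosed.isIntegral_iff.mp hint
  refine ⟨residue A a, ?_⟩
  rw [← hq, Polynomial.eval_map, Polynomial.eval₂_hom]
  have h0 : A.subtype (q.eval a) = 0 := by
    rw [← Polynomial.eval₂_hom]; exact hz
  rw [show q.eval a = 0 from Subtype.coe_injective h0, map_zero]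

theorem residue_eq_iff {A : ValuationSubring ℂ} (x y : A) :
    residue A x = residue A y ↔ (x : ℂ) - y ∈ A.nonunits := by
  rw [← sub_eq_zero, ← map_sub, residue_eq_zero_iff]
  show _ ↔ (x : ℂ) - y ∈ (A.nonunits : Set ℂ)
  rw [← A.image_maximalIdeal]
  refine ⟨fun h => ⟨x - y, h, rfl⟩, ?_⟩
  rintro ⟨z, hz, hze⟩
  have : z = x - y := Subtype.coe_injective hze
  exact this ▸ hz

theorem natCast_residue_eq_zero {A : ValuationSubring ℂ} {ℓ : ℕ} (h : (ℓ : ℂ) ∈ A.nonunits) :
    (ℓ : ResidueField A) = 0 := by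
  rw [← map_natCast (residue A), ← map_zero (residue A), residue_eq_iff]
  simpa using h

theorem charP_residue {A : ValuationSubring ℂ} {ℓ : ℕ} (hℓ : ℓ.Prime)
    (h : (ℓ : ℂ) ∈ A.nonunits) : CharP (ResidueField A) ℓ :=
  (CharP.charP_iff_prime_eq_zero hℓ).2 (natCast_residue_eq_zero h)

/-- A finite set of algebraic integers is separated from zero at all large primes. -/
theorem exists_bound_separating (T : Finset ℂ) (hT : ∀ z ∈ T, IsIntegral ℤ z) :
    ∃ b : ℕ, ∀ ℓ : ℕ, ℓ.Prime → b < ℓ → ∀ A : ValuationSubring ℂ, (ℓ : ℂ) ∈ A.nonunits →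
      ∀ z ∈ T, z ∈ A.nonunits → z = 0 := by
  refine ⟨T.sup fun z => ((minpoly ℤ z).coeff 0).natAbs, fun ℓ hℓ hlt A hA z hz hzA => ?_⟩
  by_contra hz0
  set m := minpoly ℤ z
  have hc : m.coeff 0 ≠ 0 := fun h => by
    refine minpoly.coeff_zero_ne_zero ((hT z hz).tower_top (A := ℚ)) hz0 ?_
    rw [minpoly.isIntegrallyClosed_eq_field_fractions' ℚ (hT z hz), coeff_map, h, map_zero]
  have hzmem : z ∈ A := Frobenius.mem_of_isIntegral A (hT z hz)
  obtain ⟨q, hq⟩ := Polynomial.X_dvd_iff.2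
    (show (m - C (m.coeff 0)).coeff 0 = 0 by simp)
  have hq' : aeval z q ∈ A := Frobenius.mem_of_isIntegral A
    (IsIntegral.of_mem_of_fg _ (hT z hz).fg_adjoin_singleton _
      (Polynomial.aeval_mem_adjoin_singleton ℤ z))
  have hval : ((-(m.coeff 0) : ℤ) : ℂ) = z * aeval z q := by
    have := congrArg (aeval z) hq
    simpa [m, minpoly.aeval] using this
  have hcA : ((-(m.coeff 0) : ℤ) : ℂ) ∈ A.nonunits := by
    rw [hval]
    rw [← SetLike.mem_coe, ← A.image_maximalIdeal] at hzA ⊢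
    obtain ⟨w, hw, hwe⟩ := hzA
    exact ⟨w * ⟨_, hq'⟩, Ideal.mul_mem_right _ _ hw, by simp [← hwe]⟩
  have hres : ((-(m.coeff 0) : ℤ) : ResidueField A) = 0 := by
    rw [← map_intCast (residue A), ← map_zero (residue A), residue_eq_iff]
    simpa using hcA
  haveI := charP_residue hℓ hA
  rw [CharP.intCast_eq_zero_iff _ ℓ, Int.dvd_neg, Int.natCast_dvd] at hres
  have h1 := Nat.le_of_dvd (Int.natAbs_pos.2 hc) hres
  have h2 : ((minpoly ℤ z).coeff 0).natAbs ≤ T.sup fun z => ((minpoly ℤ z).coeff 0).natAbs :=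
    Finset.le_sup (f := fun z => ((minpoly ℤ z).coeff 0).natAbs) hz
  exact absurd (h1.trans h2) (not_le.2 hlt)

section Main

variable (K : IntermediateField ℚ ℂ) [FiniteDimensional ℚ K]

/-- The hypotheses on the eigensystem. -/
structure SystemData (N : ℕ) (a e : ℕ → K) : Prop where
  ne_zero : N ≠ 0
  isIntegral : ∀ p : ℕ, p.Prime → ¬ p ∣ N → IsIntegral ℤ (a p : ℂ) ∧ IsIntegral ℤ (e p : ℂ)
  finite_e : (e '' {p : ℕ | p.Prime ∧ ¬ p ∣ N}).Finite
  rankin : ∀ ι : K →+* ℂ, ∃ C : ℝ, ∀ s : ℝ, 1 < s → s ≤ 2 → ∀ S : Finset ℕ,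
    (∀ p ∈ S, p.Prime ∧ ¬ p ∣ N) →
      ∑ p ∈ S, ‖ι (a p)‖ ^ 2 * (p : ℝ) ^ (-s) ≤ Real.log (1 / (s - 1)) + C
  modReps : HasModReps N (fun p => (a p : ℂ)) (fun p => (e p : ℂ))

variable {K} {N : ℕ} {a e : ℕ → K}

omit [FiniteDimensional ℚ K] in
theorem SystemData.integer_mem (D : SystemData K N a e) (A : ValuationSubring ℂ) {p : ℕ}
    (hp : p.Prime) (hpN : ¬ p ∣ N) : (a p : ℂ) ∈ A ∧ (e p : ℂ) ∈ A :=
  ⟨Frobenius.mem_of_isIntegral A (D.isIntegral p hp hpN).1,
    Frobenius.mem_of_isIntegral A (D.isIntegral p hp hpN).2⟩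

/-- For large `ℓ` with a degree one place of `K`, a mod `ℓ` representation of bounded exponent. -/
theorem SystemData.exists_bounded_rep (D : SystemData K N a e) (hd : FrobeniusDensity) :
    ∃ B B₁ : ℕ, 0 < B ∧ B ≤ B₁ ∧ ∀ ℓ : ℕ, ℓ.Prime → B₁ < ℓ → ∀ A : ValuationSubring ℂ,
      (ℓ : ℂ) ∈ A.nonunits → (∀ x ∈ K, IsIntegral ℤ x → ∃ n : ℤ, x - n ∈ A.nonunits) →
      ∃ ρ : Γℚ →* GL (Fin 2) (ResidueField A), GaloisFactorsThroughFiniteLevel ρ ∧
        (∀ g, ∃ m, 0 < m ∧ m ≤ B ∧ ρ g ^ m = 1) ∧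
        ∀ p : ℕ, p.Prime → ¬ p ∣ N → p ≠ ℓ →
          ∀ P : ValuationSubring (AlgebraicClosure ℚ), P.LiesOverPrime p →
            (∀ σ ∈ P.inertiaSubgroupIn ℚ, ρ σ = 1) ∧
            ∀ σ : Γℚ, P.IsFrobeniusAt σ p → ∃ x y : A, (x : ℂ) = a p ∧ (y : ℂ) = e p ∧
              (ρ σ : Matrix (Fin 2) (Fin 2) (ResidueField A)).trace = residue A x ∧
              (ρ σ : Matrix (Fin 2) (Fin 2) (ResidueField A)).det = residue A y := by
  classical
  obtain ⟨B₀, hB₀⟩ := D.modReps
  have : NumberField K := ⟨⟩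
  set d := Fintype.card (K →+* ℂ)
  set c : ℝ := 16 * (d + 1) with hc
  set Y := (NumberField.Embeddings.finite_of_norm_le K ℂ (Real.sqrt c)).toFinset with hY
  set E := D.finite_e.toFinset with hE
  set M := Y.card * E.card + 1
  refine ⟨16 * M, B₀ + 32 * M + 4, by omega, by omega, fun ℓ hℓ hlt A hA hdeg => ?_⟩
  haveI : Fact ℓ.Prime := ⟨hℓ⟩
  haveI := charP_residue hℓ hA
  haveI := isAlgClosed_residue A
  obtain ⟨ρ₀, hρ₀fin, hρ₀⟩ := hB₀ ℓ hℓ (by omega) A hA
  obtain ⟨ρ, hsplit, hker, htr, hdet⟩ := exists_isSplit ρ₀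
  have hρfin : GaloisFactorsThroughFiniteLevel ρ := by
    obtain ⟨L, hL, h⟩ := hρ₀fin
    exact ⟨L, hL, fun σ hσ => hker σ (h σ hσ)⟩
  have hρ : ∀ p : ℕ, p.Prime → ¬ p ∣ N → p ≠ ℓ →
      ∀ P : ValuationSubring (AlgebraicClosure ℚ), P.LiesOverPrime p →
        (∀ σ ∈ P.inertiaSubgroupIn ℚ, ρ σ = 1) ∧
        ∀ σ : Γℚ, P.IsFrobeniusAt σ p → ∃ x y : A, (x : ℂ) = a p ∧ (y : ℂ) = e p ∧
          (ρ σ : Matrix (Fin 2) (Fin 2) (ResidueField A)).trace = residue A x ∧
          (ρ σ : Matrix (Fin 2) (Fin 2) (ResidueField A)).det = residue A y := by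
    intro p hp hpN hpl P hP
    obtain ⟨h1, h2⟩ := hρ₀ p hp hpN hpl P hP
    refine ⟨fun σ hσ => hker σ (h1 σ hσ), fun σ hσ => ?_⟩
    rw [htr, hdet]
    exact h2 σ hσ
  refine ⟨ρ, hρfin, ?_, hρ⟩
  haveI := finite_range_of_factors hρfin
  let G := ρ.range
  letI : Fintype G := Fintype.ofFinite G
  let φ : Γℚ →* G := ρ.rangeRestrict
  have hφs : Function.Surjective φ := MonoidHom.rangeRestrict_surjective ρ
  have hφf : GaloisFactorsThroughFiniteLevel φ := by
    obtain ⟨L, hL, h⟩ := hρfin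
    exact ⟨L, hL, fun σ hσ => Subtype.ext (h σ hσ)⟩
  set S₀ := insert ℓ N.divisors with hS₀
  have hS₀' : ∀ p, p ∉ S₀ → ¬ p ∣ N ∧ p ≠ ℓ := fun p hp => by
    simp only [hS₀, Finset.mem_insert, Nat.mem_divisors, not_or, not_and, not_not] at hp
    exact ⟨fun h => D.ne_zero (hp.2 h), hp.1⟩
  have hsplitG : IsSplit G.subtype := fun P hP => by
    obtain ⟨Q, hQ⟩ := hsplit P fun g => hP ⟨ρ g, g, rfl⟩
    exact ⟨Q, fun x => by obtain ⟨_, σ, rfl⟩ := x; exact hQ σ⟩
  set key : G → ResidueField A × ResidueField A := fun x =>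
    (((x : GL (Fin 2) (ResidueField A)) : Matrix (Fin 2) (Fin 2) (ResidueField A)).trace,
      ((x : GL (Fin 2) (ResidueField A)) : Matrix (Fin 2) (Fin 2) (ResidueField A)).det) with hkey
  have hkconj : ∀ x y : G, IsConj x y → key x = key y := by
    intro x y hxy
    obtain ⟨c, hc⟩ := isConj_iff.1 hxy
    rw [← hc]
    simp only [hkey, Subgroup.coe_mul, Subgroup.coe_inv, Units.val_mul]
    rw [Matrix.trace_units_conj, Matrix.det_units_conj]
  -- traces lie in the prime field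
  have hprime : ∀ x : G, ∃ n : ℕ, (G.subtype x :
      Matrix (Fin 2) (Fin 2) (ResidueField A)).trace = n := by
    intro x
    obtain ⟨p, hp, hp0, P, hP, σ, hσ, hconj⟩ := hd.exists_isConj φ hφs hφf x S₀
    obtain ⟨hpN, hpl⟩ := hS₀' p hp0
    obtain ⟨u, v, hu, hv, htru, -⟩ := (hρ p hp hpN hpl P hP).2 σ hσ
    obtain ⟨n, hn⟩ := hdeg (a p : ℂ) (a p).2 (D.isIntegral p hp hpN).1
    refine ⟨((n : ZMod ℓ)).val, ?_⟩
    have h1 := congrArg Prod.fst (hkconj _ _ hconj)
    have h2 : residue A u = residue A (n : A) := (residue_eq_iff _ _).2 (by simpa [hu] using hn)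
    rw [map_intCast] at h2
    refine h1.trans (htru.trans (h2.trans ?_))
    rw [← map_natCast (ZMod.castHom (dvd_refl ℓ) (ResidueField A)), ZMod.natCast_val, ZMod.cast_id,
      map_intCast]
  -- few pairs
  let res : ℂ → ResidueField A := fun z => if h : z ∈ A then residue A ⟨z, h⟩ else 0
  set P := (Y ×ˢ E).image fun x => (res (x.1 : ℂ), res (x.2 : ℂ)) with hP
  have hPcard : P.card ≤ M := Finset.card_image_le.trans (by rw [Finset.card_product]; omega)
  have hfew : FewPairs G.subtype P := by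
    set bad := (univ : Finset G).filter fun x => key x ∉ P with hbad
    show bad.card * 8 ≤ Fintype.card G
    obtain ⟨K₀, hK₀⟩ := hd G φ hφs hφf bad (fun g x hx => by
      simp only [hbad, Finset.mem_filter, Finset.mem_univ, true_and] at hx ⊢
      rwa [← hkconj x _ (isConj_iff.2 ⟨g, rfl⟩)]) S₀ (1 / 16) (by norm_num)
    choose Cι hCι using D.rankin
    have hG : (0 : ℝ) < Fintype.card G := by exact_mod_cast Fintype.card_pos
    have := nonpos_of_mul_le (x := (bad.card : ℝ) / Fintype.card G - 1 / 8)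
      (D := |∑ ι, Cι ι| + K₀) fun T hT => by
        obtain ⟨s, hs1, hs2, hsT⟩ := exists_log_eq hT
        obtain ⟨S, hS, hle⟩ := hK₀ s hs1 hs2
        have hgood : ∀ p ∈ S, p.Prime ∧ ¬ p ∣ N := fun p hp => ⟨(hS p hp).1, (hS₀' p (hS p hp).2.1).1⟩
        have hbig : ∀ p ∈ S, c ≤ ∑ ι : K →+* ℂ, ‖ι (a p)‖ ^ 2 := by
          intro p hp
          obtain ⟨hpp, hp0, Q, hQ, σ, hσ, hσC⟩ := hS p hp
          obtain ⟨hpN, hpl⟩ := hS₀' p hp0
          obtain ⟨u, v, hu, hv, htru, hdetv⟩ := (hρ p hpp hpN hpl Q hQ).2 σ hσ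
          simp only [hbad, Finset.mem_filter, Finset.mem_univ, true_and] at hσC
          by_contra hlt'
          push Not at hlt'
          apply hσC
          have hmem : a p ∈ Y := by
            simp only [hY, Set.Finite.mem_toFinset, Set.mem_ofPred_eq]
            refine ⟨(isIntegral_algHom_iff (K.val.restrictScalars ℤ) Subtype.coe_injective).1
              (D.isIntegral p hpp hpN).1, fun ι => ?_⟩
            refine Real.le_sqrt_of_sq_le (le_trans ?_ hlt'.le)
            exact Finset.single_le_sum (f := fun ι : K →+* ℂ => ‖ι (a p)‖ ^ 2)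
              (fun _ _ => sq_nonneg _) (Finset.mem_univ ι)
          have hmemE : e p ∈ E := by
            simp only [hE, Set.Finite.mem_toFinset]
            exact ⟨p, ⟨hpp, hpN⟩, rfl⟩
          refine Finset.mem_image.2 ⟨(a p, e p), Finset.mem_product.2 ⟨hmem, hmemE⟩, ?_⟩
          obtain ⟨hua, hva⟩ := D.integer_mem A hpp hpN
          refine Prod.ext ?_ ?_
          · refine Eq.trans ?_ htru.symm
            simp only [res, dif_pos hua]
            congr 1; exact Subtype.ext hu.symm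
          · refine Eq.trans ?_ hdetv.symm
            simp only [res, dif_pos hva]
            congr 1; exact Subtype.ext hv.symm
        have hcpos : 0 < c := by positivity
        have h1 : c * ∑ p ∈ S, (p : ℝ) ^ (-s) ≤ d * T + ∑ ι, Cι ι := by
          rw [Finset.mul_sum]
          calc ∑ p ∈ S, c * (p : ℝ) ^ (-s)
              ≤ ∑ p ∈ S, (∑ ι : K →+* ℂ, ‖ι (a p)‖ ^ 2) * (p : ℝ) ^ (-s) :=
                Finset.sum_le_sum fun p hp =>
                  mul_le_mul_of_nonneg_right (hbig p hp) (by positivity)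
            _ = ∑ ι : K →+* ℂ, ∑ p ∈ S, ‖ι (a p)‖ ^ 2 * (p : ℝ) ^ (-s) := by
                rw [Finset.sum_comm]; simp only [Finset.sum_mul]
            _ ≤ ∑ ι : K →+* ℂ, (T + Cι ι) :=
                Finset.sum_le_sum fun ι _ => hsT ▸ hCι ι s hs1 hs2 S hgood
            _ = d * T + ∑ ι, Cι ι := by
                rw [Finset.sum_add_distrib, Finset.sum_const, Finset.card_univ, nsmul_eq_mul]
        rw [hsT] at hle
        have h2 : c * ∑ p ∈ S, (p : ℝ) ^ (-s) ≤ c * ((1 / 16) * T + |∑ ι, Cι ι|) := by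
          refine h1.trans ?_
          have h4 : 0 ≤ |∑ ι, Cι ι| := abs_nonneg _
          have h5 := le_abs_self (∑ ι, Cι ι)
          have h6 : 0 ≤ (d : ℝ) * |∑ ι, Cι ι| := by positivity
          rw [hc]
          nlinarith
        have h3 := le_of_mul_le_mul_left h2 hcpos
        nlinarith
    have h8 : (bad.card : ℝ) ≤ Fintype.card G * (1 / 8) := by
      rw [← div_le_iff₀' hG]; linarith
    exact_mod_cast (by linarith : (bad.card : ℝ) * 8 ≤ Fintype.card G)
  intro g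
  refine ⟨orderOf (φ g), orderOf_pos _, ?_, ?_⟩
  · exact (orderOf_le_of_fewPairs (ℓ := ℓ) G.subtype_injective hsplitG hfew hprime (by omega)
      (φ g)).trans (by omega)
  · exact congrArg Subtype.val (pow_orderOf_eq_one (φ g))

end Main

end FLTAgent.DS
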