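import Fermat.Agent.DS.PeriodsOne
import Fermat.Agent.DS.Interfaces

/-!
# Hecke operators on weight two forms with nebentypus

`TOne` is `T p` on `nebSpace M ψ`; it acts on coefficients by `a (p n) + ψ p * p * a (n / p)`,
commutes with the other `T q`, and its periods are transfers along `tRepOne`.
-/

set_option autoImplicit false

noncomputable section

namespace FLTAgent.DS

open scoped MatrixGroups Manifold ModularForm
open UpperHalfPlane hiding I
open CongruenceSubgroup ModularFormClass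

variable {M : ℕ}

/-! ### The representatives -/

theorem lowerRight_mul {γ : SL(2, ℤ)} (hγ : γ ∈ Gamma0 M) (δ : SL(2, ℤ)) :
    (((γ * δ) 1 1 : ℤ) : ZMod M) = (γ 1 1 : ZMod M) * (δ 1 1 : ZMod M) := by
  rw [Matrix.SpecialLinearGroup.coe_mul, Matrix.mul_apply, Fin.sum_univ_two]
  push_cast
  rw [Gamma0_mem.1 hγ, zero_mul, zero_add]

theorem lowerRight_isUnit {γ : SL(2, ℤ)} (hγ : γ ∈ Gamma0 M) :
    IsUnit (γ 1 1 : ZMod M) := by
  have h := lowerRight_mul (inv_mem hγ) γ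
  rw [inv_mul_cancel, Matrix.SpecialLinearGroup.coe_one, Matrix.one_apply_eq, Int.cast_one] at h
  exact IsUnit.of_mul_eq_one_right _ h.symm

theorem mem_Gamma1_of_lowerRight {γ : SL(2, ℤ)} (hγ : γ ∈ Gamma0 M)
    (h1 : (γ 1 1 : ZMod M) = 1) : γ ∈ Gamma1 M := by
  have h := congrArg (Int.cast : ℤ → ZMod M)
    ((Matrix.det_fin_two (γ : Matrix (Fin 2) (Fin 2) ℤ)).symm.trans γ.det_coe)
  push_cast at h
  rw [Gamma0_mem.1 hγ, h1, mul_one, mul_zero, sub_zero] at h
  exact (Gamma1_mem M γ).2 ⟨h, h1, Gamma0_mem.1 hγ⟩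

theorem exists_lowerRight_eq {p : ℕ} (hp : p.Prime) (hpM : ¬ p ∣ M) :
    ∃ γ : SL(2, ℤ), γ ∈ Gamma0 M ∧ ((γ 1 1 : ℤ) : ZMod M) = (p : ZMod M) := by
  obtain ⟨a, b, hab⟩ := Nat.isCoprime_iff_coprime.mpr (hp.coprime_iff_not_dvd.2 hpM)
  refine ⟨⟨!![a, -b; (M : ℤ), (p : ℤ)], by rw [Matrix.det_fin_two_of]; linarith⟩, ?_, ?_⟩
  · exact Gamma0_mem.2 (by simp)
  · simp

/-- The class of the shift in `tRepOne`. -/
def epsOne (M p : ℕ) : Option (ZMod p) → ZMod M
  | none => (p : ZMod M)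
  | some _ => 1

/-- The shift in `tRepOne`. -/
def shiftOne (p : ℕ) (γp : SL(2, ℤ)) : Option (ZMod p) → SL(2, ℤ)
  | none => γp
  | some _ => 1

theorem tRepOne_eq (p : ℕ) (γp : SL(2, ℤ)) (x : Option (ZMod p)) :
    tRepOne p γp x = (shiftOne p γp x : GL (Fin 2) ℝ) * Periods.tRep p x := by
  cases x <;> simp [tRepOne, shiftOne, Periods.tRep]

theorem tRepOne_det_pos (p : ℕ) (γp : SL(2, ℤ)) (x : Option (ZMod p)) :
    0 < (tRepOne p γp x).det.val := by
  rw [tRepOne_eq, map_mul, Units.val_mul, Matrix.GeneralLinearGroup.val_det_apply,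
    show ((shiftOne p γp x : GL (Fin 2) ℝ) : Matrix (Fin 2) (Fin 2) ℝ).det = 1 from
      Matrix.SpecialLinearGroup.det_coe _, one_mul]
  exact Periods.tRep_det_pos p x

theorem tRep_relation_lowerRight {p : ℕ} [NeZero p] (hp : p.Prime) (hpM : ¬ p ∣ M)
    {g g' : SL(2, ℤ)} {x x' : Option (ZMod p)} (hg' : (M : ℤ) ∣ g' 1 0)
    (h : Periods.tRep p x * (g : GL (Fin 2) ℝ) = (g' : GL (Fin 2) ℝ) * Periods.tRep p x') :
    epsOne M p x * (g' 1 1 : ZMod M) = (g 1 1 : ZMod M) * epsOne M p x' := by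
  have e := congrArg (fun b : GL (Fin 2) ℝ => (b : Matrix (Fin 2) (Fin 2) ℝ) 1 1) h
  have hz : (g' 1 0 : ZMod M) = 0 := (ZMod.intCast_zmod_eq_zero_iff_dvd _ _).2 hg'
  have hu : IsUnit (p : ZMod M) := (ZMod.unitOfCoprime p (hp.coprime_iff_not_dvd.2 hpM)).isUnit
  rcases x with - | j <;> rcases x' with - | y <;>
    simp [Periods.tRep, Matrix.mul_apply, Fin.sum_univ_two, NeZero.ne p, -ZMod.natCast_val] at e
  · have e' : g 1 1 = g' 1 1 := by exact_mod_cast e
    simp [epsOne, e', mul_comm]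
  · have e' : g 1 1 = g' 1 0 * y.val + g' 1 1 * p := by exact_mod_cast e
    simp only [epsOne, e', Int.cast_add, Int.cast_mul, Int.cast_natCast, hz]; ring
  · have e' : (p : ℤ) * g 1 1 = g' 1 1 := by exact_mod_cast e
    simp [epsOne, ← e', mul_comm]
  · have e' : (p : ℤ) * g 1 1 = g' 1 0 * y.val + g' 1 1 * p := by exact_mod_cast e
    have e'' := congrArg (Int.cast : ℤ → ZMod M) e'
    push_cast at e''
    rw [hz, zero_mul, zero_add, mul_comm _ (p : ZMod M)] at e''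
    simp [epsOne, hu.mul_left_cancel e'']

open P2MW.S_ModularForm_heckeT_slash_eq_self_of_mem_Gamma0.ModularForm.HeckeSlashInvariance in
/-- Right multiplication by `Γ₀(M)` permutes the representatives. -/
theorem exists_transferOne {p : ℕ} [NeZero p] (hp : p.Prime) (hpM : ¬ p ∣ M) {γp : SL(2, ℤ)}
    (h0 : γp ∈ Gamma0 M) (h1 : ((γp 1 1 : ℤ) : ZMod M) = (p : ZMod M)) {g : SL(2, ℤ)}
    (hg : g ∈ Gamma0 M) :
    ∃ (σ : Equiv.Perm (Option (ZMod p))) (δ : Option (ZMod p) → SL(2, ℤ)),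
      (∀ x, δ x ∈ Gamma0 M ∧ (δ x 1 1 : ZMod M) = (g 1 1 : ZMod M)) ∧
      ∀ x, tRepOne p γp x * (g : GL (Fin 2) ℝ) = (δ x : GL (Fin 2) ℝ) * tRepOne p γp (σ x) := by
  have : Fact p.Prime := ⟨hp⟩
  have hcN : (M : ℤ) ∣ g 1 0 := (ZMod.intCast_zmod_eq_zero_iff_dvd _ _).mp (Gamma0_mem.mp hg)
  have hrep : ∀ x : OnePoint (ZMod p), Periods.tRep p x = heckeRep p x := fun x => by
    cases x <;> rfl
  choose g' hg' hmul using fun x => heckeRep_mul hpM g hcN x
  let σ : Equiv.Perm (Option (ZMod p)) := MulAction.toPerm (α := GL (Fin 2) (ZMod p))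
    (β := OnePoint (ZMod p)) (redMatrix p g)
  have hm : ∀ x, Periods.tRep p x * (g : GL (Fin 2) ℝ)
      = (g' x : GL (Fin 2) ℝ) * Periods.tRep p (σ x) := fun x =>
    ((congrArg (· * _) (hrep x)).trans (hmul x)).trans
      (congrArg (fun b => Matrix.SpecialLinearGroup.mapGL ℝ (g' x) * b) (hrep _).symm)
  have hs : ∀ x, shiftOne p γp x ∈ Gamma0 M ∧
      ((shiftOne p γp x) 1 1 : ZMod M) = epsOne M p x := fun x => by
    cases x
    · exact ⟨h0, h1⟩
    · exact ⟨one_mem _, by simp [shiftOne, epsOne]⟩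
  refine ⟨σ, fun x => shiftOne p γp x * g' x * (shiftOne p γp (σ x))⁻¹, fun x => ?_, fun x => ?_⟩
  · have hg0 : g' x ∈ Gamma0 M := Gamma0_mem.2 ((ZMod.intCast_zmod_eq_zero_iff_dvd _ _).2 (hg' x))
    have hmem := mul_mem (mul_mem (hs x).1 hg0) (inv_mem (hs (σ x)).1)
    refine ⟨hmem, ?_⟩
    have e := lowerRight_mul hmem (shiftOne p γp (σ x))
    rw [inv_mul_cancel_right, lowerRight_mul (hs x).1, (hs x).2, (hs (σ x)).2,
      tRep_relation_lowerRight hp hpM (hg' x) (hm x)] at e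
    refine (IsUnit.mul_right_cancel ?_ e).symm
    have hu := lowerRight_isUnit (hs (σ x)).1
    rwa [(hs (σ x)).2] at hu
  · have key : ∀ P Q R : SL(2, ℤ), ((P * Q * R⁻¹ : SL(2, ℤ)) : GL (Fin 2) ℝ)
        = (P : GL (Fin 2) ℝ) * (Q : GL (Fin 2) ℝ) * (R : GL (Fin 2) ℝ)⁻¹ := fun P Q R => by
      simp only [map_mul, map_inv]
    rw [tRepOne_eq, tRepOne_eq, mul_assoc, hm x, key, ← mul_assoc, ← mul_assoc,
      inv_mul_cancel_right]

/-! ### The space with nebentypus -/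

/-- Weight two cusp forms on `Γ₁(M)` with nebentypus `ψ`. -/
def nebSpace (M : ℕ) (ψ : DirichletCharacter ℂ M) : Submodule ℂ (SOne M) where
  carrier := {h | ∀ γ : SL(2, ℤ), γ ∈ Gamma0 M →
    ⇑h ∣[(2 : ℤ)] γ = ψ ((γ 1 1 : ℤ) : ZMod M) • ⇑h}
  zero_mem' := fun γ _ => by
    rw [show (⇑(0 : SOne M) : ℍ → ℂ) = 0 from rfl, SlashAction.zero_slash, smul_zero]
  add_mem' := fun {h h'} hh hh' γ hγ => by
    rw [CuspForm.coe_add, SlashAction.add_slash, hh γ hγ, hh' γ hγ, smul_add]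
  smul_mem' := fun r h hh γ hγ => by
    rw [CuspForm.coe_smul, ModularForm.SL_smul_slash, hh γ hγ, smul_comm]

variable [NeZero M] {ψ : DirichletCharacter ℂ M}

/-- `T p` as a function. -/
def TFun (ψ : DirichletCharacter ℂ M) (p : ℕ) (h : ℍ → ℂ) : ℍ → ℂ :=
  ModularForm.heckeU 2 p h + ψ (p : ZMod M) • (h ∣[(2 : ℤ)] ModularForm.heckeDiagMatrix p)

open P2MW.S_ModularForm_heckeT_slash_eq_self_of_mem_Gamma0.ModularForm.HeckeSlashInvariance in
theorem TFun_eq_sum {p : ℕ} [NeZero p] (h : nebSpace M ψ) {γp : SL(2, ℤ)} (h0 : γp ∈ Gamma0 M)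
    (h1 : ((γp 1 1 : ℤ) : ZMod M) = (p : ZMod M)) :
    TFun ψ p ⇑(h : SOne M) = ∑ x, ⇑(h : SOne M) ∣[(2 : ℤ)] tRepOne p γp x := by
  rw [TFun, heckeU_eq_sum_zmod, Fintype.sum_option, add_comm]
  congr 1
  show _ = _ ∣[(2 : ℤ)] ((γp : GL (Fin 2) ℝ) * ModularForm.heckeDiagMatrix p)
  rw [SlashAction.slash_mul, ← ModularForm.SL_slash, h.2 γp h0, h1, ModularForm.smul_slash,
    ModularForm.σ_heckeDiagMatrix, ContinuousAlgEquiv.refl_apply]

theorem TFun_slash {p : ℕ} (hp : p.Prime) (hpM : ¬ p ∣ M) (h : nebSpace M ψ) {g : SL(2, ℤ)}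
    (hg : g ∈ Gamma0 M) :
    TFun ψ p ⇑(h : SOne M) ∣[(2 : ℤ)] g
      = ψ ((g 1 1 : ℤ) : ZMod M) • TFun ψ p ⇑(h : SOne M) := by
  have : NeZero p := ⟨hp.ne_zero⟩
  obtain ⟨γp, h0, h1⟩ := exists_lowerRight_eq hp hpM
  obtain ⟨σ, δ, hδ, hrel⟩ := exists_transferOne hp hpM h0 h1 hg
  rw [TFun_eq_sum h h0 h1, SlashAction.sum_slash, Finset.smul_sum,
    ← Equiv.sum_comp σ (fun x => ψ _ • (_ ∣[(2 : ℤ)] tRepOne p γp x))]
  refine Finset.sum_congr rfl fun x _ => ?_
  rw [ModularForm.SL_slash, ← SlashAction.slash_mul, hrel, SlashAction.slash_mul,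
    ← ModularForm.SL_slash, h.2 _ (hδ x).1, (hδ x).2, ModularForm.smul_slash, UpperHalfPlane.σ,
    if_pos (tRepOne_det_pos p γp _), ContinuousAlgEquiv.refl_apply]

open P2MW.S_CuspFormClass_isZeroAt_heckeT.ModularForm.S06W2 in
/-- `T p` on a form. -/
def TForm {p : ℕ} (hp : p.Prime) (hpM : ¬ p ∣ M) (h : nebSpace M ψ) : SOne M where
  toFun := TFun ψ p ⇑(h : SOne M)
  slash_action_eq' A hA := by
    obtain ⟨g, hg, rfl⟩ := hA
    obtain ⟨-, hg1, hg0⟩ := (Gamma1_mem M g).1 hg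
    show TFun ψ p _ ∣[(2 : ℤ)] g = _
    rw [TFun_slash hp hpM h (Gamma0_mem.2 hg0), hg1, map_one, one_smul]
  holo' := by
    have hhol := CuspFormClass.holo (h : SOne M)
    refine MDifferentiable.add ?_ ((hhol.slash 2 _).const_smul _)
    rw [ModularForm.heckeU_def]
    exact MDifferentiable.sum fun j _ => hhol.slash 2 _
  zero_at_cusps' := fun {c} hc => by
    refine (isZeroAt_heckeU (h : SOne M) p hc).add ?_
    obtain ⟨γp, h0, h1⟩ := exists_lowerRight_eq hp hpM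
    obtain ⟨g, hg⟩ := exists_heckeDiagMatrix_eq_map p
    have hd : OnePoint.IsZeroAt c
        (⇑(ψ (p : ZMod M) • (h : SOne M)) ∣[(2 : ℤ)] ModularForm.heckeDiagMatrix p) 2 := by
      rw [hg]; exact isZeroAt_slash_ratCast _ g hc
    rwa [CuspForm.coe_smul, ModularForm.smul_slash, ModularForm.σ_heckeDiagMatrix,
      ContinuousAlgEquiv.refl_apply] at hd

/-- `T p`. -/
def TOne (ψ : DirichletCharacter ℂ M) {p : ℕ} (hp : p.Prime) (hpM : ¬ p ∣ M) :
    Module.End ℂ (nebSpace M ψ) where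
  toFun h := ⟨TForm hp hpM h, fun _ hγ => TFun_slash hp hpM h hγ⟩
  map_add' h h' := Subtype.ext <| DFunLike.coe_injective <| by
    show TFun ψ p ⇑((h : SOne M) + (h' : SOne M))
      = TFun ψ p ⇑(h : SOne M) + TFun ψ p ⇑(h' : SOne M)
    rw [CuspForm.coe_add, TFun, TFun, TFun, ModularForm.heckeU_add, SlashAction.add_slash, smul_add]
    abel
  map_smul' r h := Subtype.ext <| DFunLike.coe_injective <| by
    show TFun ψ p ⇑(r • (h : SOne M)) = r • TFun ψ p ⇑(h : SOne M)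
    rw [CuspForm.coe_smul, TFun, TFun, ModularForm.heckeU_smul, ModularForm.smul_slash,
      ModularForm.σ_heckeDiagMatrix, ContinuousAlgEquiv.refl_apply, smul_add,
      smul_comm (ψ (p : ZMod M))]

theorem coe_TOne {p : ℕ} (hp : p.Prime) (hpM : ¬ p ∣ M) (h : nebSpace M ψ) :
    ⇑((TOne ψ hp hpM h : nebSpace M ψ) : SOne M) = TFun ψ p ⇑(h : SOne M) := rfl

theorem perFun_TOne {p : ℕ} [NeZero p] (hp : p.Prime) (hpM : ¬ p ∣ M) {γp : SL(2, ℤ)}
    (h0 : γp ∈ Gamma0 M) (h1 : ((γp 1 1 : ℤ) : ZMod M) = (p : ZMod M)) (γ : Gamma1 M) :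
    ∃ (σ : Equiv.Perm (Option (ZMod p))) (δ : Option (ZMod p) → Gamma1 M),
      IsTransferOne (tRepOne p γp) γ σ δ ∧ ∀ h : nebSpace M ψ,
        perFun ((TOne ψ hp hpM h : nebSpace M ψ) : SOne M) (γ : SL(2, ℤ))
          = ∑ x, perFun (h : SOne M) (δ x : SL(2, ℤ)) := by
  obtain ⟨-, hg1, hg0⟩ := (Gamma1_mem M _).1 γ.2
  obtain ⟨σ, δ, hδ, hrel⟩ := exists_transferOne hp hpM h0 h1 (Gamma0_mem.2 hg0)
  have hmem : ∀ x, δ x ∈ Gamma1 M := fun x =>
    mem_Gamma1_of_lowerRight (hδ x).1 ((hδ x).2.trans hg1)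
  exact ⟨σ, fun x => ⟨δ x, hmem x⟩, hrel, fun h => perFun_eq_sum_transfer _ _ _
    (tRepOne_det_pos p γp) ((coe_TOne hp hpM h).trans (TFun_eq_sum h h0 h1)) γ.2 σ δ hmem hrel⟩

/-! ### Coefficients -/

theorem hasSum_qCoeff_one (h : SOne M) (τ : ℍ) :
    HasSum (fun m => qCoeff h m * Function.Periodic.qParam 1 τ ^ m) (h τ) :=
  UpperHalfPlane.hasSum_qExpansion one_pos
    (SlashInvariantFormClass.periodic_comp_ofComplex h (by simp)) (CuspFormClass.holo h)
    (CuspFormClass.zero_at_infty h).isBoundedAtImInfty τ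

theorem eq_qCoeff_of_hasSum (h : SOne M) {c : ℕ → ℂ}
    (hc : ∀ τ : ℍ, HasSum (fun m => c m * Function.Periodic.qParam 1 τ ^ m) (h τ)) (m : ℕ) :
    qCoeff h m = c m :=
  (ModularFormClass.qExpansion_coeff_unique (f := h) one_pos (by simp)
    (fun τ => by simpa using hc τ) m).symm

/-- The coefficient as a linear map. -/
def coefOne (n : ℕ) : SOne M →ₗ[ℂ] ℂ where
  toFun h := qCoeff h n
  map_add' h h' := eq_qCoeff_of_hasSum _ (c := fun m => qCoeff h m + qCoeff h' m) (fun τ => by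
    simpa [add_mul] using (hasSum_qCoeff_one h τ).add (hasSum_qCoeff_one h' τ)) n
  map_smul' r h := eq_qCoeff_of_hasSum _ (c := fun m => r * qCoeff h m) (fun τ => by
    simpa [mul_assoc] using (hasSum_qCoeff_one h τ).mul_left r) n

theorem coefOne_apply (n : ℕ) (h : SOne M) : coefOne n h = qCoeff h n := rfl

theorem eq_of_qCoeff {h h' : SOne M} (e : ∀ n, qCoeff h n = qCoeff h' n) : h = h' :=
  DFunLike.ext _ _ fun τ => (hasSum_qCoeff_one h τ).unique (by
    simpa only [e] using hasSum_qCoeff_one h' τ)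

theorem qCoeff_TOne {p : ℕ} (hp : p.Prime) (hpM : ¬ p ∣ M) (h : nebSpace M ψ) (n : ℕ) :
    qCoeff ((TOne ψ hp hpM h : nebSpace M ψ) : SOne M) n = qCoeff (h : SOne M) (p * n)
      + ψ (p : ZMod M) * (p : ℂ) * (if p ∣ n then qCoeff (h : SOne M) (n / p) else 0) := by
  set a : ℕ → ℂ := fun m => qCoeff (h : SOne M) m
  refine eq_qCoeff_of_hasSum _ (c := fun n => a (p * n) + ψ (p : ZMod M) * (p : ℂ) *
    (if p ∣ n then a (n / p) else 0)) (fun τ => ?_) n
  have hp0 : (p : ℂ) ≠ 0 := by exact_mod_cast hp.ne_zero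
  rw [coe_TOne, TFun, Pi.add_apply, Pi.smul_apply, smul_eq_mul,
    ModularForm.heckeU_apply _ hp.ne_zero, ModularForm.slash_heckeDiagMatrix_apply _ hp.ne_zero]
  simp only [add_mul]
  refine HasSum.add ?_ ?_
  · set e : ℂ := Function.Periodic.qParam 1 ((τ : ℂ) / p)
    set ζ : ℂ := Complex.exp (2 * Real.pi * Complex.I / p)
    have hζ : IsPrimitiveRoot ζ p := Complex.isPrimitiveRoot_exp p hp.ne_zero
    have hq : ∀ j : ℕ,
        Function.Periodic.qParam 1 (ModularForm.heckeMatrix p j • τ : ℍ) = e * ζ ^ j := fun j => by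
      rw [ModularForm.coe_heckeMatrix_smul hp.ne_zero]
      simp only [e, ζ, Function.Periodic.qParam, ← Complex.exp_add, ← Complex.exp_nat_mul,
        Complex.ofReal_one, div_one]
      congr 1; field_simp
    have he : e ^ p = Function.Periodic.qParam 1 (τ : ℂ) := by
      simp only [e, Function.Periodic.qParam, ← Complex.exp_nat_mul, Complex.ofReal_one, div_one]
      congr 1; field_simp
    have hsum := (hasSum_sum fun j (_ : j ∈ Finset.range p) =>
      hasSum_qCoeff_one (h : SOne M) (ModularForm.heckeMatrix p j • τ)).mul_left (p : ℂ)⁻¹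
    have hterm : ∀ m, (p : ℂ)⁻¹ * ∑ j ∈ Finset.range p,
        a m * Function.Periodic.qParam 1 (ModularForm.heckeMatrix p j • τ : ℍ) ^ m
          = if p ∣ m then a m * e ^ m else 0 := fun m => by
      simp only [hq, mul_pow, ← mul_assoc, ← Finset.mul_sum]
      rw [Finset.sum_congr rfl fun j _ => (pow_right_comm ζ j m)]
      by_cases hm : p ∣ m
      · rw [if_pos hm, (hζ.pow_eq_one_iff_dvd m).2 hm]
        simp [mul_comm]; field_simp
      · rw [if_neg hm, geom_sum_eq fun e1 => hm ((hζ.pow_eq_one_iff_dvd m).1 e1),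
          ← pow_mul, mul_comm m p, pow_mul, hζ.pow_eq_one, one_pow, sub_self, zero_div, mul_zero]
    simp only [a] at hterm
    have hinj : Function.Injective fun n : ℕ => p * n := mul_right_injective₀ hp.ne_zero
    refine ((hinj.hasSum_iff fun m hm => ?_).2 (hsum.congr_fun fun m => (hterm m).symm)).congr_fun
      fun n => ?_
    · rw [if_neg]
      rintro ⟨k, rfl⟩; exact hm ⟨k, rfl⟩
    · simp only [Function.comp_apply, if_pos (dvd_mul_right p n), pow_mul, he, a]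
  · have hsum := ((hasSum_qCoeff_one (h : SOne M) (ModularForm.heckeDiagMatrix p • τ)).mul_left
      ((p : ℂ) ^ ((2 : ℤ) - 1))).mul_left (ψ (p : ZMod M))
    have hinj : Function.Injective fun n : ℕ => p * n := mul_right_injective₀ hp.ne_zero
    refine (hinj.hasSum_iff fun m hm => ?_).1 (hsum.congr_fun fun n => ?_)
    · rw [if_neg, mul_zero, zero_mul]
      rintro ⟨k, rfl⟩; exact hm ⟨k, rfl⟩
    · have hq : Function.Periodic.qParam 1 (ModularForm.heckeDiagMatrix p • τ : ℍ)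
          = Function.Periodic.qParam 1 (τ : ℂ) ^ p := by
        rw [ModularForm.coe_heckeDiagMatrix_smul hp.ne_zero]
        simp only [Function.Periodic.qParam, ← Complex.exp_nat_mul, Complex.ofReal_one, div_one]
        congr 1; ring
      simp only [Function.comp_apply, if_pos (dvd_mul_right p n),
        Nat.mul_div_cancel_left n hp.pos, hq, ← pow_mul, a]
      norm_num; ring

theorem coeff_formula_comm {p q : ℕ} (hp : p.Prime) (hq : q.Prime) (hne : p ≠ q) (u v : ℂ)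
    (a : ℕ → ℂ) (n : ℕ) :
    (a (q * (p * n)) + v * (if q ∣ p * n then a (p * n / q) else 0)) + u * (if p ∣ n then
        a (q * (n / p)) + v * (if q ∣ n / p then a (n / p / q) else 0) else 0)
      = (a (p * (q * n)) + u * (if p ∣ q * n then a (q * n / p) else 0)) + v * (if q ∣ n then
        a (p * (n / q)) + u * (if p ∣ n / q then a (n / q / p) else 0) else 0) := by
  have hc : p.Coprime q := (Nat.coprime_primes hp hq).2 hne
  have e1 : (q ∣ p * n) ↔ q ∣ n := Nat.Coprime.dvd_mul_left hc.symm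
  have e2 : (p ∣ q * n) ↔ p ∣ n := Nat.Coprime.dvd_mul_left hc
  simp only [e1, e2]
  rw [show q * (p * n) = p * (q * n) by ring, Nat.div_div_eq_div_mul, Nat.div_div_eq_div_mul,
    mul_comm q p]
  by_cases h1 : p ∣ n <;> by_cases h2 : q ∣ n
  · have h3 : q ∣ n / p := (Nat.dvd_div_iff_mul_dvd h1).2 (hc.mul_dvd_of_dvd_of_dvd h1 h2)
    have h4 : p ∣ n / q := (Nat.dvd_div_iff_mul_dvd h2).2
      (mul_comm p q ▸ hc.mul_dvd_of_dvd_of_dvd h1 h2)
    simp only [h1, h2, h3, h4, if_true, Nat.mul_div_assoc _ h1, Nat.mul_div_assoc _ h2]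
    ring
  · have h3 : ¬ q ∣ n / p := fun e => h2 (dvd_trans e (Nat.div_dvd_of_dvd h1))
    simp only [h1, h2, h3, if_true, if_false, Nat.mul_div_assoc _ h1]
    ring
  · have h4 : ¬ p ∣ n / q := fun e => h1 (dvd_trans e (Nat.div_dvd_of_dvd h2))
    simp only [h1, h2, h4, if_true, if_false, Nat.mul_div_assoc _ h2]
    ring
  · simp only [h1, h2, if_false]
    ring

theorem TOne_comm {p q : ℕ} (hp : p.Prime) (hpM : ¬ p ∣ M) (hq : q.Prime) (hqM : ¬ q ∣ M) :
    TOne ψ hp hpM * TOne ψ hq hqM = TOne ψ hq hqM * TOne ψ hp hpM := by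
  rcases eq_or_ne p q with rfl | hne
  · rfl
  refine LinearMap.ext fun h => Subtype.ext (eq_of_qCoeff fun n => ?_)
  simp only [Module.End.mul_apply, qCoeff_TOne]
  exact coeff_formula_comm hp hq hne _ _ (fun m => qCoeff (h : SOne M) m) n

end FLTAgent.DS
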