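import Fermat.Prelude.Def_FLTPrelim_Modularity
import Fermat.Prelude.Def_ModularForm_HeckeOperator
import Fermat.Prelude.Thm_UpperHalfPlane_qCoeff_heckeU
import Fermat.Prelude.Thm_UpperHalfPlane_qCoeff_heckeT
import Fermat.Prelude.Thm_ModularForm_periodic_heckeU_comp_ofComplex
import Fermat.Prelude.Thm_ModularForm_mdifferentiable_heckeU
import Fermat.Prelude.Thm_ModularForm_isBoundedAtImInfty_heckeU
import Fermat.Prelude.Thm_ModularForm_periodic_heckeT_comp_ofComplex
import Fermat.Prelude.Thm_ModularForm_mdifferentiable_heckeT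
import Fermat.Prelude.Thm_ModularForm_isBoundedAtImInfty_heckeT
import Fermat.Agent.IntegralStructure.QFn
import Mathlib.NumberTheory.DirichletCharacter.Basic
import Mathlib.NumberTheory.LSeries.PrimesInAP
import Mathlib.FieldTheory.Finite.Basic

/-!
# The nebentypus of a weight-one eigenvector

From the coefficient relation `a (p n) + ε p * a (n / p) = a p * a n` we deduce `f | γ = ε d • f`
for `γ ∈ Γ₀(N)`.
-/

set_option autoImplicit false

noncomputable section

namespace FLTAgent.DS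

open UpperHalfPlane ModularForm MatrixGroups CongruenceSubgroup Matrix
open FLTAgent.IntegralStructure
open scoped Manifold

/-- A real upper unipotent. -/
def unip (t : ℝ) : GL (Fin 2) ℝ := upperTriangularGL 1 t 1 (by norm_num)

/-- A real lower unipotent. -/
def lowUnip (u : ℝ) : GL (Fin 2) ℝ :=
  Matrix.GeneralLinearGroup.mkOfDetNeZero !![1, 0; u, 1] (by simp [Matrix.det_fin_two_of])

theorem val_unip (t : ℝ) : (unip t : Matrix (Fin 2) (Fin 2) ℝ) = !![1, t; 0, 1] := rfl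

theorem val_lowUnip (u : ℝ) : (lowUnip u : Matrix (Fin 2) (Fin 2) ℝ) = !![1, 0; u, 1] := rfl

/-- An element of `SL₂(ℤ)` from its four entries. -/
def slOf (a b c d : ℤ) (h : a * d - b * c = 1) : SL(2, ℤ) :=
  ⟨!![a, b; c, d], by rw [Matrix.det_fin_two_of]; exact h⟩

@[simp] theorem coe_slOf (a b c d : ℤ) (h : a * d - b * c = 1) :
    (slOf a b c d h : Matrix (Fin 2) (Fin 2) ℤ) = !![a, b; c, d] := rfl

theorem val_slOf_gl (a b c d : ℤ) (h : a * d - b * c = 1) :
    (((slOf a b c d h : SL(2, ℤ)) : GL (Fin 2) ℝ) : Matrix (Fin 2) (Fin 2) ℝ)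
      = !![(a : ℝ), b; c, d] := by
  ext i j
  fin_cases i <;> fin_cases j <;> simp

theorem slash_unip_apply (k : ℤ) (f : ℍ → ℂ) (t : ℝ) (τ : ℍ) :
    (f ∣[k] unip t) τ = f (t +ᵥ τ) := by
  have hdet : ((unip t).det : ℝ) = 1 := by
    rw [Matrix.GeneralLinearGroup.val_det_apply, val_unip, Matrix.det_fin_two_of]; ring
  have hd : denom (unip t) τ = 1 := by simp [denom, val_unip]
  have hs : unip t • τ = t +ᵥ τ := by
    rw [UpperHalfPlane.ext_iff, coe_smul_of_det_pos (by rw [hdet]; norm_num), hd, coe_vadd]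
    simp [num, val_unip, add_comm]
  rw [ModularForm.slash_apply, σ, if_pos (by rw [hdet]; norm_num), hs, hdet, hd]
  simp

/-- The elements fixing `g` in weight `k`. -/
def slashStab (k : ℤ) (g : ℍ → ℂ) : Subgroup (GL (Fin 2) ℝ) where
  carrier := {A | g ∣[k] A = g}
  mul_mem' := fun {A B} hA hB => by
    simp only [Set.mem_ofPred_eq] at hA hB ⊢
    rw [SlashAction.slash_mul, hA, hB]
  one_mem' := SlashAction.slash_one k g
  inv_mem' := fun {A} hA => by
    simp only [Set.mem_ofPred_eq] at hA ⊢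
    conv_lhs => rw [← hA]
    rw [← SlashAction.slash_mul, mul_inv_cancel, SlashAction.slash_one]

theorem slash_sub (k : ℤ) {G : Type*} [Monoid G] [SlashAction ℤ G (ℍ → ℂ)] (f g : ℍ → ℂ) (A : G) :
    (f - g) ∣[k] A = f ∣[k] A - g ∣[k] A := by
  rw [sub_eq_add_neg, SlashAction.add_slash, SlashAction.neg_slash, ← sub_eq_add_neg]

theorem mem_slashStab {k : ℤ} {g : ℍ → ℂ} {A : GL (Fin 2) ℝ} :
    A ∈ slashStab k g ↔ g ∣[k] A = g := Iff.rfl

/-- A periodic function fixed by arbitrarily small translations and vanishing at `∞` is zero. -/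
theorem eq_zero_of_small_periods {g : ℍ → ℂ} (hg : g ∈ qFn)
    (h0 : (qExpansion 1 g).coeff 0 = 0)
    (hsmall : ∀ n : ℕ, 0 < n → ∃ M : ℕ, n < M ∧ ∀ τ : ℍ, g (((1 : ℝ) / M) +ᵥ τ) = g τ) :
    g = 0 := by
  have hper : Function.Periodic (g ∘ ofComplex) ((1 : ℝ) : ℂ) := by exact_mod_cast hg.1
  rw [← qExpansion_eq_zero_iff one_pos hper hg.2.1 hg.2.2]
  ext n
  rcases Nat.eq_zero_or_pos n with rfl | hn
  · simpa using h0
  obtain ⟨M, hnM, hM⟩ := hsmall n hn
  set c := fun m => (qExpansion 1 g).coeff m with hc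
  set z := Function.Periodic.qParam 1 (((1 : ℝ) / M : ℝ) : ℂ) with hz
  have hsum : ∀ τ : ℍ, HasSum (fun m => (c m * z ^ m) • Function.Periodic.qParam 1 (τ : ℂ) ^ m) (g τ) := by
    intro τ
    have h := UpperHalfPlane.hasSum_qExpansion one_pos hper hg.2.1 hg.2.2 (((1 : ℝ) / M) +ᵥ τ)
    rw [hM] at h
    convert! h using 1
    funext m
    have : Function.Periodic.qParam 1 ((((1 : ℝ) / M) +ᵥ τ : ℍ) : ℂ)
        = z * Function.Periodic.qParam 1 (τ : ℂ) := by
      rw [hz, coe_vadd, Function.Periodic.qParam, Function.Periodic.qParam, Function.Periodic.qParam,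
        ← Complex.exp_add]
      congr 1
      push_cast
      ring
    simp only [smul_eq_mul, this, mul_pow, hc]
    ring
  have hu := UpperHalfPlane.qExpansion_coeff_unique (c := fun m => c m * z ^ m)
    (ContinuousMap.mk g hg.2.1.continuous) one_pos
    (UpperHalfPlane.analyticAt_cuspFunction_zero one_pos hper hg.2.1 hg.2.2) hsum n
  by_contra hne
  simp only [map_zero] at hne
  have hz1 : z ^ n = 1 := by
    have := hu
    rw [hc] at this
    exact mul_left_cancel₀ hne (by rw [mul_one]; exact this)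
  rw [hz, Function.Periodic.qParam, ← Complex.exp_nat_mul, Complex.exp_eq_one_iff] at hz1
  obtain ⟨m, hm⟩ := hz1
  have hM0 : (M : ℂ) ≠ 0 := Nat.cast_ne_zero.2 (by omega)
  have h2 : (2 * Real.pi * Complex.I : ℂ) ≠ 0 := Complex.two_pi_I_ne_zero
  have : (n : ℂ) = (m : ℂ) * M := by
    push_cast at hm
    field_simp at hm
    linear_combination hm
  have hi : (n : ℤ) = m * M := by exact_mod_cast this
  rcases lt_trichotomy m 0 with h | h | h <;> nlinarith

variable {N : ℕ}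

/-- An element of `Γ₁(N)` with prescribed first column. -/
theorem exists_gamma1_col {a c : ℤ} (hco : IsCoprime a c) (ha : (a : ZMod N) = 1)
    (hc : (c : ZMod N) = 0) :
    ∃ b d : ℤ, ∃ h : a * d - b * c = 1, slOf a b c d h ∈ Gamma1 N := by
  obtain ⟨u, v, huv⟩ := hco
  refine ⟨-v, u, by linarith, ?_⟩
  have : (u : ZMod N) = 1 := by
    have := congrArg (fun x : ℤ => (x : ZMod N)) huv
    simpa [ha, hc] using this
  simp [Gamma1_mem, ha, hc, this]

/-- A weight-one function fixed by `Γ₁(N)` and by a lower unipotent with parameter `N / p` is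
fixed by translations by arbitrarily small amounts. -/
theorem exists_small_unip_mem [NeZero N] {S : Subgroup (GL (Fin 2) ℝ)} {p : ℕ} (hp : p.Prime)
    (hpN : ¬ p ∣ N) (hG : ∀ γ ∈ Gamma1 N, ((γ : SL(2, ℤ)) : GL (Fin 2) ℝ) ∈ S)
    (hL : lowUnip ((N : ℝ) / p) ∈ S) (k : ℕ) :
    unip (1 / ((p ^ (N.totient * k) : ℕ) : ℝ) ^ 2) ∈ S := by
  have hp0 : (p : ℝ) ≠ 0 := Nat.cast_ne_zero.2 hp.ne_zero
  have hpi : Prime (p : ℤ) := Nat.prime_iff_prime_int.1 hp
  have step : ∀ j : ℕ, ∃ a c : ℤ, IsCoprime a c ∧ (c : ZMod N) = 0 ∧ (a : ZMod N) = (p : ZMod N) ^ j ∧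
      ∃ A ∈ S, (A : Matrix (Fin 2) (Fin 2) ℝ).det = 1 ∧
        (A : Matrix (Fin 2) (Fin 2) ℝ) 0 0 = a / (p : ℝ) ^ j ∧
        (A : Matrix (Fin 2) (Fin 2) ℝ) 1 0 = c / (p : ℝ) ^ j := by
    intro j
    induction j with
    | zero => exact ⟨1, 0, isCoprime_one_left, by simp, by simp, 1, one_mem _, by simp, by simp, by simp⟩
    | succ j ih =>
      obtain ⟨a, c, hco, hc, ha, A, hA, hdet, h00, h10⟩ := ih
      obtain ⟨t, ht⟩ : ∃ t : ℤ, ¬ (p : ℤ) ∣ a + t * c := by
        by_cases h : (p : ℤ) ∣ a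
        · refine ⟨1, fun h' => hpi.not_isUnit (hco.isUnit_of_dvd' h ?_)⟩
          simpa using (dvd_add_right h).1 h'
        · exact ⟨0, by simpa using h⟩
      set a' := a + t * c with ha'
      have hco' : IsCoprime a' c := hco.add_mul_right_left t
      have hpN' : ¬ (p : ℤ) ∣ (N : ℤ) := by exact_mod_cast hpN
      have hTmem : slOf 1 t 0 1 (by ring) ∈ Gamma1 N := by simp [Gamma1_mem]
      refine ⟨p * a', N * a' + p * c, ?_, by simp [hc], by simp [ha', hc, ha, pow_succ]; ring,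
        lowUnip ((N : ℝ) / p) * ((slOf 1 t 0 1 (by ring) : SL(2, ℤ)) : GL (Fin 2) ℝ) * A,
        mul_mem (mul_mem hL (hG _ hTmem)) hA, ?_, ?_, ?_⟩
      · have hcp : IsCoprime a' (p : ℤ) := (hpi.coprime_iff_not_dvd.2 ht).symm
        refine IsCoprime.mul_left ?_ ?_
        · refine hpi.coprime_iff_not_dvd.2 fun h => ?_
          rcases hpi.dvd_mul.1 ((dvd_add_left (dvd_mul_right _ c)).1 h) with h1 | h1
          · exact hpN' h1
          · exact ht h1
        · rw [add_comm]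
          exact (hcp.mul_right hco').add_mul_right_right _
      · rw [Units.val_mul, Units.val_mul, Matrix.det_mul, Matrix.det_mul, hdet, val_lowUnip, val_slOf_gl]
        simp [Matrix.det_fin_two_of]
      all_goals
        simp only [Units.val_mul, val_lowUnip, val_slOf_gl, Matrix.mul_apply, Fin.sum_univ_two]
        simp [h00, h10, ha', pow_succ]
        field_simp
        try ring
  obtain ⟨a, c, hco, hc, ha, A, hA, hdet, h00, h10⟩ := step (N.totient * k)
  have hone : (p : ZMod N) ^ (N.totient * k) = 1 := by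
    have hu : IsUnit (p : ZMod N) := (ZMod.isUnit_iff_coprime p N).2 (hp.coprime_iff_not_dvd.2 hpN)
    rw [pow_mul]
    obtain ⟨u, hu⟩ := hu
    rw [← hu, ← Units.val_pow_eq_pow_val, ZMod.pow_totient, Units.val_one, one_pow]
  obtain ⟨b, d, hbd, hγ⟩ := exists_gamma1_col hco (ha.trans hone) hc
  set q : ℝ := (p : ℝ) ^ (N.totient * k) with hq
  have hq0 : q ≠ 0 := pow_ne_zero _ hp0
  set γ : GL (Fin 2) ℝ := ((slOf a b c d hbd : SL(2, ℤ)) : GL (Fin 2) ℝ) with hγd
  set M := γ⁻¹ * A with hM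
  have hMS : M ∈ S := mul_mem (inv_mem (hG _ hγ)) hA
  have hT : unip 1 ∈ S := by
    have h := hG (slOf 1 1 0 1 (by ring)) (by simp [Gamma1_mem])
    convert! h
    exact Units.ext (by rw [val_slOf_gl, val_unip]; simp)
  have hbdR : (a : ℝ) * d - b * c = 1 := by exact_mod_cast hbd
  have hγi : (γ⁻¹ : GL (Fin 2) ℝ).1 = !![(d : ℝ), -b; -c, a] := by
    refine Units.inv_eq_of_mul_eq_one_left ?_
    rw [hγd, val_slOf_gl]
    ext i j
    fin_cases i <;> fin_cases j <;> simp [Matrix.mul_apply, Fin.sum_univ_two] <;> linarith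
  have hM00 : (M : Matrix (Fin 2) (Fin 2) ℝ) 0 0 = 1 / q := by
    rw [hM, Units.val_mul, hγi, Matrix.mul_apply, Fin.sum_univ_two, h00, h10]
    simp
    field_simp
    linarith
  have hM10 : (M : Matrix (Fin 2) (Fin 2) ℝ) 1 0 = 0 := by
    rw [hM, Units.val_mul, hγi, Matrix.mul_apply, Fin.sum_univ_two, h00, h10]
    simp
    ring
  have hMdet : (M : Matrix (Fin 2) (Fin 2) ℝ).det = 1 := by
    rw [hM, Units.val_mul, Matrix.det_mul, hdet, hγi, Matrix.det_fin_two_of]
    linarith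
  rw [Matrix.det_fin_two, hM10, mul_zero, sub_zero, hM00] at hMdet
  clear_value M
  have key : unip (1 / ((p ^ (N.totient * k) : ℕ) : ℝ) ^ 2) * M = M * unip 1 := by
    refine Units.ext ?_
    rw [Units.val_mul, Units.val_mul, val_unip, val_unip]
    ext i j
    fin_cases i <;> fin_cases j <;>
      simp [Matrix.mul_apply, Fin.sum_univ_two, hM10, hM00, ← hq]
    field_simp at hMdet ⊢
    rw [hMdet]
    ring
  rw [eq_mul_inv_of_mul_eq key]
  exact mul_mem (mul_mem hMS hT) (inv_mem hMS)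

/-- If `g (p τ)` is fixed by the lower unipotent of parameter `N`, then `g = 0`. -/
theorem eq_zero_of_raise [NeZero N] {g : ℍ → ℂ} (hg : g ∈ qFn)
    (h0 : (qExpansion 1 g).coeff 0 = 0) (hG : ∀ γ ∈ Gamma1 N, g ∣[(1 : ℤ)] γ = g)
    {p : ℕ} (hp : p.Prime) (hpN : ¬ p ∣ N)
    (hL : (g ∣[(1 : ℤ)] heckeDiagMatrix p) ∣[(1 : ℤ)] lowUnip N = g ∣[(1 : ℤ)] heckeDiagMatrix p) :
    g = 0 := by
  have hconj : heckeDiagMatrix p * lowUnip N = lowUnip ((N : ℝ) / p) * heckeDiagMatrix p := by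
    refine Units.ext ?_
    have : (p : ℝ) ≠ 0 := Nat.cast_ne_zero.2 hp.ne_zero
    rw [Units.val_mul, Units.val_mul, val_heckeDiagMatrix hp.ne_zero, val_lowUnip, val_lowUnip]
    ext i j
    fin_cases i <;> fin_cases j <;> simp [Matrix.mul_apply, Fin.sum_univ_two]
    field_simp
  have hmem : lowUnip ((N : ℝ) / p) ∈ slashStab 1 g := by
    rw [← SlashAction.slash_mul, hconj, SlashAction.slash_mul] at hL
    have := congrArg (fun F : ℍ → ℂ => F ∣[(1 : ℤ)] (heckeDiagMatrix p)⁻¹) hL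
    simp only [← SlashAction.slash_mul, mul_inv_cancel, mul_inv_cancel_right, SlashAction.slash_one] at this
    exact this
  refine eq_zero_of_small_periods hg h0 fun n hn => ?_
  refine ⟨(p ^ (N.totient * n)) ^ 2, ?_, fun τ => ?_⟩
  · calc n < 2 ^ n := Nat.lt_two_pow_self
      _ ≤ p ^ n := Nat.pow_le_pow_left hp.two_le n
      _ ≤ p ^ (N.totient * n) := Nat.pow_le_pow_right hp.pos
          (Nat.le_mul_of_pos_left n (Nat.totient_pos.2 (NeZero.pos N)))
      _ ≤ _ := Nat.le_self_pow two_ne_zero _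
  · have := exists_small_unip_mem (S := slashStab 1 g) hp hpN (fun γ hγ => hG γ hγ) hmem n
    have h2 := congrFun (mem_slashStab.1 this) τ
    rw [slash_unip_apply] at h2
    simpa using h2

section Transfer

variable {p : ℕ}

/-- Transfer of the Hecke representatives along the lower unipotent of parameter `N`. -/
theorem transfer_lowUnip [NeZero N] (hp : p.Prime) (hpN : ¬ p ∣ N) {F : ℍ → ℂ}
    (hF : ∀ γ ∈ Gamma1 N, F ∣[(1 : ℤ)] γ = F) {γp : SL(2, ℤ)} (hγp : γp ∈ Gamma0 N)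
    (hdp : ((γp 1 1 : ℤ) : ZMod N) = p) :
    (heckeU 1 p F + (F ∣[(1 : ℤ)] γp) ∣[(1 : ℤ)] heckeDiagMatrix p) ∣[(1 : ℤ)] lowUnip N
      = heckeU 1 p F + (F ∣[(1 : ℤ)] γp) ∣[(1 : ℤ)] heckeDiagMatrix p := by
  classical
  haveI := Fact.mk hp
  have hN0 : (N : ZMod p) ≠ 0 := by rwa [Ne, CharP.cast_eq_zero_iff (ZMod p) p]
  let Φ : Option (ZMod p) → (ℍ → ℂ) := fun i => i.elim
    ((F ∣[(1 : ℤ)] γp) ∣[(1 : ℤ)] heckeDiagMatrix p) fun x => F ∣[(1 : ℤ)] heckeMatrix p x.val
  have hsum : ∑ i, Φ i = heckeU 1 p F + (F ∣[(1 : ℤ)] γp) ∣[(1 : ℤ)] heckeDiagMatrix p := by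
    rw [Fintype.sum_option, add_comm]
    congr 1
    simp only [Φ, Option.elim, heckeU]
    refine Finset.sum_bij (fun (x : ZMod p) _ => x.val) (fun x _ => Finset.mem_range.2 (ZMod.val_lt x))
      (fun x _ y _ h => ZMod.val_injective p h)
      (fun j hj => ⟨(j : ZMod p), Finset.mem_univ _, ZMod.val_cast_of_lt (Finset.mem_range.1 hj)⟩)
      fun x _ => rfl
  let σ : Option (ZMod p) → Option (ZMod p) := fun i => i.elim (some (N : ZMod p)⁻¹) fun x =>
    if 1 + x * N = 0 then none else some (x * (1 + x * (N : ZMod p))⁻¹)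
  have hinj : Function.Injective σ := by
    rintro (_ | x) (_ | y) h <;> simp only [σ, Option.elim] at h
    · rfl
    · split_ifs at h with hy
      exfalso
      have h' := Option.some_injective _ h
      rw [eq_mul_inv_iff_mul_eq₀ hy, inv_mul_eq_iff_eq_mul₀ hN0] at h'
      exact one_ne_zero (α := ZMod p) (by linear_combination h')
    · split_ifs at h with hx
      exfalso
      have h' := Option.some_injective _ h
      rw [eq_comm, eq_mul_inv_iff_mul_eq₀ hx, inv_mul_eq_iff_eq_mul₀ hN0] at h'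
      exact one_ne_zero (α := ZMod p) (by linear_combination h')
    · split_ifs at h with hx hy
      · congr 1
        exact mul_right_cancel₀ hN0 (by linear_combination hx - hy)
      · have h' := Option.some_injective _ h
        rw [mul_inv_eq_iff_eq_mul₀ (by assumption), mul_right_comm,
          eq_mul_inv_iff_mul_eq₀ (by assumption)] at h'
        congr 1
        linear_combination h'
  have hkey : ∀ i, Φ i ∣[(1 : ℤ)] lowUnip N = Φ (σ i) := by
    intro i
    have hp0 : (p : ℝ) ≠ 0 := Nat.cast_ne_zero.2 hp.ne_zero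
    have absorb : ∀ δ ∈ Gamma1 N, ∀ A B : GL (Fin 2) ℝ, A = ((δ : SL(2, ℤ)) : GL (Fin 2) ℝ) * B →
        F ∣[(1 : ℤ)] A = F ∣[(1 : ℤ)] B := by
      intro δ hδ A B h
      rw [h, SlashAction.slash_mul]
      exact congrArg (fun G : ℍ → ℂ => G ∣[(1 : ℤ)] B) (hF δ hδ)
    have hmap : ∀ A B : SL(2, ℤ), A ∈ Gamma0 N → B ∈ Gamma0 N →
        ((A 1 1 : ℤ) : ZMod N) * ((B 1 1 : ℤ) : ZMod N) = (((A * B : SL(2, ℤ)) 1 1 : ℤ) : ZMod N) :=
      fun A B hA hB => ((Gamma0Map N).map_mul ⟨A, hA⟩ ⟨B, hB⟩).symm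
    have hγdef : ∀ δ : SL(2, ℤ), δ ∈ Gamma0 N → ((δ 1 1 : ℤ) : ZMod N) = 1 → δ ∈ Gamma1 N := by
      intro δ h0 h1
      rw [Gamma1_mem]
      rw [Gamma0_mem] at h0
      refine ⟨?_, h1, h0⟩
      have := congrArg (fun x : ℤ => (x : ZMod N)) ((Matrix.det_fin_two δ.1).symm.trans δ.2)
      simpa [h0, h1] using this
    rcases i with _ | x
    · set k := ((N : ZMod p)⁻¹).val with hk
      obtain ⟨e, he⟩ : (p : ℤ) ∣ 1 - k * N := by
        rw [← ZMod.intCast_zmod_eq_zero_iff_dvd]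
        push_cast
        rw [hk, ZMod.natCast_zmod_val, inv_mul_cancel₀ hN0, sub_self]
      set B := slOf p (-k : ℤ) N e (by linarith) with hB
      have hB0 : B ∈ Gamma0 N := by simp [Gamma0_mem, hB]
      have hB1 : ((B 1 1 : ℤ) : ZMod N) * p = 1 := by
        have := congrArg (fun x : ℤ => (x : ZMod N)) he
        simpa [hB, mul_comm] using this.symm
      have hmem : γp * B ∈ Gamma1 N := hγdef _ (mul_mem hγp hB0) (by
        rw [← hmap γp B hγp hB0, hdp, mul_comm, hB1])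
      simp only [Φ, σ, Option.elim, ← hk]
      rw [ModularForm.SL_slash, ← SlashAction.slash_mul, ← SlashAction.slash_mul]
      refine absorb _ hmem _ _ ?_
      simp only [map_mul, mul_assoc]
      congr 1
      refine Units.ext ?_
      have he' : (1 : ℝ) - k * N = p * e := by exact_mod_cast he
      rw [Units.val_mul, Units.val_mul, val_heckeDiagMatrix hp.ne_zero, val_lowUnip, hB, val_slOf_gl,
        val_heckeMatrix hp.ne_zero]
      ext i j
      fin_cases i <;> fin_cases j <;> simp [Matrix.mul_apply, Fin.sum_univ_two] <;> linarith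
    · set j := x.val with hj
      by_cases hx : 1 + x * N = 0
      · obtain ⟨e, he⟩ : (p : ℤ) ∣ 1 + j * N := by
          rw [← ZMod.intCast_zmod_eq_zero_iff_dvd]
          push_cast
          rw [hj, ZMod.natCast_zmod_val, hx]
        set A := slOf e (j : ℤ) N p (by linarith) with hA
        have hA0 : A ∈ Gamma0 N := by simp [Gamma0_mem, hA]
        have hmem : A * γp⁻¹ ∈ Gamma1 N := by
          refine hγdef _ (mul_mem hA0 (inv_mem hγp)) ?_
          rw [← hmap A γp⁻¹ hA0 (inv_mem hγp)]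
          have h1 := hmap γp γp⁻¹ hγp (inv_mem hγp)
          rw [mul_inv_cancel, hdp] at h1
          simpa [hA] using h1
        simp only [Φ, σ, Option.elim, hx, if_true, ← hj]
        rw [ModularForm.SL_slash, ← SlashAction.slash_mul, ← SlashAction.slash_mul]
        refine absorb _ hmem _ _ ?_
        simp only [map_mul, map_inv, mul_assoc, inv_mul_cancel_left]
        refine Units.ext ?_
        have he' : (1 : ℝ) + j * N = p * e := by exact_mod_cast he
        rw [Units.val_mul, Units.val_mul, val_heckeMatrix hp.ne_zero, val_lowUnip, hA, val_slOf_gl,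
          val_heckeDiagMatrix hp.ne_zero]
        ext i j
        fin_cases i <;> fin_cases j <;> simp [Matrix.mul_apply, Fin.sum_univ_two] <;> linarith
      · set k := (x * (1 + x * (N : ZMod p))⁻¹).val with hk
        obtain ⟨e, he⟩ : (p : ℤ) ∣ j - k * (1 + j * N) := by
          rw [← ZMod.intCast_zmod_eq_zero_iff_dvd]
          push_cast
          rw [hj, hk, ZMod.natCast_zmod_val, ZMod.natCast_zmod_val, mul_assoc,
            inv_mul_cancel₀ hx, mul_one, sub_self]
        set δ := slOf (1 + j * N) e (p * N) (1 - k * N) (by linear_combination (N : ℤ) * he) with hδ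
        have hmem : δ ∈ Gamma1 N := by simp [Gamma1_mem, hδ]
        simp only [Φ, σ, Option.elim, hx, if_false, ← hj, ← hk]
        rw [← SlashAction.slash_mul]
        refine absorb _ hmem _ _ ?_
        refine Units.ext ?_
        have he' : (j : ℝ) - k * (1 + j * N) = p * e := by exact_mod_cast he
        rw [Units.val_mul, Units.val_mul, val_heckeMatrix hp.ne_zero, val_heckeMatrix hp.ne_zero,
          val_lowUnip, hδ, val_slOf_gl]
        ext i j
        fin_cases i <;> fin_cases j <;> simp [Matrix.mul_apply, Fin.sum_univ_two] <;> linarith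
  rw [← hsum, SlashAction.sum_slash, Finset.sum_congr rfl fun i _ => hkey i]
  exact Fintype.sum_bijective σ (Finite.injective_iff_bijective.1 hinj) _ _ fun _ => rfl

end Transfer

variable [NeZero N] (ε : DirichletCharacter ℂ N) (f : CuspForm (Gamma1 N) 1)

theorem one_mem_strictPeriods_gamma1 (M : ℕ) :
    (1 : ℝ) ∈ ((Gamma1 M : Subgroup SL(2, ℤ)) : Subgroup (GL (Fin 2) ℝ)).strictPeriods := by
  rw [Subgroup.mem_strictPeriods_iff]
  refine ⟨slOf 1 1 0 1 (by ring), by simp [Gamma1_mem], Units.ext ?_⟩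
  ext i j
  fin_cases i <;> fin_cases j <;> simp [Matrix.GeneralLinearGroup.upperRightHom]

omit [NeZero N] in
theorem conj_mem_gamma1 {γ δ : SL(2, ℤ)} (hγ : γ ∈ Gamma0 N) (hδ : δ ∈ Gamma1 N) :
    γ * δ * γ⁻¹ ∈ Gamma1 N := by
  have hd := Gamma1_in_Gamma0 N hδ
  rw [Gamma1_mem] at hδ
  obtain ⟨-, h11, -⟩ := hδ
  have h0 : γ * δ * γ⁻¹ ∈ Gamma0 N := mul_mem (mul_mem hγ hd) (inv_mem hγ)
  have h1 : Gamma0Map N ⟨γ * δ * γ⁻¹, h0⟩ = 1 := by
    have : (⟨γ * δ * γ⁻¹, h0⟩ : Gamma0 N) = ⟨γ, hγ⟩ * ⟨δ, hd⟩ * ⟨γ, hγ⟩⁻¹ := rfl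
    rw [this, map_mul, map_mul, show Gamma0Map N ⟨δ, hd⟩ = 1 from h11, mul_one, ← map_mul,
      mul_inv_cancel, map_one]
  rw [Gamma1_mem]
  rw [Gamma0_mem] at h0
  refine ⟨?_, h1, h0⟩
  have := congrArg (fun x : ℤ => (x : ZMod N))
    ((Matrix.det_fin_two (γ * δ * γ⁻¹ : SL(2, ℤ)).1).symm.trans (γ * δ * γ⁻¹ : SL(2, ℤ)).2)
  have h1' : (((γ * δ * γ⁻¹ : SL(2, ℤ)) 1 1 : ℤ) : ZMod N) = 1 := h1
  push_cast at this
  rw [h0, h1'] at this
  simpa using this

theorem cuspForm_slash_gamma1 {k : ℤ} {M : ℕ} (F : CuspForm (Gamma1 M) k) :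
    ∀ γ ∈ Gamma1 M, (F : ℍ → ℂ) ∣[k] γ = F := fun γ hγ =>
  SlashInvariantFormClass.slash_action_eq F _ ⟨γ, hγ, rfl⟩

theorem isZeroAtImInfty_slash {k : ℤ} {M : ℕ} [NeZero M] (F : CuspForm (Gamma1 M) k) (γ : SL(2, ℤ)) :
    IsZeroAtImInfty ((F : ℍ → ℂ) ∣[k] γ) := by
  refine F.zero_at_cusps' ?_ (Matrix.SpecialLinearGroup.mapGL ℝ γ) rfl
  exact (Subgroup.IsArithmetic.isCusp_iff_isCusp_SL2Z _).2 (isCusp_SL2Z_iff'.2 ⟨γ, rfl⟩)

theorem slash_mem_qFn {k : ℤ} {γ : SL(2, ℤ)} (hγ : γ ∈ Gamma0 N) (F : CuspForm (Gamma1 N) k) :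
    (F : ℍ → ℂ) ∣[k] γ ∈ qFn := by
  refine ⟨?_, (CuspFormClass.holo F).slash _ _, (isZeroAtImInfty_slash F γ).boundedAtFilter⟩
  have hT : slOf 1 1 0 1 (by ring) ∈ Gamma1 N := by simp [Gamma1_mem]
  have h1 : ((F : ℍ → ℂ) ∣[k] γ) ∣[k] slOf 1 1 0 1 (by ring) = (F : ℍ → ℂ) ∣[k] γ := by
    rw [← SlashAction.slash_mul,
      show γ * slOf 1 1 0 1 (by ring) = (γ * slOf 1 1 0 1 (by ring) * γ⁻¹) * γ by
        rw [inv_mul_cancel_right],
      SlashAction.slash_mul, cuspForm_slash_gamma1 F _ (conj_mem_gamma1 hγ hT)]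
  intro z
  by_cases hz : 0 < z.im
  · have hz1 : 0 < (z + 1).im := by simpa using hz
    simp only [Function.comp_apply, ofComplex_apply_of_im_pos hz, ofComplex_apply_of_im_pos hz1]
    have h2 := congrFun h1 ⟨z, hz⟩
    rw [ModularForm.SL_slash, show ((slOf 1 1 0 1 (by ring) : SL(2, ℤ)) : GL (Fin 2) ℝ) = unip 1
      from Units.ext (by rw [val_slOf_gl, val_unip]; simp), slash_unip_apply] at h2
    convert! h2 using 2
    exact UpperHalfPlane.ext (by simp [coe_vadd, add_comm])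
  · push Not at hz
    simp only [Function.comp_apply, ofComplex_apply_of_im_nonpos hz,
      ofComplex_apply_of_im_nonpos (show (z + 1).im ≤ 0 by simpa using hz)]

/-- The nebentypus of `f`. -/
theorem slash_eq_of_hecke
    (hT : ∀ p : ℕ, p.Prime → ¬ p ∣ N → ∀ n : ℕ,
        ModularFormClass.qCoeff f (p * n) +
            ε (p : ZMod N) * (if p ∣ n then ModularFormClass.qCoeff f (n / p) else 0) =
          ModularFormClass.qCoeff f p * ModularFormClass.qCoeff f n)
    (γ : SL(2, ℤ)) (hγ : γ ∈ Gamma0 N) :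
    (f : ℍ → ℂ) ∣[(1 : ℤ)] γ = ε ((γ 1 1 : ℤ) : ZMod N) • (f : ℍ → ℂ) := by
  have hu : IsUnit ((γ 1 1 : ℤ) : ZMod N) := by
    refine IsUnit.of_mul_eq_one ((γ 0 0 : ℤ) : ZMod N) ?_
    have := congrArg (fun x : ℤ => (x : ZMod N)) ((Matrix.det_fin_two γ.1).symm.trans γ.2)
    rw [Gamma0_mem] at hγ
    simpa [hγ, mul_comm] using this
  obtain ⟨p, hpN', hp, hpd⟩ := Nat.forall_exists_prime_gt_and_eq_mod hu N
  have hpN : ¬ p ∣ N := fun h => absurd (Nat.le_of_dvd (NeZero.pos N) h) (not_le.2 hpN')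
  rw [← hpd]
  set F : ℍ → ℂ := (f : ℍ → ℂ) with hF
  have hFq : F ∈ qFn := modularForm_mem_qFn f (one_mem_strictPeriods_gamma1 N)
  set ap := ModularFormClass.qCoeff f p with hap
  -- the coefficient relation as an identity of functions
  have hUq : heckeU 1 p F ∈ qFn := ⟨ModularForm.periodic_heckeU_comp_ofComplex hFq.1 1 p,
    ModularForm.mdifferentiable_heckeU hFq.2.1 1 p, ModularForm.isBoundedAtImInfty_heckeU hFq.2.2 1 p⟩
  have hTq : heckeT 1 p F ∈ qFn := ⟨ModularForm.periodic_heckeT_comp_ofComplex hFq.1 1 p,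
    ModularForm.mdifferentiable_heckeT hFq.2.1 1 p, ModularForm.isBoundedAtImInfty_heckeT hFq.2.2 1 p⟩
  have hrel : heckeU 1 p F + ε (p : ZMod N) • (F ∣[(1 : ℤ)] heckeDiagMatrix p) = ap • F := by
    have h : (⟨_, hUq⟩ : qFn) + ε (p : ZMod N) • ((⟨_, hTq⟩ : qFn) - ⟨_, hUq⟩) = ap • (⟨_, hFq⟩ : qFn) := by
      refine qHom_injective (PowerSeries.ext fun n => ?_)
      simp only [map_add, map_smul, map_sub, qHom_apply]
      show ModularFormClass.qCoeff (heckeU 1 p F) n + ε (p : ZMod N) *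
        (ModularFormClass.qCoeff (heckeT 1 p F) n - ModularFormClass.qCoeff (heckeU 1 p F) n)
          = ap * ModularFormClass.qCoeff F n
      rw [UpperHalfPlane.qCoeff_heckeU hFq.1 hFq.2.1 hFq.2.2 1 hp.ne_zero,
        UpperHalfPlane.qCoeff_heckeT hFq.1 hFq.2.1 hFq.2.2 1 hp.ne_zero,
        ModularForm.coeffHeckeT_eq_coeffHeckeU_add, ModularForm.coeffHeckeU_apply, mul_comm n p,
        add_sub_cancel_left, hap, ← hT p hp hpN n]
      simp
    have h' := congrArg Subtype.val h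
    simpa [heckeT_eq_heckeU_add] using h'
  set g : ℍ → ℂ := F ∣[(1 : ℤ)] γ - ε (p : ZMod N) • F with hg
  have hgq : g ∈ qFn := qFn.sub_mem (slash_mem_qFn hγ f) (qFn.smul_mem hFq _)
  have hg1 : ∀ δ ∈ Gamma1 N, g ∣[(1 : ℤ)] δ = g := by
    intro δ hδ
    rw [hg, slash_sub, ModularForm.SL_smul_slash, cuspForm_slash_gamma1 f δ hδ,
      ← SlashAction.slash_mul, show γ * δ = (γ * δ * γ⁻¹) * γ by rw [inv_mul_cancel_right],
      SlashAction.slash_mul, cuspForm_slash_gamma1 f _ (conj_mem_gamma1 hγ hδ)]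
  have hg0 : (qExpansion 1 g).coeff 0 = 0 := by
    rw [UpperHalfPlane.qExpansion_coeff_zero one_pos (analyticAt_of_mem_qFn hgq)
      (by exact_mod_cast hgq.1)]
    refine IsZeroAtImInfty.valueAtInfty_eq_zero ?_
    have h0 : Filter.Tendsto F atImInfty (nhds 0) := by
      have := isZeroAtImInfty_slash f 1
      rwa [SlashAction.slash_one] at this
    have h1 := Filter.Tendsto.sub (isZeroAtImInfty_slash f γ) (h0.const_mul (ε (p : ZMod N)))
    rw [mul_zero, sub_zero] at h1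
    exact h1
  have hgD : g ∣[(1 : ℤ)] heckeDiagMatrix p =
      (heckeU 1 p F + (F ∣[(1 : ℤ)] γ) ∣[(1 : ℤ)] heckeDiagMatrix p) - ap • F := by
    rw [hg, ← hrel, slash_sub, ModularForm.smul_slash, σ_heckeDiagMatrix]
    simp only [ContinuousAlgEquiv.refl_apply]
    abel
  have hLeq : ((slOf 1 0 N 1 (by ring) : SL(2, ℤ)) : GL (Fin 2) ℝ) = lowUnip N :=
    Units.ext (by rw [val_slOf_gl, val_lowUnip]; simp)
  have hFL : F ∣[(1 : ℤ)] lowUnip N = F := by
    rw [← hLeq]
    exact cuspForm_slash_gamma1 f (slOf 1 0 N 1 (by ring)) (by simp [Gamma1_mem])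
  have hzero := eq_zero_of_raise hgq hg0 hg1 hp hpN (by
    rw [hgD, slash_sub, transfer_lowUnip hp hpN (cuspForm_slash_gamma1 f) hγ hpd.symm,
      ModularForm.smul_slash, hFL, ← hLeq, σ, if_pos (by simp)]
    rfl)
  exact sub_eq_zero.1 hzero

/-- The nebentypus of a weight-one form is odd. -/
theorem odd_of_hecke (hf₁ : ModularFormClass.qCoeff f 1 = 1)
    (hT : ∀ p : ℕ, p.Prime → ¬ p ∣ N → ∀ n : ℕ,
        ModularFormClass.qCoeff f (p * n) +
            ε (p : ZMod N) * (if p ∣ n then ModularFormClass.qCoeff f (n / p) else 0) =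
          ModularFormClass.qCoeff f p * ModularFormClass.qCoeff f n) : ε.Odd := by
  have h := slash_eq_of_hecke ε f hT (-1) (by simp [Gamma0_mem])
  obtain ⟨τ, hτ⟩ : ∃ τ, f τ ≠ 0 := by
    by_contra hh
    push Not at hh
    have : (f : ℍ → ℂ) = 0 := funext hh
    rw [ModularFormClass.qCoeff, this, qExpansion_zero] at hf₁
    simp at hf₁
  have h1 := congrFun h τ
  rw [ModularForm.SL_slash_apply] at h1
  simp [denom] at h1
  show ε (-1) = -1
  refine mul_right_cancel₀ hτ ?_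
  rw [← h1]
  ring

end FLTAgent.DS
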