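import Mathlib.NumberTheory.ModularForms.NormTrace
import Fermat.Agent.Periods.Primitive
import Fermat.Agent.Periods.Transfer

/-!
# Periods of weight two cusp forms on `Γ₁(M)`

`perOne M γ` is the functional `h ↦ F_h (γ z) - F_h z`, where `F_h` is a primitive of `h`.
It vanishes on elements of trace `±2` and only `h = 0` is killed by all of them.
-/

set_option autoImplicit false

noncomputable section

namespace FLTAgent.DS

open scoped MatrixGroups Topology Manifold Real ModularForm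
open UpperHalfPlane hiding I
open Complex Filter CongruenceSubgroup Metric ModularCurve
open Function (Periodic)

local notation "𝕢" => Function.Periodic.qParam

variable {M : ℕ}

/-- Weight two cusp forms on `Γ₁(M)`. -/
abbrev SOne (M : ℕ) : Type := CuspForm (Gamma1 M : Subgroup (GL (Fin 2) ℝ)) 2

/-- `F` is a primitive of `h`. -/
def IsPrimOne (h : SOne M) (F : ℍ → ℂ) : Prop :=
  ∀ τ : ℍ, HasDerivAt (F ∘ ofComplex) (h τ) ↑τ

theorem slash_eq_of_mem_Gamma1 {k : ℤ} (h : CuspForm (Gamma1 M : Subgroup (GL (Fin 2) ℝ)) k)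
    {γ : SL(2, ℤ)} (hγ : γ ∈ Gamma1 M) : ⇑h ∣[k] γ = ⇑h := by
  rw [ModularForm.SL_slash]
  exact SlashInvariantFormClass.slash_action_eq h _ (Subgroup.mem_map_of_mem _ hγ)

theorem T_pow_conj_mem_Gamma1 (δ : SL(2, ℤ)) :
    δ * ModularGroup.T ^ (M : ℤ) * δ⁻¹ ∈ Gamma1 M := by
  have hT : ModularGroup.T ^ (M : ℤ) ∈ CongruenceSubgroup.Gamma M :=
    ModularGroup_T_pow_mem_Gamma M M dvd_rfl
  have h := (Gamma_normal M).conj_mem _ hT δ
  rw [Gamma_mem] at h
  exact (Gamma1_mem M _).2 ⟨h.1, h.2.2.2, h.2.2.1⟩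

theorem IsPrimOne.hasDerivAt_comp_gl {h : SOne M} {F : ℍ → ℂ} (hF : IsPrimOne h F)
    {b : GL (Fin 2) ℝ} (hb : 0 < b.det.val) (τ : ℍ) :
    HasDerivAt (fun z : ℂ => F (b • ofComplex z)) ((⇑h ∣[(2 : ℤ)] b) τ) τ := by
  have hb' : 0 < b.val.det := by rwa [← Matrix.GeneralLinearGroup.val_det_apply]
  have h1 := (hasStrictDerivAt_smul hb' τ).hasDerivAt
  have h3 : HasDerivAt (F ∘ ofComplex) (h (b • τ))
      ((fun z : ℂ => (b • ofComplex z : ℍ).1) (τ : ℂ)) := by
    simpa only [ofComplex_apply] using! hF (b • τ)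
  have h4 := h3.comp (τ : ℂ) h1
  refine (h4.congr_deriv ?_).congr_of_eventuallyEq (.of_forall fun z => ?_)
  · rw [ModularForm.slash_apply, UpperHalfPlane.σ, if_pos hb, abs_of_pos hb]
    simp [div_eq_mul_inv, mul_assoc, zpow_neg, Matrix.GeneralLinearGroup.val_det_apply]
  · simp only [Function.comp_apply]
    exact congrArg F (ofComplex_apply _).symm

theorem IsPrimOne.hasDerivAt_comp_sl {h : SOne M} {F : ℍ → ℂ} (hF : IsPrimOne h F)
    (δ : SL(2, ℤ)) (τ : ℍ) :
    HasDerivAt (fun z : ℂ => F (δ • ofComplex z)) ((⇑h ∣[(2 : ℤ)] δ) τ) τ := by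
  have hd : (0 : ℝ) < (δ : GL (Fin 2) ℝ).det.val := by
    rw [Matrix.GeneralLinearGroup.val_det_apply]
    exact lt_of_lt_of_eq one_pos (Matrix.SpecialLinearGroup.det_coe _).symm
  rw [ModularForm.SL_slash]
  exact hF.hasDerivAt_comp_gl hd τ

variable [NeZero M]

omit [NeZero M] in
theorem periodic_slash_one (h : SOne M) (δ : SL(2, ℤ)) :
    Periodic ((⇑h ∣[(2 : ℤ)] δ) ∘ ofComplex) (M : ℝ) := by
  have key : (⇑h ∣[(2 : ℤ)] δ) ∣[(2 : ℤ)] (ModularGroup.T ^ (M : ℤ)) = ⇑h ∣[(2 : ℤ)] δ := by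
    conv_rhs => rw [← slash_eq_of_mem_Gamma1 h (T_pow_conj_mem_Gamma1 δ)]
    rw [← SlashAction.slash_mul, ← SlashAction.slash_mul]
    group
  intro w
  by_cases hw : 0 < w.im
  · have hw' : 0 < (w + ((M : ℝ) : ℂ)).im := by simpa using hw
    simp only [Function.comp_apply, ofComplex_apply_of_im_pos hw,
      ofComplex_apply_of_im_pos hw']
    conv_rhs => rw [← congrFun key ⟨w, hw⟩]
    rw [ModularForm.SL_slash_apply (γ := ModularGroup.T ^ (M : ℤ))]
    have hden : denom (ModularGroup.T ^ (M : ℤ) : SL(2, ℤ)) (⟨w, hw⟩ : ℍ) = 1 := by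
      rw [ModularGroup.denom_apply]
      simp only [ModularGroup.coe_T_zpow]
      simp
    rw [hden, one_zpow, mul_one]
    refine congrArg _ (UpperHalfPlane.ext ?_)
    rw [ModularGroup.coe_T_zpow_smul_eq]
    simp
  · have hw' : (w + ((M : ℝ) : ℂ)).im ≤ 0 := by simpa using hw
    simp only [Function.comp_apply, ofComplex_apply_eq_of_im_nonpos hw' (not_lt.mp hw)]

/-- The expansion of a primitive at every cusp. -/
theorem IsPrimOne.exists_cuspExpansion {h : SOne M} {F : ℍ → ℂ} (hF : IsPrimOne h F)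
    (δ : SL(2, ℤ)) :
    ∃ A : ℂ → ℂ, DifferentiableOn ℂ A (ball 0 1) ∧ ∀ w : ℍ, F (δ • w) = A (𝕢 M w) := by
  have hM : (0 : ℝ) < M := by exact_mod_cast Nat.pos_of_ne_zero (NeZero.ne M)
  have hhol : MDiff (⇑h ∣[(2 : ℤ)] δ) := by
    rw [ModularForm.SL_slash]; exact (CuspFormClass.holo h).slash 2 _
  obtain ⟨A, hA, -, hAd⟩ := Periods.exists_primitive_of_periodic hM (periodic_slash_one h δ)
    hhol (CuspFormClass.zero_at_infty_slash h δ)
  obtain ⟨c, hc⟩ := Periods.exists_eq_add_const (hF.hasDerivAt_comp_sl δ) hAd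
  refine ⟨fun q => A q + c, hA.add_const c, fun w => ?_⟩
  have e := hc w
  simp only [ofComplex_apply] at e
  exact e

theorem IsPrimOne.exists_tendsto {h : SOne M} {F : ℍ → ℂ} (hF : IsPrimOne h F) (δ : SL(2, ℤ)) :
    ∃ L : ℂ, Tendsto (fun w : ℍ => F (δ • w)) atImInfty (𝓝 L) := by
  obtain ⟨A, hA, hAeq⟩ := hF.exists_cuspExpansion δ
  refine ⟨A 0, ?_⟩
  simp only [hAeq]
  exact Periods.tendsto_of_cuspExpansion hA (by exact_mod_cast Nat.pos_of_ne_zero (NeZero.ne M))

theorem exists_isPrimOne (h : SOne M) : ∃ F : ℍ → ℂ, IsPrimOne h F := by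
  have hM : (0 : ℝ) < M := by exact_mod_cast Nat.pos_of_ne_zero (NeZero.ne M)
  obtain ⟨A, -, -, hAd⟩ := Periods.exists_primitive_of_periodic hM (g := ⇑h)
    (by simpa using periodic_slash_one h 1) (CuspFormClass.holo h)
    (CuspFormClass.zero_at_infty h)
  exact ⟨fun w : ℍ => A (𝕢 M w), fun τ => (hAd τ).congr_of_eventuallyEq
    (by filter_upwards [isOpen_upperHalfPlaneSet.mem_nhds τ.im_pos] with z hz
        simp [ofComplex_apply_of_im_pos hz])⟩

/-- A primitive. -/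
def primOne (h : SOne M) : ℍ → ℂ := (exists_isPrimOne h).choose

theorem isPrimOne_primOne (h : SOne M) : IsPrimOne h (primOne h) :=
  (exists_isPrimOne h).choose_spec

omit [NeZero M] in
theorem IsPrimOne.exists_const {h : SOne M} {F : ℍ → ℂ} (hF : IsPrimOne h F) {γ : SL(2, ℤ)}
    {c : ℂ} (hγ : ⇑h ∣[(2 : ℤ)] γ = c • ⇑h) :
    ∃ a : ℂ, ∀ z : ℍ, F (γ • z) = c * F z + a := by
  obtain ⟨a, ha⟩ := Periods.exists_eq_add_const
    (F := fun z : ℂ => F (γ • ofComplex z)) (G := fun z : ℂ => c * (F ∘ ofComplex) z)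
    (φ := fun τ => c * h τ)
    (fun τ => by
      have e := hF.hasDerivAt_comp_sl γ τ
      rwa [hγ, Pi.smul_apply, smul_eq_mul] at e)
    (fun τ => (hF τ).const_mul c)
  refine ⟨a, fun z => ?_⟩
  have e := ha z
  simpa only [Function.comp_apply, ofComplex_apply] using e

/-- The periods, computed with the chosen primitive. -/
def perFun (h : SOne M) (γ : SL(2, ℤ)) : ℂ :=
  primOne h (γ • UpperHalfPlane.I) - primOne h UpperHalfPlane.I

theorem perFun_eq {h : SOne M} {F : ℍ → ℂ} (hF : IsPrimOne h F) {γ : SL(2, ℤ)}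
    (hγ : γ ∈ Gamma1 M) (z : ℍ) : perFun h γ = F (γ • z) - F z := by
  obtain ⟨a, ha⟩ := hF.exists_const (c := 1) (by rw [slash_eq_of_mem_Gamma1 h hγ, one_smul])
  obtain ⟨b, hb⟩ := Periods.exists_eq_add_const (isPrimOne_primOne h) hF
  simp only [Function.comp_apply, ofComplex_apply] at hb
  rw [perFun, hb, hb, ha, ha z]
  ring

theorem perFun_mul (h : SOne M) {γ δ : SL(2, ℤ)} (hγ : γ ∈ Gamma1 M) (hδ : δ ∈ Gamma1 M) :
    perFun h (γ * δ) = perFun h γ + perFun h δ := by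
  rw [perFun_eq (isPrimOne_primOne h) (mul_mem hγ hδ) UpperHalfPlane.I,
    perFun_eq (isPrimOne_primOne h) hγ (δ • UpperHalfPlane.I),
    perFun_eq (isPrimOne_primOne h) hδ UpperHalfPlane.I, mul_smul]
  ring

theorem perFun_add {γ : SL(2, ℤ)} (hγ : γ ∈ Gamma1 M) (h h' : SOne M) :
    perFun (h + h') γ = perFun h γ + perFun h' γ := by
  have hF : IsPrimOne (h + h') (primOne h + primOne h') := fun τ =>
    (isPrimOne_primOne h τ).add (isPrimOne_primOne h' τ)
  rw [perFun_eq hF hγ UpperHalfPlane.I, perFun, perFun]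
  simp only [Pi.add_apply]
  ring

theorem perFun_smul {γ : SL(2, ℤ)} (hγ : γ ∈ Gamma1 M) (r : ℂ) (h : SOne M) :
    perFun (r • h) γ = r * perFun h γ := by
  have hF : IsPrimOne (r • h) (r • primOne h) := fun τ => (isPrimOne_primOne h τ).const_smul r
  rw [perFun_eq hF hγ UpperHalfPlane.I, perFun]
  simp only [Pi.smul_apply, smul_eq_mul]
  ring

variable (M) in
/-- The period functional of an element of `Γ₁(M)`. -/
def perOne : Additive (Gamma1 M) →+ (SOne M →ₗ[ℂ] ℂ) :=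
  AddMonoidHom.mk' (fun γ =>
    { toFun := fun h => perFun h ((Additive.toMul γ : Gamma1 M) : SL(2, ℤ))
      map_add' := perFun_add (Additive.toMul γ).2
      map_smul' := fun r h => perFun_smul (Additive.toMul γ).2 r h })
    fun γ δ => LinearMap.ext fun h => perFun_mul h (Additive.toMul γ).2 (Additive.toMul δ).2

theorem perOne_apply (γ : Gamma1 M) (h : SOne M) :
    perOne M (Additive.ofMul γ) h = perFun h (γ : SL(2, ℤ)) := rfl

theorem perFun_eq_zero_of_parabolic (h : SOne M) {γ : SL(2, ℤ)} (hγ : γ ∈ Gamma1 M)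
    (htr : (γ : Matrix (Fin 2) (Fin 2) ℤ).trace ^ 2 = 4) : perFun h γ = 0 := by
  obtain ⟨δ, m, hm⟩ := Periods.exists_mul_eq_mul_T_zpow htr
  have hF := isPrimOne_primOne h
  obtain ⟨L, hL⟩ := hF.exists_tendsto δ
  have hT : Tendsto (fun w : ℍ => ModularGroup.T ^ m • w) atImInfty atImInfty := by
    simp only [atImInfty, tendsto_comap_iff, Function.comp_def, ModularGroup.im_T_zpow_smul]
    exact tendsto_comap
  have key : ∀ w : ℍ, perFun h γ
      = primOne h (δ • ModularGroup.T ^ m • w) - primOne h (δ • w) := fun w => by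
    rw [perFun_eq hF hγ (δ • w), ← mul_smul, ← mul_smul]
    rcases hm with e | e <;> rw [e]
    rw [ModularGroup.SL_neg_smul]
  have h0 : Tendsto (fun _ : ℍ => perFun h γ) atImInfty (𝓝 (L - L)) :=
    ((hL.comp hT).sub hL).congr fun w => (key w).symm
  rw [sub_self] at h0
  exact tendsto_nhds_unique tendsto_const_nhds h0

/-- The periods determine the form. -/
theorem eq_zero_of_perFun (h : SOne M) (h0 : ∀ γ ∈ Gamma1 M, perFun h γ = 0) : h = 0 := by
  set F := primOne h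
  have hF : IsPrimOne h F := isPrimOne_primOne h
  let f : ModularForm (Gamma1 M : Subgroup (GL (Fin 2) ℝ)) 0 :=
    { toFun := F
      slash_action_eq' := fun A hA => by
        obtain ⟨g, hg, rfl⟩ := hA
        show F ∣[(0 : ℤ)] g = F
        funext τ
        have e := perFun_eq hF hg τ
        rw [h0 g hg] at e
        rw [ModularForm.SL_slash_apply, neg_zero, zpow_zero, mul_one]
        exact sub_eq_zero.1 e.symm
      holo' := UpperHalfPlane.mdifferentiable_iff.2 fun z hz =>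
        (hF ⟨z, hz⟩).differentiableAt.differentiableWithinAt
      bdd_at_cusps' := fun {c} hc => by
        rw [Subgroup.IsArithmetic.isCusp_iff_isCusp_SL2Z] at hc
        rw [OnePoint.isBoundedAt_iff_forall_SL2Z hc]
        intro δ _
        obtain ⟨L, hL⟩ := hF.exists_tendsto δ
        have e : F ∣[(0 : ℤ)] δ = fun w => F (δ • w) := by
          funext w; rw [ModularForm.SL_slash_apply, neg_zero, zpow_zero, mul_one]
        rw [e]
        exact hL.isBigO_one ℝ }
  obtain ⟨c, hc⟩ := ModularForm.eq_const_of_weight_zero f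
  ext τ
  have hd : HasDerivAt (fun _ : ℂ => c) (h τ) τ :=
    (hF τ).congr_of_eventuallyEq (.of_forall fun z => (congrFun hc (ofComplex z)).symm)
  simpa using hd.unique (hasDerivAt_const (τ : ℂ) c)

/-- Conjugation by an element acting on `h` as a scalar. -/
theorem perFun_conj {h : SOne M} {γ x y : SL(2, ℤ)} {c : ℂ} (hγ : ⇑h ∣[(2 : ℤ)] γ = c • ⇑h)
    (hx : x ∈ Gamma1 M) (hy : y ∈ Gamma1 M) (hxy : y = γ * x * γ⁻¹) :
    perFun h y = c * perFun h x := by
  have hF := isPrimOne_primOne h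
  obtain ⟨a, ha⟩ := hF.exists_const hγ
  rw [perFun_eq hF hy (γ • UpperHalfPlane.I), perFun_eq hF hx UpperHalfPlane.I, ← mul_smul,
    show y * γ = γ * x by rw [hxy]; group, mul_smul, ha, ha]
  ring

/-- The transfer formula. -/
theorem perFun_eq_sum_transfer {ι : Type*} [Fintype ι] (h g : SOne M)
    (β : ι → GL (Fin 2) ℝ) (hβ : ∀ i, 0 < (β i).det.val)
    (hg : ⇑g = ∑ i, ⇑h ∣[(2 : ℤ)] β i) {γ : SL(2, ℤ)} (hγ : γ ∈ Gamma1 M) (σ : Equiv.Perm ι)
    (δ : ι → SL(2, ℤ)) (hδ : ∀ i, δ i ∈ Gamma1 M)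
    (hrel : ∀ i, β i * (γ : GL (Fin 2) ℝ) = (δ i : GL (Fin 2) ℝ) * β (σ i)) :
    perFun g γ = ∑ i, perFun h (δ i) := by
  have hF := isPrimOne_primOne h
  have hG : IsPrimOne g fun z => ∑ i, primOne h (β i • z) := fun τ => by
    rw [hg, Finset.sum_apply]
    exact HasDerivAt.fun_sum fun i _ => hF.hasDerivAt_comp_gl (hβ i) τ
  rw [perFun_eq hG hγ UpperHalfPlane.I,
    ← Equiv.sum_comp σ (fun i => primOne h (β i • UpperHalfPlane.I)), ← Finset.sum_sub_distrib]
  refine Finset.sum_congr rfl fun i _ => ?_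
  rw [perFun_eq hF (hδ i) (β (σ i) • UpperHalfPlane.I)]
  congr 2
  rw [ModularGroup.sl_moeb, ModularGroup.sl_moeb, ← mul_smul, ← mul_smul, hrel i]

end FLTAgent.DS
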