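import Mathlib.Analysis.SpecialFunctions.Exponential
import Mathlib.Analysis.SpecialFunctions.Log.Basic
import Mathlib.Algebra.Order.BigOperators.Ring.Finset
import Mathlib.Analysis.PSeries

/-!
# Elementary Rankin-type bound

From a Hecke recursion `a (p n) + w_p a (n / p) = a p · a n` with `‖w_p‖ = 1` and a bound
`∑_{n} ‖a n‖² n^{-s} ≤ B / (s - 1)`, we get `∑_p ‖a p‖² p^{-s} ≤ log (1 / (s - 1)) + O(1)`.
-/

set_option autoImplicit false

namespace FLTAgent.DS

open Finset

/-- Ballot numbers: the coefficients of `a^n` in the basis `w^j h (n - 2 j)`. -/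
def ballot : ℕ → ℕ → ℕ
  | 0, 0 => 1
  | 0, _ + 1 => 0
  | n + 1, 0 => ballot n 0
  | n + 1, j + 1 => if 2 * (j + 1) ≤ n + 1 then ballot n (j + 1) + ballot n j else 0

theorem ballot_eq_zero {n j : ℕ} (h : n < 2 * j) : ballot n j = 0 := by
  cases n with
  | zero =>
    cases j with
    | zero => omega
    | succ j => rfl
  | succ n =>
    cases j with
    | zero => omega
    | succ j => simp only [ballot]; rw [if_neg (by omega)]

theorem ballot_succ_le (n j : ℕ) : ballot (n + 1) (j + 1) ≤ ballot n (j + 1) + ballot n j := by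
  simp only [ballot]
  split_ifs <;> simp

theorem sum_sq_ballot_succ_le (n : ℕ) :
    ∑ j ∈ range (n + 2), ballot (n + 1) j ^ 2 ≤ 4 * ∑ j ∈ range (n + 1), ballot n j ^ 2 := by
  have h1 : ∀ j ∈ range (n + 1), ballot (n + 1) (j + 1) ^ 2
      ≤ 2 * ballot n (j + 1) ^ 2 + 2 * ballot n j ^ 2 := by
    intro j _
    refine (Nat.pow_le_pow_left (ballot_succ_le n j) 2).trans ?_
    nlinarith [sq_nonneg ((ballot n (j + 1) : ℤ) - ballot n j)]
  have h2 : ∑ j ∈ range (n + 1), ballot n (j + 1) ^ 2 + ballot n 0 ^ 2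
      = ∑ j ∈ range (n + 1), ballot n j ^ 2 := by
    rw [← Finset.sum_range_succ' (fun j => ballot n j ^ 2), Finset.sum_range_succ,
      ballot_eq_zero (by omega : n < 2 * (n + 1))]
    simp
  rw [Finset.sum_range_succ']
  calc ∑ j ∈ range (n + 1), ballot (n + 1) (j + 1) ^ 2 + ballot (n + 1) 0 ^ 2
      ≤ ∑ j ∈ range (n + 1), (2 * ballot n (j + 1) ^ 2 + 2 * ballot n j ^ 2)
          + 2 * ballot n 0 ^ 2 := by
        refine add_le_add (Finset.sum_le_sum h1) ?_
        simp only [ballot]; omega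
    _ = 4 * ∑ j ∈ range (n + 1), ballot n j ^ 2 := by
        rw [Finset.sum_add_distrib, ← Finset.mul_sum, ← Finset.mul_sum]
        omega

theorem sum_sq_ballot_le_factorial : ∀ n : ℕ, ∑ j ∈ range (n + 1), ballot n j ^ 2 ≤ n.factorial
  | 0 => by decide
  | 1 => by decide
  | 2 => by decide
  | 3 => by decide
  | n + 4 => by
    refine (sum_sq_ballot_succ_le (n + 3)).trans ?_
    rw [Nat.factorial_succ]
    exact Nat.mul_le_mul (by omega) (sum_sq_ballot_le_factorial (n + 3))

section Local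

variable {w a : ℂ} {h : ℕ → ℂ}

theorem pow_eq_sum_ballot (h0 : h 0 = 1) (h1 : h 1 = a)
    (hrec : ∀ k, h (k + 2) + w * h k = a * h (k + 1)) (n : ℕ) :
    a ^ n = ∑ j ∈ range (n + 1), (ballot n j : ℂ) * w ^ j * h (n - 2 * j) := by
  induction n with
  | zero => simp [ballot, h0]
  | succ n ih =>
    have step : ∀ j ∈ range (n + 1),
        a * ((ballot n j : ℂ) * w ^ j * h (n - 2 * j))
          = (ballot n j : ℂ) * w ^ j * h (n + 1 - 2 * j)
            + (if 2 * (j + 1) ≤ n + 1 then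
                (ballot n j : ℂ) * w ^ (j + 1) * h (n + 1 - 2 * (j + 1)) else 0) := by
      intro j _
      rcases lt_trichotomy (2 * j) n with hlt | heq | hgt
      · rw [if_pos (by omega)]
        obtain ⟨k, hk⟩ : ∃ k, n - 2 * j = k + 1 := ⟨n - 2 * j - 1, by omega⟩
        rw [hk, show n + 1 - 2 * j = k + 2 by omega, show n + 1 - 2 * (j + 1) = k by omega]
        linear_combination -((ballot n j : ℂ) * w ^ j) * hrec k
      · rw [if_neg (by omega), show n - 2 * j = 0 by omega, show n + 1 - 2 * j = 1 by omega, h0, h1]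
        ring
      · rw [ballot_eq_zero hgt]
        simp
    rw [pow_succ', ih, Finset.mul_sum, Finset.sum_congr rfl step, Finset.sum_add_distrib]
    rw [Finset.sum_range_succ' _ (n + 1), Finset.sum_range_succ' _ n]
    have h2 : ∀ j ∈ range (n + 1),
        (ballot (n + 1) (j + 1) : ℂ) * w ^ (j + 1) * h (n + 1 - 2 * (j + 1))
          = (ballot n (j + 1) : ℂ) * w ^ (j + 1) * h (n + 1 - 2 * (j + 1))
            + (if 2 * (j + 1) ≤ n + 1 then
                (ballot n j : ℂ) * w ^ (j + 1) * h (n + 1 - 2 * (j + 1)) else 0) := by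
      intro j _
      simp only [ballot]
      split_ifs with hj
      · push_cast; ring
      · rw [ballot_eq_zero (by omega : n < 2 * (j + 1))]
        simp
    rw [Finset.sum_congr rfl h2, Finset.sum_add_distrib]
    rw [Finset.sum_range_succ (fun j => (ballot n (j + 1) : ℂ) * w ^ (j + 1) *
      h (n + 1 - 2 * (j + 1))) n, ballot_eq_zero (by omega : n < 2 * (n + 1))]
    simp only [ballot, Nat.cast_zero, zero_mul, add_zero]
    ring

theorem norm_pow_sq_le (h0 : h 0 = 1) (h1 : h 1 = a)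
    (hrec : ∀ k, h (k + 2) + w * h k = a * h (k + 1)) (hw : ‖w‖ = 1) (n : ℕ) :
    (‖a‖ ^ 2) ^ n ≤
      n.factorial * ∑ j ∈ range (n + 1), if 2 * j ≤ n then ‖h (n - 2 * j)‖ ^ 2 else 0 := by
  set g : ℕ → ℝ := fun j => if 2 * j ≤ n then ‖h (n - 2 * j)‖ else 0
  have hle : ‖a‖ ^ n ≤ ∑ j ∈ range (n + 1), (ballot n j : ℝ) * g j := by
    rw [← norm_pow, pow_eq_sum_ballot h0 h1 hrec n]
    refine (norm_sum_le _ _).trans (Finset.sum_le_sum fun j _ => ?_)
    simp only [norm_mul, norm_pow, hw, one_pow, mul_one, Complex.norm_natCast, g]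
    split_ifs with hj
    · exact le_rfl
    · rw [ballot_eq_zero (by omega)]; simp
  calc (‖a‖ ^ 2) ^ n = (‖a‖ ^ n) ^ 2 := by rw [← pow_mul, ← pow_mul, mul_comm]
    _ ≤ (∑ j ∈ range (n + 1), (ballot n j : ℝ) * g j) ^ 2 :=
        pow_le_pow_left₀ (by positivity) hle 2
    _ ≤ (∑ j ∈ range (n + 1), (ballot n j : ℝ) ^ 2) * ∑ j ∈ range (n + 1), g j ^ 2 :=
        Finset.sum_mul_sq_le_sq_mul_sq _ _ _
    _ ≤ _ := by
        refine mul_le_mul ?_ (le_of_eq (Finset.sum_congr rfl fun j _ => ?_))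
          (Finset.sum_nonneg fun _ _ => sq_nonneg _) (Nat.cast_nonneg _)
        · exact_mod_cast sum_sq_ballot_le_factorial n
        · simp only [g]; split_ifs <;> simp

/-- The local inequality `exp (‖a‖² t) ≤ (∑ ‖h k‖² t^k) / (1 - t²)`, for partial sums. -/
theorem sum_exp_le_local (h0 : h 0 = 1) (h1 : h 1 = a)
    (hrec : ∀ k, h (k + 2) + w * h k = a * h (k + 1)) (hw : ‖w‖ = 1) {t : ℝ} (ht0 : 0 ≤ t)
    (ht1 : t < 1) (M : ℕ) :
    ∑ n ∈ range M, (‖a‖ ^ 2 * t) ^ n / n.factorial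
      ≤ (1 - t ^ 2)⁻¹ * ∑ k ∈ range M, ‖h k‖ ^ 2 * t ^ k := by
  have h3 : ∀ n, (‖a‖ ^ 2 * t) ^ n / n.factorial
      ≤ ∑ j ∈ range (n + 1), if 2 * j ≤ n then (t ^ 2) ^ j * (‖h (n - 2 * j)‖ ^ 2 * t ^ (n - 2 * j))
          else 0 := by
    intro n
    rw [div_le_iff₀ (by positivity), mul_pow]
    refine (mul_le_mul_of_nonneg_right (norm_pow_sq_le h0 h1 hrec hw n) (by positivity)).trans
      (le_of_eq ?_)
    rw [mul_comm (n.factorial : ℝ), mul_right_comm, Finset.sum_mul]
    refine congrArg (· * (n.factorial : ℝ)) (Finset.sum_congr rfl fun j _ => ?_)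
    split_ifs with hj
    · rw [← pow_mul, mul_left_comm, ← pow_add, show 2 * j + (n - 2 * j) = n by omega]
    · rw [zero_mul]
  refine (Finset.sum_le_sum fun n _ => h3 n).trans ?_
  simp only [← Finset.sum_filter]
  rw [Finset.sum_sigma']
  set F : ℕ × ℕ → ℝ := fun x => (t ^ 2) ^ x.1 * (‖h x.2‖ ^ 2 * t ^ x.2)
  have hinj : Set.InjOn (fun x : (_ : ℕ) × ℕ => (x.2, x.1 - 2 * x.2))
      ((range M).sigma fun n => (range (n + 1)).filter fun j => 2 * j ≤ n) := by
    rintro ⟨n, j⟩ hx ⟨n', j'⟩ hy heq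
    simp only [Finset.coe_sigma, Set.mem_sigma_iff, Finset.coe_filter, Set.mem_ofPred_eq] at hx hy
    simp only [Prod.mk.injEq] at heq
    obtain ⟨rfl, h2⟩ := heq
    have : n = n' := by omega
    subst this; rfl
  calc ∑ x ∈ (range M).sigma fun n => (range (n + 1)).filter fun j => 2 * j ≤ n,
        (t ^ 2) ^ x.2 * (‖h (x.1 - 2 * x.2)‖ ^ 2 * t ^ (x.1 - 2 * x.2))
      = ∑ y ∈ ((range M).sigma fun n => (range (n + 1)).filter fun j => 2 * j ≤ n).image
          (fun x : (_ : ℕ) × ℕ => (x.2, x.1 - 2 * x.2)), F y := by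
        rw [Finset.sum_image hinj]
    _ ≤ ∑ y ∈ range M ×ˢ range M, F y := by
        refine Finset.sum_le_sum_of_subset_of_nonneg ?_ fun y _ _ => by positivity
        intro y hy
        simp only [Finset.mem_image, Finset.mem_sigma, Finset.mem_range, Finset.mem_filter] at hy
        obtain ⟨x, ⟨hx1, hx2, hx3⟩, rfl⟩ := hy
        simp only [Finset.mem_product, Finset.mem_range]
        omega
    _ = (∑ j ∈ range M, (t ^ 2) ^ j) * ∑ k ∈ range M, ‖h k‖ ^ 2 * t ^ k := by
        rw [Finset.sum_mul_sum, Finset.sum_product]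
    _ ≤ _ := by
        refine mul_le_mul_of_nonneg_right ?_ (Finset.sum_nonneg fun _ _ => by positivity)
        have hlt : t ^ 2 < 1 := by nlinarith
        exact sum_le_hasSum _ (fun _ _ => by positivity)
          (hasSum_geometric_of_lt_one (sq_nonneg t) hlt)

end Local

/-- The Hecke recursion at the primes in a set. -/
structure HeckeRecursion (a : ℕ → ℂ) (w : ℕ → ℂ) (P : Set ℕ) : Prop where
  one : a 1 = 1
  prime : ∀ p ∈ P, p.Prime
  norm_w : ∀ p ∈ P, ‖w p‖ = 1
  mul : ∀ p ∈ P, ∀ n, a (p * n) + w p * (if p ∣ n then a (n / p) else 0) = a p * a n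

variable {a w : ℕ → ℂ} {P : Set ℕ}

theorem HeckeRecursion.pow_add_two (H : HeckeRecursion a w P) {p : ℕ} (hp : p ∈ P) (k : ℕ) :
    a (p ^ (k + 2)) + w p * a (p ^ k) = a p * a (p ^ (k + 1)) := by
  have h0 : 0 < p := (H.prime p hp).pos
  have := H.mul p hp (p ^ (k + 1))
  rw [if_pos (dvd_pow_self p (by omega)), pow_succ p k, Nat.mul_div_cancel _ h0] at this
  rw [show p ^ (k + 1) = p ^ k * p from pow_succ p k, show p ^ (k + 2) = p * (p ^ k * p) by ring]
  exact this

theorem HeckeRecursion.pow_mul_of_not_dvd (H : HeckeRecursion a w P) {p : ℕ} (hp : p ∈ P) {m : ℕ}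
    (hm : ¬ p ∣ m) : ∀ k, a (p ^ k * m) = a (p ^ k) * a m
  | 0 => by simp [H.one]
  | 1 => by
    have := H.mul p hp m
    rw [if_neg hm, mul_zero, add_zero] at this
    rw [pow_one, this]
  | k + 2 => by
    have h0 : 0 < p := (H.prime p hp).pos
    have := H.mul p hp (p ^ (k + 1) * m)
    rw [if_pos ((dvd_pow_self p (by omega)).mul_right m),
      show p ^ (k + 1) * m / p = p ^ k * m by
        rw [pow_succ, mul_right_comm, Nat.mul_div_cancel _ h0],
      HeckeRecursion.pow_mul_of_not_dvd H hp hm k, HeckeRecursion.pow_mul_of_not_dvd H hp hm (k + 1),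
      show p * (p ^ (k + 1) * m) = p ^ (k + 2) * m by ring] at this
    linear_combination this - a m * H.pow_add_two hp k

/-- Finite Euler products are bounded by finite sums of the Dirichlet series. -/
theorem HeckeRecursion.exists_finset_prod (H : HeckeRecursion a w P) (s : ℝ) (M : ℕ) :
    ∀ S : Finset ℕ, (∀ p ∈ S, p ∈ P) → ∃ F : Finset ℕ,
      (∀ n ∈ F, 0 < n ∧ ∀ q, q.Prime → q ∣ n → q ∈ S) ∧
      ∏ p ∈ S, ∑ k ∈ range M, ‖a (p ^ k)‖ ^ 2 * ((p : ℝ) ^ (-s)) ^ k
        = ∑ n ∈ F, ‖a n‖ ^ 2 * (n : ℝ) ^ (-s) := by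
  intro S
  induction S using Finset.induction with
  | empty =>
    intro _
    refine ⟨{1}, fun n hn => ?_, by simp [H.one]⟩
    simp only [Finset.mem_singleton] at hn
    subst hn
    exact ⟨one_pos, fun q hq hd => absurd (Nat.dvd_one.1 hd) hq.one_lt.ne'⟩
  | insert p S hpS ih =>
    intro hS
    obtain ⟨F, hF, heq⟩ := ih fun q hq => hS q (Finset.mem_insert_of_mem hq)
    have hp := hS p (Finset.mem_insert_self p S)
    have hpp := H.prime p hp
    have hndvd : ∀ n ∈ F, ¬ p ∣ n := fun n hn hd => hpS ((hF n hn).2 p hpp hd)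
    have hinj : Set.InjOn (fun x : ℕ × ℕ => p ^ x.1 * x.2) ↑(range M ×ˢ F) := by
      rintro ⟨k, n⟩ hx ⟨k', n'⟩ hy he
      simp only [Finset.coe_product, Set.mem_prod, Finset.mem_coe] at hx hy
      simp only at he
      have hk : k = k' := by
        have h1 := (hF n hx.2).1
        have h2 := (hF n' hy.2).1
        have := congrArg (fun m => m.factorization p) he
        simp only [Nat.factorization_mul (pow_ne_zero _ hpp.ne_zero) h1.ne',
          Nat.factorization_mul (pow_ne_zero _ hpp.ne_zero) h2.ne', Finsupp.add_apply,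
          hpp.factorization_pow, Finsupp.single_eq_same,
          Nat.factorization_eq_zero_of_not_dvd (hndvd n hx.2),
          Nat.factorization_eq_zero_of_not_dvd (hndvd n' hy.2), add_zero] at this
        exact this
      subst hk
      simp [Nat.eq_of_mul_eq_mul_left (pow_pos hpp.pos k) he]
    refine ⟨(range M ×ˢ F).image fun x : ℕ × ℕ => p ^ x.1 * x.2, ?_, ?_⟩
    · intro n hn
      simp only [Finset.mem_image, Finset.mem_product] at hn
      obtain ⟨x, ⟨_, hx⟩, rfl⟩ := hn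
      refine ⟨Nat.mul_pos (pow_pos hpp.pos _) (hF _ hx).1, fun q hq hd => ?_⟩
      rcases hq.dvd_mul.1 hd with h | h
      · rw [(Nat.prime_dvd_prime_iff_eq hq hpp).1 (hq.dvd_of_dvd_pow h)]
        exact Finset.mem_insert_self p S
      · exact Finset.mem_insert_of_mem ((hF _ hx).2 q hq h)
    · rw [Finset.prod_insert hpS, heq, Finset.sum_image hinj, Finset.sum_mul_sum,
        Finset.sum_product]
      refine Finset.sum_congr rfl fun k _ => Finset.sum_congr rfl fun n hn => ?_
      rw [H.pow_mul_of_not_dvd hp (hndvd n hn), norm_mul, mul_pow, Nat.cast_mul,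
        Real.mul_rpow (Nat.cast_nonneg _) (Nat.cast_nonneg _), Nat.cast_pow,
        ← Real.rpow_pow_comm (Nat.cast_nonneg _)]
      ring

/-- The constant `2 ∑ n^{-2}`. -/
noncomputable def eulerConst : ℝ := ∑' n : ℕ, 2 / (n : ℝ) ^ 2

theorem summable_two_div_sq : Summable fun n : ℕ => 2 / (n : ℝ) ^ 2 := by
  have := (Real.summable_one_div_nat_pow.2 (by norm_num : 1 < 2)).mul_left (2 : ℝ)
  simpa [div_eq_mul_inv] using this

theorem inv_one_sub_le_exp {x : ℝ} (h0 : 0 ≤ x) (h1 : x ≤ 1 / 2) :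
    (1 - x)⁻¹ ≤ Real.exp (2 * x) := by
  refine le_trans ?_ (Real.add_one_le_exp (2 * x))
  rw [inv_le_iff_one_le_mul₀ (by linarith)]
  nlinarith

/-- The Rankin-type bound at a fixed `s`. -/
theorem HeckeRecursion.sum_le (H : HeckeRecursion a w P) {s B : ℝ} (hs : 1 < s)
    (hB : ∀ F : Finset ℕ, (∀ n ∈ F, 0 < n) → ∑ n ∈ F, ‖a n‖ ^ 2 * (n : ℝ) ^ (-s) ≤ B)
    (S : Finset ℕ) (hS : ∀ p ∈ S, p ∈ P) :
    ∑ p ∈ S, ‖a p‖ ^ 2 * (p : ℝ) ^ (-s) ≤ Real.log B + eulerConst := by
  set t : ℕ → ℝ := fun p => (p : ℝ) ^ (-s)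
  have ht : ∀ p ∈ S, 0 < t p ∧ t p ≤ 1 / 2 ∧ t p ^ 2 ≤ 1 / (p : ℝ) ^ 2 := fun p hp => by
    have h2 : (2 : ℝ) ≤ p := by exact_mod_cast (H.prime p (hS p hp)).two_le
    have hle : t p ≤ (p : ℝ) ^ (-1 : ℝ) :=
      Real.rpow_le_rpow_of_exponent_le (by linarith) (by linarith)
    rw [Real.rpow_neg_one] at hle
    have h3 : (p : ℝ)⁻¹ ≤ 1 / 2 := by rw [one_div]; exact inv_anti₀ (by norm_num) h2
    have hpos : 0 < t p := Real.rpow_pos_of_pos (by linarith) _
    refine ⟨hpos, hle.trans h3, ?_⟩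
    rw [one_div, ← inv_pow]
    exact pow_le_pow_left₀ hpos.le hle 2
  have hB1 : 1 ≤ B := by simpa [H.one] using hB {1} (by simp)
  -- finite levels
  have key : ∀ M, ∏ p ∈ S, ∑ n ∈ range M, (‖a p‖ ^ 2 * t p) ^ n / n.factorial
      ≤ Real.exp eulerConst * B := by
    intro M
    calc ∏ p ∈ S, ∑ n ∈ range M, (‖a p‖ ^ 2 * t p) ^ n / n.factorial
        ≤ ∏ p ∈ S, ((1 - t p ^ 2)⁻¹ * ∑ k ∈ range M, ‖a (p ^ k)‖ ^ 2 * t p ^ k) := by
          refine Finset.prod_le_prod (fun p hp => Finset.sum_nonneg fun n _ => ?_) fun p hp => ?_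
          · have := (ht p hp).1; positivity
          · have hpP := hS p hp
            exact sum_exp_le_local (h := fun k => a (p ^ k)) (by simp [H.one]) (by simp)
              (fun k => H.pow_add_two hpP k) (H.norm_w p hpP) (ht p hp).1.le
              (by linarith [(ht p hp).2.1]) M
      _ = (∏ p ∈ S, (1 - t p ^ 2)⁻¹) * ∏ p ∈ S, ∑ k ∈ range M, ‖a (p ^ k)‖ ^ 2 * t p ^ k :=
          Finset.prod_mul_distrib
      _ ≤ Real.exp eulerConst * B := by
          refine mul_le_mul ?_ ?_ (Finset.prod_nonneg fun p hp => Finset.sum_nonneg fun k _ => ?_)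
            (Real.exp_pos _).le
          · calc ∏ p ∈ S, (1 - t p ^ 2)⁻¹ ≤ ∏ p ∈ S, Real.exp (2 / (p : ℝ) ^ 2) := by
                  refine Finset.prod_le_prod (fun p hp => ?_) fun p hp => ?_
                  · have := ht p hp
                    exact inv_nonneg.2 (by nlinarith)
                  · have := ht p hp
                    refine (inv_one_sub_le_exp (sq_nonneg _) (by nlinarith)).trans
                      (Real.exp_le_exp.2 ?_)
                    rw [div_eq_mul_one_div]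
                    linarith
              _ = Real.exp (∑ p ∈ S, 2 / (p : ℝ) ^ 2) := (Real.exp_sum _ _).symm
              _ ≤ _ := Real.exp_le_exp.2
                  (summable_two_div_sq.sum_le_tsum _ fun _ _ => by positivity)
          · obtain ⟨F, hF, heq⟩ := H.exists_finset_prod s M S hS
            rw [heq]
            exact hB F fun n hn => (hF n hn).1
          · have := (ht p hp).1; positivity
  have hlim : Filter.Tendsto
      (fun M => ∏ p ∈ S, ∑ n ∈ range M, (‖a p‖ ^ 2 * t p) ^ n / n.factorial) Filter.atTop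
      (nhds (∏ p ∈ S, Real.exp (‖a p‖ ^ 2 * t p))) := by
    refine tendsto_finsetProd _ fun p _ => ?_
    have := (Real.summable_pow_div_factorial (‖a p‖ ^ 2 * t p)).hasSum
    rw [Real.exp_eq_exp_ℝ, NormedSpace.exp_eq_tsum_div]
    exact this.tendsto_sum_nat
  have h := le_of_tendsto' hlim key
  rw [← Real.exp_sum] at h
  have := Real.log_le_log (Real.exp_pos _) h
  rw [Real.log_exp, Real.log_mul (Real.exp_pos _).ne' (by linarith), Real.log_exp] at this
  linarith

end FLTAgent.DS
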