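import Fermat.Agent.DS.SemisimpleBound
import Mathlib.LinearAlgebra.Matrix.Charpoly.Basic
import Mathlib.RingTheory.RootsOfUnity.Basic

/-!
# Semisimplification and eigenvalues of elements of finite order
-/

set_option autoImplicit false

noncomputable section

namespace FLTAgent.DS

open Matrix

variable {G : Type*} [Group G] {K : Type*} [Field K]

theorem apply_eq_of_triangular {ρ : G →* GL (Fin 2) K}
    (h : ∀ g, (ρ g : Matrix (Fin 2) (Fin 2) K) 1 0 = 0) (i : Fin 2) :
    (ρ 1 : Matrix (Fin 2) (Fin 2) K) i i = 1 ∧ ∀ g g', (ρ (g * g') : Matrix (Fin 2) (Fin 2) K) i i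
      = (ρ g : Matrix (Fin 2) (Fin 2) K) i i * (ρ g' : Matrix (Fin 2) (Fin 2) K) i i := by
  refine ⟨by simp, fun g g' => ?_⟩
  rw [coe_map_mul]
  fin_cases i <;> simp [Matrix.mul_apply, Fin.sum_univ_two, h]

/-- A semisimple representation with the same traces and determinants, and a kernel containing
the original one. -/
theorem exists_isSplit (ρ : G →* GL (Fin 2) K) :
    ∃ σ : G →* GL (Fin 2) K, IsSplit σ ∧ (∀ g, ρ g = 1 → σ g = 1) ∧
      (∀ g, (σ g : Matrix (Fin 2) (Fin 2) K).trace = (ρ g : Matrix (Fin 2) (Fin 2) K).trace) ∧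
      ∀ g, (σ g : Matrix (Fin 2) (Fin 2) K).det = (ρ g : Matrix (Fin 2) (Fin 2) K).det := by
  by_cases hex : ∃ P : GL (Fin 2) K,
      ∀ g, (conjRep P ρ g : Matrix (Fin 2) (Fin 2) K) 1 0 = 0
  · obtain ⟨P, hP⟩ := hex
    let D : Fin 2 → G →* Kˣ := fun i => MonoidHom.toHomUnits
      { toFun := fun g => (conjRep P ρ g : Matrix (Fin 2) (Fin 2) K) i i
        map_one' := (apply_eq_of_triangular hP i).1
        map_mul' := (apply_eq_of_triangular hP i).2 }
    have hD : ∀ i g, ((D i g : Kˣ) : K) = (conjRep P ρ g : Matrix (Fin 2) (Fin 2) K) i i :=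
      fun i g => rfl
    let σ : G →* GL (Fin 2) K := MonoidHom.toHomUnits
      { toFun := fun g => Matrix.diagonal fun i => (D i g : K)
        map_one' := by simp
        map_mul' := fun g g' => by simp [Matrix.diagonal_mul_diagonal] }
    have hσ : ∀ g, (σ g : Matrix (Fin 2) (Fin 2) K) = Matrix.diagonal fun i => (D i g : K) :=
      fun g => rfl
    refine ⟨σ, fun Q _ => ⟨1, fun g => by simp [hσ]⟩, fun g hg => Units.ext ?_, fun g => ?_, fun g => ?_⟩
    · rw [hσ, Units.val_one, ← Matrix.diagonal_one]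
      congr 1
      funext i
      rw [hD]
      simp [conjRep, hg]
    · rw [hσ, ← trace_conjRep P ρ g]
      simp [Matrix.trace_fin_two, hD]
    · rw [hσ, ← det_conjRep P ρ g, Matrix.det_diagonal, Fin.prod_univ_two, Matrix.det_fin_two,
        hP g, hD, hD]
      ring
  · push Not at hex
    exact ⟨ρ, fun P hP => absurd (hP) (fun h => by obtain ⟨g, hg⟩ := hex P; exact hg (h g)),
      fun _ h => h, fun _ => rfl, fun _ => rfl⟩

/-- The eigenvalues of an element killed by `M` are roots of unity of order dividing `M`. -/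
theorem exists_roots_of_pow_eq_one [IsAlgClosed K] {m : GL (Fin 2) K} {M : ℕ} (h : m ^ M = 1) :
    ∃ x y : K, x ^ M = 1 ∧ y ^ M = 1 ∧ (m : Matrix (Fin 2) (Fin 2) K).trace = x + y ∧
      (m : Matrix (Fin 2) (Fin 2) K).det = x * y := by
  obtain ⟨P, hP⟩ := exists_conj_triangular m
  set T := ((P * m * P⁻¹ : GL (Fin 2) K) : Matrix (Fin 2) (Fin 2) K) with hT
  have hpow : ∀ n : ℕ, (T ^ n) 1 0 = 0 ∧ (T ^ n) 0 0 = T 0 0 ^ n ∧ (T ^ n) 1 1 = T 1 1 ^ n := by
    intro n
    induction n with
    | zero => simp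
    | succ n ih =>
      simp [pow_succ, Matrix.mul_apply, Fin.sum_univ_two, ih.1, ih.2.1, ih.2.2, hP]
  have hTM : T ^ M = 1 := by
    rw [hT, ← Units.val_pow_eq_pow_val, conj_pow, h]
    simp
  refine ⟨T 0 0, T 1 1, ?_, ?_, ?_, ?_⟩
  · rw [← (hpow M).2.1, hTM, Matrix.one_apply_eq]
  · rw [← (hpow M).2.2, hTM, Matrix.one_apply_eq]
  · rw [hT, ← Matrix.trace_fin_two, Units.val_mul, Units.val_mul, Matrix.trace_units_conj]
  · rw [← Matrix.det_units_conj P (m : Matrix (Fin 2) (Fin 2) K), ← Units.val_mul, ← Units.val_mul,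
      Matrix.det_fin_two, ← hT, hP]
    ring

/-- In characteristic zero an element of finite order with trace `2` and determinant `1` is `1`. -/
theorem eq_one_of_trace_det [CharZero K] {m : GL (Fin 2) K} (hfin : IsOfFinOrder m)
    (ht : (m : Matrix (Fin 2) (Fin 2) K).trace = 2)
    (hd : (m : Matrix (Fin 2) (Fin 2) K).det = 1) : m = 1 := by
  set D := (m : Matrix (Fin 2) (Fin 2) K) - 1 with hD
  have hsq : D * D = 0 := by
    rw [Matrix.trace_fin_two] at ht
    rw [Matrix.det_fin_two] at hd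
    ext i j
    fin_cases i <;> fin_cases j <;> simp [hD, Matrix.mul_apply, Fin.sum_univ_two] <;>
      [linear_combination ((m : Matrix (Fin 2) (Fin 2) K) 0 0) * ht - hd;
        linear_combination ((m : Matrix (Fin 2) (Fin 2) K) 0 1) * ht;
        linear_combination ((m : Matrix (Fin 2) (Fin 2) K) 1 0) * ht;
        linear_combination ((m : Matrix (Fin 2) (Fin 2) K) 1 1) * ht - hd]
  have hpow : ∀ n : ℕ, (m : Matrix (Fin 2) (Fin 2) K) ^ n = 1 + (n : K) • D := by
    intro n
    induction n with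
    | zero => simp
    | succ n ih =>
      rw [pow_succ, ih, Nat.cast_succ, add_smul, one_smul]
      conv_lhs => rw [show (m : Matrix (Fin 2) (Fin 2) K) = 1 + D by rw [hD]; abel]
      rw [mul_add, mul_one, add_mul, one_mul, smul_mul_assoc, hsq, smul_zero, add_zero]
      abel
  obtain ⟨n, hn, hmn⟩ := isOfFinOrder_iff_pow_eq_one.1 hfin
  have h1 := hpow n
  rw [← Units.val_pow_eq_pow_val, hmn, Units.val_one, left_eq_add, smul_eq_zero] at h1
  rcases h1 with h1 | h1
  · exact absurd h1 (by exact_mod_cast hn.ne')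
  · exact Units.ext (sub_eq_zero.1 (hD ▸ h1))

end FLTAgent.DS
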