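import Fermat.Agent.DS.TorusBound
import Mathlib.Algebra.CharP.Basic
import Mathlib.Algebra.CharP.Lemmas
import Mathlib.Data.ZMod.Basic
import Mathlib.RingTheory.IntegralDomain
import Mathlib.FieldTheory.Finite.Basic

/-!
# Orders of elements of semisimple finite subgroups of `GL₂` in large characteristic
-/

set_option autoImplicit false

noncomputable section

namespace FLTAgent.DS

open Matrix Finset

variable {G : Type*} [Group G] {K : Type*} [Field K]

/-- The matrix `!![a, b; c, d]` as an element of `GL₂`. -/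
def glOf (a b c d : K) (h : a * d - b * c ≠ 0) : GL (Fin 2) K :=
  Matrix.GeneralLinearGroup.mkOfDetNeZero !![a, b; c, d] (by rwa [Matrix.det_fin_two_of])

@[simp] theorem coe_glOf (a b c d : K) (h : a * d - b * c ≠ 0) :
    (glOf a b c d h : Matrix (Fin 2) (Fin 2) K) = !![a, b; c, d] := rfl

theorem inv_glOf {a b c d a' b' c' d' : K} {h : a * d - b * c ≠ 0} (h' : a' * d' - b' * c' ≠ 0)
    (hmul : !![a, b; c, d] * !![a', b'; c', d'] = (1 : Matrix (Fin 2) (Fin 2) K)) :
    (glOf a b c d h)⁻¹ = glOf a' b' c' d' h' :=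
  inv_eq_of_mul_eq_one_right (Units.ext hmul)

theorem conj_glOf_apply {a b c d a' b' c' d' : K} {h : a * d - b * c ≠ 0}
    (h' : a' * d' - b' * c' ≠ 0)
    (hmul : !![a, b; c, d] * !![a', b'; c', d'] = (1 : Matrix (Fin 2) (Fin 2) K))
    (M : GL (Fin 2) K) :
    ((glOf a b c d h * M * (glOf a b c d h)⁻¹ : GL (Fin 2) K) : Matrix (Fin 2) (Fin 2) K)
      = !![a, b; c, d] * !![(M : Matrix (Fin 2) (Fin 2) K) 0 0, (M : Matrix (Fin 2) (Fin 2) K) 0 1;
          (M : Matrix (Fin 2) (Fin 2) K) 1 0, (M : Matrix (Fin 2) (Fin 2) K) 1 1]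
        * !![a', b'; c', d'] := by
  rw [inv_glOf h' hmul, Units.val_mul, Units.val_mul, coe_glOf, coe_glOf,
    ← Matrix.eta_fin_two (M : Matrix (Fin 2) (Fin 2) K)]

theorem exists_conj_triangular [IsAlgClosed K] (M : GL (Fin 2) K) :
    ∃ P : GL (Fin 2) K, ((P * M * P⁻¹ : GL (Fin 2) K) : Matrix (Fin 2) (Fin 2) K) 1 0 = 0 := by
  by_cases hb : (M : Matrix (Fin 2) (Fin 2) K) 0 1 = 0
  · refine ⟨glOf 0 1 1 0 (by simp), ?_⟩
    rw [conj_glOf_apply (a' := 0) (b' := 1) (c' := 1) (d' := 0) (by simp)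
      (by ext i j; fin_cases i <;> fin_cases j <;> simp [Matrix.mul_apply, Fin.sum_univ_two])]
    simp [Matrix.mul_apply, Fin.sum_univ_two, hb]
  set a := (M : Matrix (Fin 2) (Fin 2) K) 0 0 with ha
  set b := (M : Matrix (Fin 2) (Fin 2) K) 0 1 with hb'
  set c := (M : Matrix (Fin 2) (Fin 2) K) 1 0 with hc'
  set d := (M : Matrix (Fin 2) (Fin 2) K) 1 1 with hd'
  obtain ⟨t, ht⟩ := IsAlgClosed.exists_root
    (Polynomial.C b * Polynomial.X ^ 2 + Polynomial.C (a - d) * Polynomial.X + Polynomial.C (-c))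
    (by rw [Polynomial.degree_quadratic hb]; decide)
  simp only [Polynomial.IsRoot, Polynomial.eval_add, Polynomial.eval_mul, Polynomial.eval_C,
    Polynomial.eval_pow, Polynomial.eval_X] at ht
  refine ⟨glOf 1 0 (-t) 1 (by simp), ?_⟩
  rw [conj_glOf_apply (a' := 1) (b' := 0) (c' := t) (d' := 1) (by simp)
    (by ext i j; fin_cases i <;> fin_cases j <;> simp [Matrix.mul_apply, Fin.sum_univ_two])]
  simp only [Matrix.mul_apply, Fin.sum_univ_two, Matrix.of_apply, Matrix.cons_val', Matrix.cons_val_zero,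
    Matrix.cons_val_one, Matrix.cons_val_fin_one, ← ha, ← hb', ← hc', ← hd']
  linear_combination -ht

/-- If `g` has two distinct eigenvalues, it is diagonal in some basis. -/
theorem exists_conj_diag (M : GL (Fin 2) K) (h : (M : Matrix (Fin 2) (Fin 2) K) 1 0 = 0)
    (hne : (M : Matrix (Fin 2) (Fin 2) K) 0 0 ≠ (M : Matrix (Fin 2) (Fin 2) K) 1 1) :
    ∃ P : GL (Fin 2) K,
      ((P * M * P⁻¹ : GL (Fin 2) K) : Matrix (Fin 2) (Fin 2) K) 0 1 = 0 ∧
      ((P * M * P⁻¹ : GL (Fin 2) K) : Matrix (Fin 2) (Fin 2) K) 1 0 = 0 ∧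
      ((P * M * P⁻¹ : GL (Fin 2) K) : Matrix (Fin 2) (Fin 2) K) 0 0 ≠
        ((P * M * P⁻¹ : GL (Fin 2) K) : Matrix (Fin 2) (Fin 2) K) 1 1 := by
  set t := (M : Matrix (Fin 2) (Fin 2) K) 0 1 /
    ((M : Matrix (Fin 2) (Fin 2) K) 0 0 - (M : Matrix (Fin 2) (Fin 2) K) 1 1) with ht
  refine ⟨glOf 1 t 0 1 (by simp), ?_⟩
  rw [conj_glOf_apply (a' := 1) (b' := -t) (c' := 0) (d' := 1) (by simp)
    (by ext i j; fin_cases i <;> fin_cases j <;> simp [Matrix.mul_apply, Fin.sum_univ_two])]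
  have hd : (M : Matrix (Fin 2) (Fin 2) K) 0 0 - (M : Matrix (Fin 2) (Fin 2) K) 1 1 ≠ 0 :=
    sub_ne_zero.2 hne
  simp [Matrix.mul_apply, Fin.sum_univ_two, h]
  refine ⟨?_, hne⟩
  rw [ht]
  field_simp
  ring

theorem pow_apply_triangular {M : Matrix (Fin 2) (Fin 2) K} {a b : K}
    (h : M = !![a, b; 0, a]) : ∀ k : ℕ, M ^ (k + 1) = !![a ^ (k + 1), (k + 1 : ℕ) * a ^ k * b; 0, a ^ (k + 1)]
  | 0 => by simp [h]
  | k + 1 => by
    rw [pow_succ, pow_apply_triangular h k, h]
    ext i j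
    fin_cases i <;> fin_cases j <;> simp [Matrix.mul_apply, Fin.sum_univ_two] <;> ring

theorem pow_upper (x : K) (n : ℕ) :
    (!![1, x; 0, 1] : Matrix (Fin 2) (Fin 2) K) ^ n = !![1, n * x; 0, 1] := by
  induction n with
  | zero => ext i j; fin_cases i <;> fin_cases j <;> simp
  | succ n ih =>
    rw [pow_succ, ih]
    ext i j; fin_cases i <;> fin_cases j <;> simp [Matrix.mul_apply, Fin.sum_univ_two] <;> ring

theorem pow_lower (x : K) (n : ℕ) :
    (!![1, 0; x, 1] : Matrix (Fin 2) (Fin 2) K) ^ n = !![1, 0; n * x, 1] := by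
  induction n with
  | zero => ext i j; fin_cases i <;> fin_cases j <;> simp
  | succ n ih =>
    rw [pow_succ, ih]
    ext i j; fin_cases i <;> fin_cases j <;> simp [Matrix.mul_apply, Fin.sum_univ_two] <;> ring

variable {ℓ : ℕ} [Fact ℓ.Prime] [CharP K ℓ]

theorem coe_map_pow (ρ : G →* GL (Fin 2) K) (g : G) (n : ℕ) :
    (ρ (g ^ n) : Matrix (Fin 2) (Fin 2) K) = (ρ g : Matrix (Fin 2) (Fin 2) K) ^ n := by
  rw [map_pow]; rfl

/-- Powers of a diagonal element are diagonal, so its order is bounded. -/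
theorem orderOf_le_of_isDiag [Fintype G] [DecidableEq K] {ρ : G →* GL (Fin 2) K}
    (hρ : Function.Injective ρ) {P : Finset (K × K)} (hP : FewPairs ρ P) {x : G}
    (hx : IsDiagEl ρ x) (hxs : ¬ IsScalarEl ρ x) {g : G} (hg : IsDiagEl ρ g) :
    orderOf g ≤ 16 * P.card := by
  classical
  refine le_trans ?_ (card_diag_le hρ hP hx hxs)
  have hpow : ∀ n : ℕ, IsDiagEl ρ (g ^ n) := fun n => by
    induction n with
    | zero => simp [IsDiagEl]
    | succ n ih => rw [pow_succ]; exact ih.mul hg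
  have := Finset.card_le_card_of_injOn (s := Finset.range (orderOf g)) (fun n => g ^ n)
    (t := univ.filter (IsDiagEl ρ)) (fun n _ => by simp [hpow n])
    (fun a ha b hb h => pow_injOn_Iio_orderOf (by simpa using ha) (by simpa using hb) h)
  simpa using this

include ℓ in
/-- A semisimple group with few pairs (trace, det), traces in the prime field, and large
characteristic contains no element with a nontrivial unipotent part. -/
theorem no_unipotent [Fintype G] [DecidableEq K] {ρ : G →* GL (Fin 2) K}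
    (hρ : Function.Injective ρ) (hss : IsSplit ρ) {P : Finset (K × K)} (hP : FewPairs ρ P)
    (htr : ∀ g, ∃ n : ℕ, (ρ g : Matrix (Fin 2) (Fin 2) K).trace = n)
    (hℓ : 32 * P.card + 4 < ℓ) (u : G) : (ρ u : Matrix (Fin 2) (Fin 2) K) ≠ !![1, 1; 0, 1] := by
  intro hu
  -- some element moves the fixed line
  obtain ⟨g, hg⟩ : ∃ g, (ρ g : Matrix (Fin 2) (Fin 2) K) 1 0 ≠ 0 := by
    by_contra hcon
    push Not at hcon
    obtain ⟨Q, hQ⟩ := hss 1 fun g => by simpa using hcon g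
    set D := ((Q * ρ u * Q⁻¹ : GL (Fin 2) K) : Matrix (Fin 2) (Fin 2) K) with hD
    have hp : (Q * ρ u * Q⁻¹) ^ ℓ = 1 := by
      rw [conj_pow]
      have : ρ u ^ ℓ = 1 := Units.ext (by
        rw [Units.val_pow_eq_pow_val, hu, pow_upper, CharP.cast_eq_zero, zero_mul]
        exact Matrix.one_fin_two.symm)
      rw [this]; group
    have hdiag : D = Matrix.diagonal ![D 0 0, D 1 1] := by
      have h01 : D 0 1 = 0 := (hQ u).1
      have h10 : D 1 0 = 0 := (hQ u).2
      clear_value D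
      ext i j; fin_cases i <;> fin_cases j <;> simp [h01, h10]
    have hp' : D ^ ℓ = 1 := by rw [hD, ← Units.val_pow_eq_pow_val, hp]; rfl
    rw [hdiag, Matrix.diagonal_pow] at hp'
    have e0 := congrFun (congrFun hp' 0) 0
    have e1 := congrFun (congrFun hp' 1) 1
    simp at e0 e1
    have hi : ∀ z : K, z ^ ℓ = 1 → z = 1 := fun z hz =>
      frobenius_inj K ℓ (by simpa [frobenius_def] using hz)
    have hD1 : D = 1 := by
      rw [hdiag]
      ext i j; fin_cases i <;> fin_cases j <;> simp [hi _ e0, hi _ e1]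
    have h1 : Q * ρ u * Q⁻¹ = 1 := Units.ext hD1
    rw [mul_inv_eq_one, mul_eq_left] at h1
    have h2 : (ρ u : Matrix (Fin 2) (Fin 2) K) = 1 := by rw [h1]; rfl
    have := congrFun (congrFun h2 0) 1
    rw [hu] at this
    simp at this
  set t := -(ρ g : Matrix (Fin 2) (Fin 2) K) 0 0 / (ρ g : Matrix (Fin 2) (Fin 2) K) 1 0 with ht
  set R : GL (Fin 2) K := glOf 1 t 0 1 (by simp) with hR
  have hconj : ∀ y : G, (conjRep R ρ y : Matrix (Fin 2) (Fin 2) K)
      = !![1, t; 0, 1] * !![(ρ y : Matrix (Fin 2) (Fin 2) K) 0 0,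
          (ρ y : Matrix (Fin 2) (Fin 2) K) 0 1; (ρ y : Matrix (Fin 2) (Fin 2) K) 1 0,
          (ρ y : Matrix (Fin 2) (Fin 2) K) 1 1] * !![1, -t; 0, 1] := fun y =>
    conj_glOf_apply (h := by simp) (by simp)
      (by ext i j; fin_cases i <;> fin_cases j <;> simp [Matrix.mul_apply, Fin.sum_univ_two]) _
  set σ := conjRep R ρ with hσ
  have hu' : (σ u : Matrix (Fin 2) (Fin 2) K) = !![1, 1; 0, 1] := by
    rw [hconj, hu]
    ext i j; fin_cases i <;> fin_cases j <;> simp [Matrix.mul_apply, Fin.sum_univ_two]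
  set c := (σ g : Matrix (Fin 2) (Fin 2) K) 1 0 with hc
  have hg00 : (σ g : Matrix (Fin 2) (Fin 2) K) 0 0 = 0 := by
    rw [hconj]; simp [Matrix.mul_apply, Fin.sum_univ_two, ht]; field_simp; ring
  have hc0 : c ≠ 0 := by
    rw [hc, hconj]; simpa [Matrix.mul_apply, Fin.sum_univ_two] using hg
  set δ := (σ g : Matrix (Fin 2) (Fin 2) K).det with hδ
  have hδ0 : δ ≠ 0 := ((Matrix.isUnit_iff_isUnit_det _).1 (σ g).isUnit).ne_zero
  set e := -(c ^ 2) / δ with he
  have he0 : e ≠ 0 := div_ne_zero (neg_ne_zero.2 (pow_ne_zero 2 hc0)) hδ0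
  set v := g * u * g⁻¹ with hv
  have hv' : (σ v : Matrix (Fin 2) (Fin 2) K) = !![1, 0; e, 1] := by
    have h1 : (σ v : Matrix (Fin 2) (Fin 2) K) * (σ g : Matrix (Fin 2) (Fin 2) K)
        = (σ g : Matrix (Fin 2) (Fin 2) K) * (σ u : Matrix (Fin 2) (Fin 2) K) := by
      rw [← coe_map_mul, ← coe_map_mul, hv, inv_mul_cancel_right]
    have h2 : (!![1, 0; e, 1] : Matrix (Fin 2) (Fin 2) K) * (σ g : Matrix (Fin 2) (Fin 2) K)
        = (σ g : Matrix (Fin 2) (Fin 2) K) * (σ u : Matrix (Fin 2) (Fin 2) K) := by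
      have hdet : δ = -((σ g : Matrix (Fin 2) (Fin 2) K) 0 1 * c) := by
        rw [hδ, Matrix.det_fin_two, hg00]; ring
      rw [hu']
      ext i j
      fin_cases i <;> fin_cases j <;>
        simp [Matrix.mul_apply, Fin.sum_univ_two, hg00, ← hc]
      have hb : (σ g : Matrix (Fin 2) (Fin 2) K) 0 1 ≠ 0 := fun hz => hδ0 (by rw [hdet, hz]; ring)
      rw [he, hdet]
      field_simp
    exact (σ g).isUnit.mul_right_cancel (h1.trans h2.symm)
  obtain ⟨k, hk⟩ := htr (u * v)
  rw [← trace_conjRep R, ← hσ, coe_map_mul, hu', hv'] at hk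
  simp [Matrix.trace_fin_two, Matrix.mul_apply, Fin.sum_univ_two] at hk
  set ι := ZMod.castHom (dvd_refl ℓ) K with hι
  set eb : ZMod ℓ := (k : ZMod ℓ) - 2 with heb
  have hek : ι eb = e := by rw [heb, map_sub, map_natCast, map_ofNat]; linear_combination -hk
  have heb0 : eb ≠ 0 := fun h => he0 (by rw [← hek, h, map_zero])
  have hval : ∀ z : ZMod ℓ, ((z.val : ℕ) : K) = ι z := fun z => by
    rw [← map_natCast ι, ZMod.natCast_val, ZMod.cast_id]
  -- the element `w x` of the group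
  set n : ZMod ℓ → G := fun z => u ^ z.val with hn
  set n' : ZMod ℓ → G := fun z => v ^ (z / eb).val with hn'
  have hnm : ∀ z, (σ (n z) : Matrix (Fin 2) (Fin 2) K) = !![1, ι z; 0, 1] := fun z => by
    rw [hn, coe_map_pow, hu', pow_upper, mul_one, hval]
  have hn'm : ∀ z, (σ (n' z) : Matrix (Fin 2) (Fin 2) K) = !![1, 0; ι z, 1] := fun z => by
    rw [hn', coe_map_pow, hv', pow_lower, hval, ← hek, ← map_mul, div_mul_cancel₀ _ heb0]
  set w : ZMod ℓ → G := fun z => n z * n' (-z⁻¹) * n z with hw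
  have hwm : ∀ z, z ≠ 0 →
      (σ (w z) : Matrix (Fin 2) (Fin 2) K) = !![0, ι z; -(ι z)⁻¹, 0] := fun z hz => by
    have hz' : ι z ≠ 0 := fun h => hz (ι.injective (by rw [h, map_zero]))
    rw [hw, coe_map_mul, coe_map_mul, hnm, hn'm, map_neg, map_inv₀, Matrix.mul_fin_two,
      Matrix.mul_fin_two]
    ext i j
    fin_cases i <;> fin_cases j <;> simp [hz']
  obtain ⟨x, hx⟩ := IsCyclic.exists_generator (α := (ZMod ℓ)ˣ)
  have hxo : orderOf x = ℓ - 1 := by
    rw [orderOf_eq_card_of_forall_mem_zpowers hx, Nat.card_eq_fintype_card, ZMod.card_units]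
  set h := w (x : ZMod ℓ) * w 1 with hh
  have hhm : (σ h : Matrix (Fin 2) (Fin 2) K)
      = Matrix.diagonal ![-(ι (x : ZMod ℓ)), -(ι (x : ZMod ℓ))⁻¹] := by
    rw [hh, coe_map_mul, hwm _ x.ne_zero, hwm _ one_ne_zero, map_one, inv_one, Matrix.mul_fin_two]
    generalize ι (x : ZMod ℓ) = X
    ext i j
    fin_cases i <;> fin_cases j <;> simp
  have hord : ℓ - 1 ≤ 2 * orderOf h := by
    have h1 : (σ (h ^ orderOf h) : Matrix (Fin 2) (Fin 2) K) = 1 := by
      rw [pow_orderOf_eq_one, map_one]; rfl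
    rw [coe_map_pow, hhm, Matrix.diagonal_pow] at h1
    have e0 := congrFun (congrFun h1 0) 0
    simp at e0
    have e2 : ι (((x : ZMod ℓ)) ^ (2 * orderOf h)) = ι 1 := by
      rw [map_one, map_pow, pow_mul, ← neg_sq, ← pow_mul, mul_comm, pow_mul, e0, one_pow]
    have e3 : x ^ (2 * orderOf h) = 1 := Units.ext (by
      rw [Units.val_pow_eq_pow_val]; exact ι.injective e2)
    have hpos : 0 < 2 * orderOf h := Nat.mul_pos two_pos (orderOf_pos h)
    exact hxo ▸ Nat.le_of_dvd hpos (orderOf_dvd_of_pow_eq_one e3)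
  have hd : IsDiagEl σ h := by simp [IsDiagEl, hhm]
  have hns : ¬ IsScalarEl σ h := by
    rintro ⟨-, h2⟩
    rw [hhm] at h2
    simp at h2
    have hx2 : x ^ 2 = 1 := Units.ext (by
      apply ι.injective
      rw [Units.val_pow_eq_pow_val, map_pow, sq, Units.val_one, map_one]
      nth_rewrite 2 [h2]
      exact mul_inv_cancel₀ (fun h0 => x.ne_zero (ι.injective (by rw [h0, map_zero]))))
    have := Nat.le_of_dvd two_pos (orderOf_dvd_of_pow_eq_one hx2)
    omega
  have := orderOf_le_of_isDiag (conjRep_injective hρ R) (hP.conjRep R) hd hns hd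
  omega

/-- Main bound: every element has order at most `16 #P`. -/
theorem orderOf_le_of_fewPairs [IsAlgClosed K] [Fintype G] [DecidableEq K] {ρ : G →* GL (Fin 2) K}
    (hρ : Function.Injective ρ) (hss : IsSplit ρ) {P : Finset (K × K)} (hP : FewPairs ρ P)
    (htr : ∀ g, ∃ n : ℕ, (ρ g : Matrix (Fin 2) (Fin 2) K).trace = n)
    (hℓ : 32 * P.card + 4 < ℓ) (g : G) : orderOf g ≤ 16 * P.card := by
  classical
  -- no element has a repeated eigenvalue without being scalar
  have key : ∀ (Q : GL (Fin 2) K) (y : G), (conjRep Q ρ y : Matrix (Fin 2) (Fin 2) K) 1 0 = 0 →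
      (conjRep Q ρ y : Matrix (Fin 2) (Fin 2) K) 0 0 = (conjRep Q ρ y : Matrix (Fin 2) (Fin 2) K) 1 1 →
      IsScalarEl (conjRep Q ρ) y := by
    intro Q y h10 hee
    refine ⟨⟨?_, h10⟩, hee⟩
    by_contra hb
    set a := (conjRep Q ρ y : Matrix (Fin 2) (Fin 2) K) 0 0
    set b := (conjRep Q ρ y : Matrix (Fin 2) (Fin 2) K) 0 1
    have hM : (conjRep Q ρ y : Matrix (Fin 2) (Fin 2) K) = !![a, b; 0, a] := by
      ext i j; fin_cases i <;> fin_cases j <;> simp [a, b, h10, hee]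
    obtain ⟨m₀, hm₀⟩ : ∃ m, orderOf y = m + 1 := ⟨orderOf y - 1, by have := orderOf_pos y; omega⟩
    have h1 : (!![a, b; 0, a] : Matrix (Fin 2) (Fin 2) K) ^ (m₀ + 1) = 1 := by
      rw [← hM, ← coe_map_pow, ← hm₀, pow_orderOf_eq_one, map_one]; rfl
    rw [pow_apply_triangular rfl] at h1
    have ha1 : a ^ (m₀ + 1) = 1 := by simpa using congrFun (congrFun h1 0) 0
    have hfo : IsOfFinOrder a := isOfFinOrder_iff_pow_eq_one.2 ⟨m₀ + 1, Nat.succ_pos _, ha1⟩
    obtain ⟨m, hm⟩ : ∃ m, orderOf a = m + 1 := ⟨orderOf a - 1, by have := hfo.orderOf_pos; omega⟩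
    have hmK : ((m + 1 : ℕ) : K) ≠ 0 := by
      intro h0
      rw [CharP.cast_eq_zero_iff K ℓ] at h0
      obtain ⟨r, hr⟩ := h0
      have hr0 : 0 < r := by rcases r with _ | r <;> omega
      have : a ^ r = 1 := frobenius_inj K ℓ (by
        rw [frobenius_def, frobenius_def, one_pow, ← pow_mul, mul_comm, ← hr, ← hm, pow_orderOf_eq_one])
      have hle := Nat.le_of_dvd hr0 (orderOf_dvd_of_pow_eq_one this)
      have := (Fact.out : ℓ.Prime).two_le
      nlinarith
    have ha0 : a ≠ 0 := fun h0 => by simp [h0] at ha1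
    set e := ((m + 1 : ℕ) : K) * a ^ m * b
    have he0 : e ≠ 0 := mul_ne_zero (mul_ne_zero hmK (pow_ne_zero _ ha0)) hb
    have hu : (conjRep Q ρ (y ^ (m + 1)) : Matrix (Fin 2) (Fin 2) K) = !![1, e; 0, 1] := by
      rw [coe_map_pow, hM, pow_apply_triangular rfl, ← hm, pow_orderOf_eq_one, hm]
    set S : GL (Fin 2) K := glOf 1 0 0 e (by simpa using he0)
    refine no_unipotent (ℓ := ℓ) (conjRep_injective (conjRep_injective hρ Q) S)
      ((hss.conjRep Q).conjRep S) ((hP.conjRep Q).conjRep S)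
      (fun z => by rw [trace_conjRep, trace_conjRep]; exact htr z) hℓ (y ^ (m + 1)) ?_
    show ((S * conjRep Q ρ (y ^ (m + 1)) * S⁻¹ : GL (Fin 2) K) : Matrix (Fin 2) (Fin 2) K) = _
    rw [conj_glOf_apply (a' := 1) (b' := 0) (c' := 0) (d' := e⁻¹) (by simpa using inv_ne_zero he0)
      (by ext i j; fin_cases i <;> fin_cases j <;> simp [Matrix.mul_apply, Fin.sum_univ_two, he0]),
      hu]
    ext i j
    fin_cases i <;> fin_cases j <;> simp [Matrix.mul_apply, Fin.sum_univ_two, he0]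
  by_cases hall : ∀ y : G, IsScalarEl ρ y
  · -- scalars are determined by their trace
    have hinj : Function.Injective (fun y : G => ((ρ y : Matrix (Fin 2) (Fin 2) K).trace,
        (ρ y : Matrix (Fin 2) (Fin 2) K).det)) := fun y z hyz => by
      have h2 : (2 : K) ≠ 0 := by
        intro h0
        have : ((2 : ℕ) : K) = 0 := by exact_mod_cast h0
        rw [CharP.cast_eq_zero_iff K ℓ] at this
        have := Nat.le_of_dvd two_pos this
        omega
      simp only [Prod.mk.injEq, Matrix.trace_fin_two, ← (hall y).2, ← (hall z).2, ← two_mul] at hyz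
      have h00 := mul_left_cancel₀ h2 hyz.1
      refine hρ (Units.ext ?_)
      ext i j
      fin_cases i <;> fin_cases j <;>
        simp [(hall y).1.1, (hall y).1.2, (hall z).1.1, (hall z).1.2, ← (hall y).2, ← (hall z).2, h00]
    have hgood : (univ.filter fun y : G => ((ρ y : Matrix (Fin 2) (Fin 2) K).trace,
        (ρ y : Matrix (Fin 2) (Fin 2) K).det) ∈ P).card ≤ P.card :=
      Finset.card_le_card_of_injOn _ (fun y hy => by simpa using hy) hinj.injOn
    have hsum := Finset.card_filter_add_card_filter_not (s := (univ : Finset G))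
      (fun y : G => ((ρ y : Matrix (Fin 2) (Fin 2) K).trace,
        (ρ y : Matrix (Fin 2) (Fin 2) K).det) ∈ P)
    have hP' : (univ.filter fun y : G => ((ρ y : Matrix (Fin 2) (Fin 2) K).trace,
        (ρ y : Matrix (Fin 2) (Fin 2) K).det) ∉ P).card * 8 ≤ Fintype.card G := hP
    rw [Finset.card_univ] at hsum
    exact orderOf_le_card_univ.trans (by omega)
  push Not at hall
  obtain ⟨y, hy⟩ := hall
  -- `g` scalar or regular
  obtain ⟨Q, hQ⟩ := exists_conj_triangular (ρ g)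
  by_cases hgs : (conjRep Q ρ g : Matrix (Fin 2) (Fin 2) K) 0 0
      = (conjRep Q ρ g : Matrix (Fin 2) (Fin 2) K) 1 1
  · have hs := key Q g hQ hgs
    -- a regular element exists
    obtain ⟨T, hT⟩ := exists_conj_triangular (ρ y)
    have hTr : (conjRep T ρ y : Matrix (Fin 2) (Fin 2) K) 0 0
        ≠ (conjRep T ρ y : Matrix (Fin 2) (Fin 2) K) 1 1 := fun hh => by
      have h1 := key T y hT hh
      apply hy
      have := h1.commute (conjRep_injective hρ T)
      set s := (conjRep T ρ y : Matrix (Fin 2) (Fin 2) K) 0 0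
      have hM : (conjRep T ρ y : Matrix (Fin 2) (Fin 2) K) = Matrix.scalar (Fin 2) s := by
        ext i j; fin_cases i <;> fin_cases j <;> simp [s, h1.1.1, h1.1.2, ← h1.2]
      have hback : (ρ y : Matrix (Fin 2) (Fin 2) K) = Matrix.scalar (Fin 2) s := by
        have e : ρ y = T⁻¹ * conjRep T ρ y * T := by
          show ρ y = T⁻¹ * (T * ρ y * T⁻¹) * T
          group
        rw [e, Units.val_mul, Units.val_mul, hM, ← Matrix.scalar_commute s (fun r => mul_comm _ _),
          mul_assoc, Units.inv_mul, mul_one]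
      simp [IsScalarEl, IsDiagEl, hback]
    obtain ⟨S, hS1, hS2, hS3⟩ := exists_conj_diag (conjRep T ρ y) hT hTr
    have hST : S * conjRep T ρ y * S⁻¹ = conjRep (S * T) ρ y := by
      show S * (T * ρ y * T⁻¹) * S⁻¹ = (S * T) * ρ y * (S * T)⁻¹
      group
    rw [hST] at hS1 hS2 hS3
    refine orderOf_le_of_isDiag (conjRep_injective hρ (S * T)) (hP.conjRep _) ⟨hS1, hS2⟩
      (fun h => hS3 h.2) ?_
    set s := (conjRep Q ρ g : Matrix (Fin 2) (Fin 2) K) 0 0
    have hM : (conjRep Q ρ g : Matrix (Fin 2) (Fin 2) K) = Matrix.scalar (Fin 2) s := by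
      ext i j; fin_cases i <;> fin_cases j <;> simp [s, hs.1.1, hs.1.2, ← hs.2]
    have hback : (conjRep (S * T) ρ g : Matrix (Fin 2) (Fin 2) K) = Matrix.scalar (Fin 2) s := by
      have e : conjRep (S * T) ρ g = (S * T * Q⁻¹) * conjRep Q ρ g * (S * T * Q⁻¹)⁻¹ := by
        show (S * T) * ρ g * (S * T)⁻¹ = (S * T * Q⁻¹) * (Q * ρ g * Q⁻¹) * (S * T * Q⁻¹)⁻¹
        group
      rw [e, Units.val_mul, Units.val_mul, hM, ← Matrix.scalar_commute s (fun r => mul_comm _ _),
        mul_assoc, Units.mul_inv, mul_one]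
    simp [IsDiagEl, hback]
  · obtain ⟨S, hS1, hS2, hS3⟩ := exists_conj_diag (conjRep Q ρ g) hQ hgs
    have hSQ : S * conjRep Q ρ g * S⁻¹ = conjRep (S * Q) ρ g := by
      show S * (Q * ρ g * Q⁻¹) * S⁻¹ = (S * Q) * ρ g * (S * Q)⁻¹
      group
    rw [hSQ] at hS1 hS2 hS3
    exact orderOf_le_of_isDiag (conjRep_injective hρ (S * Q)) (hP.conjRep _) ⟨hS1, hS2⟩
      (fun h => hS3 h.2) ⟨hS1, hS2⟩

end FLTAgent.DS
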