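import Mathlib.LinearAlgebra.Matrix.GeneralLinearGroup.Defs
import Mathlib.LinearAlgebra.Matrix.GeneralLinearGroup.FinTwo
import Mathlib.LinearAlgebra.Matrix.Charpoly.Coeff
import Mathlib.FieldTheory.IsAlgClosed.Basic
import Mathlib.GroupTheory.OrderOfElement
import Mathlib.Data.Fintype.BigOperators

/-!
# Centralisers of regular elements in finite subgroups of `GL₂` with few pairs (trace, det)
-/

set_option autoImplicit false

noncomputable section

namespace FLTAgent.DS

open Matrix Finset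

variable {G : Type*} [Group G] {K : Type*} [Field K]

/-- `g` acts diagonally. -/
def IsDiagEl (ρ : G →* GL (Fin 2) K) (g : G) : Prop :=
  (ρ g : Matrix (Fin 2) (Fin 2) K) 0 1 = 0 ∧ (ρ g : Matrix (Fin 2) (Fin 2) K) 1 0 = 0

/-- `g` acts as a scalar. -/
def IsScalarEl (ρ : G →* GL (Fin 2) K) (g : G) : Prop :=
  IsDiagEl ρ g ∧ (ρ g : Matrix (Fin 2) (Fin 2) K) 0 0 = (ρ g : Matrix (Fin 2) (Fin 2) K) 1 1

/-- Every stable line has a stable complement. -/
def IsSplit (ρ : G →* GL (Fin 2) K) : Prop :=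
  ∀ P : GL (Fin 2) K, (∀ g, ((P * ρ g * P⁻¹ : GL (Fin 2) K) : Matrix (Fin 2) (Fin 2) K) 1 0 = 0) →
    ∃ Q : GL (Fin 2) K, ∀ g, ((Q * ρ g * Q⁻¹ : GL (Fin 2) K) : Matrix (Fin 2) (Fin 2) K) 0 1 = 0 ∧
      ((Q * ρ g * Q⁻¹ : GL (Fin 2) K) : Matrix (Fin 2) (Fin 2) K) 1 0 = 0

/-- Conjugate representation. -/
def conjRep (P : GL (Fin 2) K) (ρ : G →* GL (Fin 2) K) : G →* GL (Fin 2) K where
  toFun g := P * ρ g * P⁻¹
  map_one' := by simp
  map_mul' g h := by rw [map_mul]; group

theorem trace_conjRep (P : GL (Fin 2) K) (ρ : G →* GL (Fin 2) K) (g : G) :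
    (conjRep P ρ g : Matrix (Fin 2) (Fin 2) K).trace = (ρ g : Matrix (Fin 2) (Fin 2) K).trace := by
  show ((P * ρ g * P⁻¹ : GL (Fin 2) K) : Matrix (Fin 2) (Fin 2) K).trace = _
  rw [Units.val_mul, Units.val_mul]
  exact Matrix.trace_units_conj P _

theorem det_conjRep (P : GL (Fin 2) K) (ρ : G →* GL (Fin 2) K) (g : G) :
    (conjRep P ρ g : Matrix (Fin 2) (Fin 2) K).det = (ρ g : Matrix (Fin 2) (Fin 2) K).det := by
  show ((P * ρ g * P⁻¹ : GL (Fin 2) K) : Matrix (Fin 2) (Fin 2) K).det = _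
  rw [Units.val_mul, Units.val_mul]
  exact Matrix.det_units_conj P _

theorem IsSplit.conjRep {ρ : G →* GL (Fin 2) K} (h : IsSplit ρ) (P : GL (Fin 2) K) :
    IsSplit (conjRep P ρ) := by
  intro R hR
  have e : ∀ g, R * (P * ρ g * P⁻¹) * R⁻¹ = (R * P) * ρ g * (R * P)⁻¹ := fun g => by group
  obtain ⟨Q, hQ⟩ := h (R * P) fun g => by rw [← e]; exact hR g
  refine ⟨Q * P⁻¹, fun g => ?_⟩
  have e2 : (Q * P⁻¹) * (P * ρ g * P⁻¹) * (Q * P⁻¹)⁻¹ = Q * ρ g * Q⁻¹ := by group
  show _ ∧ _
  simp only [DS.conjRep, MonoidHom.coe_mk, OneHom.coe_mk, e2]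
  exact hQ g

theorem conjRep_injective {ρ : G →* GL (Fin 2) K} (h : Function.Injective ρ) (P : GL (Fin 2) K) :
    Function.Injective (conjRep P ρ) := fun a b hab => h (by
  simpa [DS.conjRep] using hab)

/-- At most an eighth of the elements have (trace, det) outside `P`. -/
def FewPairs [Fintype G] [DecidableEq K] (ρ : G →* GL (Fin 2) K) (P : Finset (K × K)) : Prop :=
  (univ.filter fun g : G => ((ρ g : Matrix (Fin 2) (Fin 2) K).trace,
    (ρ g : Matrix (Fin 2) (Fin 2) K).det) ∉ P).card * 8 ≤ Fintype.card G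

theorem FewPairs.conjRep [Fintype G] [DecidableEq K] {ρ : G →* GL (Fin 2) K} {P : Finset (K × K)}
    (h : FewPairs ρ P) (Q : GL (Fin 2) K) : FewPairs (conjRep Q ρ) P := by
  simpa only [FewPairs, trace_conjRep, det_conjRep] using h

theorem coe_map_mul (ρ : G →* GL (Fin 2) K) (g h : G) :
    (ρ (g * h) : Matrix (Fin 2) (Fin 2) K)
      = (ρ g : Matrix (Fin 2) (Fin 2) K) * (ρ h : Matrix (Fin 2) (Fin 2) K) := by
  rw [map_mul]; rfl

theorem IsDiagEl.ne_zero {ρ : G →* GL (Fin 2) K} {g : G} (h : IsDiagEl ρ g) :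
    (ρ g : Matrix (Fin 2) (Fin 2) K) 0 0 ≠ 0 ∧ (ρ g : Matrix (Fin 2) (Fin 2) K) 1 1 ≠ 0 := by
  have hd := ((Matrix.isUnit_iff_isUnit_det _).1 (ρ g).isUnit).ne_zero
  rw [Matrix.det_fin_two, h.1, h.2, mul_zero, sub_zero] at hd
  exact ⟨left_ne_zero_of_mul hd, right_ne_zero_of_mul hd⟩

theorem IsDiagEl.mul {ρ : G →* GL (Fin 2) K} {g h : G} (hg : IsDiagEl ρ g) (hh : IsDiagEl ρ h) :
    IsDiagEl ρ (g * h) := by
  simp [IsDiagEl, coe_map_mul, Matrix.mul_apply, Fin.sum_univ_two, hg.1, hg.2, hh.1, hh.2]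

theorem IsScalarEl.mul {ρ : G →* GL (Fin 2) K} {g h : G} (hg : IsScalarEl ρ g)
    (hh : IsScalarEl ρ h) : IsScalarEl ρ (g * h) := by
  refine ⟨hg.1.mul hh.1, ?_⟩
  simp [coe_map_mul, Matrix.mul_apply, Fin.sum_univ_two, hg.1.1, hg.1.2, hh.1.1, hh.1.2, hg.2, hh.2]

theorem IsScalarEl.commute {ρ : G →* GL (Fin 2) K} (hρ : Function.Injective ρ) {g : G}
    (hg : IsScalarEl ρ g) (h : G) : g * h = h * g := by
  refine hρ (Units.ext ?_)
  ext i j
  fin_cases i <;> fin_cases j <;>
    simp [coe_map_mul, Matrix.mul_apply, Fin.sum_univ_two, hg.1.1, hg.1.2, hg.2, mul_comm]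

theorem antidiag_of_conj {A a b : Matrix (Fin 2) (Fin 2) K}
    (ha : a 0 1 = 0 ∧ a 1 0 = 0) (hb : b 0 1 = 0 ∧ b 1 0 = 0) (hne : a 0 0 ≠ a 1 1)
    (h : A * a = b * A) (hdet : A.det ≠ 0) :
    (A 0 1 = 0 ∧ A 1 0 = 0) ∨ (A 0 0 = 0 ∧ A 1 1 = 0) := by
  have e00 := congrFun (congrFun h 0) 0
  have e01 := congrFun (congrFun h 0) 1
  have e10 := congrFun (congrFun h 1) 0
  have e11 := congrFun (congrFun h 1) 1
  simp [Matrix.mul_apply, Fin.sum_univ_two, ha.1, ha.2, hb.1, hb.2] at e00 e01 e10 e11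
  rw [Matrix.det_fin_two] at hdet
  by_cases h0 : A 0 0 = 0
  · right
    refine ⟨h0, ?_⟩
    by_contra h1
    have h01 : A 0 1 ≠ 0 := fun hc => hdet (by rw [h0, hc]; ring)
    have h10 : A 1 0 ≠ 0 := fun hc => hdet (by rw [h0, hc]; ring)
    have hb1 : b 1 1 = a 0 0 := mul_left_cancel₀ h10 (by linear_combination -e10)
    exact hne (mul_left_cancel₀ h1 (by rw [← hb1]; linear_combination -e11))
  · left
    have hb0 : b 0 0 = a 0 0 := mul_left_cancel₀ h0 (by linear_combination -e00)
    have h01 : A 0 1 = 0 := by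
      by_contra hc
      exact hne (mul_left_cancel₀ hc (by rw [← hb0]; linear_combination -e01))
    refine ⟨h01, ?_⟩
    have h11 : A 1 1 ≠ 0 := fun hc => hdet (by rw [hc, h01]; ring)
    have hb1 : b 1 1 = a 1 1 := mul_left_cancel₀ h11 (by linear_combination -e11)
    by_contra hc
    exact hne (mul_left_cancel₀ hc (by rw [← hb1]; linear_combination e10))

/-- The centraliser bound in diagonal coordinates. -/
theorem card_diag_le [Fintype G] [DecidableEq G] [DecidableEq K] {ρ : G →* GL (Fin 2) K}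
    (hρ : Function.Injective ρ) {P : Finset (K × K)} (hP : FewPairs ρ P) {x : G}
    (hx : IsDiagEl ρ x) (hxs : ¬ IsScalarEl ρ x) [DecidablePred (IsDiagEl ρ)] :
    (univ.filter (IsDiagEl ρ)).card ≤ 16 * P.card := by
  classical
  set A := univ.filter (IsDiagEl ρ) with hA
  set Z := univ.filter (IsScalarEl ρ) with hZ
  set R := A \ Z with hR
  set key : G → K × K := fun g => ((ρ g : Matrix (Fin 2) (Fin 2) K).trace,
    (ρ g : Matrix (Fin 2) (Fin 2) K).det) with hkey
  set Rg := R.filter (fun a => key a ∈ P) with hRg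
  set c : G × G → G := fun p => p.1 * p.2 * p.1⁻¹ with hc
  set U := (univ ×ˢ R).image c with hU
  set Ug := U.filter (fun b => key b ∈ P) with hUg
  have memR : ∀ {a}, a ∈ R ↔ IsDiagEl ρ a ∧ ¬ IsScalarEl ρ a := by
    intro a; simp [hR, hA, hZ]
  have keyc : ∀ p, key (c p) = key p.2 := fun p => by
    have hm : (ρ (c p) : Matrix (Fin 2) (Fin 2) K)
        = ((ρ p.1 * ρ p.2 * (ρ p.1)⁻¹ : GL (Fin 2) K) : Matrix (Fin 2) (Fin 2) K) := by
      simp [hc]
    simp only [hkey, hm]
    rw [Units.val_mul, Units.val_mul]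
    exact Prod.ext (Matrix.trace_units_conj (ρ p.1) _) (Matrix.det_units_conj (ρ p.1) _)
  -- scalars are at most half
  have hZA : 2 * Z.card ≤ A.card := by
    have hsub : Z ∪ Z.image (fun z => x * z) ⊆ A := by
      intro g hg
      simp only [hZ, Finset.mem_union, Finset.mem_image, Finset.mem_filter, Finset.mem_univ,
        true_and] at hg
      rcases hg with hg | ⟨z, hz, rfl⟩
      · simp [hA, hg.1]
      · simp [hA, hx.mul hz.1]
    have hdis : Disjoint Z (Z.image fun z => x * z) := by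
      rw [Finset.disjoint_left]
      intro g hg hg'
      simp only [hZ, Finset.mem_image, Finset.mem_filter, Finset.mem_univ, true_and] at hg hg'
      obtain ⟨z, hz, rfl⟩ := hg'
      apply hxs
      refine ⟨hx, ?_⟩
      have h2 := hg.2
      simp [coe_map_mul, Matrix.mul_apply, Fin.sum_univ_two, hz.1.1, hz.1.2, hz.2] at h2
      exact h2.resolve_right hz.1.ne_zero.2
    have := Finset.card_le_card hsub
    rw [Finset.card_union_of_disjoint hdis,
      Finset.card_image_of_injective _ (mul_right_injective x)] at this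
    omega
  have hRcard : A.card = R.card + Z.card := by
    rw [hR, Finset.card_sdiff_add_card_eq_card]
    intro g hg
    simp only [hZ, Finset.mem_filter, Finset.mem_univ, true_and] at hg
    simp [hA, hg.1]
  -- at most two elements per pair
  have hRg_le : Rg.card ≤ 2 * P.card := by
    refine Finset.card_le_mul_card_image_of_maps_to (f := key)
      (fun a ha => (Finset.mem_filter.1 ha).2) 2 fun q _ => ?_
    by_contra hcon
    obtain ⟨a, b, e, ha, hb, he, hab, hae, hbe⟩ := Finset.two_lt_card_iff.1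
      (Nat.lt_of_not_le hcon)
    simp only [Finset.mem_filter, hRg, memR] at ha hb he
    have inj : ∀ u v : G, IsDiagEl ρ u → IsDiagEl ρ v →
        (ρ u : Matrix (Fin 2) (Fin 2) K) 0 0 = (ρ v : Matrix (Fin 2) (Fin 2) K) 0 0 →
        key u = key v → u = v := by
      intro u v hu hv h00 hk
      simp only [hkey, Prod.mk.injEq, Matrix.trace_fin_two] at hk
      refine hρ (Units.ext ?_)
      ext i j
      fin_cases i <;> fin_cases j <;> simp [hu.1, hu.2, hv.1, hv.2, h00]
      linear_combination hk.1 - h00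
    have root : ∀ u v : G, IsDiagEl ρ u → IsDiagEl ρ v → key u = key v →
        (ρ u : Matrix (Fin 2) (Fin 2) K) 0 0 = (ρ v : Matrix (Fin 2) (Fin 2) K) 0 0 ∨
        (ρ u : Matrix (Fin 2) (Fin 2) K) 0 0 = (ρ v : Matrix (Fin 2) (Fin 2) K) 1 1 := by
      intro u v hu hv hk
      simp only [hkey, Prod.mk.injEq, Matrix.trace_fin_two, Matrix.det_fin_two, hu.1, hu.2, hv.1,
        hv.2, mul_zero, sub_zero] at hk
      have h0 : ((ρ u : Matrix (Fin 2) (Fin 2) K) 0 0 - (ρ v : Matrix (Fin 2) (Fin 2) K) 0 0) *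
          ((ρ u : Matrix (Fin 2) (Fin 2) K) 0 0 - (ρ v : Matrix (Fin 2) (Fin 2) K) 1 1) = 0 := by
        linear_combination (ρ u : Matrix (Fin 2) (Fin 2) K) 0 0 * hk.1 - hk.2
      exact (mul_eq_zero.1 h0).imp sub_eq_zero.1 sub_eq_zero.1
    have hka := ha.2
    rcases root b a hb.1.1.1 ha.1.1.1 (hb.2.trans hka.symm) with h1 | h1
    · exact hab (inj b a hb.1.1.1 ha.1.1.1 h1 (hb.2.trans hka.symm)).symm
    rcases root e a he.1.1.1 ha.1.1.1 (he.2.trans hka.symm) with h2 | h2
    · exact hae (inj e a he.1.1.1 ha.1.1.1 h2 (he.2.trans hka.symm)).symm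
    exact hbe (inj b e hb.1.1.1 he.1.1.1 (h1.trans h2.symm) (hb.2.trans he.2.symm))
  -- fibres of the conjugation map
  have hbig : Fintype.card G * R.card ≤ 2 * A.card * U.card := by
    have := Finset.card_le_mul_card_image_of_maps_to (f := c) (s := univ ×ˢ R) (t := U)
      (fun p hp => Finset.mem_image_of_mem c hp) (2 * A.card) fun b hb => ?_
    · rwa [Finset.card_product, Finset.card_univ] at this
    obtain ⟨⟨g, a⟩, hga, rfl⟩ := Finset.mem_image.1 hb
    simp only [Finset.mem_product, Finset.mem_univ, true_and, memR] at hga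
    set N := univ.filter (fun n : G => IsDiagEl ρ n ∨
      ((ρ n : Matrix (Fin 2) (Fin 2) K) 0 0 = 0 ∧ (ρ n : Matrix (Fin 2) (Fin 2) K) 1 1 = 0))
      with hN
    have hNcard : N.card ≤ 2 * A.card := by
      by_cases hex : ∃ n0 : G, (ρ n0 : Matrix (Fin 2) (Fin 2) K) 0 0 = 0 ∧
          (ρ n0 : Matrix (Fin 2) (Fin 2) K) 1 1 = 0
      · obtain ⟨n0, h00, h11⟩ := hex
        have hsub : N ⊆ A ∪ A.image (fun d => n0 * d) := by
          intro n hn
          simp only [hN, Finset.mem_filter, Finset.mem_univ, true_and] at hn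
          rcases hn with hn | ⟨hn0, hn1⟩
          · exact Finset.mem_union_left _ (by simp [hA, hn])
          refine Finset.mem_union_right _ (Finset.mem_image.2 ⟨n0⁻¹ * n, ?_, by group⟩)
          simp only [hA, Finset.mem_filter, Finset.mem_univ, true_and]
          have hh : (ρ n0 : Matrix (Fin 2) (Fin 2) K) * (ρ (n0⁻¹ * n) : Matrix (Fin 2) (Fin 2) K)
              = (ρ n : Matrix (Fin 2) (Fin 2) K) := by
            rw [← coe_map_mul, mul_inv_cancel_left]
          have hd := ((Matrix.isUnit_iff_isUnit_det _).1 (ρ n0).isUnit).ne_zero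
          rw [Matrix.det_fin_two, h00, zero_mul, zero_sub, neg_ne_zero] at hd
          have e00 := congrFun (congrFun hh 0) 0
          have e11 := congrFun (congrFun hh 1) 1
          show (ρ (n0⁻¹ * n) : Matrix (Fin 2) (Fin 2) K) 0 1 = 0 ∧ _
          generalize (ρ (n0⁻¹ * n) : Matrix (Fin 2) (Fin 2) K) = D at e00 e11 ⊢
          simp [Matrix.mul_apply, Fin.sum_univ_two, h00, h11, hn0, hn1] at e00 e11
          exact ⟨e11.resolve_left (right_ne_zero_of_mul hd),
            e00.resolve_left (left_ne_zero_of_mul hd)⟩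
        exact (Finset.card_le_card hsub).trans ((Finset.card_union_le _ _).trans
          (by have := Finset.card_image_le (s := A) (f := fun d => n0 * d); omega))
      · refine (Finset.card_le_card (t := A) fun n hn => ?_).trans (by omega)
        simp only [hN, Finset.mem_filter, Finset.mem_univ, true_and] at hn
        simp only [hA, Finset.mem_filter, Finset.mem_univ, true_and]
        exact hn.resolve_right fun h => hex ⟨n, h⟩
    refine le_trans ?_ hNcard
    refine Finset.card_le_card_of_injOn (fun p => g⁻¹ * p.1) ?_ ?_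
    · rintro ⟨g', a'⟩ hp
      simp only [Finset.coe_filter, Finset.mem_product, Finset.mem_univ, true_and, memR,
        Set.mem_ofPred_eq] at hp
      obtain ⟨ha', heq⟩ := hp
      simp only [hc] at heq
      have heq' : g⁻¹ * g' * a' = a * (g⁻¹ * g') := by
        calc g⁻¹ * g' * a' = g⁻¹ * (g' * a' * g'⁻¹) * g' := by group
          _ = g⁻¹ * (g * a * g⁻¹) * g' := by rw [heq]
          _ = _ := by group
      simp only [hN, Finset.coe_filter, Finset.mem_univ, true_and, Set.mem_ofPred_eq]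
      refine antidiag_of_conj ha'.1 hga.1 (fun h => ha'.2 ⟨ha'.1, h⟩) ?_
        ((Matrix.isUnit_iff_isUnit_det _).1 (ρ (g⁻¹ * g')).isUnit).ne_zero
      rw [← coe_map_mul, ← coe_map_mul, heq']
    · rintro ⟨g', a'⟩ hp ⟨g'', a''⟩ hq h
      simp only [Finset.coe_filter, Set.mem_ofPred_eq, hc] at hp hq
      have hg : g' = g'' := mul_left_cancel h
      subst hg
      have := hp.2.trans hq.2.symm
      simp only [mul_left_inj, mul_right_inj] at this
      rw [this]
  have hsmall : Ug.card * A.card ≤ Fintype.card G * Rg.card := by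
    have h1 : ∀ b ∈ Ug, A.card ≤ ((univ ×ˢ Rg).filter fun p => c p = b).card := by
      intro b hb
      simp only [hUg, hU, Finset.mem_filter, Finset.mem_image, Finset.mem_product, Finset.mem_univ,
        true_and] at hb
      obtain ⟨⟨⟨g, a⟩, ha, rfl⟩, hbP⟩ := hb
      refine Finset.card_le_card_of_injOn (fun d => (g * d, a)) ?_ ?_
      · intro d hd
        simp only [hA, Finset.coe_filter, Finset.mem_univ, true_and, Set.mem_ofPred_eq] at hd
        simp only [Finset.coe_filter, Finset.mem_product, Finset.mem_univ, true_and,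
          Set.mem_ofPred_eq, hRg, Finset.mem_filter]
        refine ⟨⟨ha, by rwa [keyc] at hbP⟩, ?_⟩
        have hcomm : d * a = a * d := hρ (Units.ext (by
          ext i j
          have hda := (memR.1 ha).1
          fin_cases i <;> fin_cases j <;>
            simp [coe_map_mul, Matrix.mul_apply, Fin.sum_univ_two, hd.1, hd.2, hda.1, hda.2,
              mul_comm]))
        simp only [hc]
        rw [mul_assoc g d a, hcomm]; group
      · intro d _ d' _ h
        exact mul_left_cancel (Prod.ext_iff.1 h).1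
    calc Ug.card * A.card = ∑ b ∈ Ug, A.card := by rw [Finset.sum_const, smul_eq_mul]
      _ ≤ ∑ b ∈ Ug, ((univ ×ˢ Rg).filter fun p => c p = b).card := Finset.sum_le_sum h1
      _ = ((univ ×ˢ Rg).filter fun p => c p ∈ Ug).card := by
          rw [Finset.card_eq_sum_card_fiberwise (f := c) (t := Ug) fun p hp => by
            simp only [Finset.coe_filter, Set.mem_ofPred_eq] at hp; exact hp.2]
          refine Finset.sum_congr rfl fun b hb => ?_
          rw [Finset.filter_filter]
          refine congrArg _ (Finset.filter_congr fun p _ => ⟨fun h => ⟨h ▸ hb, h⟩, fun h => h.2⟩)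
      _ ≤ _ := by
          refine (Finset.card_filter_le _ _).trans ?_
          rw [Finset.card_product, Finset.card_univ]
  have hbad : U.card * 8 ≤ Fintype.card G + Ug.card * 8 := by
    have hsub : U ⊆ (univ.filter fun g => key g ∉ P) ∪ Ug := by
      intro b hb
      by_cases hbP : key b ∈ P
      · exact Finset.mem_union_right _ (Finset.mem_filter.2 ⟨hb, hbP⟩)
      · exact Finset.mem_union_left _ (Finset.mem_filter.2 ⟨Finset.mem_univ _, hbP⟩)
    have := (Finset.card_le_card hsub).trans (Finset.card_union_le _ _)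
    have hP' : (univ.filter fun g => key g ∉ P).card * 8 ≤ Fintype.card G := hP
    omega
  have hG : 0 < Fintype.card G := Fintype.card_pos
  have h1 : Fintype.card G * R.card * 8 ≤ 2 * A.card * (Fintype.card G + Ug.card * 8) := by
    calc Fintype.card G * R.card * 8 ≤ 2 * A.card * U.card * 8 := Nat.mul_le_mul_right 8 hbig
      _ = 2 * A.card * (U.card * 8) := by ring
      _ ≤ _ := Nat.mul_le_mul_left _ hbad
  have h2 : Fintype.card G * (R.card * 8) ≤
      Fintype.card G * (2 * A.card + 16 * Rg.card) := by nlinarith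
  have h3 := Nat.le_of_mul_le_mul_left h2 hG
  omega

end FLTAgent.DS
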